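import Mathlib
import Fermat.Agent.CFT.InfRes2

/-!
# PROJECT C, slice C6e (abstract part): Tate's argument

The group-theoretic core of "every class of `H²(L/K, C_L)` is split by a cyclic (cyclotomic)
layer".  `Γ` is a group (think `Gal(M/K)`, `M = L · K_m`), `A : Rep k Γ` (think `C_M`), and
`N H : Subgroup Γ` are normal subgroups with `H¹(N, A) = H¹(H, A) = 0` (think `N = Gal(M/K_m)`,
`H = Gal(M/L)`).

## Part A: comparison of two layers

* `splitKer A N H` : the classes of `H²(Γ ⧸ N, A^N)` whose inflation to `Γ` dies on `H`;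
* `compare A N H hH : splitKer A N H →ₗ[k] H²(Γ ⧸ H, A^H)`, characterised by
  `inf₂ A H (compare x) = inf₂ A N x` (`inf₂_compare`, `compare_eq_iff`); it is injective
  (`compare_injective`) with image `splitKer A H N` (`compareEquiv`);
* counting: `card_dvd_card_H2`, and `compareEquivOfCard` / `bijOn_compare_of_card_le`
  (Tate's counting argument: if `X ≤ splitKer A N H` is mapped into `Y` and `|Y| ≤ |X|` then
  `compare : X ≃ Y`; hence every class in `Y` is split by the layer `N`:
  `exists_inf₂_eq_of_card_le`, `le_splitKer_of_card_le`).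

## Part B: subgroups of the quotient and the class-module conclusion

* `comapSub H S̄`, `infSub A H S̄`, `res₂_infSub` : the square
  `H²(Γ ⧸ H, A^H) → H²(S̄, A^H) → H²(S, A)` = `H²(Γ ⧸ H, A^H) → H²(Γ, A) → H²(S, A)`;
* `dvd_of_smul_res₂_eq_zero` : lower bounds for the orders of the restrictions of a class
  `u` of `Γ ⧸ H` from lower bounds for the restrictions of `inf u`;
* `exists_fundamental` : from a class `η ∈ H²(Γ, A)` with `res_H η = 0` whose restrictions to all
  `S ≥ H` have order (at least) `[S : H]`, a class `u ∈ H²(Γ ⧸ H, A^H)` with `inf u = η` all of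
  whose restrictions to subgroups `S̄` have order (at least) `|S̄|`;
* `exists_fundamental_of_degree` : the same for `η = (d / [Γ : H]) • ξ`.

## Part C: inflation between two quotients

* `infQuot A H H' h : H²(Γ ⧸ H, A^H) ⟶ H²(Γ ⧸ H', A^H')` for `H' ≤ H`, `inf₂_infQuot`,
  `infQuot_eq_smul`, `infQuot_eq_relIndex_smul` (the inflation rule `inf u_H = [H : H'] • u_H'`).

## Part D: base change of a layer to a subgroup

* `baseChange A N S : H²(Γ ⧸ N, A^N) ⟶ H²(S ⧸ S ∩ N, A^(S ∩ N))`, `inf₂_baseChange`,
  `smul_res₂_inf₂_eq_zero_iff`, `exists_fundamental_of_layer`.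

## Generators

* `exists_smul_eq_of_card_le`, `exists_smul_eq_of_card_dvd`, `card_int_quotient_span_natCast`.

## Part E: coefficient rings like `ℤ_(p)`

* `exists_fundamental_of_dvd`, `exists_fundamental_of_layer_dvd`, `infQuot_eq_relIndex_smul_of_dvd`:
  versions with the degree `D` and the cofactor `c` (`c * [Γ : H] = D`) in the ring `k`;
* `CyclicCriterion k`, `cyclicCriterion_int`, `cyclicCriterion_of_local` (any domain in which
  all primes `l ≠ p` are units and `p` is a non-zero non-unit, e.g. `ℤ_(p)`).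
-/

set_option autoImplicit false

universe u

noncomputable section

open groupCohomology CategoryTheory Rep

namespace Fermat.Agent.CFT.C6.TateArgument

open Fermat.Agent.CFT.InfRes2

section PartA

variable {k Γ : Type u} [CommRing k] [Group Γ] (A : Rep.{u} k Γ)
variable (N H : Subgroup Γ) [N.Normal] [H.Normal]

/-! ## Part A: comparison of two layers -/

/-- The classes of `H²(Γ ⧸ N, A^N)` whose inflation to `Γ` restricts to zero on `H`
("classes of the layer `N` which are split by `H`"). -/
def splitKer : Submodule k (groupCohomology (A.quotientToInvariants N) 2) :=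
  LinearMap.ker (inf₂ A N ≫ res₂ A H).hom

omit [H.Normal] in
theorem mem_splitKer {x : groupCohomology (A.quotientToInvariants N) 2} :
    x ∈ splitKer A N H ↔ res₂ A H (inf₂ A N x) = 0 := Iff.rfl

variable {A N H}

/-- For a class `x` of the layer `N` split by `H` the inflation to `Γ` comes from `Γ ⧸ H`. -/
theorem exists_inf₂_eq (hH : H1Vanishes A H) (x : splitKer A N H) :
    ∃ y, inf₂ A H y = inf₂ A N x.1 :=
  exists_inf₂_eq_of_res₂_eq_zero hH _ x.2

variable (A N H) in
/-- **The comparison map** `splitKer A N H →ₗ[k] H²(Γ ⧸ H, A^H)`: the unique class of `Γ ⧸ H`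
with the same inflation to `Γ`. -/
def compare (hH : H1Vanishes A H) :
    splitKer A N H →ₗ[k] groupCohomology (A.quotientToInvariants H) 2 :=
  (LinearEquiv.ofInjective (inf₂ A H).hom (inf₂_injective hH)).symm.toLinearMap ∘ₗ
    LinearMap.codRestrict (LinearMap.range (inf₂ A H).hom)
      ((inf₂ A N).hom ∘ₗ (splitKer A N H).subtype)
      (fun x => exists_inf₂_eq hH x)

@[simp]
theorem inf₂_compare (hH : H1Vanishes A H) (x : splitKer A N H) :
    inf₂ A H (compare A N H hH x) = inf₂ A N x.1 :=
  LinearEquiv.ofInjective_symm_apply (h := inf₂_injective hH) (inf₂ A H).hom _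

theorem compare_eq_iff (hH : H1Vanishes A H) (x : splitKer A N H)
    (y : groupCohomology (A.quotientToInvariants H) 2) :
    compare A N H hH x = y ↔ inf₂ A H y = inf₂ A N x.1 := by
  constructor
  · rintro rfl; exact inf₂_compare hH x
  · intro h; exact inf₂_injective hH (by rw [inf₂_compare, h])

theorem compare_injective (hH : H1Vanishes A H) (hN : H1Vanishes A N) :
    Function.Injective (compare A N H hH) := by
  intro x y hxy
  apply Subtype.ext
  apply inf₂_injective hN
  rw [← inf₂_compare hH x, ← inf₂_compare hH y, hxy]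

theorem compare_mem_splitKer (hH : H1Vanishes A H) (x : splitKer A N H) :
    compare A N H hH x ∈ splitKer A H N := by
  rw [mem_splitKer, inf₂_compare]; exact res₂_inf₂ _

theorem compare_compare (hH : H1Vanishes A H) (hN : H1Vanishes A N) (x : splitKer A N H) :
    compare A H N hN ⟨compare A N H hH x, compare_mem_splitKer hH x⟩ = x.1 := by
  rw [compare_eq_iff]; exact (inf₂_compare hH x).symm

variable (A N H) in
/-- Symmetric form of the comparison: the classes of the layer `N` split by `H` are the classes of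
the layer `H` split by `N` (both are `inf H²(Γ ⧸ N) ∩ inf H²(Γ ⧸ H)` inside `H²(Γ, A)`). -/
def compareEquiv (hH : H1Vanishes A H) (hN : H1Vanishes A N) :
    splitKer A N H ≃ₗ[k] splitKer A H N where
  toFun x := ⟨compare A N H hH x, compare_mem_splitKer hH x⟩
  invFun y := ⟨compare A H N hN y, compare_mem_splitKer hN y⟩
  map_add' x y := Subtype.ext (map_add _ x y)
  map_smul' r x := Subtype.ext (map_smul _ r x)
  left_inv x := Subtype.ext (compare_compare hH hN x)
  right_inv y := Subtype.ext (compare_compare hN hH y)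

@[simp]
theorem compareEquiv_apply_coe (hH : H1Vanishes A H) (hN : H1Vanishes A N) (x : splitKer A N H) :
    (compareEquiv A N H hH hN x : groupCohomology (A.quotientToInvariants H) 2) =
      compare A N H hH x := rfl

theorem inf₂_compareEquiv (hH : H1Vanishes A H) (hN : H1Vanishes A N) (x : splitKer A N H) :
    inf₂ A H (compareEquiv A N H hH hN x).1 = inf₂ A N x.1 := inf₂_compare hH x

/-- The image of `compare` is exactly `splitKer A H N`. -/
theorem range_compare (hH : H1Vanishes A H) (hN : H1Vanishes A N) :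
    LinearMap.range (compare A N H hH) = splitKer A H N := by
  ext y
  constructor
  · rintro ⟨x, rfl⟩; exact compare_mem_splitKer hH x
  · intro hy
    exact ⟨(compareEquiv A N H hH hN).symm ⟨y, hy⟩,
      congrArg Subtype.val ((compareEquiv A N H hH hN).apply_symm_apply ⟨y, hy⟩)⟩

/-! ### Counting -/

/-- The restriction of `compare` to a submodule `X ≤ splitKer A N H`. -/
def compareOn (hH : H1Vanishes A H) (X : Submodule k (groupCohomology (A.quotientToInvariants N) 2))
    (hX : X ≤ splitKer A N H) : X →ₗ[k] groupCohomology (A.quotientToInvariants H) 2 :=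
  compare A N H hH ∘ₗ Submodule.inclusion hX

@[simp]
theorem inf₂_compareOn (hH : H1Vanishes A H)
    (X : Submodule k (groupCohomology (A.quotientToInvariants N) 2)) (hX : X ≤ splitKer A N H)
    (x : X) : inf₂ A H (compareOn hH X hX x) = inf₂ A N x.1 :=
  inf₂_compare hH _

theorem compareOn_injective (hH : H1Vanishes A H) (hN : H1Vanishes A N)
    (X : Submodule k (groupCohomology (A.quotientToInvariants N) 2)) (hX : X ≤ splitKer A N H) :
    Function.Injective (compareOn hH X hX) :=
  (compare_injective hH hN).comp (Submodule.inclusion_injective hX)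

/-- Lower bound: the order of any group of classes of the layer `N` split by `H` divides the
order of `H²(Γ ⧸ H, A^H)`. -/
theorem card_dvd_card_H2 (hH : H1Vanishes A H) (hN : H1Vanishes A N)
    (X : Submodule k (groupCohomology (A.quotientToInvariants N) 2)) (hX : X ≤ splitKer A N H) :
    Nat.card X ∣ Nat.card (groupCohomology (A.quotientToInvariants H) 2) :=
  AddSubgroup.card_dvd_of_injective (compareOn hH X hX).toAddMonoidHom
    (compareOn_injective hH hN X hX)

/-- Lower bound relative to a submodule `Y` of the target containing the image. -/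
theorem card_dvd_card_of_mapsTo (hH : H1Vanishes A H) (hN : H1Vanishes A N)
    (X : Submodule k (groupCohomology (A.quotientToInvariants N) 2)) (hX : X ≤ splitKer A N H)
    (Y : Submodule k (groupCohomology (A.quotientToInvariants H) 2))
    (hXY : ∀ x : X, compareOn hH X hX x ∈ Y) : Nat.card X ∣ Nat.card Y :=
  AddSubgroup.card_dvd_of_injective
    (LinearMap.codRestrict Y (compareOn hH X hX) hXY).toAddMonoidHom
    (fun _ _ hab => compareOn_injective hH hN X hX (congrArg Subtype.val hab))

/-- **Tate's counting argument.**  If a group `X` of classes of the layer `N`, split by `H`, is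
mapped by `compare` into a submodule `Y` of `H²(Γ ⧸ H, A^H)` with `|Y| ≤ |X|` (the upper bound
coming from the second inequality), then `compare : X ≃ Y`. -/
def compareEquivOfCard (hH : H1Vanishes A H) (hN : H1Vanishes A N)
    (X : Submodule k (groupCohomology (A.quotientToInvariants N) 2)) (hX : X ≤ splitKer A N H)
    (Y : Submodule k (groupCohomology (A.quotientToInvariants H) 2))
    (hXY : ∀ x : X, compareOn hH X hX x ∈ Y) [Finite Y] (hcard : Nat.card Y ≤ Nat.card X) :
    X ≃ₗ[k] Y :=
  LinearEquiv.ofBijective (LinearMap.codRestrict Y (compareOn hH X hX) hXY)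
    (Function.Injective.bijective_of_nat_card_le
      (fun _ _ hab => compareOn_injective hH hN X hX (congrArg Subtype.val hab)) hcard)

@[simp]
theorem compareEquivOfCard_apply_coe (hH : H1Vanishes A H) (hN : H1Vanishes A N)
    (X : Submodule k (groupCohomology (A.quotientToInvariants N) 2)) (hX : X ≤ splitKer A N H)
    (Y : Submodule k (groupCohomology (A.quotientToInvariants H) 2))
    (hXY : ∀ x : X, compareOn hH X hX x ∈ Y) [Finite Y] (hcard : Nat.card Y ≤ Nat.card X)
    (x : X) :
    (compareEquivOfCard hH hN X hX Y hXY hcard x : groupCohomology (A.quotientToInvariants H) 2) =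
      compareOn hH X hX x := rfl

theorem inf₂_compareEquivOfCard (hH : H1Vanishes A H) (hN : H1Vanishes A N)
    (X : Submodule k (groupCohomology (A.quotientToInvariants N) 2)) (hX : X ≤ splitKer A N H)
    (Y : Submodule k (groupCohomology (A.quotientToInvariants H) 2))
    (hXY : ∀ x : X, compareOn hH X hX x ∈ Y) [Finite Y] (hcard : Nat.card Y ≤ Nat.card X)
    (x : X) : inf₂ A H (compareEquivOfCard hH hN X hX Y hXY hcard x).1 = inf₂ A N x.1 :=
  inf₂_compareOn hH X hX x

theorem inf₂_compareEquivOfCard_symm (hH : H1Vanishes A H) (hN : H1Vanishes A N)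
    (X : Submodule k (groupCohomology (A.quotientToInvariants N) 2)) (hX : X ≤ splitKer A N H)
    (Y : Submodule k (groupCohomology (A.quotientToInvariants H) 2))
    (hXY : ∀ x : X, compareOn hH X hX x ∈ Y) [Finite Y] (hcard : Nat.card Y ≤ Nat.card X)
    (y : Y) : inf₂ A N ((compareEquivOfCard hH hN X hX Y hXY hcard).symm y).1 = inf₂ A H y.1 := by
  rw [← inf₂_compareEquivOfCard hH hN X hX Y hXY hcard, LinearEquiv.apply_symm_apply]

/-- Under the hypotheses of Tate's counting argument **every class in `Y` is split by the layer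
`N`**: its inflation to `Γ` is the inflation of a class in `X`. -/
theorem exists_inf₂_eq_of_card_le (hH : H1Vanishes A H) (hN : H1Vanishes A N)
    (X : Submodule k (groupCohomology (A.quotientToInvariants N) 2)) (hX : X ≤ splitKer A N H)
    (Y : Submodule k (groupCohomology (A.quotientToInvariants H) 2))
    (hXY : ∀ x : X, compareOn hH X hX x ∈ Y) [Finite Y] (hcard : Nat.card Y ≤ Nat.card X)
    (y : groupCohomology (A.quotientToInvariants H) 2) (hy : y ∈ Y) :
    ∃ x ∈ X, inf₂ A N x = inf₂ A H y :=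
  ⟨_, ((compareEquivOfCard hH hN X hX Y hXY hcard).symm ⟨y, hy⟩).2,
    inf₂_compareEquivOfCard_symm hH hN X hX Y hXY hcard ⟨y, hy⟩⟩

theorem le_splitKer_of_card_le (hH : H1Vanishes A H) (hN : H1Vanishes A N)
    (X : Submodule k (groupCohomology (A.quotientToInvariants N) 2)) (hX : X ≤ splitKer A N H)
    (Y : Submodule k (groupCohomology (A.quotientToInvariants H) 2))
    (hXY : ∀ x : X, compareOn hH X hX x ∈ Y) [Finite Y] (hcard : Nat.card Y ≤ Nat.card X) :
    Y ≤ splitKer A H N := by
  intro y hy
  obtain ⟨x, -, hx⟩ := exists_inf₂_eq_of_card_le hH hN X hX Y hXY hcard y hy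
  rw [mem_splitKer, ← hx]; exact res₂_inf₂ _

/-- Transport of an invariant map: under the hypotheses of Tate's counting argument an
isomorphism `invN : X ≃+ Z` induces `Y ≃+ Z`. -/
def invOfCard (hH : H1Vanishes A H) (hN : H1Vanishes A N)
    (X : Submodule k (groupCohomology (A.quotientToInvariants N) 2)) (hX : X ≤ splitKer A N H)
    (Y : Submodule k (groupCohomology (A.quotientToInvariants H) 2))
    (hXY : ∀ x : X, compareOn hH X hX x ∈ Y) [Finite Y] (hcard : Nat.card Y ≤ Nat.card X)
    {Z : Type*} [AddCommGroup Z] (invN : X ≃+ Z) : Y ≃+ Z :=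
  (compareEquivOfCard hH hN X hX Y hXY hcard).symm.toAddEquiv.trans invN

/-- Characterisation of the transported invariant: classes with the same inflation to `Γ` have
the same invariant. -/
theorem invOfCard_eq_of_inf₂_eq (hH : H1Vanishes A H) (hN : H1Vanishes A N)
    (X : Submodule k (groupCohomology (A.quotientToInvariants N) 2)) (hX : X ≤ splitKer A N H)
    (Y : Submodule k (groupCohomology (A.quotientToInvariants H) 2))
    (hXY : ∀ x : X, compareOn hH X hX x ∈ Y) [Finite Y] (hcard : Nat.card Y ≤ Nat.card X)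
    {Z : Type*} [AddCommGroup Z] (invN : X ≃+ Z) (y : Y) (x : X)
    (hxy : inf₂ A H y.1 = inf₂ A N x.1) :
    invOfCard hH hN X hX Y hXY hcard invN y = invN x := by
  have : (compareEquivOfCard hH hN X hX Y hXY hcard).symm y = x := by
    rw [LinearEquiv.symm_apply_eq]
    apply Subtype.ext
    apply inf₂_injective hH
    rw [inf₂_compareEquivOfCard, hxy]
  change invN ((compareEquivOfCard hH hN X hX Y hXY hcard).symm y) = invN x
  rw [this]

end PartA

section PartB

variable {k Γ : Type u} [CommRing k] [Group Γ] (A : Rep.{u} k Γ)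
variable (H : Subgroup Γ) [H.Normal]

/-! ## Part B: subgroups of the quotient -/

section Sub

variable (S : Subgroup Γ) (S' : Subgroup (Γ ⧸ H)) (hS : S ≤ S'.comap (QuotientGroup.mk' H))

/-- The projection `S → S'` for `S ≤ Γ` mapping into `S' ≤ Γ ⧸ H`. -/
def projSub : S →* S' :=
  ((QuotientGroup.mk' H).comp S.subtype).codRestrict S' (fun s => hS s.2)

@[simp]
theorem projSub_apply_coe (s : S) : (projSub H S S' hS s : Γ ⧸ H) = (s.1 : Γ ⧸ H) := rfl

/-- The inclusion `A^H ⊆ A` as a morphism of `S`-representations. -/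
def inclSub :
    Rep.res (projSub H S S' hS) (Rep.res S'.subtype (A.quotientToInvariants H)) ⟶
      Rep.res S.subtype A :=
  Rep.ofHom
    ⟨{  toFun := fun x => x.1
        map_add' := fun _ _ => rfl
        map_smul' := fun _ _ => rfl },
      fun s => by
        ext x
        rfl⟩

/-- "Inflation" `H²(S', A^H) ⟶ H²(S, A)` along `S → S'`. -/
def infSub :
    groupCohomology (Rep.res S'.subtype (A.quotientToInvariants H)) 2 ⟶
      groupCohomology (Rep.res S.subtype A) 2 :=
  groupCohomology.map (projSub H S S' hS) (inclSub A H S S' hS) 2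

/-- The square `res_S ∘ inf_H = infSub ∘ res_{S'}`. -/
theorem infSub_res₂ (u : groupCohomology (A.quotientToInvariants H) 2) :
    infSub A H S S' hS (res₂ (A.quotientToInvariants H) S' u) = res₂ A S (inf₂ A H u) := by
  induction u using H2_induction_on with | @h ψ =>
  rw [res₂_H2π, inf₂_H2π, res₂_H2π]
  erw [H2π_comp_map_apply]
  rfl

variable {A H}

/-- A relation `r • res_{S'} u = 0` in `H²(S', A^H)` gives `r • res_S (inf u) = 0` in
`H²(S, A)`. -/
theorem smul_res₂_inf₂_eq_zero (hS : S ≤ S'.comap (QuotientGroup.mk' H))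
    {u : groupCohomology (A.quotientToInvariants H) 2} {r : k}
    (hr : r • res₂ (A.quotientToInvariants H) S' u = 0) : r • res₂ A S (inf₂ A H u) = 0 := by
  rw [← infSub_res₂ A H S S' hS, ← map_smul, hr, map_zero]

end Sub

variable {A H}

theorem relIndex_comap_mk' (S' : Subgroup (Γ ⧸ H)) :
    H.relIndex (S'.comap (QuotientGroup.mk' H)) = Nat.card S' := by
  have h := Subgroup.relIndex_comap (⊥ : Subgroup (Γ ⧸ H)) (QuotientGroup.mk' H)
    (S'.comap (QuotientGroup.mk' H))
  have hk : (⊥ : Subgroup (Γ ⧸ H)).comap (QuotientGroup.mk' H) = H := QuotientGroup.ker_mk' H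
  rw [hk, Subgroup.map_comap_eq_self_of_surjective (QuotientGroup.mk'_surjective H),
    Subgroup.relIndex_bot_left] at h
  exact h

/-- **Descent of a fundamental class.**  Let `η ∈ H²(Γ, A)` die on `H`, and assume that for every
subgroup `S ≥ H` the annihilator of `res_S η` is contained in `([S : H])`.  Then `η = inf u` for a
class `u ∈ H²(Γ ⧸ H, A^H)` such that for every subgroup `S'` of `Γ ⧸ H` the annihilator of
`res_{S'} u` is contained in `(|S'|)`. -/
theorem exists_fundamental (hH : H1Vanishes A H) (η : groupCohomology A 2)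
    (hη : res₂ A H η = 0)
    (hord : ∀ S : Subgroup Γ, H ≤ S → ∀ r : k, r • res₂ A S η = 0 →
      ((H.relIndex S : ℕ) : k) ∣ r) :
    ∃ u : groupCohomology (A.quotientToInvariants H) 2, inf₂ A H u = η ∧
      ∀ (S' : Subgroup (Γ ⧸ H)) (r : k), r • res₂ (A.quotientToInvariants H) S' u = 0 →
        ((Nat.card S' : ℕ) : k) ∣ r := by
  obtain ⟨u, hu⟩ := exists_inf₂_eq_of_res₂_eq_zero hH η hη
  refine ⟨u, hu, fun S' r hr => ?_⟩
  have h1 := smul_res₂_inf₂_eq_zero (S'.comap (QuotientGroup.mk' H)) S' le_rfl hr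
  rw [hu] at h1
  have h2 := hord _ (by
    intro x hx
    rw [Subgroup.mem_comap, QuotientGroup.mk'_apply, (QuotientGroup.eq_one_iff x).2 hx]
    exact S'.one_mem) r h1
  rwa [relIndex_comap_mk'] at h2

/-- Variant: the class `η = (d / n) • ξ` for a class `ξ` "of degree `d`", `n = [Γ : H] ∣ d`. -/
theorem exists_fundamental_of_degree [IsDomain k] (hH : H1Vanishes A H) (ξ : groupCohomology A 2)
    (d : ℕ) (hd : H.index ∣ d) (hd0 : ((d / H.index : ℕ) : k) ≠ 0)
    (hξ : ((d / H.index : ℕ) : k) • res₂ A H ξ = 0)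
    (hord : ∀ S : Subgroup Γ, H ≤ S → ∀ r : k, r • res₂ A S ξ = 0 →
      ((d / S.index : ℕ) : k) ∣ r) :
    ∃ u : groupCohomology (A.quotientToInvariants H) 2,
      inf₂ A H u = ((d / H.index : ℕ) : k) • ξ ∧
      ∀ (S' : Subgroup (Γ ⧸ H)) (r : k), r • res₂ (A.quotientToInvariants H) S' u = 0 →
        ((Nat.card S' : ℕ) : k) ∣ r := by
  refine exists_fundamental hH _ (by rw [map_smul, hξ]) fun S hS r hr => ?_
  rw [map_smul, smul_smul] at hr
  have h1 := hord S hS _ hr
  -- `d / S.index = (d / H.index) * H.relIndex S`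
  have h2 : H.relIndex S * S.index = H.index := Subgroup.relIndex_mul_index hS
  have hd0' : d / H.index ≠ 0 := fun h => hd0 (by rw [h, Nat.cast_zero])
  have hHi : H.index ≠ 0 := by
    intro h; rw [h, Nat.div_zero] at hd0'; exact hd0' rfl
  have hSi : S.index ≠ 0 := by
    intro h; rw [h, mul_zero] at h2; exact hHi h2.symm
  have h3 : d / S.index = H.relIndex S * (d / H.index) := by
    obtain ⟨e, rfl⟩ := hd
    rw [Nat.mul_div_cancel_left _ (Nat.pos_of_ne_zero hHi), ← h2, mul_assoc,
      Nat.mul_div_assoc _ (dvd_mul_right _ _), Nat.mul_div_cancel_left _ (Nat.pos_of_ne_zero hSi)]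
  rw [h3, Nat.cast_mul] at h1
  exact (mul_dvd_mul_iff_right hd0).1 h1

end PartB

section PartC

variable {k Γ : Type u} [CommRing k] [Group Γ] (A : Rep.{u} k Γ)

/-! ## Part C: inflation between two quotients -/

section Quot

variable (H H' : Subgroup Γ) [H.Normal] [H'.Normal] (h : H' ≤ H)

/-- The quotient map `Γ ⧸ H' →* Γ ⧸ H` for `H' ≤ H`. -/
def quotToQuot : Γ ⧸ H' →* Γ ⧸ H :=
  QuotientGroup.map H' H (MonoidHom.id Γ) fun _ hx => h hx

@[simp]
theorem quotToQuot_mk (g : Γ) : quotToQuot H H' h (g : Γ ⧸ H') = (g : Γ ⧸ H) := rfl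

/-- The inclusion `A^H ⊆ A^H'` for `H' ≤ H`, as a morphism of `Γ ⧸ H'`-representations. -/
def invToInv :
    Rep.res (quotToQuot H H' h) (A.quotientToInvariants H) ⟶ A.quotientToInvariants H' :=
  Rep.ofHom
    ⟨{  toFun := fun x => ⟨x.1, fun w => x.2 ⟨w.1, h w.2⟩⟩
        map_add' := fun _ _ => rfl
        map_smul' := fun _ _ => rfl },
      fun c => QuotientGroup.induction_on c fun g => by
        ext x
        rfl⟩

@[simp]
theorem invToInv_apply_coe (x : A.quotientToInvariants H) :
    (((invToInv A H H' h).hom x).1 : A) = x.1 := rfl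

/-- Inflation `H²(Γ ⧸ H, A^H) ⟶ H²(Γ ⧸ H', A^H')` for `H' ≤ H`. -/
def infQuot :
    groupCohomology (A.quotientToInvariants H) 2 ⟶ groupCohomology (A.quotientToInvariants H') 2 :=
  groupCohomology.map (quotToQuot H H' h) (invToInv A H H' h) 2

/-- Transitivity of inflation. -/
theorem inf₂_infQuot (u : groupCohomology (A.quotientToInvariants H) 2) :
    inf₂ A H' (infQuot A H H' h u) = inf₂ A H u := by
  induction u using H2_induction_on with | @h ψ =>
  rw [inf₂_H2π]
  erw [H2π_comp_map_apply]
  rw [inf₂_H2π]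
  rfl

variable {A H H'}

/-- **Inflation rule**, abstract form: if `inf u = c • inf u'` in `H²(Γ, A)` then
`infQuot u = c • u'` (inflation from `Γ ⧸ H'` is injective). -/
theorem infQuot_eq_smul (hH' : H1Vanishes A H')
    (u : groupCohomology (A.quotientToInvariants H) 2)
    (u' : groupCohomology (A.quotientToInvariants H') 2) (c : k)
    (huu' : inf₂ A H u = c • inf₂ A H' u') : infQuot A H H' h u = c • u' := by
  apply inf₂_injective hH'
  rw [inf₂_infQuot, map_smul, huu']

/-- **Inflation rule** for the classes cut out of a class `ξ` of degree `d`: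
if `inf u = (d / [Γ : H]) • ξ` and `inf u' = (d / [Γ : H']) • ξ` then `infQuot u = [H : H'] • u'`. -/
theorem infQuot_eq_relIndex_smul (hH' : H1Vanishes A H') (ξ : groupCohomology A 2) (d : ℕ)
    (hd : H'.index ∣ d) (hH'i : H'.index ≠ 0)
    (u : groupCohomology (A.quotientToInvariants H) 2)
    (u' : groupCohomology (A.quotientToInvariants H') 2)
    (hu : inf₂ A H u = ((d / H.index : ℕ) : k) • ξ)
    (hu' : inf₂ A H' u' = ((d / H'.index : ℕ) : k) • ξ) :
    infQuot A H H' h u = ((H'.relIndex H : ℕ) : k) • u' := by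
  apply infQuot_eq_smul h hH'
  rw [hu, hu', smul_smul, ← Nat.cast_mul]
  congr 2
  have h2 : H'.relIndex H * H.index = H'.index := Subgroup.relIndex_mul_index h
  have hHi : H.index ≠ 0 := by
    intro h0; rw [h0, mul_zero] at h2; exact hH'i h2.symm
  have hri : H'.relIndex H ≠ 0 := by
    intro h0; rw [h0, zero_mul] at h2; exact hH'i h2.symm
  obtain ⟨e, rfl⟩ := hd
  rw [Nat.mul_div_cancel_left _ (Nat.pos_of_ne_zero hH'i), ← h2, mul_assoc,
    Nat.mul_div_assoc _ (dvd_mul_right _ _), Nat.mul_div_cancel_left _ (Nat.pos_of_ne_zero hHi)]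

end Quot

end PartC

section PartD

variable {k Γ : Type u} [CommRing k] [Group Γ] (A : Rep.{u} k Γ)
variable (N : Subgroup Γ) [N.Normal] (S : Subgroup Γ)

/-! ## Part D: base change of a layer to a subgroup

For `N ⊴ Γ` and an arbitrary subgroup `S ≤ Γ` (think `Γ = Gal(M/K)`, `N = Gal(M/K_m)`,
`S = Gal(M/E)`, so that `S ⧸ S ∩ N = Gal(E_m/E)`), the base-change map
`H²(Γ ⧸ N, A^N) ⟶ H²(S ⧸ S ∩ N, A^(S ∩ N))`. -/

/-- The injection `S ⧸ S ∩ N →* Γ ⧸ N`. -/
def subQuotToQuot : S ⧸ N.subgroupOf S →* Γ ⧸ N :=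
  QuotientGroup.map (N.subgroupOf S) N S.subtype fun _ hx => hx

@[simp]
theorem subQuotToQuot_mk (s : S) :
    subQuotToQuot N S (s : S ⧸ N.subgroupOf S) = ((s : Γ) : Γ ⧸ N) := rfl

/-- The inclusion `A^N ⊆ A^(S ∩ N)` as a morphism of `S ⧸ S ∩ N`-representations. -/
def invToSubInv :
    Rep.res (subQuotToQuot N S) (A.quotientToInvariants N) ⟶
      (Rep.res S.subtype A).quotientToInvariants (N.subgroupOf S) :=
  Rep.ofHom
    ⟨{  toFun := fun x => ⟨x.1, fun w => x.2 ⟨(w.1 : Γ), w.2⟩⟩
        map_add' := fun _ _ => rfl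
        map_smul' := fun _ _ => rfl },
      fun c => QuotientGroup.induction_on c fun g => by
        ext x
        rfl⟩

/-- **Base change** `H²(Γ ⧸ N, A^N) ⟶ H²(S ⧸ S ∩ N, A^(S ∩ N))`. -/
def baseChange :
    groupCohomology (A.quotientToInvariants N) 2 ⟶
      groupCohomology ((Rep.res S.subtype A).quotientToInvariants (N.subgroupOf S)) 2 :=
  groupCohomology.map (subQuotToQuot N S) (invToSubInv A N S) 2

/-- `inf_{S ∩ N}^{S} ∘ baseChange = res_S ∘ inf_N`. -/
theorem inf₂_baseChange (x : groupCohomology (A.quotientToInvariants N) 2) :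
    inf₂ (Rep.res S.subtype A) (N.subgroupOf S) (baseChange A N S x) =
      res₂ A S (inf₂ A N x) := by
  induction x using H2_induction_on with | @h ψ =>
  rw [inf₂_H2π, res₂_H2π]
  erw [H2π_comp_map_apply]
  rw [inf₂_H2π]
  rfl

variable {A N S}

/-- Under `H¹(S ∩ N, A) = 0`, the annihilator of `res_S (inf_N x)` is the annihilator of the base
change of `x`. -/
theorem smul_res₂_inf₂_eq_zero_iff (hNS : H1Vanishes (Rep.res S.subtype A) (N.subgroupOf S))
    (x : groupCohomology (A.quotientToInvariants N) 2) (r : k) :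
    r • res₂ A S (inf₂ A N x) = 0 ↔ r • baseChange A N S x = 0 := by
  rw [← inf₂_baseChange, ← map_smul]
  constructor
  · intro h
    exact inf₂_injective hNS (by rw [h, map_zero])
  · intro h; rw [h, map_zero]

/-- **Descent of a fundamental class from a layer.**  `N ⊴ Γ` an auxiliary layer with a class
`x₀ ∈ H²(Γ ⧸ N, A^N)` "of degree `d`": for every subgroup `S ≥ H` the annihilator of the base
change of `x₀` to `S ⧸ S ∩ N` is contained in `(d / [Γ : S])`, and `d / [Γ : H]` kills the base
change to `H ⧸ H ∩ N`.  Then `(d / [Γ : H]) • inf x₀ = inf u` for a class `u` of `Γ ⧸ H` all of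
whose restrictions have annihilator contained in `(|S'|)`. -/
theorem exists_fundamental_of_layer [IsDomain k] (H : Subgroup Γ) [H.Normal]
    (hH : H1Vanishes A H)
    (hNS : ∀ S : Subgroup Γ, H ≤ S → H1Vanishes (Rep.res S.subtype A) (N.subgroupOf S))
    (x₀ : groupCohomology (A.quotientToInvariants N) 2) (d : ℕ) (hd : H.index ∣ d)
    (hd0 : ((d / H.index : ℕ) : k) ≠ 0)
    (hx₀ : ((d / H.index : ℕ) : k) • baseChange A N H x₀ = 0)
    (hord : ∀ S : Subgroup Γ, H ≤ S → ∀ r : k, r • baseChange A N S x₀ = 0 →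
      ((d / S.index : ℕ) : k) ∣ r) :
    ∃ u : groupCohomology (A.quotientToInvariants H) 2,
      inf₂ A H u = ((d / H.index : ℕ) : k) • inf₂ A N x₀ ∧
      ∀ (S' : Subgroup (Γ ⧸ H)) (r : k), r • res₂ (A.quotientToInvariants H) S' u = 0 →
        ((Nat.card S' : ℕ) : k) ∣ r :=
  exists_fundamental_of_degree hH (inf₂ A N x₀) d hd hd0
    ((smul_res₂_inf₂_eq_zero_iff (hNS H le_rfl) x₀ _).2 hx₀)
    (fun S hS r hr => hord S hS r ((smul_res₂_inf₂_eq_zero_iff (hNS S hS) x₀ r).1 hr))

end PartD

section Generators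

variable {k : Type*} [CommRing k]

/-- A cyclic-module criterion: if the annihilator of `x` is contained in `(a)` and
`|M| ≤ |k / (a)|`, then `x` generates `M`. -/
theorem exists_smul_eq_of_card_le {M : Type*} [AddCommGroup M] [Module k M] [Finite M] (a : k)
    (hcard : Nat.card M ≤ Nat.card (k ⧸ Ideal.span {a})) (x : M)
    (hx : ∀ r : k, r • x = 0 → a ∣ r) (y : M) : ∃ r : k, y = r • x := by
  let f : k →ₗ[k] M := LinearMap.toSpanSingleton k M x
  have hker : LinearMap.ker f ≤ Ideal.span {a} := by
    intro r hr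
    rw [Ideal.mem_span_singleton]
    exact hx r (by simpa [f] using hr)
  have e := f.quotKerEquivRange
  have hfin : Finite (k ⧸ LinearMap.ker f) := Finite.of_equiv _ e.symm.toEquiv
  have hsurj : Function.Surjective (Submodule.factor hker) := Submodule.factor_surjective hker
  have h1 : Nat.card (k ⧸ Ideal.span {a}) ≤ Nat.card (k ⧸ LinearMap.ker f) :=
    Nat.card_le_card_of_surjective _ hsurj
  have h2 : Nat.card (k ⧸ LinearMap.ker f) = Nat.card (LinearMap.range f) :=
    Nat.card_congr e.toEquiv
  have h3 : Nat.card (LinearMap.range f) ≤ Nat.card M :=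
    Nat.card_le_card_of_injective _ Subtype.val_injective
  have h4 : Nat.card (LinearMap.range f) = Nat.card M := by omega
  have h5 : (LinearMap.range f).toAddSubgroup = ⊤ :=
    AddSubgroup.eq_top_of_card_eq _ h4
  have h6 : y ∈ (LinearMap.range f).toAddSubgroup := h5 ▸ AddSubgroup.mem_top y
  obtain ⟨r, hr⟩ := h6
  exact ⟨r, by simpa [f] using hr.symm⟩

/-- Variant of `exists_smul_eq_of_card_le` with a divisibility hypothesis: if `|k / (n)| = n`
(e.g. `k = ℤ`, see `card_int_quotient_span_natCast`), `|M| ∣ n` and the annihilator of `x` is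
contained in `(n)`, then `x` generates `M`. -/
theorem exists_smul_eq_of_card_dvd {M : Type*} [AddCommGroup M] [Module k M] {n : ℕ}
    (hn : n ≠ 0) (hk : Nat.card (k ⧸ Ideal.span {(n : k)}) = n) (hcard : Nat.card M ∣ n) (x : M)
    (hx : ∀ r : k, r • x = 0 → (n : k) ∣ r) (y : M) : ∃ r : k, y = r • x := by
  have hfin : Finite M := Nat.finite_of_card_ne_zero (fun h => hn (by
    rw [h] at hcard; exact Nat.eq_zero_of_zero_dvd hcard))
  exact exists_smul_eq_of_card_le (n : k)
    (by rw [hk]; exact Nat.le_of_dvd (Nat.pos_of_ne_zero hn) hcard) x hx y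

theorem card_int_quotient_span_natCast (n : ℕ) [NeZero n] :
    Nat.card (ℤ ⧸ Ideal.span {(n : ℤ)}) = n := by
  rw [Nat.card_congr (Int.quotientSpanNatEquivZMod n).toEquiv, Nat.card_zmod]

end Generators

section PartE

/-! ## Part E: coefficient rings like `ℤ_(p)`

Versions of the previous results in which the "degree" `D` of the class `ξ` and the cofactor `c`
(`c * [Γ : H] = D`) are elements of the coefficient ring `k`.  For `k = ℤ` this is the same as
before; for `k = ℤ_(p)` it allows `D = p ^ m` and `[Γ : H]` arbitrary with `[Γ : H]_p ∣ p ^ m`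
(the prime-to-`p` part of `[Γ : H]` is a unit of `k`). -/

variable {k Γ : Type u} [CommRing k] [Group Γ] {A : Rep.{u} k Γ}

/-- **Descent of a fundamental class**, ring version.  `ξ ∈ H²(Γ, A)` "of degree `D ∈ k`":
for `S ≥ H`, `r • res_S ξ = 0` implies `D ∣ r * [Γ : S]`.  If `c * [Γ : H] = D` and
`c • res_H ξ = 0` then `c • ξ = inf u` with `u` a class of `Γ ⧸ H` all of whose restrictions have
annihilator contained in `(|S'|)`. -/
theorem exists_fundamental_of_dvd [IsDomain k] {H : Subgroup Γ} [H.Normal] (hH : H1Vanishes A H)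
    (ξ : groupCohomology A 2) (D c : k) (hc : c * (H.index : k) = D) (hD : D ≠ 0)
    (hξ : c • res₂ A H ξ = 0)
    (hord : ∀ S : Subgroup Γ, H ≤ S → ∀ r : k, r • res₂ A S ξ = 0 → D ∣ r * (S.index : k)) :
    ∃ u : groupCohomology (A.quotientToInvariants H) 2,
      inf₂ A H u = c • ξ ∧
      ∀ (S' : Subgroup (Γ ⧸ H)) (r : k), r • res₂ (A.quotientToInvariants H) S' u = 0 →
        ((Nat.card S' : ℕ) : k) ∣ r := by
  refine exists_fundamental hH _ (by rw [map_smul, hξ]) fun S hS r hr => ?_
  rw [map_smul, smul_smul] at hr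
  have h1 := hord S hS _ hr
  have h2 : H.relIndex S * S.index = H.index := Subgroup.relIndex_mul_index hS
  have hc0 : c ≠ 0 := fun h => hD (by rw [← hc, h, zero_mul])
  have hHi : (H.index : k) ≠ 0 := fun h => hD (by rw [← hc, h, mul_zero])
  have hSi : (S.index : k) ≠ 0 := by
    intro h; apply hHi; rw [← h2, Nat.cast_mul, h, mul_zero]
  -- `c * (relIndex * S.index) ∣ r * c * S.index`
  rw [← hc, ← h2, Nat.cast_mul] at h1
  have h3 : (c * (S.index : k)) * (H.relIndex S : k) ∣ (c * (S.index : k)) * r := by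
    convert h1 using 1 <;> ring
  exact (mul_dvd_mul_iff_left (mul_ne_zero hc0 hSi)).1 h3

/-- Ring version of `exists_fundamental_of_layer`. -/
theorem exists_fundamental_of_layer_dvd [IsDomain k] {N : Subgroup Γ} [N.Normal]
    (H : Subgroup Γ) [H.Normal] (hH : H1Vanishes A H)
    (hNS : ∀ S : Subgroup Γ, H ≤ S → H1Vanishes (Rep.res S.subtype A) (N.subgroupOf S))
    (x₀ : groupCohomology (A.quotientToInvariants N) 2) (D c : k)
    (hc : c * (H.index : k) = D) (hD : D ≠ 0)
    (hx₀ : c • baseChange A N H x₀ = 0)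
    (hord : ∀ S : Subgroup Γ, H ≤ S → ∀ r : k, r • baseChange A N S x₀ = 0 →
      D ∣ r * (S.index : k)) :
    ∃ u : groupCohomology (A.quotientToInvariants H) 2,
      inf₂ A H u = c • inf₂ A N x₀ ∧
      ∀ (S' : Subgroup (Γ ⧸ H)) (r : k), r • res₂ (A.quotientToInvariants H) S' u = 0 →
        ((Nat.card S' : ℕ) : k) ∣ r :=
  exists_fundamental_of_dvd hH (inf₂ A N x₀) D c hc hD
    ((smul_res₂_inf₂_eq_zero_iff (hNS H le_rfl) x₀ _).2 hx₀)
    (fun S hS r hr => hord S hS r ((smul_res₂_inf₂_eq_zero_iff (hNS S hS) x₀ r).1 hr))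

/-- **Inflation rule**, ring version: if `inf u = c • ξ`, `inf u' = c' • ξ` with
`c * [Γ : H] = D = c' * [Γ : H']` then `infQuot u = [H : H'] • u'`. -/
theorem infQuot_eq_relIndex_smul_of_dvd [IsDomain k] {H H' : Subgroup Γ} [H.Normal] [H'.Normal]
    (h : H' ≤ H) (hH' : H1Vanishes A H') (ξ : groupCohomology A 2) (D c c' : k)
    (hc : c * (H.index : k) = D) (hc' : c' * (H'.index : k) = D) (hD : D ≠ 0)
    (u : groupCohomology (A.quotientToInvariants H) 2)
    (u' : groupCohomology (A.quotientToInvariants H') 2)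
    (hu : inf₂ A H u = c • ξ) (hu' : inf₂ A H' u' = c' • ξ) :
    infQuot A H H' h u = ((H'.relIndex H : ℕ) : k) • u' := by
  apply infQuot_eq_smul h hH'
  rw [hu, hu', smul_smul]
  congr 1
  have h2 : H'.relIndex H * H.index = H'.index := Subgroup.relIndex_mul_index h
  have hHi : (H.index : k) ≠ 0 := fun h0 => hD (by rw [← hc, h0, mul_zero])
  apply mul_right_cancel₀ hHi
  rw [hc, ← hc', ← h2, Nat.cast_mul]
  ring

end PartE

section Criterion

/-- The property of a coefficient ring `k` used to recognise generators of `H²`: in a `k`-module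
of order dividing `n`, an element whose annihilator is contained in `(n)` is a generator. -/
def CyclicCriterion (k : Type u) [CommRing k] : Prop :=
  ∀ (M : Type u) [AddCommGroup M] [Module k M] (n : ℕ), n ≠ 0 → Nat.card M ∣ n →
    ∀ x : M, (∀ r : k, r • x = 0 → (n : k) ∣ r) → ∀ y : M, ∃ r : k, y = r • x

theorem cyclicCriterion_int : CyclicCriterion ℤ := fun _ _ _ n hn hcard x hx y =>
  haveI : NeZero n := ⟨hn⟩
  exists_smul_eq_of_card_dvd hn (card_int_quotient_span_natCast n) hcard x hx y

variable {k : Type u} [CommRing k]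

theorem isUnit_natCast_of_not_dvd (p : ℕ)
    (hunit : ∀ l : ℕ, l.Prime → l ≠ p → IsUnit (l : k)) (m : ℕ) (hm : ¬ p ∣ m) (hm0 : m ≠ 0) :
    IsUnit (m : k) := by
  induction m using Nat.recOnMul with
  | zero => exact absurd rfl hm0
  | one => simp
  | prime l hl => exact hunit l hl (fun h => hm (h ▸ dvd_rfl))
  | mul a b iha ihb =>
    rw [Nat.cast_mul]
    exact (iha (fun h => hm (h.mul_right b)) (fun h => hm0 (by rw [h, zero_mul]))).mul
      (ihb (fun h => hm (h.mul_left a)) (fun h => hm0 (by rw [h, mul_zero])))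

/-- A domain in which every prime `l ≠ p` is a unit while `p` is a non-zero non-unit (for instance
`ℤ_(p)`) satisfies the cyclic criterion. -/
theorem cyclicCriterion_of_local [IsDomain k] (p : ℕ) (hp : p.Prime)
    (hunit : ∀ l : ℕ, l.Prime → l ≠ p → IsUnit (l : k)) (hpu : ¬ IsUnit (p : k))
    (hp0 : (p : k) ≠ 0) : CyclicCriterion k := by
  intro M _ _ n hn hcard x hx y
  have hfin : Finite M := Nat.finite_of_card_ne_zero (fun h => hn (by
    rw [h] at hcard; exact Nat.eq_zero_of_zero_dvd hcard))
  have hM0 : Nat.card M ≠ 0 := Nat.card_pos.ne'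
  -- `|M|` is a power of `p`
  have hMp : ∀ {l : ℕ}, l.Prime → l ∣ Nat.card M → l = p := by
    intro l hl hld
    by_contra hne
    have : Fact l.Prime := ⟨hl⟩
    obtain ⟨z, hz⟩ := exists_prime_addOrderOf_dvd_card' l hld
    have h1 : (l : k) • z = 0 := by
      rw [Nat.cast_smul_eq_nsmul, ← hz]; exact addOrderOf_nsmul_eq_zero z
    obtain ⟨v, hv⟩ := hunit l hl hne
    have h2 : z = 0 := by
      have := congrArg (fun w => (↑v⁻¹ : k) • w) h1
      simpa [← hv, smul_smul] using this
    rw [h2, addOrderOf_zero] at hz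
    exact hl.one_lt.ne hz
  have hMa := Nat.eq_prime_pow_of_unique_prime_dvd hM0 hMp
  set a := (Nat.card M).primeFactorsList.length with ha
  -- `n = p ^ c * n'`
  obtain ⟨c, n', hn', hnc⟩ := Nat.exists_eq_pow_mul_and_not_dvd hn p hp.one_lt.ne'
  have hn'0 : n' ≠ 0 := fun h => hn (by rw [hnc, h, mul_zero])
  have hac : a ≤ c := by
    rw [hMa, hnc] at hcard
    have hcop : Nat.Coprime (p ^ a) n' := (Nat.Prime.coprime_iff_not_dvd hp).2 hn' |>.pow_left a
    exact (Nat.pow_dvd_pow_iff_le_right hp.one_lt).1 (hcop.dvd_of_dvd_mul_right hcard)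
  -- the order of `x`
  obtain ⟨b, hba, hb⟩ := (Nat.dvd_prime_pow hp).1 (hMa ▸ addOrderOf_dvd_natCard x)
  have h3 : (n : k) ∣ ((p ^ b : ℕ) : k) := hx _ (by
    rw [Nat.cast_smul_eq_nsmul, ← hb]; exact addOrderOf_nsmul_eq_zero x)
  have hbc : b = c := by
    by_contra hne
    have hlt : b < c := lt_of_le_of_ne (hba.trans hac) hne
    have h4 : ((p : k) ^ c) ∣ (p : k) ^ b := by
      have : ((p ^ c : ℕ) : k) ∣ (n : k) := by
        rw [hnc, Nat.cast_mul]; exact dvd_mul_right _ _
      simpa using this.trans h3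
    obtain ⟨e, he⟩ : ∃ e, c = b + (e + 1) := ⟨c - b - 1, by omega⟩
    rw [he, pow_add] at h4
    have h5 : (p : k) ^ (e + 1) ∣ 1 := by
      have h6 : (p : k) ^ b * (p : k) ^ (e + 1) ∣ (p : k) ^ b * 1 := by rwa [mul_one]
      exact (mul_dvd_mul_iff_left (pow_ne_zero b hp0)).1 h6
    exact hpu ((isUnit_pow_iff (Nat.succ_ne_zero e)).1 (isUnit_of_dvd_one h5))
  have hab : a = b := le_antisymm (hbc ▸ hac) hba
  have h7 : Nat.card (AddSubgroup.zmultiples x) = Nat.card M := by
    rw [Nat.card_zmultiples, hb, hMa, hab]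
  have h8 : AddSubgroup.zmultiples x = ⊤ := AddSubgroup.eq_top_of_card_eq _ h7
  have h9 : y ∈ AddSubgroup.zmultiples x := h8 ▸ AddSubgroup.mem_top y
  obtain ⟨r, hr⟩ := AddSubgroup.mem_zmultiples_iff.1 h9
  exact ⟨(r : k), by rw [Int.cast_smul_eq_zsmul, hr]⟩

end Criterion

end Fermat.Agent.CFT.C6.TateArgument
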