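import Mathlib
import Fermat.Agent.CFT.A5.Tate
import Fermat.Agent.CFT.LC.Inflation
import Fermat.Agent.CFT.C6.TateArgument

/-!
# PROJECT C, slice C6e: from Tate's argument to `IsClassModule` and the inflation rule

Packaging of `C6/TateArgument.lean` in the vocabulary of the consumers:
helper16's `A5.Tate.IsClassModule` and the finite-level inflation `LC.inflFin`.

* `resPhi_eq` : `H2π (resPhi C φ S.subtype) = res₂ C S (H2π φ)`;
* `isClassModule_of_ord` : a class `u = [φ]` of `G` all of whose restrictions to subgroups `S`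
  have annihilator contained in `(|S|)`, together with `H¹(S, C) = 0` and `|H²(S, C)| ∣ |S|`,
  is a class module;
* `exists_isClassModule` : the same for `G = Γ ⧸ H`, `C = A^H`, starting from a class `η` of the
  big group `Γ` (Tate's argument, `TateArgument.exists_fundamental`);
* `exists_isClassModule_of_layer` : the same starting from a class `x₀` of an auxiliary (cyclic)
  layer `N` and its base changes (`TateArgument.exists_fundamental_of_layer`);
* `isClassModule_of_ord'`, `exists_isClassModule_of_dvd`, `exists_isClassModule_of_layer_dvd`,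
  `inflFin_eq_relIndex_smul_of_dvd` : the versions for coefficient rings like `ℤ_(p)`
  (`TateArgument.CyclicCriterion`);
* `infQuot_eq_inflFin`, `inflFin_eq_smul`, `inflFin_eq_relIndex_smul` : the inflation rule in
  terms of `LC.inflFin`.
-/

set_option autoImplicit false

universe u

noncomputable section

open groupCohomology CategoryTheory Rep Limits

namespace Fermat.Agent.CFT.C6.TateClassModule

open Fermat.Agent.CFT.InfRes2 Fermat.Agent.CFT.C6.TateArgument Fermat.Agent.CFT.A5.Tate
  Fermat.Agent.CFT.A5.SplitRes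

section General

variable {k G : Type u} [CommRing k] [Group G] (C : Rep.{u} k G)

/-- helper16's restricted cocycle represents the restriction of the class. -/
theorem resPhi_eq (φ : cocycles₂ C) (S : Subgroup G) :
    H2π (Rep.res S.subtype C) (resPhi C φ S.subtype) = res₂ C S (H2π C φ) := by
  rw [res₂_H2π]
  rfl

variable [Fintype G]

/-- A class all of whose restrictions have the maximal possible order, in a module satisfying the
first and second inequalities at every subgroup, is a class module. -/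
theorem isClassModule_of_ord (φ : cocycles₂ C)
    (h1 : ∀ S : Subgroup G, IsZero (groupCohomology (Rep.res S.subtype C) 1))
    (hk : ∀ n : ℕ, n ≠ 0 → Nat.card (k ⧸ Ideal.span {(n : k)}) = n)
    (hcard : ∀ S : Subgroup G,
      Nat.card (groupCohomology (Rep.res S.subtype C) 2) ∣ Nat.card S)
    (hord : ∀ (S : Subgroup G) (r : k), r • res₂ C S (H2π C φ) = 0 →
      ((Nat.card S : ℕ) : k) ∣ r) :
    IsClassModule C φ where
  h1 := h1
  hgen S y := by
    rw [resPhi_eq]
    exact exists_smul_eq_of_card_dvd Nat.card_pos.ne' (hk _ Nat.card_pos.ne') (hcard S) _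
      (hord S) y
  hord S r hr := by
    rw [resPhi_eq] at hr
    exact hord S r hr

/-- Version of `isClassModule_of_ord` for coefficient rings satisfying the cyclic criterion
(`ℤ`, `ℤ_(p)`, ...). -/
theorem isClassModule_of_ord' (φ : cocycles₂ C)
    (h1 : ∀ S : Subgroup G, IsZero (groupCohomology (Rep.res S.subtype C) 1))
    (hk : CyclicCriterion k)
    (hcard : ∀ S : Subgroup G,
      Nat.card (groupCohomology (Rep.res S.subtype C) 2) ∣ Nat.card S)
    (hord : ∀ (S : Subgroup G) (r : k), r • res₂ C S (H2π C φ) = 0 →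
      ((Nat.card S : ℕ) : k) ∣ r) :
    IsClassModule C φ where
  h1 := h1
  hgen S y := by
    rw [resPhi_eq]
    exact hk _ _ Nat.card_pos.ne' (hcard S) _ (hord S) y
  hord S r hr := by
    rw [resPhi_eq] at hr
    exact hord S r hr

end General

section Quotient

variable {k Γ : Type u} [CommRing k] [Group Γ] (A : Rep.{u} k Γ) (H : Subgroup Γ) [H.Normal]
  [Fintype (Γ ⧸ H)]

/-- **Tate's argument, packaged.**  `Γ` a group, `H` a normal subgroup of finite index with
`H¹(H, A) = 0`.  Let `η ∈ H²(Γ, A)` die on `H`, such that for every `S ≥ H` the annihilator of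
`res_S η` is contained in `([S : H])`.  If `C = A^H` satisfies `H¹(S', C) = 0` and
`|H²(S', C)| ∣ |S'|` for all subgroups `S'` of `G = Γ ⧸ H`, then `η = inf [φ]` for a cocycle `φ`
making `(C, φ)` a class module. -/
theorem exists_isClassModule (hH : H1Vanishes A H) (η : groupCohomology A 2)
    (hη : res₂ A H η = 0)
    (hord : ∀ S : Subgroup Γ, H ≤ S → ∀ r : k, r • res₂ A S η = 0 →
      ((H.relIndex S : ℕ) : k) ∣ r)
    (h1 : ∀ S' : Subgroup (Γ ⧸ H),
      IsZero (groupCohomology (Rep.res S'.subtype (A.quotientToInvariants H)) 1))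
    (hk : ∀ n : ℕ, n ≠ 0 → Nat.card (k ⧸ Ideal.span {(n : k)}) = n)
    (hcard : ∀ S' : Subgroup (Γ ⧸ H),
      Nat.card (groupCohomology (Rep.res S'.subtype (A.quotientToInvariants H)) 2) ∣
        Nat.card S') :
    ∃ φ : cocycles₂ (A.quotientToInvariants H),
      inf₂ A H (H2π _ φ) = η ∧ IsClassModule (A.quotientToInvariants H) φ := by
  obtain ⟨u, hu, hu'⟩ := exists_fundamental hH η hη hord
  induction u using H2_induction_on with | @h φ =>
  exact ⟨φ, hu, isClassModule_of_ord _ φ h1 hk hcard hu'⟩

/-- **Tate's argument from a cyclic layer, packaged.**  `N ⊴ Γ` an auxiliary layer (think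
`Gal(M/K_m)` with `K_m/K` cyclic cyclotomic of degree `d`), `x₀ ∈ H²(Γ ⧸ N, A^N)` such that for
every `S ≥ H` (think `S = Gal(M/E)`, `K ⊆ E ⊆ L`) the annihilator of the base change of `x₀` to
`S ⧸ S ∩ N` (`= Gal(E_m/E)`) is contained in `(d / [Γ : S])`, and `d / [Γ : H]` kills the base
change to `H ⧸ H ∩ N`.  If `C = A^H` satisfies the two inequalities at every subgroup of
`G = Γ ⧸ H`, then `(d / [Γ : H]) • inf x₀ = inf [φ]` with `(C, φ)` a class module. -/
theorem exists_isClassModule_of_layer [IsDomain k] (N : Subgroup Γ) [N.Normal]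
    (hH : H1Vanishes A H)
    (hNS : ∀ S : Subgroup Γ, H ≤ S → H1Vanishes (Rep.res S.subtype A) (N.subgroupOf S))
    (x₀ : groupCohomology (A.quotientToInvariants N) 2) (d : ℕ) (hd : H.index ∣ d)
    (hd0 : ((d / H.index : ℕ) : k) ≠ 0)
    (hx₀ : ((d / H.index : ℕ) : k) • baseChange A N H x₀ = 0)
    (hord : ∀ S : Subgroup Γ, H ≤ S → ∀ r : k, r • baseChange A N S x₀ = 0 →
      ((d / S.index : ℕ) : k) ∣ r)
    (h1 : ∀ S' : Subgroup (Γ ⧸ H),
      IsZero (groupCohomology (Rep.res S'.subtype (A.quotientToInvariants H)) 1))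
    (hk : ∀ n : ℕ, n ≠ 0 → Nat.card (k ⧸ Ideal.span {(n : k)}) = n)
    (hcard : ∀ S' : Subgroup (Γ ⧸ H),
      Nat.card (groupCohomology (Rep.res S'.subtype (A.quotientToInvariants H)) 2) ∣
        Nat.card S') :
    ∃ φ : cocycles₂ (A.quotientToInvariants H),
      inf₂ A H (H2π _ φ) = ((d / H.index : ℕ) : k) • inf₂ A N x₀ ∧
        IsClassModule (A.quotientToInvariants H) φ := by
  obtain ⟨u, hu, hu'⟩ := exists_fundamental_of_layer H hH hNS x₀ d hd hd0 hx₀ hord
  induction u using H2_induction_on with | @h φ =>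
  exact ⟨φ, hu, isClassModule_of_ord _ φ h1 hk hcard hu'⟩

/-- **Tate's argument from a cyclic layer, ring version** (for `k = ℤ_(p)`): the degree `D`
of the layer and the cofactor `c` with `c * [Γ : H] = D` are elements of `k`. -/
theorem exists_isClassModule_of_layer_dvd [IsDomain k] (N : Subgroup Γ) [N.Normal]
    (hH : H1Vanishes A H)
    (hNS : ∀ S : Subgroup Γ, H ≤ S → H1Vanishes (Rep.res S.subtype A) (N.subgroupOf S))
    (x₀ : groupCohomology (A.quotientToInvariants N) 2) (D c : k)
    (hc : c * (H.index : k) = D) (hD : D ≠ 0)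
    (hx₀ : c • baseChange A N H x₀ = 0)
    (hord : ∀ S : Subgroup Γ, H ≤ S → ∀ r : k, r • baseChange A N S x₀ = 0 →
      D ∣ r * (S.index : k))
    (h1 : ∀ S' : Subgroup (Γ ⧸ H),
      IsZero (groupCohomology (Rep.res S'.subtype (A.quotientToInvariants H)) 1))
    (hk : CyclicCriterion k)
    (hcard : ∀ S' : Subgroup (Γ ⧸ H),
      Nat.card (groupCohomology (Rep.res S'.subtype (A.quotientToInvariants H)) 2) ∣
        Nat.card S') :
    ∃ φ : cocycles₂ (A.quotientToInvariants H),
      inf₂ A H (H2π _ φ) = c • inf₂ A N x₀ ∧ IsClassModule (A.quotientToInvariants H) φ := by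
  obtain ⟨u, hu, hu'⟩ := exists_fundamental_of_layer_dvd H hH hNS x₀ D c hc hD hx₀ hord
  induction u using H2_induction_on with | @h φ =>
  exact ⟨φ, hu, isClassModule_of_ord' _ φ h1 hk hcard hu'⟩

/-- Ring version of `exists_isClassModule`. -/
theorem exists_isClassModule_of_dvd [IsDomain k] (hH : H1Vanishes A H)
    (ξ : groupCohomology A 2) (D c : k) (hc : c * (H.index : k) = D) (hD : D ≠ 0)
    (hξ : c • res₂ A H ξ = 0)
    (hord : ∀ S : Subgroup Γ, H ≤ S → ∀ r : k, r • res₂ A S ξ = 0 → D ∣ r * (S.index : k))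
    (h1 : ∀ S' : Subgroup (Γ ⧸ H),
      IsZero (groupCohomology (Rep.res S'.subtype (A.quotientToInvariants H)) 1))
    (hk : CyclicCriterion k)
    (hcard : ∀ S' : Subgroup (Γ ⧸ H),
      Nat.card (groupCohomology (Rep.res S'.subtype (A.quotientToInvariants H)) 2) ∣
        Nat.card S') :
    ∃ φ : cocycles₂ (A.quotientToInvariants H),
      inf₂ A H (H2π _ φ) = c • ξ ∧ IsClassModule (A.quotientToInvariants H) φ := by
  obtain ⟨u, hu, hu'⟩ := exists_fundamental_of_dvd hH ξ D c hc hD hξ hord
  induction u using H2_induction_on with | @h φ =>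
  exact ⟨φ, hu, isClassModule_of_ord' _ φ h1 hk hcard hu'⟩

/-- For `k = ℤ` the hypothesis `hk` of `exists_isClassModule` holds. -/
theorem hk_int (n : ℕ) (hn : n ≠ 0) : Nat.card (ℤ ⧸ Ideal.span {(n : ℤ)}) = n :=
  haveI : NeZero n := ⟨hn⟩
  card_int_quotient_span_natCast n

end Quotient

section Inflation

variable {k Γ : Type u} [CommRing k] [Group Γ] (A : Rep.{u} k Γ)
  (H H' : Subgroup Γ) [H.Normal] [H'.Normal] (h : H' ≤ H)

/-- `TateArgument.infQuot` is `LC.inflFin` in degree `2`. -/
theorem infQuot_eq_inflFin : infQuot A H H' h = LC.inflFin A H H' h 2 := rfl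

variable {A H H'}

/-- The inflation rule in terms of `LC.inflFin`. -/
theorem inflFin_eq_smul (hH' : H1Vanishes A H')
    (u : groupCohomology (A.quotientToInvariants H) 2)
    (u' : groupCohomology (A.quotientToInvariants H') 2) (c : k)
    (huu' : inf₂ A H u = c • inf₂ A H' u') : LC.inflFin A H H' h 2 u = c • u' :=
  infQuot_eq_smul h hH' u u' c huu'

/-- The inflation rule `inflFin u_H = [H : H'] • u_H'` for the classes cut out of a class `ξ` of
degree `d`. -/
theorem inflFin_eq_relIndex_smul (hH' : H1Vanishes A H') (ξ : groupCohomology A 2) (d : ℕ)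
    (hd : H'.index ∣ d) (hH'i : H'.index ≠ 0)
    (u : groupCohomology (A.quotientToInvariants H) 2)
    (u' : groupCohomology (A.quotientToInvariants H') 2)
    (hu : inf₂ A H u = ((d / H.index : ℕ) : k) • ξ)
    (hu' : inf₂ A H' u' = ((d / H'.index : ℕ) : k) • ξ) :
    LC.inflFin A H H' h 2 u = ((H'.relIndex H : ℕ) : k) • u' :=
  infQuot_eq_relIndex_smul h hH' ξ d hd hH'i u u' hu hu'

/-- The inflation rule, ring version (for `k = ℤ_(p)`). -/
theorem inflFin_eq_relIndex_smul_of_dvd [IsDomain k] (hH' : H1Vanishes A H')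
    (ξ : groupCohomology A 2) (D c c' : k)
    (hc : c * (H.index : k) = D) (hc' : c' * (H'.index : k) = D) (hD : D ≠ 0)
    (u : groupCohomology (A.quotientToInvariants H) 2)
    (u' : groupCohomology (A.quotientToInvariants H') 2)
    (hu : inf₂ A H u = c • ξ) (hu' : inf₂ A H' u' = c' • ξ) :
    LC.inflFin A H H' h 2 u = ((H'.relIndex H : ℕ) : k) • u' :=
  infQuot_eq_relIndex_smul_of_dvd h hH' ξ D c c' hc hc' hD u u' hu hu'

end Inflation

end Fermat.Agent.CFT.C6.TateClassModule
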