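import Mathlib
import Fermat.Agent.CFT.Dict.Product
import Fermat.Agent.CFT.C5.NonSplit

/-!
# PROJECT C, slice C6 (B): primes over `q` and idempotents of `L ⊗ ℚ_q`

* `primeIdem v` : the primitive idempotent of `L ⊗ ℚ_q` attached to a prime `v` of `𝓞 L` over `q`
  (through `Dict.locEquivPi`); orthogonality, sum `= 1`;
* `aut_primeIdem` : `σ (primeIdem v) = primeIdem (σ • v)` for `σ ∈ Gal(L/ℚ)`;
* `splitsCompletely_of_trivial_stabilizer` : if no prime of `𝓞 L` over `q` is fixed by a nontrivial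
  element of `Gal(L/K)`, then `q` splits completely in `L/K` in the sense of `C5.NonSplit`.
-/

set_option autoImplicit false

open scoped TensorProduct NumberField Pointwise Fermat.Agent.CFT.Idele

open Fermat.Agent.CFT.Idele Fermat.Agent.CFT.Dict

noncomputable section

namespace Fermat.Agent.CFT.C6.SplitIdem

variable {L : Type} [Field L] [NumberField L] {q : Nat.Primes}

/-- the primitive idempotent of `L ⊗ ℚ_q` attached to the prime `v` over `q` -/
def primeIdem (v : PrimeOver (q : ℕ) (𝓞 L)) : Loc L q :=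
  (locEquivPi L q).symm (Pi.single v 1)

theorem locToKv_primeIdem (w v : PrimeOver (q : ℕ) (𝓞 L)) :
    w.locToKv (primeIdem v) = if w = v then 1 else 0 := by
  have h : w.locToKv (primeIdem v)
      = (Pi.single v (1 : v.Kv) : ∀ u : PrimeOver (q : ℕ) (𝓞 L), u.Kv) w := by
    rw [← locEquivPi_apply, primeIdem, RingEquiv.apply_symm_apply]
  rw [h]
  by_cases hw : w = v
  · subst hw; rw [Pi.single_eq_same, if_pos rfl]
  · rw [Pi.single_eq_of_ne hw, if_neg hw]

theorem locToKv_primeIdem_self (v : PrimeOver (q : ℕ) (𝓞 L)) : v.locToKv (primeIdem v) = 1 := by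
  rw [locToKv_primeIdem, if_pos rfl]

theorem locToKv_primeIdem_of_ne {w v : PrimeOver (q : ℕ) (𝓞 L)} (h : w ≠ v) :
    w.locToKv (primeIdem v) = 0 := by
  rw [locToKv_primeIdem, if_neg h]

/-- an element of `L ⊗ ℚ_q` is determined by its components -/
theorem eq_of_forall_locToKv {x y : Loc L q}
    (h : ∀ w : PrimeOver (q : ℕ) (𝓞 L), w.locToKv x = w.locToKv y) : x = y :=
  (locEquivPi L q).injective (funext h)

theorem primeIdem_mul_self (v : PrimeOver (q : ℕ) (𝓞 L)) :
    primeIdem v * primeIdem v = primeIdem v := by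
  apply eq_of_forall_locToKv
  intro w
  rw [map_mul, locToKv_primeIdem]
  split_ifs <;> simp

theorem primeIdem_mul_of_ne {v w : PrimeOver (q : ℕ) (𝓞 L)} (h : v ≠ w) :
    primeIdem v * primeIdem w = 0 := by
  apply eq_of_forall_locToKv
  intro u
  rw [map_mul, map_zero, locToKv_primeIdem, locToKv_primeIdem]
  by_cases h1 : u = v
  · rw [if_pos h1, if_neg (fun h2 => h (h1.symm.trans h2)), mul_zero]
  · rw [if_neg h1, zero_mul]

theorem sum_primeIdem : ∑ v : PrimeOver (q : ℕ) (𝓞 L), primeIdem v = 1 := by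
  apply eq_of_forall_locToKv
  intro w
  rw [map_sum, map_one]
  simp_rw [locToKv_primeIdem]
  rw [Finset.sum_ite_eq Finset.univ w (fun _ => (1 : w.Kv)), if_pos (Finset.mem_univ w)]

/-- multiplication by `primeIdem v` kills exactly the other components -/
theorem mul_primeIdem_eq_zero_iff (x : Loc L q) (v : PrimeOver (q : ℕ) (𝓞 L)) :
    x * primeIdem v = 0 ↔ v.locToKv x = 0 := by
  constructor
  · intro h
    have := congrArg v.locToKv h
    rwa [map_mul, locToKv_primeIdem_self, mul_one, map_zero] at this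
  · intro h
    apply eq_of_forall_locToKv
    intro w
    rw [map_mul, map_zero, locToKv_primeIdem]
    by_cases h1 : w = v
    · subst h1; rw [h, zero_mul]
    · rw [if_neg h1, mul_zero]

/-! ### Galois equivariance -/

/-- the unit `1 + (q - 1) e_v`, with `v`-component `q` and the other components `1` -/
theorem exists_unit_primeIdem (v : PrimeOver (q : ℕ) (𝓞 L)) :
    ∃ u : (Loc L q)ˣ, (u : Loc L q) = 1 + (((q : ℕ) : Loc L q) - 1) * primeIdem v := by
  obtain ⟨c, hc⟩ := isUnit_inclQ_natCast (L := L) (q := q)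
  have hq : inclQ L q ((q : ℕ) : ℚ_[(q : ℕ)]) = ((q : ℕ) : Loc L q) := map_natCast _ _
  rw [hq] at hc
  have hc' : ((q : ℕ) : Loc L q) * ((c⁻¹ : (Loc L q)ˣ) : Loc L q) = 1 := by
    rw [← hc]; exact c.mul_inv
  have he := primeIdem_mul_self v
  refine ⟨⟨1 + (((q : ℕ) : Loc L q) - 1) * primeIdem v,
    1 + (((c⁻¹ : (Loc L q)ˣ) : Loc L q) - 1) * primeIdem v, ?_, ?_⟩, rfl⟩
  · linear_combination ((((q : ℕ) : Loc L q) - 1) * (((c⁻¹ : (Loc L q)ˣ) : Loc L q) - 1)) * he
      + primeIdem v * hc'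
  · linear_combination ((((q : ℕ) : Loc L q) - 1) * (((c⁻¹ : (Loc L q)ˣ) : Loc L q) - 1)) * he
      + primeIdem v * hc'

open Fermat.Agent.CFT.Local.PowIndex in
/-- `q` has nontrivial valuation at every prime over `q` -/
theorem ordAt_ne_one_of_locToKv_eq (v : PrimeOver (q : ℕ) (𝓞 L)) (u : (Loc L q)ˣ)
    (hu : v.locToKv (u : Loc L q) = ((q : ℕ) : v.Kv)) : v.ordAt u ≠ 1 := by
  intro h
  obtain ⟨s, hs⟩ := (v.ordAt_eq_one_iff u).mp h
  rw [hu] at hs
  have h1 : (s : v.Loc) = ((q : ℕ) : v.Loc) := by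
    apply IsFractionRing.injective v.Loc v.Kv
    rw [hs, map_natCast]
  exact v.natCast_not_isUnit_of v.Loc (h1 ▸ s.isUnit)

/-- the `σ v`-component of `σ (e_v)` is `1` -/
theorem locToKv_smul_aut_primeIdem (σ : L ≃ₐ[ℚ] L) (v : PrimeOver (q : ℕ) (𝓞 L)) :
    (σ • v).locToKv (Loc.aut L q σ (primeIdem v)) = 1 := by
  -- it is an idempotent of a field
  have hid : (σ • v).locToKv (Loc.aut L q σ (primeIdem v)) *
      (σ • v).locToKv (Loc.aut L q σ (primeIdem v)) =
      (σ • v).locToKv (Loc.aut L q σ (primeIdem v)) := by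
    rw [← map_mul, ← map_mul, primeIdem_mul_self]
  have hid' : IsIdempotentElem ((σ • v).locToKv (Loc.aut L q σ (primeIdem v))) := hid
  rcases IsIdempotentElem.iff_eq_zero_or_one.mp hid' with h | h
  swap
  · exact h
  exfalso
  obtain ⟨u, hu⟩ := exists_unit_primeIdem v
  have h1 : v.locToKv (u : Loc L q) = ((q : ℕ) : v.Kv) := by
    rw [hu, map_add, map_one, map_mul, locToKv_primeIdem_self, map_sub, map_one, map_natCast]
    ring
  have h2 : (σ • v).locToKv ((autUnits σ q u : (Loc L q)ˣ) : Loc L q) = 1 := by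
    rw [autUnits_apply, hu, map_add, map_one, map_mul, map_add, map_one, map_mul, h, mul_zero,
      add_zero]
  have h3 : (σ • v).ordAt (autUnits σ q u) = 1 := by
    rw [PrimeOver.ordAt_eq_one_iff]
    exact ⟨1, by rw [h2, Units.val_one, map_one]⟩
  rw [PrimeOver.ordAt_smul_autUnits] at h3
  exact ordAt_ne_one_of_locToKv_eq v u h1 h3

/-- **Galois equivariance of the primitive idempotents** -/
theorem aut_primeIdem (σ : L ≃ₐ[ℚ] L) (v : PrimeOver (q : ℕ) (𝓞 L)) :
    Loc.aut L q σ (primeIdem v) = primeIdem (σ • v) := by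
  apply eq_of_forall_locToKv
  intro w
  rw [locToKv_primeIdem]
  by_cases hw : w = σ • v
  · rw [if_pos hw, hw]
    exact locToKv_smul_aut_primeIdem σ v
  · rw [if_neg hw]
    -- `w = σ • v'` with `v' ≠ v`
    have hw' : w = σ • (σ⁻¹ • w) := by rw [smul_inv_smul]
    have hne : σ⁻¹ • w ≠ v := by
      intro h
      apply hw
      rw [← h, smul_inv_smul]
    have h1 : w.locToKv (Loc.aut L q σ (primeIdem v)) *
        w.locToKv (Loc.aut L q σ (primeIdem (σ⁻¹ • w))) = 0 := by
      rw [← map_mul, ← map_mul, primeIdem_mul_of_ne hne.symm, map_zero, map_zero]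
    have h2 : w.locToKv (Loc.aut L q σ (primeIdem (σ⁻¹ • w))) = 1 := by
      have := locToKv_smul_aut_primeIdem σ (σ⁻¹ • w)
      rwa [smul_inv_smul] at this
    rwa [h2, mul_one] at h1

/-! ### Trivial decomposition groups give complete splitting -/

section Relative

variable {K : Type} [Field K] [NumberField K] [Algebra K L]

open Fermat.Agent.CFT.C5.NonSplit

/-- **(B)**: if no prime of `𝓞 L` over `q` is fixed by a nontrivial element of `Gal(L/K)`, then
`q` splits completely in `L/K` (tensor-model form). -/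
theorem splitsCompletely_of_trivial_stabilizer
    (h : ∀ (W : PrimeOver (q : ℕ) (𝓞 L)) (σ : L ≃ₐ[K] L),
      (σ.restrictScalars ℚ) • W = W → σ = 1) : SplitsCompletely K L q := by
  classical
  let _ : MulAction (L ≃ₐ[K] L) (PrimeOver (q : ℕ) (𝓞 L)) :=
    MulAction.compHom _ (galHom K L)
  exact splitsCompletely_of_free (K := K) (L := L) (q := q)
    (X := PrimeOver (q : ℕ) (𝓞 L)) primeIdem (fun x y hxy => primeIdem_mul_of_ne hxy)
    sum_primeIdem (fun σ x => aut_primeIdem (galHom K L σ) x) (fun σ x hx => h x σ hx)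

/-- **(B)**, ideal form: if no prime ideal of `𝓞 L` containing `q` is fixed by a nontrivial element
of `Gal(L/K)`, then `q` splits completely in `L/K`. -/
theorem splitsCompletely_of_forall_ideal
    (h : ∀ P : Ideal (𝓞 L), P.IsPrime → ((q : ℕ) : 𝓞 L) ∈ P → ∀ σ : L ≃ₐ[K] L,
      σ • P = P → σ = 1) : SplitsCompletely K L q := by
  refine splitsCompletely_of_trivial_stabilizer fun W σ hσ => ?_
  refine h W.ideal W.isMaximal.isPrime W.mem σ ?_
  rw [← PrimeOver.restrictScalars_smul, hσ]

/-- **(B)**, stabiliser form. -/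
theorem splitsCompletely_of_stabilizer_eq_bot
    (h : ∀ P : Ideal (𝓞 L), P.IsPrime → ((q : ℕ) : 𝓞 L) ∈ P →
      MulAction.stabilizer (L ≃ₐ[K] L) P = ⊥) : SplitsCompletely K L q := by
  refine splitsCompletely_of_forall_ideal fun P hP hq σ hσ => ?_
  have : σ ∈ MulAction.stabilizer (L ≃ₐ[K] L) P := hσ
  rw [h P hP hq] at this
  exact Subgroup.mem_bot.mp this

end Relative

end Fermat.Agent.CFT.C6.SplitIdem
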