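/-
PROJECT C, slice C6c/C6d (support): the Galois norm on ideles and idele classes in helper11's tensor
model (`Fermat.Agent.CFT.Idele`).

For a finite Galois extension `L/K` of fields algebraic over `ℚ`:
* `normJ K L : J L →* J K`, characterised by `map_normJ : J.map (inclHom K L) (normJ K L x) =
  ∏ σ : L ≃ₐ[K] L, galHom K L σ • x` (Galois descent `J_L^G = J_K`);
* `normJ_smul`, `normJ_map : normJ (J.map incl y) = y ^ [L:K]`, `normJ_diag` (principal ideles go
  to principal ideles, via `Algebra.norm`), `map_normJ_apply` (components), `normJ_eq_of_forall`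
  (componentwise criterion);
* `normC K L : C L →* C K` with `normC_toC`, `map_normC`, `normC_map`, `normC_smul`;
* transitivity in a Galois tower `K ⊆ L ⊆ M`: `normJ_normJ`, `normC_normC`;
* `prod_smul_eq_prod_prod`: `∏_{g ∈ G} g • x = ∏_{q ∈ G/N} s q • ∏_{n ∈ N} n • x`.
-/
import Fermat.Agent.CFT.Idele.ClassDescent

set_option autoImplicit false

noncomputable section

namespace Fermat.Agent.CFT.C6.IdeleNorm

open Fermat.Agent.CFT.Idele

/-! ### An abstract product decomposition -/

section Abstract

variable {G G' N Q A : Type*} [Group G] [Group G'] [Group N] [Group Q] [Fintype G] [Fintype N]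
  [Fintype Q] [CommGroup A] [MulDistribMulAction G' A]

/-- For an exact sequence `1 → N → G → Q → 1` with a set-theoretic section `s`,
`∏_{g ∈ G} g • x = ∏_{q ∈ Q} s q • ∏_{n ∈ N} n • x` (`G` acting through `φ : G →* G'`). -/
theorem prod_smul_eq_prod_prod (φ : G →* G') (ι : N →* G) (π : G →* Q)
    (hι : Function.Injective ι)
    (hex : ∀ g : G, π g = 1 ↔ g ∈ ι.range) (s : Q → G) (hs : ∀ q, π (s q) = q) (x : A) :
    ∏ g : G, φ g • x = ∏ q : Q, φ (s q) • ∏ n : N, φ (ι n) • x := by
  have hbij : Function.Bijective (fun qn : Q × N => s qn.1 * ι qn.2) := by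
    constructor
    · rintro ⟨q, n⟩ ⟨q', n'⟩ h
      have h' : s q * ι n = s q' * ι n' := h
      have h1 : π (s q * ι n) = π (s q' * ι n') := by rw [h']
      have hn : π (ι n) = 1 := (hex _).mpr ⟨n, rfl⟩
      have hn' : π (ι n') = 1 := (hex _).mpr ⟨n', rfl⟩
      rw [map_mul, map_mul, hs, hs, hn, hn', mul_one, mul_one] at h1
      subst h1
      have h2 : ι n = ι n' := mul_left_cancel h'
      rw [hι h2]
    · intro g
      have h1 : π ((s (π g))⁻¹ * g) = 1 := by
        rw [map_mul, map_inv, hs, inv_mul_cancel]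
      obtain ⟨n, hn⟩ := (hex _).mp h1
      exact ⟨(π g, n), by change s (π g) * ι n = g; rw [hn, mul_inv_cancel_left]⟩
  rw [← hbij.prod_comp (fun g : G => φ g • x), Fintype.prod_prod_type]
  refine Finset.prod_congr rfl fun q _ => ?_
  rw [Finset.smul_prod']
  refine Finset.prod_congr rfl fun n _ => ?_
  change φ (s q * ι n) • x = _
  rw [map_mul]
  exact mul_smul _ _ _

end Abstract

/-! ### The Galois norm on ideles -/

section Norm

variable (K L : Type*) [Field K] [Field L] [Algebra ℚ K] [Algebra ℚ L] [Algebra K L]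
  [IsScalarTower ℚ K L] [FiniteDimensional K L] [IsGalois K L]

/-- `x ↦ ∏_σ σ • x` on `J L`. -/
def normAux : J L →* J L where
  toFun x := ∏ σ : L ≃ₐ[K] L, galHom K L σ • x
  map_one' := by simp
  map_mul' x y := by simp [smul_mul', Finset.prod_mul_distrib]

omit [IsGalois K L] in
theorem normAux_apply (x : J L) : normAux K L x = ∏ σ : L ≃ₐ[K] L, galHom K L σ • x := rfl

omit [IsGalois K L] in
theorem smul_normAux (τ : L ≃ₐ[K] L) (x : J L) : galHom K L τ • normAux K L x = normAux K L x := by
  rw [normAux_apply, Finset.smul_prod']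
  simp_rw [← mul_smul, ← map_mul]
  exact Equiv.prod_comp (Equiv.mulLeft τ) (fun σ => galHom K L σ • x)

theorem normAux_mem_range (x : J L) : normAux K L x ∈ (J.map (inclHom K L)).range :=
  J.mem_range_map_inclHom K L _ (fun σ => smul_normAux K L σ x)

/-- The norm `J L → J K` of a finite Galois extension. -/
def normJ : J L →* J K where
  toFun x := Classical.choose (normAux_mem_range K L x)
  map_one' := by
    apply J.map_injective (inclHom K L)
    rw [Classical.choose_spec (normAux_mem_range K L 1), map_one, map_one]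
  map_mul' x y := by
    apply J.map_injective (inclHom K L)
    rw [Classical.choose_spec (normAux_mem_range K L (x * y)), map_mul, map_mul,
      Classical.choose_spec (normAux_mem_range K L x),
      Classical.choose_spec (normAux_mem_range K L y)]

theorem map_normJ (x : J L) :
    J.map (inclHom K L) (normJ K L x) = ∏ σ : L ≃ₐ[K] L, galHom K L σ • x :=
  Classical.choose_spec (normAux_mem_range K L x)

theorem normJ_smul (τ : L ≃ₐ[K] L) (x : J L) : normJ K L (galHom K L τ • x) = normJ K L x := by
  apply J.map_injective (inclHom K L)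
  rw [map_normJ, map_normJ]
  simp_rw [← mul_smul, ← map_mul]
  exact Equiv.prod_comp (Equiv.mulRight τ) (fun σ => galHom K L σ • x)

theorem normJ_map (y : J K) : normJ K L (J.map (inclHom K L) y) = y ^ Module.finrank K L := by
  apply J.map_injective (inclHom K L)
  rw [map_normJ, map_pow]
  have h : ∀ σ : L ≃ₐ[K] L, galHom K L σ • J.map (inclHom K L) y = J.map (inclHom K L) y :=
    fun σ => J.smul_map_of_fixes _ _ (galHom_inclHom K L σ) y
  simp_rw [h]
  rw [Finset.prod_const, Finset.card_univ, ← Nat.card_eq_fintype_card,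
    IsGalois.card_aut_eq_finrank]

/-- The components of the norm. -/
theorem map_normJ_apply (x : J L) (q : Nat.Primes) :
    Loc.map q (inclHom K L) (((normJ K L x : J K) : ∀ q : Nat.Primes, (Loc K q)ˣ) q : Loc K q)
      = ∏ σ : L ≃ₐ[K] L, Loc.aut L q (galHom K L σ)
          ((x : ∀ q : Nat.Primes, (Loc L q)ˣ) q : Loc L q) := by
  have h := congrArg (fun z : J L => ((z : ∀ q : Nat.Primes, (Loc L q)ˣ) q : Loc L q))
    (map_normJ K L x)
  rw [J.map_val, mapFun_apply] at h
  rw [h, SubmonoidClass.coe_finsetProd, Finset.prod_apply, Units.coe_prod]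
  refine Finset.prod_congr rfl fun σ _ => ?_
  exact smul_apply _ _ _

/-- A componentwise criterion for `normJ K L x = u`. -/
theorem normJ_eq_of_forall (x : J L) (u : J K)
    (h : ∀ q : Nat.Primes, ∏ σ : L ≃ₐ[K] L, Loc.aut L q (galHom K L σ)
      ((x : ∀ q : Nat.Primes, (Loc L q)ˣ) q : Loc L q)
        = Loc.map q (inclHom K L) ((u : ∀ q : Nat.Primes, (Loc K q)ˣ) q : Loc K q)) :
    normJ K L x = u := by
  apply Subtype.ext
  funext q
  apply Units.ext
  apply Loc.map_injective q (inclHom K L)
  rw [map_normJ_apply, h]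

variable [Algebra.IsAlgebraic ℚ K] [Algebra.IsAlgebraic ℚ L]

theorem normJ_diag (a : Lˣ) :
    normJ K L (diag L a) = diag K (Units.map (Algebra.norm K : L →* K) a) := by
  apply J.map_injective (inclHom K L)
  rw [map_normJ, J.map_diag]
  simp_rw [smul_diag]
  rw [← map_prod]
  congr 1
  apply Units.ext
  rw [Units.coe_prod]
  simp only [Units.coe_map, MonoidHom.coe_coe]
  rw [inclHom_apply, Algebra.norm_eq_prod_automorphisms]
  rfl

/-- The norm on idele class groups. -/
def normC : C L →* C K :=
  QuotientGroup.map (diag L).range (diag K).range (normJ K L) (by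
    rintro _ ⟨a, rfl⟩
    exact ⟨_, (normJ_diag K L a).symm⟩)

theorem normC_toC (x : J L) : normC K L (toC L x) = toC K (normJ K L x) := rfl

theorem map_normC (c : C L) :
    C.map (inclHom K L) (normC K L c) = ∏ σ : L ≃ₐ[K] L, galHom K L σ • c := by
  obtain ⟨x, rfl⟩ := toC_surjective L c
  rw [normC_toC, C.map_toC, map_normJ, map_prod]
  rfl

theorem normC_map (c : C K) : normC K L (C.map (inclHom K L) c) = c ^ Module.finrank K L := by
  obtain ⟨y, rfl⟩ := toC_surjective K c
  rw [C.map_toC, normC_toC, normJ_map, map_pow]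

theorem normC_smul (τ : L ≃ₐ[K] L) (c : C L) : normC K L (galHom K L τ • c) = normC K L c := by
  obtain ⟨x, rfl⟩ := toC_surjective L c
  rw [smul_toC, normC_toC, normC_toC, normJ_smul]

end Norm

/-! ### Transitivity -/

section Tower

variable (K L M : Type*) [Field K] [Field L] [Field M] [Algebra ℚ K] [Algebra ℚ L] [Algebra ℚ M]
  [Algebra K L] [Algebra L M] [Algebra K M] [IsScalarTower ℚ K L] [IsScalarTower ℚ L M]
  [IsScalarTower ℚ K M] [IsScalarTower K L M]

/-- `Gal(M/L) → Gal(M/K)`. -/
def resScal : (M ≃ₐ[L] M) →* (M ≃ₐ[K] M) where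
  toFun ρ := ρ.restrictScalars K
  map_one' := rfl
  map_mul' _ _ := rfl

omit [Algebra ℚ K] [Algebra ℚ L] [Algebra ℚ M] [IsScalarTower ℚ K L] [IsScalarTower ℚ L M]
  [IsScalarTower ℚ K M] in
theorem resScal_apply (ρ : M ≃ₐ[L] M) (a : M) : resScal K L M ρ a = ρ a := rfl

omit [Algebra ℚ K] [Algebra ℚ L] [Algebra ℚ M] [IsScalarTower ℚ K L] [IsScalarTower ℚ L M]
  [IsScalarTower ℚ K M] in
theorem resScal_injective : Function.Injective (resScal K L M) := by
  intro ρ ρ' h
  ext a
  exact congrArg (fun f : M ≃ₐ[K] M => f a) h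

omit [IsScalarTower ℚ K L] in
theorem galHom_resScal (ρ : M ≃ₐ[L] M) : galHom K M (resScal K L M ρ) = galHom L M ρ := rfl

theorem inclHom_comp : (inclHom L M).comp (inclHom K L) = inclHom K M :=
  AlgHom.ext fun a => (IsScalarTower.algebraMap_apply K L M a).symm

variable [Normal K L]

omit [Algebra ℚ K] [Algebra ℚ L] [Algebra ℚ M] [IsScalarTower ℚ K L] [IsScalarTower ℚ L M]
  [IsScalarTower ℚ K M] in
theorem restrictNormalHom_eq_one_iff (g : M ≃ₐ[K] M) :
    AlgEquiv.restrictNormalHom L g = 1 ↔ g ∈ (resScal K L M).range := by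
  constructor
  · intro h
    have hfix : ∀ a : L, g (algebraMap L M a) = algebraMap L M a := by
      intro a
      have h1 := AlgEquiv.restrictNormal_commutes g L a
      have h2 : g.restrictNormal L = 1 := h
      rw [h2] at h1
      exact h1.symm
    refine ⟨{ g with commutes' := hfix }, ?_⟩
    ext a
    rfl
  · rintro ⟨ρ, rfl⟩
    ext a
    apply (algebraMap L M).injective
    have h1 := AlgEquiv.restrictNormal_commutes (resScal K L M ρ) L a
    change algebraMap L M ((resScal K L M ρ).restrictNormal L a) = _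
    rw [h1, resScal_apply, ρ.commutes]
    rfl

variable [FiniteDimensional K L] [FiniteDimensional L M] [FiniteDimensional K M] [IsGalois K L]
  [IsGalois L M] [IsGalois K M]

/-- Transitivity of the idele norm in a Galois tower. -/
theorem normJ_normJ (x : J M) : normJ K L (normJ L M x) = normJ K M x := by
  apply J.map_injective (inclHom K M)
  have hsurj := AlgEquiv.restrictNormalHom_surjective (F := K) (K₁ := L) M
  choose s hs using hsurj
  rw [map_normJ, ← inclHom_comp K L M, J.map_comp, map_normJ, map_prod]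
  rw [prod_smul_eq_prod_prod (galHom K M) (resScal K L M) (AlgEquiv.restrictNormalHom L)
    (resScal_injective K L M) (restrictNormalHom_eq_one_iff K L M) s hs x]
  refine Finset.prod_congr rfl fun τ _ => ?_
  rw [J.map_smul (inclHom L M) (galHom K L τ) (galHom K M (s τ)), map_normJ]
  · rfl
  · intro a
    rw [inclHom_apply, inclHom_apply, galHom_apply, galHom_apply]
    have h1 := AlgEquiv.restrictNormal_commutes (s τ) L a
    have h2 : (s τ).restrictNormal L = τ := hs τ
    rw [h2] at h1
    exact h1.symm

variable [Algebra.IsAlgebraic ℚ K] [Algebra.IsAlgebraic ℚ L] [Algebra.IsAlgebraic ℚ M]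

theorem normC_normC (c : C M) : normC K L (normC L M c) = normC K M c := by
  obtain ⟨x, rfl⟩ := toC_surjective M c
  rw [normC_toC, normC_toC, normC_toC, normJ_normJ]

end Tower

end Fermat.Agent.CFT.C6.IdeleNorm
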