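import Mathlib
import Fermat.Agent.CFT.C4.FirstInequalityKummer
import Fermat.Agent.CFT.C5.NonSplit
import Fermat.Agent.CFT.C6.SplitIdem

/-!
# PROJECT C, slice C6-(L): a weak Chebotarev statement

`M/F` a finite Galois extension of number fields, `G' ◁ Gal(M/F)` a normal subgroup of odd prime
index `p`, `S` a finite set of rational primes.  Then there are a rational prime `q ∉ S`, a prime
`W` of `𝓞 M` over `q` and `τ ∈ Gal(M/F)` with `τ • W = W` and `τ ∉ G'`
(`exists_stabilizer_not_mem`): "decomposition groups outside `S` are not all contained in `G'`".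

* `exists_not_splitsCompletely_of_prime_degree` : (I3) for `E/F` Galois of odd prime degree, from the
  first inequality (`C4/FirstInequalityKummer`) and `C5/NonSplit`.
* `exists_prime_smul_eq_of_not_splitsCompletely` : contrapositive of `C6/SplitIdem`.
* `exists_lift_fixing_prime` : lifting a pair (prime, element of its decomposition group) along a
  tower `M/E/F` of Galois extensions.
* `exists_stabilizer_pow_ne_one` : the form for `M/F` cyclic of degree `p ^ (s + 1)`: some
  decomposition group outside `S` contains `τ` with `τ ^ (p ^ s) ≠ 1`.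
-/

set_option autoImplicit false
set_option linter.unusedSectionVars false

open scoped NumberField Pointwise
open NumberField Module

noncomputable section

namespace Fermat.Agent.CFT.C6.FrobGen

open Fermat.Agent.CFT.Idele Fermat.Agent.CFT.C5.NonSplit Fermat.Agent.CFT.C6.IdeleNorm
  Fermat.Agent.CFT.C4.FirstInequalityKummer Fermat.Agent.CFT.C6.SplitIdem

/-! ### Non-split primes in extensions of odd prime degree -/

section NonSplit

variable {K M : Type} [Field K] [Field M] [NumberField K] [NumberField M] [Algebra K M]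
  [IsGalois K M]

/-- **(I3)** for a Galois extension of odd prime degree: outside every finite set of primes there is
a prime which does not split completely. -/
theorem exists_not_splitsCompletely_of_prime_degree {p : ℕ} (hp : p.Prime) (hp2 : p ≠ 2)
    (hdeg : finrank K M = p) (S : Finset Nat.Primes) :
    ∃ q, q ∉ S ∧ ¬ SplitsCompletely K M q := by
  obtain ⟨x, hx⟩ := exists_notMem_sup_range_normJ (M := M) hp hp2 hdeg
  refine exists_not_splitsCompletely ⟨x, fun a y h => hx ?_⟩ S
  have hxe : x = diag K a * normJ K M y := by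
    apply J.map_injective (inclHom K M)
    rw [map_mul, map_normJ, J.map_diag, h]
    rfl
  rw [hxe]
  exact Subgroup.mul_mem_sup ⟨a, rfl⟩ ⟨y, rfl⟩

/-- Contrapositive of `SplitIdem.splitsCompletely_of_forall_ideal`. -/
theorem exists_prime_smul_eq_of_not_splitsCompletely {q : Nat.Primes}
    (hq : ¬ SplitsCompletely K M q) :
    ∃ (P : Ideal (𝓞 M)) (σ : M ≃ₐ[K] M), P.IsPrime ∧ ((q : ℕ) : 𝓞 M) ∈ P ∧ σ • P = P ∧ σ ≠ 1 := by
  by_contra hcon
  apply hq
  refine splitsCompletely_of_forall_ideal fun P hP hqP σ hσ => ?_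
  by_contra hσ1
  exact hcon ⟨P, σ, hP, hqP, hσ, hσ1⟩

end NonSplit

/-! ### Lifting decomposition groups along a tower -/

section Lift

variable {F E M : Type*} [Field F] [Field E] [Field M] [NumberField F] [NumberField E]
  [NumberField M] [Algebra F E] [Algebra E M] [Algebra F M] [IsScalarTower F E M]

theorem coe_algebraMap_ringOfIntegers (x : 𝓞 E) :
    ((algebraMap (𝓞 E) (𝓞 M) x : 𝓞 M) : M) = algebraMap E M (x : E) := rfl

variable [Normal F E]

/-- Restriction to a normal subextension is compatible with the actions on rings of integers. -/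
theorem smul_algebraMap_ringOfIntegers (τ : M ≃ₐ[F] M) (x : 𝓞 E) :
    τ • algebraMap (𝓞 E) (𝓞 M) x = algebraMap (𝓞 E) (𝓞 M) (τ.restrictNormal E • x) := by
  apply RingOfIntegers.ext
  show τ (algebraMap E M (x : E)) = algebraMap E M (τ.restrictNormal E (x : E))
  exact (AlgEquiv.restrictNormal_commutes τ E (x : E)).symm

theorem comap_smul_eq (τ : M ≃ₐ[F] M) (W : Ideal (𝓞 M)) :
    (τ • W).comap (algebraMap (𝓞 E) (𝓞 M)) =
      τ.restrictNormal E • W.comap (algebraMap (𝓞 E) (𝓞 M)) := by
  ext x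
  have h1 : (τ⁻¹).restrictNormal E = (τ.restrictNormal E)⁻¹ :=
    map_inv (AlgEquiv.restrictNormalHom (F := F) (K₁ := M) E) τ
  rw [Ideal.mem_comap, Ideal.mem_pointwise_smul_iff_inv_smul_mem,
    Ideal.mem_pointwise_smul_iff_inv_smul_mem, Ideal.mem_comap,
    smul_algebraMap_ringOfIntegers, h1]

variable [IsGalois F M] [IsGalois F E]

/-- **Lifting a decomposition group element.**  In a tower `M/E/F` of Galois extensions of number
fields, a prime `P` of `𝓞 E` fixed by `σ ∈ Gal(E/F)` lifts to a prime `W` of `𝓞 M` over `P` fixed by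
some `τ ∈ Gal(M/F)` restricting to `σ`. -/
theorem exists_lift_fixing_prime (P : Ideal (𝓞 E)) [P.IsPrime] (σ : E ≃ₐ[F] E) (hσ : σ • P = P) :
    ∃ (W : Ideal (𝓞 M)) (τ : M ≃ₐ[F] M), W.IsPrime ∧ W.comap (algebraMap (𝓞 E) (𝓞 M)) = P ∧
      τ • W = W ∧ τ.restrictNormal E = σ := by
  have hgal : IsGalois E M := IsGalois.tower_top_of_isGalois F E M
  -- a prime above `P`
  obtain ⟨W, -, hWprime, hWP⟩ := Ideal.exists_ideal_over_prime_of_isIntegral P (⊥ : Ideal (𝓞 M))
    (by
      intro x hx
      rw [Ideal.mem_comap, Ideal.mem_bot] at hx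
      have h0 : x = 0 := (FaithfulSMul.algebraMap_injective (𝓞 E) (𝓞 M)) (by rw [hx, map_zero])
      rw [h0]
      exact P.zero_mem)
  -- a lift of `σ`
  obtain ⟨τ', hτ'⟩ := AlgEquiv.restrictNormalHom_surjective (F := F) (K₁ := E) M σ
  have hτ'' : τ'.restrictNormal E = σ := hτ'
  -- `τ' • W` also lies over `P`
  have hW' : (τ' • W).comap (algebraMap (𝓞 E) (𝓞 M)) = P := by
    rw [comap_smul_eq, hτ'', hWP, hσ]
  have hW'prime : (τ' • W).IsPrime := Ideal.IsPrime.smul τ'
  have hl1 : W.LiesOver P := ⟨hWP.symm⟩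
  have hl2 : (τ' • W).LiesOver P := ⟨hW'.symm⟩
  obtain ⟨γ, hγ⟩ := Ideal.exists_smul_eq_of_isGaloisGroup P (τ' • W) W (M ≃ₐ[E] M)
  refine ⟨W, (γ.restrictScalars F) * τ', hWprime, hWP, ?_, ?_⟩
  · rw [mul_smul]
    exact hγ
  · have h1 : ((γ.restrictScalars F) * τ').restrictNormal E
        = (γ.restrictScalars F).restrictNormal E * τ'.restrictNormal E :=
      map_mul (AlgEquiv.restrictNormalHom (F := F) (K₁ := M) E) _ _
    have h2 : (γ.restrictScalars F).restrictNormal E = 1 := by
      ext x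
      apply (algebraMap E M).injective
      rw [AlgEquiv.restrictNormal_commutes]
      exact γ.commutes x
    rw [h1, h2, one_mul, hτ'']

end Lift

/-! ### The weak Chebotarev statement -/

section Main

/-- Tower form: `M/E/F` Galois, `E/F` of odd prime degree `p`.  Outside every finite set of primes
there are a prime `W` of `𝓞 M` and `τ ∈ Gal(M/F)` fixing `W` whose restriction to `E` is not
trivial. -/
theorem exists_fixing_restrictNormal_ne_one (F E M : Type) [Field F] [Field E] [Field M]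
    [NumberField F] [NumberField E] [NumberField M] [Algebra F E] [Algebra E M] [Algebra F M]
    [IsScalarTower F E M] [IsGalois F M] [IsGalois F E] {p : ℕ} (hp : p.Prime) (hp2 : p ≠ 2)
    (hdeg : finrank F E = p) (S : Finset Nat.Primes) :
    ∃ q, q ∉ S ∧ ∃ (W : Ideal (𝓞 M)) (τ : M ≃ₐ[F] M), W.IsPrime ∧ ((q : ℕ) : 𝓞 M) ∈ W ∧
      τ • W = W ∧ τ.restrictNormal E ≠ 1 := by
  obtain ⟨q, hqS, hq⟩ := exists_not_splitsCompletely_of_prime_degree (K := F) (M := E) hp hp2 hdeg S
  obtain ⟨P, σ, hP, hqP, hσP, hσ1⟩ := exists_prime_smul_eq_of_not_splitsCompletely hq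
  obtain ⟨W, τ, hW, hWP, hτW, hτσ⟩ := exists_lift_fixing_prime (M := M) P σ hσP
  refine ⟨q, hqS, W, τ, hW, ?_, hτW, by rw [hτσ]; exact hσ1⟩
  have h1 : algebraMap (𝓞 E) (𝓞 M) ((q : ℕ) : 𝓞 E) ∈ W := by
    rw [← Ideal.mem_comap, hWP]
    exact hqP
  rwa [map_natCast] at h1

/-- **Weak Chebotarev.**  `M/F` Galois, `G'` a normal subgroup of `Gal(M/F)` of odd prime index.
Outside every finite set `S` of rational primes there is a prime `W` of `𝓞 M` whose decomposition
group is not contained in `G'`. -/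
theorem exists_stabilizer_not_mem (F M : Type) [Field F] [Field M] [NumberField F] [NumberField M]
    [Algebra F M] [IsGalois F M] (p : ℕ) (hp : p.Prime) (hp2 : p ≠ 2) (G' : Subgroup (M ≃ₐ[F] M))
    [G'.Normal] (hidx : G'.index = p) (S : Finset Nat.Primes) :
    ∃ q, q ∉ S ∧ ∃ (W : Ideal (𝓞 M)) (τ : M ≃ₐ[F] M), W.IsPrime ∧ ((q : ℕ) : 𝓞 M) ∈ W ∧
      τ • W = W ∧ τ ∉ G' := by
  let E : IntermediateField F M := IntermediateField.fixedField G'
  have hdeg : finrank F E = p := by
    rw [← IsGalois.card_aut_eq_finrank F E,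
      ← Nat.card_congr (IsGalois.normalAutEquivQuotient G').toEquiv, ← Subgroup.index_eq_card, hidx]
  obtain ⟨q, hqS, W, τ, hW, hqW, hτW, hτ⟩ :=
    exists_fixing_restrictNormal_ne_one F E M hp hp2 hdeg S
  refine ⟨q, hqS, W, τ, hW, hqW, hτW, fun hmem => hτ ?_⟩
  have h1 : τ ∈ E.fixingSubgroup := by
    rw [IntermediateField.fixingSubgroup_fixedField]
    exact hmem
  rw [← IntermediateField.restrictNormalHom_ker] at h1
  exact h1

end Main

/-! ### Cyclic extensions of `p`-power degree -/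

section Cyclic

/-- In a cyclic group of order `p ^ (s + 1)` the elements killed by `p ^ s` form a (normal) subgroup
of index `p`. -/
theorem exists_normal_index_prime_of_isCyclic {G : Type*} [Group G] [Finite G] [IsCyclic G]
    {p s : ℕ} (hp : p.Prime) (hcard : Nat.card G = p ^ (s + 1)) :
    ∃ G' : Subgroup G, G'.Normal ∧ G'.index = p ∧ ∀ τ : G, τ ^ (p ^ s) = 1 → τ ∈ G' := by
  classical
  let _ : CommGroup G := IsCyclic.commGroup
  obtain ⟨g, hg⟩ := IsCyclic.exists_generator (α := G)
  have hord : orderOf g = p ^ (s + 1) := by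
    rw [orderOf_eq_card_of_forall_mem_zpowers hg, hcard]
  refine ⟨(powMonoidHom (p ^ s) : G →* G).ker, inferInstance, ?_, fun τ hτ => hτ⟩
  rw [Subgroup.index_ker]
  have hrange : ((powMonoidHom (p ^ s) : G →* G).range : Set G) = Subgroup.zpowers (g ^ (p ^ s)) := by
    ext x
    constructor
    · rintro ⟨y, rfl⟩
      obtain ⟨k, rfl⟩ := hg y
      refine ⟨k, ?_⟩
      show (g ^ p ^ s) ^ k = (g ^ k) ^ (p ^ s)
      rw [← zpow_natCast, ← zpow_natCast, ← zpow_mul, ← zpow_mul, mul_comm]
    · rintro ⟨k, rfl⟩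
      refine ⟨g ^ k, ?_⟩
      show (g ^ k) ^ (p ^ s) = (g ^ p ^ s) ^ k
      rw [← zpow_natCast, ← zpow_natCast, ← zpow_mul, ← zpow_mul, mul_comm]
  have h1 : Nat.card (powMonoidHom (p ^ s) : G →* G).range = Nat.card (Subgroup.zpowers (g ^ (p ^ s))) := by
    apply Nat.card_congr
    exact Equiv.setCongr hrange
  rw [h1, Nat.card_zpowers, orderOf_pow' g (pow_ne_zero s hp.ne_zero), hord,
    Nat.gcd_eq_right (pow_dvd_pow p (Nat.le_succ s)), pow_succ, Nat.mul_div_cancel_left _ (pow_pos hp.pos s)]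

/-- **Weak Chebotarev, cyclic `p`-power form.**  `M/F` cyclic of degree `p ^ (s + 1)`, `p` odd.
Outside every finite set of rational primes there is a prime `W` of `𝓞 M` whose decomposition group
contains an element `τ` with `τ ^ (p ^ s) ≠ 1` (i.e. a generator of `Gal(M/F)`). -/
theorem exists_stabilizer_pow_ne_one (F M : Type) [Field F] [Field M] [NumberField F]
    [NumberField M] [Algebra F M] [IsGalois F M] [IsCyclic (M ≃ₐ[F] M)] (p : ℕ) (hp : p.Prime)
    (hp2 : p ≠ 2) (s : ℕ) (hdeg : finrank F M = p ^ (s + 1)) (S : Finset Nat.Primes) :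
    ∃ q, q ∉ S ∧ ∃ (W : Ideal (𝓞 M)) (τ : M ≃ₐ[F] M), W.IsPrime ∧ ((q : ℕ) : 𝓞 M) ∈ W ∧
      τ • W = W ∧ τ ^ (p ^ s) ≠ 1 := by
  have hcard : Nat.card (M ≃ₐ[F] M) = p ^ (s + 1) := by
    rw [IsGalois.card_aut_eq_finrank, hdeg]
  obtain ⟨G', hn, hidx, hG'⟩ := exists_normal_index_prime_of_isCyclic hp hcard
  obtain ⟨q, hq, W, τ, hW, hqW, hτW, hτ⟩ := exists_stabilizer_not_mem F M p hp hp2 G' hidx S
  exact ⟨q, hq, W, τ, hW, hqW, hτW, fun h => hτ (hG' τ h)⟩

end Cyclic

end Fermat.Agent.CFT.C6.FrobGen
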