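/-
PROJECT C, slice C6 (B'): complete splitting versus trivial decomposition groups, and composita.

* `forall_ideal_of_splitsCompletely` : the converse of `SplitIdem.splitsCompletely_of_forall_ideal`:
  if `q` splits completely in `L/K` (tensor-model form of `C5.NonSplit`), then no prime of `𝓞 L`
  over `q` is fixed by a nontrivial element of `Gal(L/K)`;
* `splitsCompletely_iff_forall_ideal`;
* `splitsCompletely_of_generated` : if `M/K` is generated by normal subextensions `E i` in each of
  which `q` splits completely, then `q` splits completely in `M/K`.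
-/
import Fermat.Agent.CFT.C6.SplitIdem
import Fermat.Agent.CFT.C6.FrobGen

set_option autoImplicit false

open scoped TensorProduct NumberField Pointwise Fermat.Agent.CFT.Idele

open Fermat.Agent.CFT.Idele Fermat.Agent.CFT.Dict

namespace Fermat.Agent.CFT.C6.SplitCompositum

open Fermat.Agent.CFT.C6.SplitIdem Fermat.Agent.CFT.C5.NonSplit

section Converse

variable {L : Type} [Field L] [NumberField L] {q : Nat.Primes}

/-- Vanishing of a component is Galois equivariant. -/
theorem locToKv_smul_aut_eq_zero_iff (σ : L ≃ₐ[ℚ] L) (v : PrimeOver (q : ℕ) (𝓞 L))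
    (x : Loc L q) : (σ • v).locToKv (Loc.aut L q σ x) = 0 ↔ v.locToKv x = 0 := by
  rw [← mul_primeIdem_eq_zero_iff, ← aut_primeIdem, ← map_mul, map_eq_zero_iff _
    (Loc.aut L q σ).injective, mul_primeIdem_eq_zero_iff]

variable {K : Type} [Field K] [NumberField K] [Algebra K L]

/-- **Converse of (B)**: if `q` splits completely in `L/K`, then no prime of `𝓞 L` over `q` is
fixed by a nontrivial element of `Gal(L/K)`. -/
theorem forall_primeOver_of_splitsCompletely (h : SplitsCompletely K L q)
    (v : PrimeOver (q : ℕ) (𝓞 L)) (σ : L ≃ₐ[K] L) (hσ : (galHom K L σ) • v = v) : σ = 1 := by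
  classical
  obtain ⟨e, horth, hsum⟩ := h
  -- some translate of `e` has a nonzero component at `v`
  have h1 : ∃ τ : L ≃ₐ[K] L, v.locToKv (Loc.aut L q (galHom K L τ) e) ≠ 0 := by
    by_contra hcon
    simp only [not_exists, not_not] at hcon
    have h2 := congrArg v.locToKv hsum
    rw [map_sum, map_one, Finset.sum_eq_zero (fun τ _ => hcon τ)] at h2
    exact zero_ne_one h2
  obtain ⟨τ, hτ⟩ := h1
  -- so has its `σ`-translate
  have h3 : v.locToKv (Loc.aut L q (galHom K L (σ * τ)) e) ≠ 0 := by
    intro h0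
    apply hτ
    rw [map_mul, Loc.aut_mul_apply] at h0
    have h4 := (locToKv_smul_aut_eq_zero_iff (galHom K L σ) v
      (Loc.aut L q (galHom K L τ) e)).mp (by rw [hσ]; exact h0)
    exact h4
  -- orthogonality forces `σ * τ = τ`
  by_contra hne
  have hne' : σ * τ ≠ τ := fun h => hne (by simpa using h)
  have h5 := congrArg v.locToKv (horth (σ * τ) τ hne')
  rw [map_mul, map_zero] at h5
  rcases mul_eq_zero.mp h5 with h6 | h6
  · exact h3 h6
  · exact hτ h6

/-- **Converse of (B)**, ideal form. -/
theorem forall_ideal_of_splitsCompletely (h : SplitsCompletely K L q)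
    (P : Ideal (𝓞 L)) (hP : P.IsPrime) (hq : ((q : ℕ) : 𝓞 L) ∈ P) (σ : L ≃ₐ[K] L)
    (hσ : σ • P = P) : σ = 1 := by
  have hP0 : P ≠ ⊥ := by
    intro h0
    rw [h0, Ideal.mem_bot] at hq
    exact q.2.ne_zero (by exact_mod_cast hq)
  have hmax : P.IsMaximal := Ideal.IsPrime.isMaximal hP hP0
  refine forall_primeOver_of_splitsCompletely h ⟨P, hmax, hq⟩ σ ?_
  apply PrimeOver.ext_ideal
  change ((σ.restrictScalars ℚ) • (⟨P, hmax, hq⟩ : PrimeOver (q : ℕ) (𝓞 L))).ideal = P
  rw [PrimeOver.restrictScalars_smul]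
  exact hσ

/-- `q` splits completely in `L/K` iff all decomposition groups over `q` are trivial. -/
theorem splitsCompletely_iff_forall_ideal :
    SplitsCompletely K L q ↔ ∀ P : Ideal (𝓞 L), P.IsPrime → ((q : ℕ) : 𝓞 L) ∈ P →
      ∀ σ : L ≃ₐ[K] L, σ • P = P → σ = 1 :=
  ⟨forall_ideal_of_splitsCompletely, splitsCompletely_of_forall_ideal⟩

end Converse

section Compositum

variable {K M : Type} [Field K] [NumberField K] [Field M] [NumberField M] [Algebra K M]
  {ι : Type*} (E : ι → Type) [∀ i, Field (E i)] [∀ i, NumberField (E i)]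
  [∀ i, Algebra K (E i)] [∀ i, Algebra (E i) M] [∀ i, IsScalarTower K (E i) M]
  [∀ i, Normal K (E i)] {q : Nat.Primes}

/-- If `M/K` is generated by normal subextensions in each of which `q` splits completely, then
`q` splits completely in `M/K`. -/
theorem splitsCompletely_of_generated
    (hgen : ∀ g : M ≃ₐ[K] M, (∀ i (x : E i), g (algebraMap (E i) M x) = algebraMap (E i) M x) →
      g = 1)
    (h : ∀ i, SplitsCompletely K (E i) q) : SplitsCompletely K M q := by
  refine splitsCompletely_of_forall_ideal fun W hW hq τ hτ => ?_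
  apply hgen
  intro i x
  have h1 : (τ.restrictNormal (E i)) • W.comap (algebraMap (𝓞 (E i)) (𝓞 M)) =
      W.comap (algebraMap (𝓞 (E i)) (𝓞 M)) := by
    rw [← FrobGen.comap_smul_eq, hτ]
  have hq' : ((q : ℕ) : 𝓞 (E i)) ∈ W.comap (algebraMap (𝓞 (E i)) (𝓞 M)) := by
    rw [Ideal.mem_comap, map_natCast]
    exact hq
  have h2 : τ.restrictNormal (E i) = 1 :=
    forall_ideal_of_splitsCompletely (h i) _ (Ideal.IsPrime.comap _) hq' _ h1
  have h3 := AlgEquiv.restrictNormal_commutes τ (E i) x
  rw [h2, AlgEquiv.one_apply] at h3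
  exact h3.symm

end Compositum

end Fermat.Agent.CFT.C6.SplitCompositum
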