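/-
PROJECT C, slice C6a: `p`-power roots in `ℤ_[p]` (`p` odd).

* `dvd_sub_one_of_pow_dvd` (a lifting-the-exponent statement): if `z ≡ 1 mod p` and
  `z ^ p ≡ 1 mod p ^ (j + 1)` then `z ≡ 1 mod p ^ j`;
* `exists_pow_prime_eq`: `y ≡ 1 mod p ^ (j + 1)`, `j ≥ 1`  ⇒  `y = z ^ p` with `z ≡ 1 mod p ^ j`;
* `exists_pow_prime_pow_eq`: `y ≡ 1 mod p ^ (m + 1)`  ⇒  `y = x ^ (p ^ m)` with `x ≡ 1 mod p`;
* `pow_prime_pow_sub_one_dvd`: conversely `x ≡ 1 mod p` ⇒ `x ^ (p ^ m) ≡ 1 mod p ^ (m + 1)`;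
* unit versions: `u ^ (p - 1) ≡ 1 mod p ^ (m + 1)` iff `u` is a `p ^ m`-th power in `ℤ_[p]ˣ`.
-/
import Mathlib

set_option autoImplicit false

namespace Fermat.Agent.CFT.C6.PadicPow

open Polynomial

variable {p : ℕ} [hp : Fact p.Prime]

theorem p_ne_zero' : (p : ℤ_[p]) ≠ 0 := by
  exact_mod_cast hp.out.ne_zero

/-- `(1 + p^j s)^p = 1 + p^(j+1) (s + p^j y)` for `p` odd and `j ≥ 1`. -/
theorem one_add_pow_mul_pow (hp2 : p ≠ 2) (j : ℕ) (hj : 1 ≤ j) (s : ℤ_[p]) :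
    ∃ y : ℤ_[p], (1 + (p : ℤ_[p]) ^ j * s) ^ p = 1 + (p : ℤ_[p]) ^ (j + 1) * (s + (p : ℤ_[p]) ^ j * y) := by
  have hdvd : (p : ℤ_[p]) * (p : ℤ_[p]) ^ j * (p : ℤ_[p]) ^ j ∣ ((p : ℤ_[p]) ^ j) ^ p := by
    rw [← pow_succ', ← pow_add, ← pow_mul]
    apply pow_dvd_pow
    have h3 : 3 ≤ p := by
      have := hp.out.two_le
      omega
    nlinarith
  obtain ⟨y, hy⟩ := ZMod.exists_one_add_mul_pow_prime_eq hp.out (dvd_refl ((p : ℤ_[p]) ^ j)) hdvd s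
  exact ⟨y, by rw [hy, pow_succ']⟩

/-- Lifting the exponent: `z ≡ 1 mod p`, `z ^ p ≡ 1 mod p ^ (j + 1)` ⇒ `z ≡ 1 mod p ^ j`. -/
theorem dvd_sub_one_of_pow_dvd (hp2 : p ≠ 2) (z : ℤ_[p]) (hz : (p : ℤ_[p]) ∣ z - 1) :
    ∀ j : ℕ, (p : ℤ_[p]) ^ (j + 1) ∣ z ^ p - 1 → (p : ℤ_[p]) ^ j ∣ z - 1 := by
  intro j
  induction j with
  | zero => intro _; simp
  | succ j ih =>
    intro h
    rcases Nat.eq_zero_or_pos j with rfl | hj
    · simpa using hz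
    have h1 : (p : ℤ_[p]) ^ j ∣ z - 1 := ih ((pow_dvd_pow _ (Nat.le_succ _)).trans h)
    obtain ⟨s, hs⟩ := h1
    have hz' : z = 1 + (p : ℤ_[p]) ^ j * s := by rw [← hs]; ring
    obtain ⟨y, hy⟩ := one_add_pow_mul_pow hp2 j hj s
    rw [hz', hy, add_sub_cancel_left, pow_succ (p : ℤ_[p]) (j + 1)] at h
    have h2 : (p : ℤ_[p]) ∣ s + (p : ℤ_[p]) ^ j * y :=
      (mul_dvd_mul_iff_left (pow_ne_zero _ p_ne_zero')).1 h
    have h3 : (p : ℤ_[p]) ∣ s := by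
      have h4 : (p : ℤ_[p]) ∣ (p : ℤ_[p]) ^ j * y :=
        Dvd.dvd.mul_right (dvd_pow_self _ (by omega)) _
      exact (dvd_add_left h4).1 h2
    obtain ⟨s', hs'⟩ := h3
    exact ⟨s', by rw [hz', hs', pow_succ]; ring⟩

/-- **Hensel step**: for `p` odd and `j ≥ 1`, every `y ≡ 1 mod p ^ (j + 1)` is a `p`-th power
`z ^ p` with `z ≡ 1 mod p ^ j`. -/
theorem exists_pow_prime_eq (hp2 : p ≠ 2) (j : ℕ) (hj : 1 ≤ j) (y : ℤ_[p])
    (hy : (p : ℤ_[p]) ^ (j + 1) ∣ y - 1) :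
    ∃ z : ℤ_[p], (p : ℤ_[p]) ^ j ∣ z - 1 ∧ z ^ p = y := by
  obtain ⟨s, hs⟩ := hy
  have hy' : y = 1 + (p : ℤ_[p]) ^ (j + 1) * s := by rw [← hs]; ring
  obtain ⟨y', hy''⟩ := one_add_pow_mul_pow hp2 j hj s
  set a : ℤ_[p] := 1 + (p : ℤ_[p]) ^ j * s with ha
  -- the polynomial `X ^ p - y`
  set F : ℤ_[p][X] := X ^ p - C y with hF
  have hFa : aeval a F = (p : ℤ_[p]) ^ (2 * j + 1) * y' := by
    simp only [hF, map_sub, map_pow, aeval_X, aeval_C, Algebra.algebraMap_self, RingHom.id_apply]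
    rw [hy'', hy']
    ring
  have hF' : aeval a (derivative F) = (p : ℤ_[p]) * a ^ (p - 1) := by
    simp only [hF, derivative_sub, derivative_X_pow, derivative_C, sub_zero, map_mul, map_pow,
      aeval_X, map_natCast]
  have hpj : ‖(p : ℤ_[p]) ^ j * s‖ < 1 := by
    rw [norm_mul, PadicInt.norm_p_pow]
    have h1 : (p : ℝ) ^ (-(j : ℤ)) < 1 := by
      apply zpow_lt_one_of_neg₀
      · exact_mod_cast hp.out.one_lt
      · omega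
    calc (p : ℝ) ^ (-(j : ℤ)) * ‖s‖ ≤ (p : ℝ) ^ (-(j : ℤ)) * 1 := by
          apply mul_le_mul_of_nonneg_left (PadicInt.norm_le_one s)
          positivity
      _ < 1 := by rw [mul_one]; exact h1
  have hna : ‖a‖ = 1 := by
    apply le_antisymm (PadicInt.norm_le_one a)
    by_contra hlt
    push Not at hlt
    have h1 : (1 : ℤ_[p]) = a + -((p : ℤ_[p]) ^ j * s) := by rw [ha]; ring
    have h2 : ‖(1 : ℤ_[p])‖ ≤ max ‖a‖ ‖-((p : ℤ_[p]) ^ j * s)‖ := by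
      conv_lhs => rw [h1]
      exact PadicInt.nonarchimedean _ _
    rw [norm_neg, norm_one] at h2
    have h3 : max ‖a‖ ‖(p : ℤ_[p]) ^ j * s‖ < 1 := max_lt hlt hpj
    linarith
  have hnF' : ‖aeval a (derivative F)‖ = (p : ℝ)⁻¹ := by
    rw [hF', norm_mul, norm_pow, hna, one_pow, mul_one, PadicInt.norm_p]
  have hnorm : ‖aeval a F‖ < ‖aeval a (derivative F)‖ ^ 2 := by
    rw [hnF', hFa, norm_mul, PadicInt.norm_p_pow]
    have hp1 : (1 : ℝ) < p := by exact_mod_cast hp.out.one_lt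
    have h1 : (p : ℝ) ^ (-((2 * j + 1 : ℕ) : ℤ)) < ((p : ℝ)⁻¹) ^ 2 := by
      rw [← zpow_neg_one, ← zpow_natCast, ← zpow_mul]
      apply zpow_lt_zpow_right₀ hp1
      push_cast
      omega
    calc (p : ℝ) ^ (-((2 * j + 1 : ℕ) : ℤ)) * ‖y'‖ ≤ (p : ℝ) ^ (-((2 * j + 1 : ℕ) : ℤ)) * 1 := by
          apply mul_le_mul_of_nonneg_left (PadicInt.norm_le_one y')
          positivity
      _ < ((p : ℝ)⁻¹) ^ 2 := by rw [mul_one]; exact h1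
  obtain ⟨z, hz0, hza, -, -⟩ := hensels_lemma hnorm
  have hzp : z ^ p = y := by
    simp only [hF, map_sub, map_pow, aeval_X, aeval_C, Algebra.algebraMap_self,
      RingHom.id_apply] at hz0
    exact sub_eq_zero.1 hz0
  refine ⟨z, ?_, hzp⟩
  -- `z ≡ a ≡ 1 mod p`
  have hz1 : (p : ℤ_[p]) ∣ z - 1 := by
    have h1 : (p : ℤ_[p]) ∣ z - a := by
      rw [← PadicInt.norm_lt_one_iff_dvd]
      rw [hnF'] at hza
      have hp1 : (p : ℝ)⁻¹ < 1 := by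
        apply inv_lt_one_of_one_lt₀
        exact_mod_cast hp.out.one_lt
      linarith
    have h2 : (p : ℤ_[p]) ∣ a - 1 := by
      rw [ha, add_sub_cancel_left]
      exact Dvd.dvd.mul_right (dvd_pow_self _ (by omega)) _
    have : z - 1 = (z - a) + (a - 1) := by ring
    rw [this]
    exact dvd_add h1 h2
  apply dvd_sub_one_of_pow_dvd hp2 z hz1 j
  rw [hzp, hy', add_sub_cancel_left]
  exact Dvd.intro _ rfl

/-- Every `y ≡ 1 mod p ^ (m + 1)` in `ℤ_[p]` (`p` odd) is a `p ^ m`-th power of some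
`x ≡ 1 mod p`. -/
theorem exists_pow_prime_pow_eq (hp2 : p ≠ 2) (m : ℕ) (y : ℤ_[p])
    (hy : (p : ℤ_[p]) ^ (m + 1) ∣ y - 1) :
    ∃ x : ℤ_[p], (p : ℤ_[p]) ∣ x - 1 ∧ x ^ (p ^ m) = y := by
  induction m generalizing y with
  | zero => exact ⟨y, by simpa using hy, by simp⟩
  | succ m ih =>
    obtain ⟨z, hz1, hz2⟩ := exists_pow_prime_eq hp2 (m + 1) (by omega) y hy
    obtain ⟨x, hx1, hx2⟩ := ih z hz1
    exact ⟨x, hx1, by rw [pow_succ, pow_mul, hx2, hz2]⟩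

/-- Conversely, `x ≡ 1 mod p` ⇒ `x ^ (p ^ m) ≡ 1 mod p ^ (m + 1)`. -/
theorem pow_prime_pow_sub_one_dvd (x : ℤ_[p]) (hx : (p : ℤ_[p]) ∣ x - 1) (m : ℕ) :
    (p : ℤ_[p]) ^ (m + 1) ∣ x ^ (p ^ m) - 1 := by
  induction m with
  | zero => simpa using hx
  | succ m ih =>
    obtain ⟨s, hs⟩ := ih
    have h1 : x ^ p ^ (m + 1) = (1 + (p : ℤ_[p]) ^ (m + 1) * s) ^ p := by
      rw [pow_succ, pow_mul, ← hs]; ring
    have hdvd : (p : ℤ_[p]) * (p : ℤ_[p]) ^ (m + 1) * 1 ∣ ((p : ℤ_[p]) ^ (m + 1)) ^ p := by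
      rw [mul_one, ← pow_succ', ← pow_mul]
      apply pow_dvd_pow
      have h2 := hp.out.two_le
      nlinarith
    obtain ⟨y, hy⟩ := ZMod.exists_one_add_mul_pow_prime_eq hp.out
      (one_dvd ((p : ℤ_[p]) ^ (m + 1))) hdvd s
    rw [h1, hy, add_sub_cancel_left, ← pow_succ']
    exact Dvd.intro _ rfl

/-! ### Units of `ℤ_[p]` -/

/-- Fermat: `t ^ (p - 1) ≡ 1 mod p` for a unit `t` of `ℤ_[p]`. -/
theorem dvd_unit_pow_sub_one (t : ℤ_[p]ˣ) : (p : ℤ_[p]) ∣ (t : ℤ_[p]) ^ (p - 1) - 1 := by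
  rw [← Ideal.mem_span_singleton, ← PadicInt.maximalIdeal_eq_span_p, ← PadicInt.ker_toZMod,
    RingHom.mem_ker, map_sub, map_pow, map_one, sub_eq_zero]
  apply ZMod.pow_card_sub_one_eq_one
  intro h
  have h1 : (t : ℤ_[p]) ∈ RingHom.ker (PadicInt.toZMod (p := p)) := h
  rw [PadicInt.ker_toZMod] at h1
  exact (IsLocalRing.mem_maximalIdeal _).1 h1 t.isUnit

/-- A `p ^ m`-th power `u` in `ℤ_[p]ˣ` satisfies `u ^ (p - 1) ≡ 1 mod p ^ (m + 1)`. -/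
theorem dvd_pow_sub_one_of_eq_pow (m : ℕ) (t : ℤ_[p]ˣ) :
    (p : ℤ_[p]) ^ (m + 1) ∣ ((t ^ (p ^ m) : ℤ_[p]ˣ) : ℤ_[p]) ^ (p - 1) - 1 := by
  have h := pow_prime_pow_sub_one_dvd ((t : ℤ_[p]) ^ (p - 1)) (dvd_unit_pow_sub_one t) m
  rw [Units.val_pow_eq_pow_val, ← pow_mul, mul_comm, pow_mul]
  exact h

/-- For `p` odd: a unit `u` of `ℤ_[p]` with `u ^ (p - 1) ≡ 1 mod p ^ (m + 1)` is a `p ^ m`-th
power in `ℤ_[p]ˣ`. -/
theorem exists_unit_pow_eq (hp2 : p ≠ 2) (m : ℕ) (u : ℤ_[p]ˣ)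
    (hu : (p : ℤ_[p]) ^ (m + 1) ∣ (u : ℤ_[p]) ^ (p - 1) - 1) :
    ∃ t : ℤ_[p]ˣ, t ^ (p ^ m) = u := by
  obtain ⟨x, -, hx⟩ := exists_pow_prime_pow_eq hp2 m _ hu
  -- `x` is a unit
  have hxu : IsUnit x := by
    have h1 : IsUnit (x ^ (p ^ m)) := by
      rw [hx, ← Units.val_pow_eq_pow_val]
      exact (u ^ (p - 1)).isUnit
    exact (isUnit_pow_iff (pow_ne_zero _ hp.out.ne_zero)).1 h1
  obtain ⟨x', rfl⟩ := hxu
  have hx' : x' ^ (p ^ m) = u ^ (p - 1) := by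
    apply Units.ext
    simpa using hx
  -- Bezout for the exponents
  have hcop : IsCoprime ((p - 1 : ℕ) : ℤ) ((p ^ m : ℕ) : ℤ) := by
    rw [Int.isCoprime_iff_gcd_eq_one, Int.gcd_natCast_natCast]
    apply Nat.Coprime.pow_right
    have h1 : p - 1 + 1 = p := Nat.sub_add_cancel hp.out.one_le
    rw [Nat.coprime_comm, (Nat.Prime.coprime_iff_not_dvd hp.out)]
    intro hdvd
    have := Nat.le_of_dvd (by have := hp.out.two_le; omega) hdvd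
    omega
  obtain ⟨a, b, hab⟩ := hcop
  refine ⟨x' ^ a * u ^ b, ?_⟩
  calc (x' ^ a * u ^ b) ^ (p ^ m) = (x' ^ (p ^ m)) ^ a * u ^ (b * ((p ^ m : ℕ) : ℤ)) := by
        rw [mul_pow, ← zpow_natCast (x' ^ a), ← zpow_mul, mul_comm a, zpow_mul, zpow_natCast,
          ← zpow_natCast (u ^ b), ← zpow_mul]
    _ = u ^ (a * ((p - 1 : ℕ) : ℤ)) * u ^ (b * ((p ^ m : ℕ) : ℤ)) := by
        rw [hx', ← zpow_natCast u, ← zpow_mul, mul_comm a]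
    _ = u := by rw [← zpow_add, hab, zpow_one]

/-- For `p` odd: `u ^ (p - 1) ≡ 1 mod p ^ (m + 1)` iff `u` is a `p ^ m`-th power. -/
theorem unit_pow_sub_one_dvd_iff (hp2 : p ≠ 2) (m : ℕ) (u : ℤ_[p]ˣ) :
    (p : ℤ_[p]) ^ (m + 1) ∣ (u : ℤ_[p]) ^ (p - 1) - 1 ↔ ∃ t : ℤ_[p]ˣ, t ^ (p ^ m) = u := by
  constructor
  · exact exists_unit_pow_eq hp2 m u
  · rintro ⟨t, rfl⟩
    exact dvd_pow_sub_one_of_eq_pow m t

end Fermat.Agent.CFT.C6.PadicPow
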