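/-
PROJECT C, slice C6a/C6c: the explicit local symbol of the cyclotomic `ℤ_p`-tower at `p`,
and the counting trick pinning down the local norm group.

* `unitPart : ℚ_[p]ˣ →* ℤ_[p]ˣ`, `x ↦ x * p ^ (-v(x))`;
* `theta m : ℚ_[p]ˣ →* (ZMod (p ^ (m + 1)))ˣ`, `x ↦ (unitPart x) ^ (p - 1) mod p ^ (m + 1)`;
* `theta_eq_one_iff_exists`: `ker (theta m) = ⟨p⟩ · (ℚ_[p]ˣ) ^ (p ^ m)`;
* `index_ker_theta`: this kernel has index `p ^ m`;
* `eq_ker_theta_of_index`: **a subgroup of `ℚ_[p]ˣ` of index `p ^ m` containing `p` is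
  `ker (theta m)`** (no local class field theory, only counting).
-/
import Fermat.Agent.CFT.C6.PadicPow

set_option autoImplicit false

namespace Fermat.Agent.CFT.C6.LocalAtP

open Fermat.Agent.CFT.C6.PadicPow

variable {p : ℕ} [hp : Fact p.Prime]

theorem padic_p_ne_zero : (p : ℚ_[p]) ≠ 0 := by
  exact_mod_cast hp.out.ne_zero

/-- `p` as a unit of `ℚ_[p]`. -/
noncomputable def pUnit (p : ℕ) [hp : Fact p.Prime] : ℚ_[p]ˣ := Units.mk0 (p : ℚ_[p]) padic_p_ne_zero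

@[simp] theorem coe_pUnit : ((pUnit p : ℚ_[p]ˣ) : ℚ_[p]) = p := rfl

theorem norm_mul_zpow_neg_valuation (x : ℚ_[p]ˣ) :
    ‖(x : ℚ_[p]) * (p : ℚ_[p]) ^ (-(x : ℚ_[p]).valuation)‖ = 1 := by
  have hp0 : (p : ℝ) ≠ 0 := by exact_mod_cast hp.out.ne_zero
  rw [norm_mul, Padic.norm_eq_zpow_neg_valuation x.ne_zero, norm_zpow, Padic.norm_p,
    inv_zpow', neg_neg, ← zpow_add₀ hp0, neg_add_cancel, zpow_zero]

/-- The unit part `x * p ^ (-v(x))` of a nonzero `p`-adic number. -/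
noncomputable def unitPart : ℚ_[p]ˣ →* ℤ_[p]ˣ where
  toFun x := PadicInt.mkUnits (norm_mul_zpow_neg_valuation x)
  map_one' := by
    apply Units.ext
    apply Subtype.ext
    simp
  map_mul' x y := by
    apply Units.ext
    apply Subtype.ext
    simp only [PadicInt.val_mkUnits, Units.val_mul]
    rw [Padic.valuation_mul x.ne_zero y.ne_zero, neg_add, zpow_add₀ padic_p_ne_zero]
    change _ = (x : ℚ_[p]) * (p : ℚ_[p]) ^ (-(x : ℚ_[p]).valuation) *
      ((y : ℚ_[p]) * (p : ℚ_[p]) ^ (-(y : ℚ_[p]).valuation))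
    ring

theorem coe_unitPart (x : ℚ_[p]ˣ) :
    (((unitPart x : ℤ_[p]ˣ) : ℤ_[p]) : ℚ_[p]) = (x : ℚ_[p]) * (p : ℚ_[p]) ^ (-(x : ℚ_[p]).valuation) :=
  rfl

theorem unitPart_spec (x : ℚ_[p]ˣ) :
    (x : ℚ_[p]) = (((unitPart x : ℤ_[p]ˣ) : ℤ_[p]) : ℚ_[p]) * (p : ℚ_[p]) ^ (x : ℚ_[p]).valuation := by
  rw [coe_unitPart, mul_assoc, ← zpow_add₀ padic_p_ne_zero, neg_add_cancel, zpow_zero, mul_one]

/-- The inclusion `ℤ_[p]ˣ → ℚ_[p]ˣ`. -/
noncomputable def unitIncl : ℤ_[p]ˣ →* ℚ_[p]ˣ := Units.map (PadicInt.Coe.ringHom (p := p)).toMonoidHom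

@[simp] theorem coe_unitIncl (u : ℤ_[p]ˣ) : ((unitIncl u : ℚ_[p]ˣ) : ℚ_[p]) = ((u : ℤ_[p]) : ℚ_[p]) :=
  rfl

theorem valuation_unitIncl (u : ℤ_[p]ˣ) : ((unitIncl u : ℚ_[p]ˣ) : ℚ_[p]).valuation = 0 := by
  have h1 : ‖((unitIncl u : ℚ_[p]ˣ) : ℚ_[p])‖ = 1 := by
    rw [coe_unitIncl, ← PadicInt.norm_def, PadicInt.norm_units]
  rw [Padic.norm_eq_zpow_neg_valuation (unitIncl u).ne_zero] at h1
  have hp1 : (1 : ℝ) < p := by exact_mod_cast hp.out.one_lt
  have := (zpow_eq_one_iff_right₀ (by positivity) hp1.ne').1 h1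
  omega

@[simp] theorem unitPart_unitIncl (u : ℤ_[p]ˣ) : unitPart (unitIncl u) = u := by
  apply Units.ext
  apply Subtype.ext
  rw [coe_unitPart, valuation_unitIncl, neg_zero, zpow_zero, mul_one, coe_unitIncl]

@[simp] theorem unitPart_pUnit : unitPart (pUnit p) = 1 := by
  apply Units.ext
  apply Subtype.ext
  rw [coe_unitPart, coe_pUnit, Padic.valuation_p, zpow_neg, zpow_one,
    mul_inv_cancel₀ padic_p_ne_zero]
  rfl

theorem unitPart_surjective : Function.Surjective (unitPart (p := p)) :=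
  fun u => ⟨unitIncl u, unitPart_unitIncl u⟩

/-- Every `x : ℚ_[p]ˣ` is `p ^ v(x) * (unit)`. -/
theorem eq_pUnit_zpow_mul (x : ℚ_[p]ˣ) :
    x = pUnit p ^ (x : ℚ_[p]).valuation * unitIncl (unitPart x) := by
  apply Units.ext
  rw [Units.val_mul, Units.val_zpow_eq_zpow_val, coe_pUnit, coe_unitIncl, mul_comm]
  exact unitPart_spec x

/-! ### Reduction modulo `p ^ (m + 1)` -/

instance isLocalHom_toZModPow (m : ℕ) : IsLocalHom (PadicInt.toZModPow (p := p) (m + 1)) := by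
  refine ⟨fun a ha => ?_⟩
  by_contra hna
  have h1 : a ∈ IsLocalRing.maximalIdeal ℤ_[p] := (IsLocalRing.mem_maximalIdeal _).2 hna
  rw [PadicInt.maximalIdeal_eq_span_p, Ideal.mem_span_singleton] at h1
  obtain ⟨b, rfl⟩ := h1
  rw [map_mul, map_natCast] at ha
  have h2 : IsUnit ((p : ZMod (p ^ (m + 1)))) := isUnit_of_mul_isUnit_left ha
  have h3 : ((p : ZMod (p ^ (m + 1)))) ^ (m + 1) = 0 := by
    rw [← Nat.cast_pow, ZMod.natCast_self]
  have h4 : IsUnit ((0 : ZMod (p ^ (m + 1)))) := h3 ▸ h2.pow (m + 1)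
  have : Fact (1 < p ^ (m + 1)) := ⟨Nat.one_lt_pow (Nat.succ_ne_zero m) hp.out.one_lt⟩
  exact not_isUnit_zero h4

/-- Reduction `ℤ_[p]ˣ → (ZMod (p ^ (m + 1)))ˣ`. -/
noncomputable def redUnits (m : ℕ) : ℤ_[p]ˣ →* (ZMod (p ^ (m + 1)))ˣ :=
  Units.map (PadicInt.toZModPow (p := p) (m + 1)).toMonoidHom

theorem redUnits_surjective (m : ℕ) : Function.Surjective (redUnits (p := p) m) :=
  IsLocalRing.surjective_units_map_of_local_ringHom _
    (ZMod.ringHom_surjective (PadicInt.toZModPow (m + 1))) inferInstance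

theorem redUnits_eq_one_iff (m : ℕ) (u : ℤ_[p]ˣ) :
    redUnits m u = 1 ↔ (p : ℤ_[p]) ^ (m + 1) ∣ (u : ℤ_[p]) - 1 := by
  rw [← Ideal.mem_span_singleton, ← PadicInt.ker_toZModPow, RingHom.mem_ker, map_sub, map_one,
    sub_eq_zero, Units.ext_iff]
  rfl

/-- The explicit local symbol at `p` of the `m`-th layer of the cyclotomic `ℤ_p`-tower (up to
normalisation): `x ↦ (unitPart x) ^ (p - 1) mod p ^ (m + 1)`. -/
noncomputable def theta (m : ℕ) : ℚ_[p]ˣ →* (ZMod (p ^ (m + 1)))ˣ :=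
  (powMonoidHom (p - 1)).comp ((redUnits m).comp unitPart)

theorem theta_apply (m : ℕ) (x : ℚ_[p]ˣ) : theta m x = redUnits m (unitPart x) ^ (p - 1) := rfl

@[simp] theorem theta_pUnit (m : ℕ) : theta m (pUnit p) = 1 := by
  rw [theta_apply, unitPart_pUnit, map_one, one_pow]

theorem theta_unitIncl (m : ℕ) (u : ℤ_[p]ˣ) : theta m (unitIncl u) = redUnits m u ^ (p - 1) := by
  rw [theta_apply, unitPart_unitIncl]

theorem theta_eq_one_iff (m : ℕ) (x : ℚ_[p]ˣ) :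
    theta m x = 1 ↔ (p : ℤ_[p]) ^ (m + 1) ∣ ((unitPart x : ℤ_[p]ˣ) : ℤ_[p]) ^ (p - 1) - 1 := by
  rw [theta_apply, ← map_pow, redUnits_eq_one_iff, Units.val_pow_eq_pow_val]

/-- `ker (theta m) = ⟨p⟩ · (ℚ_[p]ˣ) ^ (p ^ m)` (`p` odd). -/
theorem theta_eq_one_iff_exists (hp2 : p ≠ 2) (m : ℕ) (x : ℚ_[p]ˣ) :
    theta m x = 1 ↔ ∃ (j : ℤ) (t : ℚ_[p]ˣ), x = pUnit p ^ j * t ^ (p ^ m) := by
  constructor
  · intro h
    rw [theta_eq_one_iff, unit_pow_sub_one_dvd_iff hp2] at h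
    obtain ⟨t, ht⟩ := h
    refine ⟨(x : ℚ_[p]).valuation, unitIncl t, ?_⟩
    rw [← map_pow, ht]
    exact eq_pUnit_zpow_mul x
  · rintro ⟨j, t, rfl⟩
    rw [map_mul, map_zpow, theta_pUnit, one_zpow, one_mul, map_pow]
    -- `theta m t ^ (p ^ m) = 1` since the group has order `p ^ m * (p - 1)`
    rw [theta_apply, ← pow_mul]
    have hcard : Nat.card (ZMod (p ^ (m + 1)))ˣ = (p - 1) * p ^ m := by
      have : NeZero (p ^ (m + 1)) := ⟨pow_ne_zero _ hp.out.ne_zero⟩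
      rw [Nat.card_eq_fintype_card, ZMod.card_units_eq_totient, Nat.totient_prime_pow_succ hp.out,
        mul_comm]
    rw [← hcard]
    exact pow_card_eq_one'

theorem card_units_zmod (m : ℕ) : Nat.card (ZMod (p ^ (m + 1)))ˣ = p ^ m * (p - 1) := by
  have : NeZero (p ^ (m + 1)) := ⟨pow_ne_zero _ hp.out.ne_zero⟩
  rw [Nat.card_eq_fintype_card, ZMod.card_units_eq_totient, Nat.totient_prime_pow_succ hp.out]

/-- The range of `theta m` is the image of the `(p-1)`-th power map, of order `p ^ m`. -/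
theorem range_theta (m : ℕ) :
    (theta (p := p) m).range = (powMonoidHom (p - 1) : (ZMod (p ^ (m + 1)))ˣ →* _).range := by
  have hs : Function.Surjective ((redUnits (p := p) m).comp unitPart) := by
    rw [MonoidHom.coe_comp]
    exact (redUnits_surjective m).comp unitPart_surjective
  rw [theta, MonoidHom.range_comp, MonoidHom.range_eq_top.2 hs, ← MonoidHom.range_eq_map]

theorem card_range_theta (hp2 : p ≠ 2) (m : ℕ) : Nat.card (theta (p := p) m).range = p ^ m := by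
  have : IsCyclic (ZMod (p ^ (m + 1)))ˣ := ZMod.isCyclic_units_of_prime_pow p hp.out hp2 (m + 1)
  have : NeZero (p ^ (m + 1)) := ⟨pow_ne_zero _ hp.out.ne_zero⟩
  rw [range_theta, IsCyclic.card_powMonoidHom_range, card_units_zmod]
  have hp1 : 0 < p - 1 := by have := hp.out.two_le; omega
  rw [Nat.gcd_eq_right (Dvd.intro_left _ rfl), Nat.mul_div_cancel _ hp1]

/-- `ker (theta m)` has index `p ^ m` in `ℚ_[p]ˣ`. -/
theorem index_ker_theta (hp2 : p ≠ 2) (m : ℕ) : (theta (p := p) m).ker.index = p ^ m := by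
  rw [Subgroup.index_ker, card_range_theta hp2]

/-- **Counting trick**: a subgroup of `ℚ_[p]ˣ` of index `p ^ m` which contains `p` equals
`ker (theta m)`; in particular it is `⟨p⟩ · (ℚ_[p]ˣ)^(p^m)`.  (Applied to the norm group of the
`m`-th layer of the cyclotomic `ℤ_p`-extension of `ℚ_[p]`.) -/
theorem eq_ker_theta_of_index (hp2 : p ≠ 2) (m : ℕ) (N : Subgroup ℚ_[p]ˣ) (hpN : pUnit p ∈ N)
    (hidx : N.index = p ^ m) : N = (theta (p := p) m).ker := by
  have hle : (theta (p := p) m).ker ≤ N := by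
    intro x hx
    rw [MonoidHom.mem_ker, theta_eq_one_iff_exists hp2] at hx
    obtain ⟨j, t, rfl⟩ := hx
    refine N.mul_mem (N.zpow_mem hpN j) ?_
    rw [← hidx]
    exact Subgroup.pow_index_mem N t
  have h1 := Subgroup.relIndex_mul_index hle
  rw [hidx, index_ker_theta hp2] at h1
  have hpm : 0 < p ^ m := pow_pos hp.out.pos m
  have h2 : (theta (p := p) m).ker.relIndex N = 1 := by
    have : (theta (p := p) m).ker.relIndex N * p ^ m = 1 * p ^ m := by rw [h1, one_mul]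
    exact Nat.eq_of_mul_eq_mul_right hpm this
  exact le_antisymm (Subgroup.relIndex_eq_one.1 h2) hle

/-- The same with only an upper bound `N ≤ ker` needed downstream: every element of such an `N`
has trivial `theta`. -/
theorem theta_eq_one_of_mem (hp2 : p ≠ 2) (m : ℕ) (N : Subgroup ℚ_[p]ˣ) (hpN : pUnit p ∈ N)
    (hidx : N.index = p ^ m) {x : ℚ_[p]ˣ} (hx : x ∈ N) : theta m x = 1 := by
  rw [eq_ker_theta_of_index hp2 m N hpN hidx] at hx
  exact hx

end Fermat.Agent.CFT.C6.LocalAtP
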