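/-
PROJECT C, slice C6c (part 1): the explicit reciprocity map of the cyclotomic `ℤ_p`-tower on the
ideles of `ℚ` (tensor model `Fermat.Agent.CFT.Idele`).

* `locQ q : Loc ℚ q ≃ₐ[ℚ] ℚ_[q]`, `locQu q : (Loc ℚ q)ˣ ≃* ℚ_[q]ˣ`, `mem_intUnits_iff`
  (integral units = norm one);
* `comp q : J ℚ →* ℚ_[q]ˣ` (components), `valQ q x : ℤ` (valuations, finitely many nonzero),
  `comp_diag`, `valQ_diag`;
* `content : J ℚ →* ℚˣ` (`∏ q ^ v_q(x)`), `padicValRat_content`, `unitIdele`,
  `eq_diag_mul_unitIdele` (class number one: `J ℚ = ℚˣ · ∏ ℤ_qˣ`);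
* `rat_eq_one_or_neg_one`: a rational which is a unit at all primes is `±1`;
* `single q : ℚ_[q]ˣ →* J ℚ` (ideles supported at one prime);
* `psi P m : J ℚ →* (ZMod (P ^ (m + 1)))ˣ`, `x ↦ theta m (x_p / content x)`; `psi_diag` (trivial on
  principal ideles, `p` odd), `psi_of_valQ`, `range_psi`, `card_range_psi = p ^ m`,
  `index_ker_psi = p ^ m`, `psi_eq_one_iff` (kernel = `ℚˣ ·` (units everywhere, `p^m`-th power of a
  unit at `p`)), `psi_compat` (compatibility in `m`), `psiC` (descent to `C ℚ`).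
-/
import Fermat.Agent.CFT.Idele.Class
import Fermat.Agent.CFT.C6.LocalAtP

set_option autoImplicit false

open scoped TensorProduct

noncomputable section

namespace Fermat.Agent.CFT.C6.ArtinQ

open Fermat.Agent.CFT.Idele Fermat.Agent.CFT.C6.LocalAtP

section Local

variable (q : Nat.Primes)

/-- `ℚ ⊗_ℚ ℚ_q = ℚ_q`. -/
def locQ : Loc ℚ q ≃ₐ[ℚ] ℚ_[(q : ℕ)] := Algebra.TensorProduct.lid ℚ ℚ_[(q : ℕ)]

theorem locQ_tmul (a : ℚ) (c : ℚ_[(q : ℕ)]) : locQ q (a ⊗ₜ[ℚ] c) = a • c :=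
  Algebra.TensorProduct.lid_tmul _ _

theorem locQ_inclL (a : ℚ) : locQ q (inclL ℚ q a) = (a : ℚ_[(q : ℕ)]) := by
  rw [inclL_apply, locQ_tmul, Algebra.smul_def, mul_one]
  rfl

theorem locQ_inclQ (c : ℚ_[(q : ℕ)]) : locQ q (inclQ ℚ q c) = c := by
  rw [inclQ_apply, locQ_tmul, one_smul]

theorem locQ_inclZ (c : ℤ_[(q : ℕ)]) : locQ q (inclZ ℚ q c) = (c : ℚ_[(q : ℕ)]) := by
  rw [inclZ_apply, locQ_tmul, one_smul]

theorem locQ_symm_apply (c : ℚ_[(q : ℕ)]) : (locQ q).symm c = inclQ ℚ q c := by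
  rw [AlgEquiv.symm_apply_eq, locQ_inclQ]

theorem mem_intRing_iff (x : Loc ℚ q) : x ∈ intRing ℚ q ↔ ‖locQ q x‖ ≤ 1 := by
  constructor
  · intro hx
    rw [mem_intRing] at hx
    have h1 : ((locQ q : Loc ℚ q →+* ℚ_[(q : ℕ)]).comp (inclZ ℚ q)).IsIntegralElem (locQ q x) :=
      RingHom.IsIntegralElem.map hx (locQ q : Loc ℚ q →+* ℚ_[(q : ℕ)])
    have h2 : (locQ q : Loc ℚ q →+* ℚ_[(q : ℕ)]).comp (inclZ ℚ q)
        = algebraMap ℤ_[(q : ℕ)] ℚ_[(q : ℕ)] := by
      ext c
      exact locQ_inclZ q c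
    rw [h2] at h1
    obtain ⟨y, hy⟩ := (IsIntegrallyClosed.isIntegral_iff (R := ℤ_[(q : ℕ)])).mp h1
    rw [← hy]
    exact y.2
  · intro hx
    have h1 : x = inclZ ℚ q ⟨locQ q x, hx⟩ := by
      apply (locQ q).injective
      exact (locQ_inclZ q ⟨_, hx⟩).symm
    rw [h1]
    exact inclZ_mem_intRing ℚ q _

/-- `(ℚ ⊗_ℚ ℚ_q)ˣ = ℚ_qˣ`. -/
def locQu : (Loc ℚ q)ˣ ≃* ℚ_[(q : ℕ)]ˣ := Units.mapEquiv (locQ q).toMulEquiv

theorem locQu_val (u : (Loc ℚ q)ˣ) : ((locQu q u : ℚ_[(q : ℕ)]ˣ) : ℚ_[(q : ℕ)]) = locQ q u := rfl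

theorem mem_intUnits_iff (u : (Loc ℚ q)ˣ) :
    u ∈ intUnits ℚ q ↔ ‖((locQu q u : ℚ_[(q : ℕ)]ˣ) : ℚ_[(q : ℕ)])‖ = 1 := by
  rw [mem_intUnits, mem_intRing_iff, mem_intRing_iff, locQu_val]
  have h : locQ q (u : Loc ℚ q) * locQ q ((u⁻¹ : (Loc ℚ q)ˣ) : Loc ℚ q) = 1 := by
    rw [← map_mul, Units.mul_inv, map_one]
  have h' : ‖locQ q (u : Loc ℚ q)‖ * ‖locQ q ((u⁻¹ : (Loc ℚ q)ˣ) : Loc ℚ q)‖ = 1 := by
    rw [← norm_mul, h, norm_one]
  constructor
  · rintro ⟨h1, h2⟩
    refine le_antisymm h1 ?_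
    by_contra h3
    rw [not_le] at h3
    have : ‖locQ q (u : Loc ℚ q)‖ * ‖locQ q ((u⁻¹ : (Loc ℚ q)ˣ) : Loc ℚ q)‖ < 1 := by
      calc _ < 1 * 1 := mul_lt_mul'' h3 (lt_of_le_of_ne h2 ?_) (norm_nonneg _) (norm_nonneg _)
        _ = 1 := one_mul 1
      intro h4
      rw [h4, mul_one] at h'
      exact absurd h' h3.ne
    exact absurd h' this.ne
  · intro h1
    rw [h1, one_mul] at h'
    exact ⟨h1.le, h'.le⟩

end Local

/-! ### Components, valuations and the content of an idele of `ℚ` -/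

section Global

/-- The `q`-component of an idele of `ℚ`, in `ℚ_qˣ`. -/
def comp (q : Nat.Primes) : J ℚ →* ℚ_[(q : ℕ)]ˣ :=
  (locQu q).toMonoidHom.comp
    ((Pi.evalMonoidHom (fun q : Nat.Primes => (Loc ℚ q)ˣ) q).comp (J ℚ).subtype)

theorem comp_apply (q : Nat.Primes) (x : J ℚ) : comp q x = locQu q (x.1 q) := rfl

/-- `ℚˣ → ℚ_qˣ`. -/
def ratToPadic (q : Nat.Primes) : ℚˣ →* ℚ_[(q : ℕ)]ˣ :=
  Units.map ((algebraMap ℚ ℚ_[(q : ℕ)] : ℚ →+* ℚ_[(q : ℕ)]) : ℚ →* ℚ_[(q : ℕ)])

theorem ratToPadic_val (q : Nat.Primes) (a : ℚˣ) :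
    ((ratToPadic q a : ℚ_[(q : ℕ)]ˣ) : ℚ_[(q : ℕ)]) = ((a : ℚ) : ℚ_[(q : ℕ)]) := rfl

theorem comp_diag (q : Nat.Primes) (a : ℚˣ) : comp q (diag ℚ a) = ratToPadic q a := by
  apply Units.ext
  rw [comp_apply, locQu_val, diag_apply, locQ_inclL]
  rfl

/-- The `q`-adic valuation of an idele of `ℚ`. -/
def valQ (q : Nat.Primes) (x : J ℚ) : ℤ := ((comp q x : ℚ_[(q : ℕ)]ˣ) : ℚ_[(q : ℕ)]).valuation

theorem valQ_one (q : Nat.Primes) : valQ q 1 = 0 := by
  unfold valQ
  rw [map_one, Units.val_one, Padic.valuation_one]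

theorem valQ_mul (q : Nat.Primes) (x y : J ℚ) : valQ q (x * y) = valQ q x + valQ q y := by
  unfold valQ
  rw [map_mul, Units.val_mul, Padic.valuation_mul (Units.ne_zero _) (Units.ne_zero _)]

theorem valQ_inv (q : Nat.Primes) (x : J ℚ) : valQ q x⁻¹ = - valQ q x := by
  unfold valQ
  rw [map_inv, Units.val_inv_eq_inv_val, Padic.valuation_inv]

theorem norm_eq_one_iff_valuation_eq_zero {q : ℕ} [hq : Fact q.Prime] (u : ℚ_[q]ˣ) :
    ‖(u : ℚ_[q])‖ = 1 ↔ (u : ℚ_[q]).valuation = 0 := by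
  rw [Padic.norm_eq_zpow_neg_valuation u.ne_zero]
  have hq1 : (1 : ℝ) < q := by exact_mod_cast hq.out.one_lt
  rw [zpow_eq_one_iff_right₀ (by positivity) hq1.ne', neg_eq_zero]

theorem valQ_eq_zero_iff (q : Nat.Primes) (x : J ℚ) : valQ q x = 0 ↔ x.1 q ∈ intUnits ℚ q := by
  rw [mem_intUnits_iff, norm_eq_one_iff_valuation_eq_zero]
  rfl

theorem finite_valQ_ne_zero (x : J ℚ) : {q : Nat.Primes | valQ q x ≠ 0}.Finite := by
  refine ((mem_J ℚ).mp x.2).subset ?_
  intro q hq hq'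
  exact hq ((valQ_eq_zero_iff q x).mpr hq')

theorem valQ_diag (q : Nat.Primes) (a : ℚˣ) : valQ q (diag ℚ a) = padicValRat q (a : ℚ) := by
  unfold valQ
  rw [comp_diag, ratToPadic_val, Padic.valuation_ratCast]

/-- The prime `q` as a unit of `ℚ`. -/
def primeQ (q : Nat.Primes) : ℚˣ := Units.mk0 ((q : ℕ) : ℚ) (by exact_mod_cast q.2.ne_zero)

theorem primeQ_val (q : Nat.Primes) : ((primeQ q : ℚˣ) : ℚ) = ((q : ℕ) : ℚ) := rfl

theorem padicValRat_primeQ (l q : Nat.Primes) :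
    padicValRat l ((primeQ q : ℚˣ) : ℚ) = if q = l then 1 else 0 := by
  rw [primeQ_val, padicValRat.of_nat]
  split_ifs with h
  · subst h
    rw [padicValNat_self]
    rfl
  · rw [padicValNat_primes (p := (l : ℕ)) (q := (q : ℕ))]
    · rfl
    · intro h'
      exact h (Subtype.ext h'.symm)

/-- `padicValRat` as a homomorphism. -/
def pvHom (l : Nat.Primes) : ℚˣ →* Multiplicative ℤ where
  toFun a := Multiplicative.ofAdd (padicValRat l (a : ℚ))
  map_one' := by simp
  map_mul' a b := by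
    rw [Units.val_mul, padicValRat.mul a.ne_zero b.ne_zero, ofAdd_add]

theorem pvHom_apply (l : Nat.Primes) (a : ℚˣ) :
    pvHom l a = Multiplicative.ofAdd (padicValRat l (a : ℚ)) := rfl

theorem mulSupport_content_subset (x : J ℚ) :
    Function.mulSupport (fun q : Nat.Primes => primeQ q ^ valQ q x) ⊆ {q | valQ q x ≠ 0} := by
  intro q hq h
  apply hq
  change primeQ q ^ valQ q x = 1
  rw [h, zpow_zero]

theorem finite_mulSupport_content (x : J ℚ) :
    (Function.mulSupport (fun q : Nat.Primes => primeQ q ^ valQ q x)).Finite :=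
  (finite_valQ_ne_zero x).subset (mulSupport_content_subset x)

/-- The content of an idele of `ℚ`: the positive rational `∏ q ^ v_q(x)`. -/
def content : J ℚ →* ℚˣ where
  toFun x := ∏ᶠ q : Nat.Primes, primeQ q ^ valQ q x
  map_one' := by
    apply finprod_eq_one_of_forall_eq_one
    intro q
    rw [valQ_one, zpow_zero]
  map_mul' x y := by
    rw [← finprod_mul_distrib (finite_mulSupport_content x) (finite_mulSupport_content y)]
    refine finprod_congr fun q => ?_
    rw [valQ_mul, zpow_add]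

theorem content_apply (x : J ℚ) : content x = ∏ᶠ q : Nat.Primes, primeQ q ^ valQ q x := rfl

theorem padicValRat_content (l : Nat.Primes) (x : J ℚ) :
    padicValRat l ((content x : ℚˣ) : ℚ) = valQ l x := by
  have h1 : pvHom l (content x) = Multiplicative.ofAdd (valQ l x) := by
    rw [content_apply, MonoidHom.map_finprod _ (finite_mulSupport_content x),
      finprod_eq_single _ l]
    · rw [map_zpow, pvHom_apply, padicValRat_primeQ, if_pos rfl, ← ofAdd_zsmul, smul_eq_mul,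
        mul_one]
    · intro q hq
      rw [map_zpow, pvHom_apply, padicValRat_primeQ, if_neg hq, ofAdd_zero, one_zpow]
  exact Multiplicative.ofAdd.injective h1

theorem content_eq_one_of_valQ (x : J ℚ) (hx : ∀ q, valQ q x = 0) : content x = 1 := by
  rw [content_apply]
  apply finprod_eq_one_of_forall_eq_one
  intro q
  rw [hx q, zpow_zero]

/-- The unit part of an idele of `ℚ`. -/
def unitIdele (x : J ℚ) : J ℚ := x * (diag ℚ (content x))⁻¹

theorem eq_diag_mul_unitIdele (x : J ℚ) : x = diag ℚ (content x) * unitIdele x := by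
  unfold unitIdele
  rw [mul_comm x, mul_inv_cancel_left]

theorem valQ_unitIdele (q : Nat.Primes) (x : J ℚ) : valQ q (unitIdele x) = 0 := by
  unfold unitIdele
  rw [valQ_mul, valQ_inv, valQ_diag, padicValRat_content, add_neg_cancel]

end Global

/-! ### Rationals which are units everywhere -/

section PlusMinusOne

theorem rat_eq_one_or_neg_one (b : ℚ) (hb : b ≠ 0)
    (h : ∀ l : Nat.Primes, padicValRat l b = 0) : b = 1 ∨ b = -1 := by
  have hnum : b.num.natAbs = 1 := by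
    by_contra hne
    obtain ⟨l, hl, hdvd⟩ := Nat.exists_prime_and_dvd hne
    have hden : ¬ l ∣ b.den := by
      intro hd
      have := Nat.dvd_gcd hdvd hd
      rw [b.reduced] at this
      exact hl.one_lt.ne' (Nat.dvd_one.mp this)
    have h0 := h ⟨l, hl⟩
    have : Fact l.Prime := ⟨hl⟩
    rw [padicValRat_def, padicValNat.eq_zero_of_not_dvd hden, Nat.cast_zero, sub_zero] at h0
    have h1 : padicValInt l b.num = 0 := by exact_mod_cast h0
    rw [padicValInt, padicValNat.eq_zero_iff] at h1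
    rcases h1 with h1 | h1 | h1
    · exact hl.one_lt.ne' h1
    · exact hb (Rat.zero_of_num_zero (Int.natAbs_eq_zero.mp h1))
    · exact h1 hdvd
  have hden : b.den = 1 := by
    by_contra hne
    obtain ⟨l, hl, hdvd⟩ := Nat.exists_prime_and_dvd hne
    have hn : ¬ l ∣ b.num.natAbs := by
      rw [hnum]
      intro h1
      exact hl.one_lt.ne' (Nat.dvd_one.mp h1)
    have h0 := h ⟨l, hl⟩
    have : Fact l.Prime := ⟨hl⟩
    rw [padicValRat_def, padicValInt, padicValNat.eq_zero_of_not_dvd hn, Nat.cast_zero,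
      zero_sub, neg_eq_zero] at h0
    have h1 : padicValNat l b.den = 0 := by exact_mod_cast h0
    rw [padicValNat.eq_zero_iff] at h1
    rcases h1 with h1 | h1 | h1
    · exact hl.one_lt.ne' h1
    · exact b.den_ne_zero h1
    · exact h1 hdvd
  rcases Int.natAbs_eq b.num with h1 | h1
  · left
    rw [← Rat.num_div_den b, h1, hnum, hden]
    norm_num
  · right
    rw [← Rat.num_div_den b, h1, hnum, hden]
    norm_num

/-- A principal idele which is a unit everywhere is `±1`. -/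
theorem eq_one_or_neg_one_of_valQ_diag (a : ℚˣ) (ha : ∀ q, valQ q (diag ℚ a) = 0) :
    a = 1 ∨ a = -1 := by
  rcases rat_eq_one_or_neg_one (a : ℚ) a.ne_zero (fun l => by rw [← valQ_diag]; exact ha l)
    with h | h
  · left
    exact Units.ext h
  · right
    exact Units.ext h

end PlusMinusOne

/-! ### Ideles supported at one prime -/

section Single

/-- The idele with `q`-component `t` and all other components `1`. -/
def single (q : Nat.Primes) : ℚ_[(q : ℕ)]ˣ →* J ℚ :=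
  ((MonoidHom.mulSingle (fun q : Nat.Primes => (Loc ℚ q)ˣ) q).comp
    (locQu q).symm.toMonoidHom).codRestrict (J ℚ) (by
      intro t
      rw [mem_J]
      refine (Set.finite_singleton q).subset ?_
      intro l hl
      by_contra h
      apply hl
      have h1 : (MonoidHom.mulSingle (fun q : Nat.Primes => (Loc ℚ q)ˣ) q)
          ((locQu q).symm t) l = 1 := Pi.mulSingle_eq_of_ne h _
      change (MonoidHom.mulSingle (fun q : Nat.Primes => (Loc ℚ q)ˣ) q)
          ((locQu q).symm t) l ∈ intUnits ℚ l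
      rw [h1]
      exact (intUnits ℚ l).one_mem)

theorem comp_single_same (q : Nat.Primes) (t : ℚ_[(q : ℕ)]ˣ) : comp q (single q t) = t := by
  rw [comp_apply]
  have h1 : (single q t).1 q = (locQu q).symm t := Pi.mulSingle_eq_same q _
  rw [h1, MulEquiv.apply_symm_apply]

theorem comp_single_of_ne {q l : Nat.Primes} (h : l ≠ q) (t : ℚ_[(q : ℕ)]ˣ) :
    comp l (single q t) = 1 := by
  rw [comp_apply]
  have h1 : (single q t).1 l = 1 := Pi.mulSingle_eq_of_ne h _
  rw [h1, map_one]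

theorem valQ_single_same (q : Nat.Primes) (t : ℚ_[(q : ℕ)]ˣ) :
    valQ q (single q t) = (t : ℚ_[(q : ℕ)]).valuation := by
  unfold valQ
  rw [comp_single_same]

theorem valQ_single_of_ne {q l : Nat.Primes} (h : l ≠ q) (t : ℚ_[(q : ℕ)]ˣ) :
    valQ l (single q t) = 0 := by
  unfold valQ
  rw [comp_single_of_ne h, Units.val_one, Padic.valuation_one]

theorem valQ_single_unitIncl (q l : Nat.Primes) (u : ℤ_[(q : ℕ)]ˣ) :
    valQ l (single q (unitIncl u)) = 0 := by
  by_cases h : l = q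
  · subst h
    rw [valQ_single_same, valuation_unitIncl]
  · exact valQ_single_of_ne h _

end Single

/-! ### The explicit reciprocity map of the cyclotomic `ℤ_p`-tower -/

section Psi

variable (P : Nat.Primes) (m : ℕ)

/-- The explicit reciprocity map on the ideles of `ℚ` for the `m`-th layer of the cyclotomic
`ℤ_p`-tower (`p = P`): `x ↦ theta m (x_p / content x)`. -/
def psi : J ℚ →* (ZMod ((P : ℕ) ^ (m + 1)))ˣ :=
  (theta (p := (P : ℕ)) m).comp (comp P / (ratToPadic P).comp content)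

theorem psi_apply (x : J ℚ) :
    psi P m x = theta (p := (P : ℕ)) m (comp P x / ratToPadic P (content x)) := rfl

theorem theta_neg_one (hp2 : (P : ℕ) ≠ 2) : theta (p := (P : ℕ)) m (-1) = 1 := by
  have h1 : (-1 : ℚ_[(P : ℕ)]ˣ) = unitIncl (-1 : ℤ_[(P : ℕ)]ˣ) := by
    apply Units.ext
    simp
  rw [h1, theta_unitIncl]
  have h2 : redUnits (p := (P : ℕ)) m (-1) = -1 := by
    apply Units.ext
    simp [redUnits]
  rw [h2]
  have hodd : Odd (P : ℕ) := P.2.odd_of_ne_two hp2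
  have heven : Even ((P : ℕ) - 1) := by
    obtain ⟨k, hk⟩ := hodd
    exact ⟨k, by omega⟩
  exact heven.neg_one_pow

theorem valQ_div (q : Nat.Primes) (x y : J ℚ) : valQ q (x / y) = valQ q x - valQ q y := by
  rw [div_eq_mul_inv, valQ_mul, valQ_inv, sub_eq_add_neg]

/-- `psi` is trivial on principal ideles (`p` odd). -/
theorem psi_diag (hp2 : (P : ℕ) ≠ 2) (a : ℚˣ) : psi P m (diag ℚ a) = 1 := by
  rw [psi_apply, comp_diag, ← map_div]
  have h : a / content (diag ℚ a) = 1 ∨ a / content (diag ℚ a) = -1 := by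
    apply eq_one_or_neg_one_of_valQ_diag
    intro q
    rw [map_div, valQ_div, valQ_diag, valQ_diag, padicValRat_content, valQ_diag, sub_self]
  rcases h with h | h
  · rw [h, map_one, map_one]
  · rw [h]
    have : ratToPadic P (-1) = -1 := by
      apply Units.ext
      simp [ratToPadic]
    rw [this, theta_neg_one P m hp2]

/-- On ideles which are units everywhere, `psi` is `theta` of the `p`-component. -/
theorem psi_of_valQ (u : J ℚ) (hu : ∀ q, valQ q u = 0) :
    psi P m u = theta (p := (P : ℕ)) m (comp P u) := by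
  rw [psi_apply, content_eq_one_of_valQ u hu, map_one, div_one]

theorem psi_eq_theta_unitIdele (hp2 : (P : ℕ) ≠ 2) (x : J ℚ) :
    psi P m x = theta (p := (P : ℕ)) m (comp P (unitIdele x)) := by
  conv_lhs => rw [eq_diag_mul_unitIdele x, map_mul, psi_diag P m hp2, one_mul,
    psi_of_valQ P m _ (fun q => valQ_unitIdele q x)]

theorem psi_single_unitIncl (u : ℤ_[(P : ℕ)]ˣ) :
    psi P m (single P (unitIncl u)) = redUnits m u ^ ((P : ℕ) - 1) := by
  rw [psi_of_valQ P m _ (fun q => valQ_single_unitIncl P q u), comp_single_same, theta_unitIncl]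

theorem range_psi (hp2 : (P : ℕ) ≠ 2) : (psi P m).range = (theta (p := (P : ℕ)) m).range := by
  apply le_antisymm
  · rintro _ ⟨x, rfl⟩
    exact ⟨_, (psi_eq_theta_unitIdele P m hp2 x).symm⟩
  · rintro _ ⟨y, rfl⟩
    refine ⟨single P (unitIncl (unitPart y)), ?_⟩
    rw [psi_single_unitIncl, theta_apply]

theorem card_range_psi (hp2 : (P : ℕ) ≠ 2) : Nat.card (psi P m).range = (P : ℕ) ^ m := by
  rw [range_psi P m hp2, card_range_theta hp2]

theorem index_ker_psi (hp2 : (P : ℕ) ≠ 2) : (psi P m).ker.index = (P : ℕ) ^ m := by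
  rw [Subgroup.index_ker, card_range_psi P m hp2]

/-- **The kernel of `psi`**: an idele is killed by `psi` iff it is a principal idele times an
idele which is a unit everywhere and a `p ^ m`-th power of a unit at `p`. -/
theorem psi_eq_one_iff (hp2 : (P : ℕ) ≠ 2) (x : J ℚ) :
    psi P m x = 1 ↔ ∃ (a : ℚˣ) (u : J ℚ) (t : ℤ_[(P : ℕ)]ˣ), x = diag ℚ a * u ∧
      (∀ q, valQ q u = 0) ∧ comp P u = unitIncl (t ^ ((P : ℕ) ^ m)) := by
  constructor
  · intro h
    rw [psi_eq_theta_unitIdele P m hp2, theta_eq_one_iff,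
      PadicPow.unit_pow_sub_one_dvd_iff hp2] at h
    obtain ⟨t, ht⟩ := h
    refine ⟨content x, unitIdele x, t, eq_diag_mul_unitIdele x, fun q => valQ_unitIdele q x, ?_⟩
    rw [ht]
    have h1 := eq_pUnit_zpow_mul (comp P (unitIdele x))
    have h2 : ((comp P (unitIdele x) : ℚ_[(P : ℕ)]ˣ) : ℚ_[(P : ℕ)]).valuation = 0 :=
      valQ_unitIdele P x
    rw [h2, zpow_zero, one_mul] at h1
    exact h1
  · rintro ⟨a, u, t, rfl, hu, ht⟩
    rw [map_mul, psi_diag P m hp2, one_mul, psi_of_valQ P m u hu, ht,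
      theta_eq_one_iff_exists hp2]
    exact ⟨0, unitIncl t, by rw [zpow_zero, one_mul, map_pow]⟩

/-- Compatibility of the reductions in the level. -/
theorem redUnits_compat {m n : ℕ} (h : m ≤ n) (u : ℤ_[(P : ℕ)]ˣ) :
    ZMod.unitsMap (pow_dvd_pow (P : ℕ) (Nat.succ_le_succ h)) (redUnits n u) = redUnits m u := by
  apply Units.ext
  have := PadicInt.zmod_cast_comp_toZModPow (p := (P : ℕ)) (m + 1) (n + 1) (Nat.succ_le_succ h)
  exact RingHom.congr_fun this (u : ℤ_[(P : ℕ)])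

theorem theta_compat {m n : ℕ} (h : m ≤ n) (x : ℚ_[(P : ℕ)]ˣ) :
    ZMod.unitsMap (pow_dvd_pow (P : ℕ) (Nat.succ_le_succ h)) (theta n x) = theta m x := by
  rw [theta_apply, theta_apply, map_pow, redUnits_compat P h]

/-- Compatibility of `psi` in the level of the tower. -/
theorem psi_compat {m n : ℕ} (h : m ≤ n) (x : J ℚ) :
    ZMod.unitsMap (pow_dvd_pow (P : ℕ) (Nat.succ_le_succ h)) (psi P n x) = psi P m x := by
  rw [psi_apply, psi_apply, theta_compat P h]

/-- `psi` on the idele class group of `ℚ`. -/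
def psiC (hp2 : (P : ℕ) ≠ 2) : C ℚ →* (ZMod ((P : ℕ) ^ (m + 1)))ˣ :=
  QuotientGroup.lift (diag ℚ).range (psi P m) (by
    rintro _ ⟨a, rfl⟩
    exact psi_diag P m hp2 a)

theorem psiC_toC (hp2 : (P : ℕ) ≠ 2) (x : J ℚ) : psiC P m hp2 (toC ℚ x) = psi P m x := rfl

end Psi

end Fermat.Agent.CFT.C6.ArtinQ
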