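/-
PROJECT C, slice C6c (part 2): the norm group of the `m`-th layer of the cyclotomic `ℤ_p`-tower is
the kernel of the explicit reciprocity map `psi P m` of `ArtinQ`.

Setting: `L/ℚ` a cyclic number field of degree `p^m` (generator `g`) unramified outside `p`
(`hdisc : ∀ q ≠ p, q ∤ discr L`), e.g. `L = Q_m` (`ZpTower`).

* `prod_univ_eq_prod_range_pow` : `∏_{σ ∈ G} f σ = ∏_{j < ord g} f (g^j)` for `G = ⟨g⟩`;
* `exists_unit_norm_eq` : integral units of `ℚ_q` are norms of integral units of `L ⊗ ℚ_q`, `q ∤ discr L`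
  (from helper25's `Semilocal.v0On_v1On_sigmaU`);
* `exists_normJ_eq` : a unit idele with `p`-component a `p^m`-th power of a unit is a norm;
* `ker_psi_le` : `ker psi_m ≤ ℚˣ · N J_L` (unconditional);
* `ker_psi_eq`, `range_normC_eq_ker` : equality, given the first inequality `p^m ≤ [C_ℚ : N C_L]`;
  `psi_normJ`, `psiC_normC` : norms are killed by `psi` (reciprocity for the layers over `ℚ`).
-/
import Fermat.Agent.CFT.C6.ArtinQ
import Fermat.Agent.CFT.C6.IdeleNorm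
import Fermat.Agent.CFT.Semilocal.Unramified

set_option autoImplicit false

noncomputable section

namespace Fermat.Agent.CFT.C6.ArtinQNorm

open Fermat.Agent.CFT.Idele Fermat.Agent.CFT.C6.LocalAtP Fermat.Agent.CFT.C6.ArtinQ
  Fermat.Agent.CFT.C6.IdeleNorm Fermat.Agent.CFT.Local.CyclicVanish

/-! ### Products over a cyclic group -/

theorem prod_univ_eq_prod_range_pow {G M : Type*} [Group G] [Fintype G] [CommMonoid M] (g : G)
    (hgen : ∀ τ : G, τ ∈ Subgroup.zpowers g) (f : G → M) :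
    ∏ σ : G, f σ = ∏ j ∈ Finset.range (orderOf g), f (g ^ j) := by
  have hfin : IsOfFinOrder g := isOfFinOrder_of_finite g
  rw [← Fin.prod_univ_eq_prod_range (fun j => f (g ^ j)) (orderOf g)]
  have hbij : Function.Bijective (fun i : Fin (orderOf g) => g ^ (i : ℕ)) := by
    constructor
    · intro i j hij
      have := (finEquivZPowers hfin).injective (a₁ := i) (a₂ := j) (by
        apply Subtype.ext
        rw [finEquivZPowers_apply, finEquivZPowers_apply]
        exact hij)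
      exact this
    · intro τ
      obtain ⟨i, hi⟩ := (finEquivZPowers hfin).surjective ⟨τ, hgen τ⟩
      refine ⟨i, ?_⟩
      have := congrArg Subtype.val hi
      rw [finEquivZPowers_apply] at this
      exact this
  exact (hbij.prod_comp f).symm

/-! ### Units are norms at unramified primes -/

section Unramified

open NumberField

variable {L : Type*} [Field L] [NumberField L] [IsGalois ℚ L]

omit [IsGalois ℚ L] in
theorem iterate_autUnits (q : Nat.Primes) (τ : L ≃ₐ[ℚ] L) (j : ℕ) (v : intUnits L q) :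
    (Semilocal.autUnits q τ)^[j] v = Semilocal.autUnits q (τ ^ j) v := by
  induction j with
  | zero =>
    rw [Function.iterate_zero, id_eq, pow_zero]
    apply Subtype.ext
    apply Units.ext
    rw [Semilocal.coe_autUnits]
    change _ = Loc.autHom L q 1 _
    rw [map_one]
    rfl
  | succ j ih =>
    rw [Function.iterate_succ_apply', ih, pow_succ']
    apply Subtype.ext
    apply Units.ext
    rw [Semilocal.coe_autUnits, Semilocal.coe_autUnits, Semilocal.coe_autUnits,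
      Loc.aut_mul_apply]

omit [IsGalois ℚ L] in
/-- For a cyclic extension `L/ℚ` and a prime `q ∤ discr L`, every integral unit of `ℚ_q` is the
norm of an integral unit of `L ⊗ ℚ_q`. -/
theorem exists_unit_norm_eq (q : Nat.Primes) (g : L ≃ₐ[ℚ] L)
    (hgen : ∀ τ : L ≃ₐ[ℚ] L, τ ∈ Subgroup.zpowers g)
    (hq : ¬ (((q : ℕ) : ℤ) ∣ discr L)) (u : (Loc ℚ q)ˣ) (hu : u ∈ intUnits ℚ q) :
    ∃ v : (Loc L q)ˣ, v ∈ intUnits L q ∧
      ∏ σ : L ≃ₐ[ℚ] L, Loc.aut L q (galHom ℚ L σ) (v : Loc L q)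
        = Loc.map q (inclHom ℚ L) (u : Loc ℚ q) := by
  have hpos : 0 < orderOf g := orderOf_pos g
  obtain ⟨k, hk⟩ : ∃ k, orderOf g = k + 1 := ⟨orderOf g - 1, by omega⟩
  obtain ⟨h0, -⟩ := Semilocal.v0On_v1On_sigmaU q g k hk hq
  -- the image of `u` in `intUnits L q`
  let uL : (Loc L q)ˣ := Units.map (Loc.map q (inclHom ℚ L) : Loc ℚ q →* Loc L q) u
  have huL : uL ∈ intUnits L q := by
    rw [mem_intUnits] at hu ⊢
    refine ⟨Loc.map_mem_intRing q _ hu.1, ?_⟩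
    have : ((uL⁻¹ : (Loc L q)ˣ) : Loc L q)
        = Loc.map q (inclHom ℚ L) ((u⁻¹ : (Loc ℚ q)ˣ) : Loc ℚ q) := by
      change ((Units.map _ u)⁻¹ : (Loc L q)ˣ).val = _
      rw [← map_inv]
      rfl
    rw [this]
    exact Loc.map_mem_intRing q _ hu.2
  let a : Additive (intUnits L q) := Additive.ofMul ⟨uL, huL⟩
  have ha : Semilocal.sigmaU q g a = a := by
    apply congrArg Additive.ofMul
    apply Subtype.ext
    apply Units.ext
    rw [Semilocal.coe_autUnits]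
    exact Loc.aut_map_of_fixes q (inclHom ℚ L) (g.restrictScalars ℚ)
      (fun x => g.commutes x) (u : Loc ℚ q)
  obtain ⟨b, -, hb⟩ := h0 a (AddSubgroup.mem_top a) ha
  refine ⟨((Additive.toMul b : intUnits L q) : (Loc L q)ˣ), (Additive.toMul b).2, ?_⟩
  rw [prod_univ_eq_prod_range_pow g hgen, hk]
  have hb' := congrArg (fun z : Additive (intUnits L q) =>
    (((Additive.toMul z : intUnits L q) : (Loc L q)ˣ) : Loc L q)) hb
  simp only [Fermat.Agent.CFT.Herbrand.nrm_apply] at hb'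
  rw [toMul_sum, SubmonoidClass.coe_finsetProd, Units.coe_prod] at hb'
  have hau : (((Additive.toMul a : intUnits L q) : (Loc L q)ˣ) : Loc L q)
      = Loc.map q (inclHom ℚ L) (u : Loc ℚ q) := rfl
  rw [← hau, ← hb']
  have h1 : ∀ j : ℕ, (Semilocal.sigmaU q g)^[j] b
      = Additive.ofMul ((Semilocal.autUnits q (g.restrictScalars ℚ))^[j] (Additive.toMul b)) := by
    intro j
    induction j with
    | zero => rfl
    | succ j ih =>
      rw [Function.iterate_succ_apply', ih, Function.iterate_succ_apply']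
      rfl
  refine Finset.prod_congr rfl fun j _ => ?_
  rw [h1, toMul_ofMul, iterate_autUnits, Semilocal.coe_autUnits]
  rfl

end Unramified

/-! ### The kernel of `psi` consists of norms -/

section Kernel

open NumberField

variable (P : Nat.Primes) (m : ℕ) {L : Type*} [Field L] [NumberField L] [IsGalois ℚ L]

omit [IsGalois ℚ L] in
theorem map_mem_intUnits (q : Nat.Primes) {z : (Loc ℚ q)ˣ} (hz : z ∈ intUnits ℚ q) :
    Units.map (Loc.map q (inclHom ℚ L) : Loc ℚ q →* Loc L q) z ∈ intUnits L q := by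
  rw [mem_intUnits] at hz ⊢
  refine ⟨Loc.map_mem_intRing q _ hz.1, ?_⟩
  have : (((Units.map (Loc.map q (inclHom ℚ L) : Loc ℚ q →* Loc L q) z)⁻¹ : (Loc L q)ˣ) : Loc L q)
      = Loc.map q (inclHom ℚ L) ((z⁻¹ : (Loc ℚ q)ˣ) : Loc ℚ q) := by
    rw [← map_inv]
    rfl
  rw [this]
  exact Loc.map_mem_intRing q _ hz.2

theorem symm_unitIncl_mem_intUnits (q : Nat.Primes) (t : ℤ_[(q : ℕ)]ˣ) :
    (locQu q).symm (unitIncl t) ∈ intUnits ℚ q := by
  rw [mem_intUnits_iff, MulEquiv.apply_symm_apply, coe_unitIncl, ← PadicInt.norm_def,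
    PadicInt.norm_units]

/-- A unit idele of `ℚ` whose `p`-component is a `p^m`-th power of a unit is a norm from every
cyclic extension of degree `p^m` unramified outside `p`. -/
theorem exists_normJ_eq (hL : Module.finrank ℚ L = (P : ℕ) ^ m) (g : L ≃ₐ[ℚ] L)
    (hgen : ∀ τ : L ≃ₐ[ℚ] L, τ ∈ Subgroup.zpowers g)
    (hdisc : ∀ q : Nat.Primes, q ≠ P → ¬ (((q : ℕ) : ℤ) ∣ discr L))
    (u : J ℚ) (hu : ∀ q, valQ q u = 0) (t : ℤ_[(P : ℕ)]ˣ)
    (ht : comp P u = unitIncl (t ^ ((P : ℕ) ^ m))) :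
    ∃ y : J L, normJ ℚ L y = u := by
  have hex : ∀ q : Nat.Primes, ∃ v : (Loc L q)ˣ, v ∈ intUnits L q ∧
      ∏ σ : L ≃ₐ[ℚ] L, Loc.aut L q (galHom ℚ L σ) (v : Loc L q)
        = Loc.map q (inclHom ℚ L) ((u : ∀ q : Nat.Primes, (Loc ℚ q)ˣ) q : Loc ℚ q) := by
    intro q
    by_cases hq : q = P
    · subst hq
      let z : (Loc ℚ q)ˣ := (locQu q).symm (unitIncl t)
      have hz : z ∈ intUnits ℚ q := symm_unitIncl_mem_intUnits q t
      refine ⟨Units.map (Loc.map q (inclHom ℚ L) : Loc ℚ q →* Loc L q) z,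
        map_mem_intUnits q hz, ?_⟩
      have h1 : ∀ σ : L ≃ₐ[ℚ] L, Loc.aut L q (galHom ℚ L σ)
          ((Units.map (Loc.map q (inclHom ℚ L) : Loc ℚ q →* Loc L q) z : (Loc L q)ˣ) : Loc L q)
          = Loc.map q (inclHom ℚ L) (z : Loc ℚ q) := by
        intro σ
        exact Loc.aut_map_of_fixes q (inclHom ℚ L) (galHom ℚ L σ)
          (fun a => galHom_inclHom ℚ L σ a) (z : Loc ℚ q)
      simp_rw [h1]
      rw [Finset.prod_const, Finset.card_univ, ← Nat.card_eq_fintype_card,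
        IsGalois.card_aut_eq_finrank, hL, ← map_pow]
      congr 1
      have h2 : (u : ∀ q : Nat.Primes, (Loc ℚ q)ˣ) q = (locQu q).symm (comp q u) := by
        rw [comp_apply, MulEquiv.symm_apply_apply]
      rw [h2, ht, map_pow, map_pow, Units.val_pow_eq_pow_val]
    · exact exists_unit_norm_eq q g hgen (hdisc q hq) _ ((valQ_eq_zero_iff q u).mp (hu q))
  choose v hv hvn using hex
  have hvJ : v ∈ J L := by
    rw [mem_J]
    refine Set.Finite.subset Set.finite_empty ?_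
    intro q hq
    exact absurd (hv q) hq
  exact ⟨⟨v, hvJ⟩, normJ_eq_of_forall ℚ L ⟨v, hvJ⟩ u hvn⟩

theorem ker_psi_le (hp2 : (P : ℕ) ≠ 2) (hL : Module.finrank ℚ L = (P : ℕ) ^ m) (g : L ≃ₐ[ℚ] L)
    (hgen : ∀ τ : L ≃ₐ[ℚ] L, τ ∈ Subgroup.zpowers g)
    (hdisc : ∀ q : Nat.Primes, q ≠ P → ¬ (((q : ℕ) : ℤ) ∣ discr L)) :
    (psi P m).ker ≤ (diag ℚ).range ⊔ (normJ ℚ L).range := by
  intro x hx
  rw [MonoidHom.mem_ker, psi_eq_one_iff P m hp2] at hx
  obtain ⟨a, u, t, rfl, hu, ht⟩ := hx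
  obtain ⟨y, hy⟩ := exists_normJ_eq P m hL g hgen hdisc u hu t ht
  exact Subgroup.mul_mem_sup ⟨a, rfl⟩ ⟨y, hy⟩

/-- **The norm group of a cyclic extension of degree `p^m` unramified outside `p` is `ker psi_m`**,
given the first inequality. -/
theorem ker_psi_eq (hp2 : (P : ℕ) ≠ 2) (hL : Module.finrank ℚ L = (P : ℕ) ^ m) (g : L ≃ₐ[ℚ] L)
    (hgen : ∀ τ : L ≃ₐ[ℚ] L, τ ∈ Subgroup.zpowers g)
    (hdisc : ∀ q : Nat.Primes, q ≠ P → ¬ (((q : ℕ) : ℤ) ∣ discr L))
    (hFI : (P : ℕ) ^ m ≤ ((diag ℚ).range ⊔ (normJ ℚ L).range).index) :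
    (psi P m).ker = (diag ℚ).range ⊔ (normJ ℚ L).range := by
  have hle := ker_psi_le P m hp2 hL g hgen hdisc
  have hidx := index_ker_psi P m hp2
  have hdvd : ((diag ℚ).range ⊔ (normJ ℚ L).range).index ∣ (P : ℕ) ^ m := by
    rw [← hidx]
    exact Subgroup.index_dvd_of_le hle
  have hpm : 0 < (P : ℕ) ^ m := pow_pos P.2.pos m
  have heq : ((diag ℚ).range ⊔ (normJ ℚ L).range).index = (P : ℕ) ^ m :=
    le_antisymm (Nat.le_of_dvd hpm hdvd) hFI
  have h1 := Subgroup.relIndex_mul_index hle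
  rw [hidx, heq] at h1
  have h2 : (psi P m).ker.relIndex ((diag ℚ).range ⊔ (normJ ℚ L).range) = 1 := by
    have : (psi P m).ker.relIndex ((diag ℚ).range ⊔ (normJ ℚ L).range) * (P : ℕ) ^ m
        = 1 * (P : ℕ) ^ m := by rw [h1, one_mul]
    exact Nat.eq_of_mul_eq_mul_right hpm this
  exact le_antisymm hle (Subgroup.relIndex_eq_one.1 h2)

/-- Norms from such an extension are killed by `psi`. -/
theorem psi_normJ (hp2 : (P : ℕ) ≠ 2) (hL : Module.finrank ℚ L = (P : ℕ) ^ m) (g : L ≃ₐ[ℚ] L)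
    (hgen : ∀ τ : L ≃ₐ[ℚ] L, τ ∈ Subgroup.zpowers g)
    (hdisc : ∀ q : Nat.Primes, q ≠ P → ¬ (((q : ℕ) : ℤ) ∣ discr L))
    (hFI : (P : ℕ) ^ m ≤ ((diag ℚ).range ⊔ (normJ ℚ L).range).index) (y : J L) :
    psi P m (normJ ℚ L y) = 1 := by
  have h : normJ ℚ L y ∈ (psi P m).ker := by
    rw [ker_psi_eq P m hp2 hL g hgen hdisc hFI]
    exact Subgroup.mem_sup_right ⟨y, rfl⟩
  exact h

/-- The preimage in `J ℚ` of the norm group in `C ℚ`. -/
theorem comap_range_normC :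
    (normC ℚ L).range.comap (toC ℚ) = (diag ℚ).range ⊔ (normJ ℚ L).range := by
  ext x
  rw [Subgroup.mem_comap, Subgroup.mem_sup]
  constructor
  · rintro ⟨c, hc⟩
    obtain ⟨y, rfl⟩ := toC_surjective L c
    rw [normC_toC] at hc
    have h1 : toC ℚ (x / normJ ℚ L y) = 1 := by rw [map_div, hc, div_self']
    obtain ⟨a, ha⟩ := (toC_eq_one_iff ℚ _).mp h1
    exact ⟨diag ℚ a, ⟨a, rfl⟩, normJ ℚ L y, ⟨y, rfl⟩, by rw [ha, div_mul_cancel]⟩
  · rintro ⟨_, ⟨a, rfl⟩, _, ⟨y, rfl⟩, rfl⟩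
    exact ⟨toC L y, by rw [normC_toC, map_mul, toC_diag, one_mul]⟩

theorem comap_ker_psiC (hp2 : (P : ℕ) ≠ 2) : (psiC P m hp2).ker.comap (toC ℚ) = (psi P m).ker := by
  ext x
  rw [Subgroup.mem_comap, MonoidHom.mem_ker, MonoidHom.mem_ker, psiC_toC]

/-- `C`-level form: **`N C_L = ker psiC`** for `L/ℚ` cyclic of degree `p^m` unramified outside
`p`, given the first inequality `p^m ≤ [C_ℚ : N C_L]`. -/
theorem range_normC_eq_ker (hp2 : (P : ℕ) ≠ 2) (hL : Module.finrank ℚ L = (P : ℕ) ^ m)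
    (g : L ≃ₐ[ℚ] L) (hgen : ∀ τ : L ≃ₐ[ℚ] L, τ ∈ Subgroup.zpowers g)
    (hdisc : ∀ q : Nat.Primes, q ≠ P → ¬ (((q : ℕ) : ℤ) ∣ discr L))
    (hFI : (P : ℕ) ^ m ≤ (normC ℚ L).range.index) :
    (normC ℚ L).range = (psiC P m hp2).ker := by
  apply Subgroup.comap_injective (toC_surjective ℚ)
  rw [comap_ker_psiC, comap_range_normC]
  refine (ker_psi_eq P m hp2 hL g hgen hdisc ?_).symm
  rw [← comap_range_normC, Subgroup.index_comap_of_surjective _ (toC_surjective ℚ)]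
  exact hFI

theorem psiC_normC (hp2 : (P : ℕ) ≠ 2) (hL : Module.finrank ℚ L = (P : ℕ) ^ m)
    (g : L ≃ₐ[ℚ] L) (hgen : ∀ τ : L ≃ₐ[ℚ] L, τ ∈ Subgroup.zpowers g)
    (hdisc : ∀ q : Nat.Primes, q ≠ P → ¬ (((q : ℕ) : ℤ) ∣ discr L))
    (hFI : (P : ℕ) ^ m ≤ (normC ℚ L).range.index) (c : C L) :
    psiC P m hp2 (normC ℚ L c) = 1 := by
  have h : normC ℚ L c ∈ (psiC P m hp2).ker := by
    rw [← range_normC_eq_ker P m hp2 hL g hgen hdisc hFI]
    exact ⟨c, rfl⟩
  exact h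

end Kernel

end Fermat.Agent.CFT.C6.ArtinQNorm
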