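/-
PROJECT C, slice C6b: cyclotomic bookkeeping over `ℚ`.

`K` is an `n`-th cyclotomic extension of `ℚ` (any `n ≠ 0`).  On top of Mathlib's
`IsCyclotomicExtension.Rat.galEquivZMod : Gal(K/ℚ) ≃* (ZMod n)ˣ` we provide

* `sigma n K a : Gal(K/ℚ)`, the automorphism `ζ ↦ ζ ^ a`;
* the Frobenius congruence `sigma [q] x ≡ x ^ q  (mod q · 𝓞 K)` for every prime `q ∤ n`
  and every integral `x` (no choice of a prime above `q`);
* the subfield `subfield n K H` fixed by a subgroup `H ≤ (ZMod n)ˣ`, its degree, its Galois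
  group `(ZMod n)ˣ ⧸ H`, and the same Frobenius congruence on it.
-/
import Mathlib

set_option autoImplicit false

namespace Fermat.Agent.CFT.C6.CyclotomicFrob

open NumberField IsCyclotomicExtension IsCyclotomicExtension.Rat

variable (n : ℕ) [NeZero n] (K : Type*) [Field K] [NumberField K]
  [hK : IsCyclotomicExtension {n} ℚ K]

/-- The automorphism `σ_a : ζ ↦ ζ ^ a` of the `n`-th cyclotomic field. -/
noncomputable def sigma (a : (ZMod n)ˣ) : Gal(K/ℚ) := (galEquivZMod n K).symm a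

@[simp] theorem galEquivZMod_sigma (a : (ZMod n)ˣ) : galEquivZMod n K (sigma n K a) = a :=
  MulEquiv.apply_symm_apply _ _

@[simp] theorem sigma_galEquivZMod (σ : Gal(K/ℚ)) : sigma n K (galEquivZMod n K σ) = σ :=
  MulEquiv.symm_apply_apply _ _

theorem sigma_one : sigma n K 1 = 1 := map_one _

theorem sigma_mul (a b : (ZMod n)ˣ) : sigma n K (a * b) = sigma n K a * sigma n K b :=
  map_mul _ _ _

theorem sigma_pow (a : (ZMod n)ˣ) (i : ℕ) : sigma n K (a ^ i) = sigma n K a ^ i :=
  map_pow _ _ _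

theorem sigma_injective : Function.Injective (sigma n K) := (galEquivZMod n K).symm.injective

theorem sigma_surjective : Function.Surjective (sigma n K) := (galEquivZMod n K).symm.surjective

theorem sigma_apply_of_pow_eq (a : (ZMod n)ˣ) {x : K} (hx : x ^ n = 1) :
    sigma n K a x = x ^ (a : ZMod n).val := by
  rw [galEquivZMod_apply_of_pow_eq n K _ hx, galEquivZMod_sigma]

/-- For `q` prime to `n`, `σ_[q]` raises every `n`-th root of unity to the `q`-th power. -/
theorem sigma_unitOfCoprime_apply (q : ℕ) (hq : q.Coprime n) {x : K} (hx : x ^ n = 1) :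
    sigma n K (ZMod.unitOfCoprime q hq) x = x ^ q := by
  rw [sigma_apply_of_pow_eq n K _ hx, ZMod.coe_unitOfCoprime, ZMod.val_natCast]
  conv_rhs => rw [← Nat.mod_add_div q n, pow_add, pow_mul, hx, one_pow, mul_one]

/-- A rational prime is not a unit of the ring of integers. -/
theorem natCast_mem_nonunits (q : ℕ) (hq : q.Prime) : (q : 𝓞 K) ∈ nonunits (𝓞 K) := by
  intro hu
  obtain ⟨u, hu⟩ := hu.exists_right_inv
  -- `1 / q` is integral over `ℤ`, hence an integer
  have h1 : (q : K) * (u : K) = 1 := by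
    have := congrArg (algebraMap (𝓞 K) K) hu
    simpa using this
  have hq0 : (q : K) ≠ 0 := Nat.cast_ne_zero.2 hq.ne_zero
  have hu' : (u : K) = algebraMap ℚ K ((q : ℚ)⁻¹) := by
    rw [map_inv₀, map_natCast]
    field_simp
    rw [mul_comm]; exact h1
  have hint : IsIntegral ℤ ((q : ℚ)⁻¹) := by
    have : IsIntegral ℤ (algebraMap ℚ K ((q : ℚ)⁻¹)) := hu' ▸ u.2
    exact (isIntegral_algebraMap_iff (algebraMap ℚ K).injective).1 this
  obtain ⟨m, hm⟩ := IsIntegrallyClosed.isIntegral_iff.1 hint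
  have h2 : (q : ℚ) * (m : ℚ) = 1 := by
    have : (algebraMap ℤ ℚ m) = (m : ℚ) := rfl
    rw [← this, hm]
    exact mul_inv_cancel₀ (Nat.cast_ne_zero.2 hq.ne_zero)
  have h3 : (q : ℤ) * m = 1 := by exact_mod_cast h2
  have h4 : (q : ℤ) ∣ 1 := Dvd.intro _ h3
  have h5 := Int.eq_one_of_dvd_one (Int.natCast_nonneg q) h4
  exact hq.ne_one (by exact_mod_cast h5)

/-- **Frobenius congruence** in the ring of integers of the `n`-th cyclotomic field:
for a prime `q ∤ n`, `σ_[q] x ≡ x ^ q` modulo `q · 𝓞 K`. -/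
theorem galRestrict_sigma_sub_pow_mem (q : ℕ) [hq : Fact q.Prime] (hqn : q.Coprime n) (x : 𝓞 K) :
    galRestrict ℤ ℚ K (𝓞 K) (sigma n K (ZMod.unitOfCoprime q hqn)) x - x ^ q ∈
      Ideal.span {(q : 𝓞 K)} := by
  classical
  set σ := sigma n K (ZMod.unitOfCoprime q hqn) with hσ
  set I : Ideal (𝓞 K) := Ideal.span {(q : 𝓞 K)} with hI
  have : CharP (𝓞 K ⧸ I) q := CharP.quotient (𝓞 K) q (natCast_mem_nonunits K q hq.out)
  have hζ := zeta_spec n ℚ K
  let f : 𝓞 K →ₐ[ℤ] (𝓞 K ⧸ I) :=
    (Ideal.Quotient.mkₐ ℤ I).comp (galRestrict ℤ ℚ K (𝓞 K) σ).toAlgHom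
  let g : 𝓞 K →ₐ[ℤ] (𝓞 K ⧸ I) :=
    ((frobenius (𝓞 K ⧸ I) q).comp (Ideal.Quotient.mk I)).toIntAlgHom
  have hfg : f = g := by
    apply AlgHom.ext_of_adjoin_eq_top (adjoin_singleton_eq_top hζ)
    intro y hy
    rw [Set.mem_singleton_iff] at hy
    subst hy
    have h1 : galRestrict ℤ ℚ K (𝓞 K) σ hζ.toInteger = hζ.toInteger ^ q := by
      apply FaithfulSMul.algebraMap_injective (𝓞 K) K
      rw [algebraMap_galRestrict_apply, map_pow]
      exact sigma_unitOfCoprime_apply n K q hqn hζ.pow_eq_one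
    change Ideal.Quotient.mk I (galRestrict ℤ ℚ K (𝓞 K) σ hζ.toInteger) =
      frobenius (𝓞 K ⧸ I) q (Ideal.Quotient.mk I hζ.toInteger)
    rw [h1, frobenius_def, map_pow]
  have h2 := DFunLike.congr_fun hfg x
  change Ideal.Quotient.mk I (galRestrict ℤ ℚ K (𝓞 K) σ x) =
      frobenius (𝓞 K ⧸ I) q (Ideal.Quotient.mk I x) at h2
  rw [frobenius_def, ← map_pow, Ideal.Quotient.eq] at h2
  exact h2

/-- **Frobenius congruence**, model-free form: for a prime `q ∤ n` and `x : K` integral over `ℤ`,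
`σ_[q] x - x ^ q = q * y` with `y` integral over `ℤ`. -/
theorem frob_congr (q : ℕ) [hq : Fact q.Prime] (hqn : q.Coprime n) {x : K} (hx : IsIntegral ℤ x) :
    ∃ y : K, IsIntegral ℤ y ∧ sigma n K (ZMod.unitOfCoprime q hqn) x - x ^ q = q * y := by
  obtain ⟨x', rfl⟩ : ∃ x' : 𝓞 K, algebraMap (𝓞 K) K x' = x :=
    ⟨⟨x, (mem_integralClosure_iff ℤ K).2 hx⟩, rfl⟩
  have h := galRestrict_sigma_sub_pow_mem n K q hqn x'
  rw [Ideal.mem_span_singleton'] at h
  obtain ⟨y, hy⟩ := h
  refine ⟨algebraMap (𝓞 K) K y, RingOfIntegers.isIntegral_coe y, ?_⟩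
  have := congrArg (algebraMap (𝓞 K) K) hy
  rw [map_sub, algebraMap_galRestrict_apply, map_mul, map_pow, map_natCast] at this
  rw [mul_comm]
  exact this.symm

/-! ### Subfields of the cyclotomic field -/

section Subfield

variable (H : Subgroup (ZMod n)ˣ)

/-- The subgroup of `Gal(K/ℚ)` corresponding to `H ≤ (ZMod n)ˣ`. -/
noncomputable def galSubgroup : Subgroup Gal(K/ℚ) := H.comap (galEquivZMod n K).toMonoidHom

theorem mem_galSubgroup {σ : Gal(K/ℚ)} : σ ∈ galSubgroup n K H ↔ galEquivZMod n K σ ∈ H :=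
  Iff.rfl

theorem sigma_mem_galSubgroup {a : (ZMod n)ˣ} : sigma n K a ∈ galSubgroup n K H ↔ a ∈ H := by
  rw [mem_galSubgroup, galEquivZMod_sigma]

instance galSubgroup_normal : (galSubgroup n K H).Normal :=
  (Subgroup.normal_of_isMulCommutative H).comap _

theorem index_galSubgroup : (galSubgroup n K H).index = H.index :=
  Subgroup.index_comap_of_surjective H (galEquivZMod n K).surjective

/-- The subfield of the `n`-th cyclotomic field fixed by `H ≤ (ZMod n)ˣ`. -/
noncomputable def subfield : IntermediateField ℚ K :=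
  IntermediateField.fixedField (galSubgroup n K H)

theorem mem_subfield {x : K} : x ∈ subfield n K H ↔ ∀ a ∈ H, sigma n K a x = x := by
  constructor
  · intro hx a ha
    exact hx ⟨sigma n K a, (sigma_mem_galSubgroup n K H).2 ha⟩
  · intro h σ
    have := h (galEquivZMod n K σ.1) σ.2
    rwa [sigma_galEquivZMod] at this

theorem fixingSubgroup_subfield : (subfield n K H).fixingSubgroup = galSubgroup n K H := by
  have : IsGalois ℚ K := IsCyclotomicExtension.isGalois {n} ℚ K
  exact IntermediateField.fixingSubgroup_fixedField _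

theorem finrank_subfield : Module.finrank ℚ (subfield n K H) = H.index := by
  have : IsGalois ℚ K := IsCyclotomicExtension.isGalois {n} ℚ K
  rw [IntermediateField.finrank_eq_fixingSubgroup_index, fixingSubgroup_subfield,
    index_galSubgroup]

instance isGalois_subfield : IsGalois ℚ (subfield n K H) := by
  have : IsGalois ℚ K := IsCyclotomicExtension.isGalois {n} ℚ K
  exact IsGalois.of_fixedField_normal_subgroup (galSubgroup n K H)

/-- `a ↦ σ_a|_L`, from `(ZMod n)ˣ` onto the Galois group of the subfield `L` fixed by `H`. -/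
noncomputable def sigmaL : (ZMod n)ˣ →* Gal((subfield n K H)/ℚ) :=
  (AlgEquiv.restrictNormalHom (subfield n K H)).comp (galEquivZMod n K).symm.toMonoidHom

theorem sigmaL_apply (a : (ZMod n)ˣ) (x : subfield n K H) :
    ((sigmaL n K H a x : subfield n K H) : K) = sigma n K a (x : K) :=
  AlgEquiv.restrictNormal_commutes (sigma n K a) (subfield n K H) x

theorem sigmaL_surjective : Function.Surjective (sigmaL n K H) := by
  have : IsGalois ℚ K := IsCyclotomicExtension.isGalois {n} ℚ K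
  exact (AlgEquiv.restrictNormalHom_surjective K).comp (galEquivZMod n K).symm.surjective

theorem ker_sigmaL : (sigmaL n K H).ker = H := by
  ext a
  have hN : Normal ℚ (subfield n K H) := inferInstance
  have h1 : (AlgEquiv.restrictNormalHom (F := ℚ) (K₁ := K) (subfield n K H)).ker =
      galSubgroup n K H :=
    (@IntermediateField.restrictNormalHom_ker ℚ K _ _ _ (subfield n K H) hN).trans
      (fixingSubgroup_subfield n K H)
  have h2 : a ∈ (sigmaL n K H).ker ↔
      sigma n K a ∈ (AlgEquiv.restrictNormalHom (F := ℚ) (K₁ := K) (subfield n K H)).ker := Iff.rfl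
  rw [h2, h1]
  exact sigma_mem_galSubgroup n K H

theorem sigmaL_eq_one_iff {a : (ZMod n)ˣ} : sigmaL n K H a = 1 ↔ a ∈ H := by
  rw [← MonoidHom.mem_ker, ker_sigmaL]

/-- `Gal(L/ℚ) ≃ (ZMod n)ˣ ⧸ H`. -/
noncomputable def galSubfieldEquiv : (ZMod n)ˣ ⧸ H ≃* Gal((subfield n K H)/ℚ) :=
  haveI : H.Normal := Subgroup.normal_of_isMulCommutative H
  (QuotientGroup.quotientMulEquivOfEq (ker_sigmaL n K H).symm).trans
    (QuotientGroup.quotientKerEquivOfSurjective _ (sigmaL_surjective n K H))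

theorem galSubfieldEquiv_mk (a : (ZMod n)ˣ) :
    galSubfieldEquiv n K H (QuotientGroup.mk a) = sigmaL n K H a := rfl

theorem card_gal_subfield : Nat.card Gal((subfield n K H)/ℚ) = H.index := by
  rw [← Nat.card_congr (galSubfieldEquiv n K H).toEquiv, Subgroup.index]

theorem orderOf_sigmaL (a : (ZMod n)ˣ) :
    orderOf (sigmaL n K H a) = orderOf (QuotientGroup.mk a : (ZMod n)ˣ ⧸ H) := by
  rw [← galSubfieldEquiv_mk, MulEquiv.orderOf_eq]

theorem isCyclic_gal_subfield [IsCyclic ((ZMod n)ˣ ⧸ H)] :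
    IsCyclic Gal((subfield n K H)/ℚ) :=
  isCyclic_of_surjective (galSubfieldEquiv n K H) (galSubfieldEquiv n K H).surjective

/-- **Frobenius congruence on the subfield**: for a prime `q ∤ n` and `x ∈ L` integral,
`σ_[q]|_L x - x ^ q = q * y` with `y ∈ L` integral. -/
theorem frob_congr_subfield (q : ℕ) [hq : Fact q.Prime] (hqn : q.Coprime n)
    {x : subfield n K H} (hx : IsIntegral ℤ x) :
    ∃ y : subfield n K H, IsIntegral ℤ y ∧
      sigmaL n K H (ZMod.unitOfCoprime q hqn) x - x ^ q = q * y := by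
  have hxK : IsIntegral ℤ (x : K) := hx.map (subfield n K H).val
  obtain ⟨yK, hyK, hy⟩ := frob_congr n K q hqn hxK
  have hq0 : (q : subfield n K H) ≠ 0 := Nat.cast_ne_zero.2 hq.out.ne_zero
  refine ⟨(q : subfield n K H)⁻¹ * (sigmaL n K H (ZMod.unitOfCoprime q hqn) x - x ^ q), ?_, ?_⟩
  · have hval : (((q : subfield n K H)⁻¹ *
        (sigmaL n K H (ZMod.unitOfCoprime q hqn) x - x ^ q) : subfield n K H) : K) = yK := by
      push_cast
      rw [sigmaL_apply, hy]
      have : (q : K) ≠ 0 := Nat.cast_ne_zero.2 hq.out.ne_zero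
      field_simp
    have h1 : IsIntegral ℤ (algebraMap (subfield n K H) K ((q : subfield n K H)⁻¹ *
        (sigmaL n K H (ZMod.unitOfCoprime q hqn) x - x ^ q))) := by
      rw [IntermediateField.algebraMap_apply, hval]
      exact hyK
    exact (isIntegral_algebraMap_iff (algebraMap (subfield n K H) K).injective).1 h1
  · field_simp

/-- A prime `q ∤ n` is unramified in every subfield of the `n`-th cyclotomic field. -/
theorem ramificationIdx_subfield_eq_one (q : ℕ) [hq : Fact q.Prime] (hqn : ¬ q ∣ n)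
    (P : Ideal (𝓞 (subfield n K H))) [P.IsPrime] [P.LiesOver (Ideal.span {(q : ℤ)})] :
    P.ramificationIdx ℤ = 1 := by
  obtain ⟨⟨Q, hQ1, hQ2⟩⟩ := Ideal.nonempty_primesOver (S := 𝓞 K) P
  have : Q.LiesOver (Ideal.span {(q : ℤ)}) := Ideal.LiesOver.trans Q P _
  have h1 : Q.ramificationIdx ℤ = 1 := ramificationIdx_eq_of_not_dvd q K Q hqn
  have h2 : P.ramificationIdx ℤ ∣ Q.ramificationIdx ℤ := Ideal.ramificationIdx_below_dvd P Q
  rw [h1] at h2
  exact Nat.dvd_one.1 h2

end Subfield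

/-! ### Prime power conductor: the ramified prime is a norm -/

section PrimePow

/-- For `ℓ` an odd prime, `ℓ` is the norm of an integral element of every intermediate field of
`ℚ(ζ_{ℓ^(k+1)})/ℚ` (namely of the relative norm of `ζ - 1`). -/
theorem exists_norm_eq_prime (ℓ k : ℕ) [hℓ : Fact ℓ.Prime] (K' : Type*) [Field K']
    [NumberField K'] [hK' : IsCyclotomicExtension {ℓ ^ (k + 1)} ℚ K'] (hodd : ℓ ≠ 2)
    (L : IntermediateField ℚ K') :
    ∃ y : L, IsIntegral ℤ y ∧ Algebra.norm ℚ y = (ℓ : ℚ) := by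
  have hζ := zeta_spec (ℓ ^ (k + 1)) ℚ K'
  have hnorm : Algebra.norm ℚ (zeta (ℓ ^ (k + 1)) ℚ K' - 1) = (ℓ : ℚ) :=
    hζ.norm_sub_one_of_prime_ne_two
      (Polynomial.cyclotomic.irreducible_rat (pow_pos hℓ.out.pos _)) hodd
  have hint : IsIntegral ℤ (zeta (ℓ ^ (k + 1)) ℚ K' - 1) :=
    (hζ.isIntegral (pow_pos hℓ.out.pos _)).sub isIntegral_one
  refine ⟨Algebra.norm L (zeta (ℓ ^ (k + 1)) ℚ K' - 1), Algebra.isIntegral_norm L hint, ?_⟩
  rw [Algebra.norm_norm, hnorm]

end PrimePow

end Fermat.Agent.CFT.C6.CyclotomicFrob
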