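/-
PROJECT C, slice C6a: the layers of the cyclotomic `ℤ_p`-extension of `ℚ`.

For an odd prime `p`, `m : ℕ` and a `p^(m+1)`-th cyclotomic number field `K`:
* `tors p m` : the kernel of `x ↦ x^(p-1)` on `(ℤ/p^(m+1))ˣ` (`index_tors = p^m`);
* `Qm p m K : IntermediateField ℚ K` : the fixed field of `tors`, Galois over `ℚ`, cyclic of degree
  `p^m` (`finrank_Qm`, `card_gal_Qm`, `isCyclic_gal_Qm`);
* `artin p m K : (ℤ/p^(m+1))ˣ →* Gal(Q_m/ℚ)` surjective with `artin u = 1 ↔ u^(p-1) = 1`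
  (`artin_pow_eq_one_iff`), and the Frobenius congruence `artin_frob` at `q ≠ p`;
* `not_dvd_discr` : primes `q ≠ p` do not divide `discr Q_m`.
-/
import Fermat.Agent.CFT.C6.CyclotomicFrob
import Fermat.Agent.CFT.C6.LocalAtP

set_option autoImplicit false

noncomputable section

namespace Fermat.Agent.CFT.C6.ZpTower

open Fermat.Agent.CFT.C6.CyclotomicFrob NumberField

variable (p : ℕ) [hp : Fact p.Prime] (m : ℕ)

instance neZero_pow : NeZero (p ^ (m + 1)) := ⟨pow_ne_zero _ hp.out.ne_zero⟩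


/-- The torsion subgroup `μ_{p-1}` of `(ℤ/p^(m+1))ˣ`: the kernel of `x ↦ x^(p-1)`. -/
def tors : Subgroup (ZMod (p ^ (m + 1)))ˣ :=
  (powMonoidHom (p - 1) : (ZMod (p ^ (m + 1)))ˣ →* (ZMod (p ^ (m + 1)))ˣ).ker

omit hp in
theorem mem_tors {u : (ZMod (p ^ (m + 1)))ˣ} : u ∈ tors p m ↔ u ^ (p - 1) = 1 := Iff.rfl

theorem index_tors (hp2 : p ≠ 2) : (tors p m).index = p ^ m := by
  have : IsCyclic (ZMod (p ^ (m + 1)))ˣ := ZMod.isCyclic_units_of_prime_pow p hp.out hp2 (m + 1)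
  unfold tors
  rw [Subgroup.index_ker, IsCyclic.card_powMonoidHom_range, LocalAtP.card_units_zmod]
  have hp1 : 0 < p - 1 := by have := hp.out.two_le; omega
  rw [Nat.gcd_eq_right (Dvd.intro_left _ rfl), Nat.mul_div_cancel _ hp1]

variable (K : Type*) [Field K] [NumberField K] [IsCyclotomicExtension {p ^ (m + 1)} ℚ K]

/-- The `m`-th layer of the cyclotomic `ℤ_p`-extension of `ℚ`, inside `ℚ(ζ_{p^(m+1)})`. -/
def Qm : IntermediateField ℚ K := subfield (p ^ (m + 1)) K (tors p m)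

instance isGalois_Qm : IsGalois ℚ (Qm p m K) := isGalois_subfield _ _ _

theorem finrank_Qm (hp2 : p ≠ 2) : Module.finrank ℚ (Qm p m K) = p ^ m := by
  unfold Qm
  rw [finrank_subfield, index_tors p m hp2]

theorem card_gal_Qm (hp2 : p ≠ 2) : Nat.card Gal((Qm p m K)/ℚ) = p ^ m := by
  unfold Qm
  rw [card_gal_subfield, index_tors p m hp2]

theorem isCyclic_gal_Qm (hp2 : p ≠ 2) : IsCyclic Gal((Qm p m K)/ℚ) := by
  have : IsCyclic (ZMod (p ^ (m + 1)))ˣ := ZMod.isCyclic_units_of_prime_pow p hp.out hp2 (m + 1)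
  have : IsCyclic ((ZMod (p ^ (m + 1)))ˣ ⧸ tors p m) :=
    isCyclic_of_surjective (QuotientGroup.mk' (tors p m)) (QuotientGroup.mk'_surjective _)
  exact isCyclic_gal_subfield _ _ _

/-- The Artin map `(ℤ/p^(m+1))ˣ → Gal(Q_m/ℚ)`, `a ↦ σ_a`. -/
def artin : (ZMod (p ^ (m + 1)))ˣ →* Gal((Qm p m K)/ℚ) := sigmaL (p ^ (m + 1)) K (tors p m)

theorem artin_surjective : Function.Surjective (artin p m K) := sigmaL_surjective _ _ _

theorem artin_eq_one_iff (u : (ZMod (p ^ (m + 1)))ˣ) : artin p m K u = 1 ↔ u ^ (p - 1) = 1 :=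
  sigmaL_eq_one_iff _ _ _

theorem artin_pow_eq_one_iff (u : (ZMod (p ^ (m + 1)))ˣ) (t : ℕ) :
    artin p m K u ^ t = 1 ↔ (u ^ (p - 1)) ^ t = 1 := by
  rw [← map_pow, artin_eq_one_iff, ← pow_mul, ← pow_mul, mul_comm]

/-- The Frobenius congruence at `q ≠ p`. -/
theorem artin_frob (q : ℕ) [hq : Fact q.Prime] (hqp : q ≠ p) {x : Qm p m K} (hx : IsIntegral ℤ x) :
    ∃ (hqn : q.Coprime (p ^ (m + 1))) (y : Qm p m K), IsIntegral ℤ y ∧
      artin p m K (ZMod.unitOfCoprime q hqn) x - x ^ q = q * y := by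
  have hqn : q.Coprime (p ^ (m + 1)) :=
    Nat.Coprime.pow_right _ ((Nat.coprime_primes hq.out hp.out).2 hqp)
  obtain ⟨y, hy, h⟩ := frob_congr_subfield (p ^ (m + 1)) K (tors p m) q hqn hx
  exact ⟨hqn, y, hy, h⟩

/-- Primes `q ≠ p` do not divide the discriminant of `Q_m`. -/
theorem not_dvd_discr (q : ℕ) [hq : Fact q.Prime] (hqp : q ≠ p) :
    ¬ ((q : ℤ) ∣ NumberField.discr (Qm p m K)) := by
  intro h
  have h1 : NumberField.discr (Qm p m K) ∣ NumberField.discr K :=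
    NumberField.discr_dvd_discr (Qm p m K) K
  have h2 := h.trans h1
  rw [IsCyclotomicExtension.Rat.discr_prime_pow_succ p m K] at h2
  have hq' : Prime (q : ℤ) := Nat.prime_iff_prime_int.mp hq.out
  rcases hq'.dvd_or_dvd h2 with h3 | h3
  · have h4 := hq'.dvd_of_dvd_pow h3
    rw [Int.dvd_neg] at h4
    exact hq'.not_dvd_one h4
  · have h4 := hq'.dvd_of_dvd_pow h3
    rw [Int.natCast_dvd_natCast] at h4
    exact hqp ((Nat.prime_dvd_prime_iff_eq hq.out hp.out).mp h4)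

end Fermat.Agent.CFT.C6.ZpTower
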