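/-
PROJECT C, slice C6c (part 2, instance): reciprocity for the layers `Q_m` of the cyclotomic
`ℤ_p`-tower over `ℚ`: `N C_{Q_m} = ker psiC` (given the first inequality for `Q_m/ℚ`).
-/
import Fermat.Agent.CFT.C6.ArtinQNorm
import Fermat.Agent.CFT.C6.ZpTower

set_option autoImplicit false

noncomputable section

namespace Fermat.Agent.CFT.C6.QmNorm

open Fermat.Agent.CFT.Idele Fermat.Agent.CFT.C6.ArtinQ Fermat.Agent.CFT.C6.ArtinQNorm
  Fermat.Agent.CFT.C6.IdeleNorm Fermat.Agent.CFT.C6.ZpTower NumberField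

variable (P : Nat.Primes) (m : ℕ) (K : Type*) [Field K] [NumberField K]
  [IsCyclotomicExtension {(P : ℕ) ^ (m + 1)} ℚ K]

/-- Reciprocity for the layers of the cyclotomic `ℤ_p`-tower over `ℚ`, given the first
inequality. -/
theorem range_normC_Qm (hp2 : (P : ℕ) ≠ 2)
    (hFI : (P : ℕ) ^ m ≤ (normC ℚ (Qm (P : ℕ) m K)).range.index) :
    (normC ℚ (Qm (P : ℕ) m K)).range = (psiC P m hp2).ker := by
  obtain ⟨g, hg⟩ := (isCyclic_gal_Qm (P : ℕ) m K hp2).exists_generator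
  refine range_normC_eq_ker P m hp2 (finrank_Qm (P : ℕ) m K hp2) g hg ?_ hFI
  intro q hq
  exact not_dvd_discr (P : ℕ) m K (q : ℕ) (fun h => hq (Subtype.ext h))

/-- Norms from `Q_m` are killed by `psi_m`. -/
theorem psiC_normC_Qm (hp2 : (P : ℕ) ≠ 2)
    (hFI : (P : ℕ) ^ m ≤ (normC ℚ (Qm (P : ℕ) m K)).range.index) (c : C (Qm (P : ℕ) m K)) :
    psiC P m hp2 (normC ℚ (Qm (P : ℕ) m K) c) = 1 := by
  have h : normC ℚ (Qm (P : ℕ) m K) c ∈ (psiC P m hp2).ker := by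
    rw [← range_normC_Qm P m K hp2 hFI]
    exact ⟨c, rfl⟩
  exact h

/-- `C_ℚ / N C_{Q_m}` has exactly `p^m` elements (given the first inequality). -/
theorem index_range_normC_Qm (hp2 : (P : ℕ) ≠ 2)
    (hFI : (P : ℕ) ^ m ≤ (normC ℚ (Qm (P : ℕ) m K)).range.index) :
    (normC ℚ (Qm (P : ℕ) m K)).range.index = (P : ℕ) ^ m := by
  rw [range_normC_Qm P m K hp2 hFI, ← Subgroup.index_comap_of_surjective _ (toC_surjective ℚ),
    comap_ker_psiC, index_ker_psi P m hp2]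

end Fermat.Agent.CFT.C6.QmNorm
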