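/-
PROJECT C, slice C6c (part 3): UNCONDITIONAL reciprocity for the layers `Q_m` of the cyclotomic
`ℤ_p`-tower over `ℚ` (`p` odd): the first inequality (helper15, `C4/FirstInequalityNorm`) removes
the hypothesis `hFI` of `C6/QmNorm.lean`:

* `first_inequality_Qm` : `p ^ m ≤ [C_ℚ : N C_{Q_m}]`;
* `range_normC_Qm_eq` : `N C_{Q_m} = ker psiC_m`;
* `psiC_normC_Qm_eq_one`, `psi_normJ_Qm_eq_one`, `index_range_normC_Qm_eq`;
* `baseClass`, `orderOf_psiC_baseClass` : a fixed idele class `a₀ ∈ C_ℚ` with `psiC_m a₀` of exact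
  order `p ^ m` for every `m` (the class of the idele `1 + p` at `p`);
* `pow_dvd_of_pow_mem_range_normC` : `a₀ ^ r ∈ N C_{Q_m} → p ^ m ∣ r`.
-/
import Fermat.Agent.CFT.C6.QmNorm
import Fermat.Agent.CFT.C4.FirstInequalityNorm

set_option autoImplicit false

noncomputable section

namespace Fermat.Agent.CFT.C6.QmRecip

open Fermat.Agent.CFT.Idele Fermat.Agent.CFT.C6.ArtinQ Fermat.Agent.CFT.C6.ArtinQNorm
  Fermat.Agent.CFT.C6.IdeleNorm Fermat.Agent.CFT.C6.ZpTower Fermat.Agent.CFT.C6.QmNorm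
  Fermat.Agent.CFT.C6.LocalAtP NumberField

section Tower

variable (P : Nat.Primes) (m : ℕ) (K : Type) [Field K] [NumberField K]
  [IsCyclotomicExtension {(P : ℕ) ^ (m + 1)} ℚ K]

/-- `Q_m/ℚ` has odd degree, hence is unramified at the infinite places. -/
theorem isUnramifiedAtInfinitePlaces_Qm (hp2 : (P : ℕ) ≠ 2) :
    IsUnramifiedAtInfinitePlaces ℚ (Qm (P : ℕ) m K) := by
  apply IsUnramifiedAtInfinitePlaces_of_odd_finrank
  rw [finrank_Qm (P : ℕ) m K hp2]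
  exact (P.2.odd_of_ne_two hp2).pow

/-- The first inequality for `Q_m/ℚ`. -/
theorem first_inequality_Qm (hp2 : (P : ℕ) ≠ 2) :
    (P : ℕ) ^ m ≤ (normC ℚ (Qm (P : ℕ) m K)).range.index := by
  obtain ⟨g, hg⟩ := (isCyclic_gal_Qm (P : ℕ) m K hp2).exists_generator
  have := isUnramifiedAtInfinitePlaces_Qm P m K hp2
  have h := C4.FirstInequalityNorm.finrank_le_index_range_normC g hg
  rwa [finrank_Qm (P : ℕ) m K hp2] at h

/-- **Reciprocity for the layers of the cyclotomic `ℤ_p`-tower over `ℚ`**: the norm group of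
`Q_m` is the kernel of the explicit reciprocity map `psiC_m`. -/
theorem range_normC_Qm_eq (hp2 : (P : ℕ) ≠ 2) :
    (normC ℚ (Qm (P : ℕ) m K)).range = (psiC P m hp2).ker :=
  range_normC_Qm P m K hp2 (first_inequality_Qm P m K hp2)

/-- Norms of idele classes of `Q_m` are killed by `psiC_m`. -/
theorem psiC_normC_Qm_eq_one (hp2 : (P : ℕ) ≠ 2) (c : C (Qm (P : ℕ) m K)) :
    psiC P m hp2 (normC ℚ (Qm (P : ℕ) m K) c) = 1 :=
  psiC_normC_Qm P m K hp2 (first_inequality_Qm P m K hp2) c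

/-- Norms of ideles of `Q_m` are killed by `psi_m`. -/
theorem psi_normJ_Qm_eq_one (hp2 : (P : ℕ) ≠ 2) (y : J (Qm (P : ℕ) m K)) :
    psi P m (normJ ℚ (Qm (P : ℕ) m K) y) = 1 := by
  have h := psiC_normC_Qm_eq_one P m K hp2 (toC _ y)
  rwa [normC_toC, psiC_toC] at h

/-- `[C_ℚ : N C_{Q_m}] = p ^ m`. -/
theorem index_range_normC_Qm_eq (hp2 : (P : ℕ) ≠ 2) :
    (normC ℚ (Qm (P : ℕ) m K)).range.index = (P : ℕ) ^ m :=
  index_range_normC_Qm P m K hp2 (first_inequality_Qm P m K hp2)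

end Tower

section BaseClass

variable (P : Nat.Primes)

theorem isUnit_one_add_p : IsUnit ((((P : ℕ) + 1 : ℕ) : ℤ) : ℤ_[(P : ℕ)]) := by
  apply isUnit_intCast_padicInt (q := P)
  intro h
  have h1 : ((P : ℕ) : ℤ) ∣ 1 := by
    have h2 : ((P : ℕ) : ℤ) ∣ (((P : ℕ) + 1 : ℕ) : ℤ) - ((P : ℕ) : ℤ) := dvd_sub h dvd_rfl
    have h3 : (((P : ℕ) + 1 : ℕ) : ℤ) - ((P : ℕ) : ℤ) = 1 := by push_cast; ring
    rwa [h3] at h2
  have := Int.eq_one_of_dvd_one (Int.natCast_nonneg _) h1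
  exact P.2.ne_one (by exact_mod_cast this)

/-- The unit `1 + p` of `ℤ_p`. -/
def onePlusP : ℤ_[(P : ℕ)]ˣ := (isUnit_one_add_p P).unit

theorem coe_onePlusP : ((onePlusP P : ℤ_[(P : ℕ)]ˣ) : ℤ_[(P : ℕ)]) = (((P : ℕ) + 1 : ℕ) : ℤ_[(P : ℕ)]) := by
  rw [onePlusP, IsUnit.unit_spec]
  push_cast
  rfl

theorem orderOf_redUnits_onePlusP (hp2 : (P : ℕ) ≠ 2) (m : ℕ) :
    orderOf (redUnits (p := (P : ℕ)) m (onePlusP P)) = (P : ℕ) ^ m := by
  rw [← orderOf_injective _ Units.coeHom_injective, Units.coeHom_apply]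
  have h : ((redUnits (p := (P : ℕ)) m (onePlusP P) : (ZMod ((P : ℕ) ^ (m + 1)))ˣ) :
      ZMod ((P : ℕ) ^ (m + 1))) = 1 + ((P : ℕ) : ZMod ((P : ℕ) ^ (m + 1))) := by
    change PadicInt.toZModPow (m + 1) ((onePlusP P : ℤ_[(P : ℕ)]ˣ) : ℤ_[(P : ℕ)]) = _
    rw [coe_onePlusP, map_natCast]
    push_cast
    ring
  rw [h]
  exact ZMod.orderOf_one_add_prime P.2 hp2 m

/-- The fixed idele of `ℚ`: `1 + p` at `p`, `1` elsewhere. -/
def baseIdele : J ℚ := single P (unitIncl (onePlusP P))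

/-- The fixed idele class `a₀ ∈ C_ℚ`. -/
def baseClass : C ℚ := toC ℚ (baseIdele P)

theorem psi_baseIdele (m : ℕ) :
    psi P m (baseIdele P) = redUnits m (onePlusP P) ^ ((P : ℕ) - 1) :=
  psi_single_unitIncl P m (onePlusP P)

/-- `psi_m a₀` has exact order `p ^ m`. -/
theorem orderOf_psi_baseIdele (hp2 : (P : ℕ) ≠ 2) (m : ℕ) :
    orderOf (psi P m (baseIdele P)) = (P : ℕ) ^ m := by
  rw [psi_baseIdele, Nat.Coprime.orderOf_pow, orderOf_redUnits_onePlusP P hp2]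
  rw [orderOf_redUnits_onePlusP P hp2]
  apply Nat.Coprime.pow_left
  have hpos : 0 < (P : ℕ) := P.2.pos
  obtain ⟨n, hn⟩ : ∃ n, (P : ℕ) = n + 1 := ⟨(P : ℕ) - 1, (Nat.sub_add_cancel hpos).symm⟩
  rw [hn, Nat.add_sub_cancel]
  exact (Nat.coprime_self_add_left.2 (Nat.coprime_one_left n))

theorem orderOf_psiC_baseClass (hp2 : (P : ℕ) ≠ 2) (m : ℕ) :
    orderOf (psiC P m hp2 (baseClass P)) = (P : ℕ) ^ m := by
  rw [baseClass, psiC_toC]
  exact orderOf_psi_baseIdele P hp2 m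

/-- The (hn2) input of Tate's argument: if `a₀ ^ r` is a norm from `Q_m` then `p ^ m ∣ r`. -/
theorem pow_dvd_of_pow_mem_range_normC (hp2 : (P : ℕ) ≠ 2) (m : ℕ) (K : Type) [Field K]
    [NumberField K] [IsCyclotomicExtension {(P : ℕ) ^ (m + 1)} ℚ K] (r : ℤ)
    (hr : baseClass P ^ r ∈ (normC ℚ (Qm (P : ℕ) m K)).range) : ((P : ℕ) ^ m : ℤ) ∣ r := by
  rw [range_normC_Qm_eq P m K hp2, MonoidHom.mem_ker, map_zpow] at hr
  have := orderOf_dvd_iff_zpow_eq_one.2 hr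
  rwa [orderOf_psiC_baseClass P hp2 m] at this

end BaseClass

end Fermat.Agent.CFT.C6.QmRecip
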