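/-
PROJECT C, slice C6d: THE NORM GROUP OF `F·Q_m` OVER `F`.

`p` an odd prime, `Q_m` the `m`-th layer of the cyclotomic `ℤ_p`-tower, `F/ℚ` a finite Galois
extension, `M = F·Q_m` (any number field, Galois over `ℚ`, with embeddings of `F` and `Q_m`
generating it: an automorphism fixing both images is trivial).  Then

  `N_{M/F} C_M = ker (psiC_m ∘ N_{F/ℚ})`.

Inputs: reciprocity for `Q_m/ℚ` (`C6/QmRecip`), transitivity of norms (`C6/IdeleNorm`), the first
inequality for the cyclic extension `M/F` (helper15, `C4`), the second inequality in degree `p`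
as the hypothesis `hSI : SecondInequality p` (helper18, `C5/PrimeDegree`), and two arithmetic
facts taken here as hypotheses of the abstract statement `range_normC_eq_ker_of`:

* (K) `C6/KGlue`: if `psi_m (N_{F/ℚ} x) ^ t = 1` for all ideles `x` of `F`, then every
  `τ ∈ Gal(M/F)` fixing a prime `W ∣ q` of `M` (`q ≠ p`, `q ∤ disc M`) has `τ ^ t = 1`;
* (L) `C6/FrobGen`: for a normal subgroup `G'` of index `p` of `Gal(M/F)` and a finite set `S` of
  primes there are `q ∉ S`, a prime `W ∣ q` of `M` and `τ ∉ G'` with `τ W = W`.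
-/
import Fermat.Agent.CFT.C6.QmRecip
import Fermat.Agent.CFT.C5.PrimeDegree
import Fermat.Agent.CFT.C4.FirstInequalityRep

set_option autoImplicit false

noncomputable section

namespace Fermat.Agent.CFT.C6.ArtinK

open Fermat.Agent.CFT.Idele Fermat.Agent.CFT.C6.ArtinQ Fermat.Agent.CFT.C6.IdeleNorm
  Fermat.Agent.CFT.C6.ZpTower Fermat.Agent.CFT.C6.QmRecip NumberField
open scoped Pointwise

/-! ### A cyclic `p`-group -/

/-- In a cyclic group of order `p ^ (s + 1)` the elements killed by `p ^ s` lie in a normal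
subgroup of index `p`. -/
theorem exists_index_prime_subgroup {G : Type*} [Group G] [Finite G] {p s : ℕ} (hp : p.Prime)
    (g : G) (hgen : ∀ τ : G, τ ∈ Subgroup.zpowers g) (hcard : Nat.card G = p ^ (s + 1)) :
    ∃ G' : Subgroup G, G'.Normal ∧ G'.index = p ∧ ∀ τ : G, τ ^ (p ^ s) = 1 → τ ∈ G' := by
  have hord : orderOf g = p ^ (s + 1) := by
    rw [← hcard]
    exact orderOf_eq_card_of_forall_mem_zpowers hgen
  have hcomm : ∀ a b : G, a * b = b * a := by
    intro a b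
    obtain ⟨i, rfl⟩ := Subgroup.mem_zpowers_iff.1 (hgen a)
    obtain ⟨j, rfl⟩ := Subgroup.mem_zpowers_iff.1 (hgen b)
    rw [← zpow_add, ← zpow_add, add_comm]
  refine ⟨Subgroup.zpowers (g ^ p), ⟨fun n hn a => ?_⟩, ?_, ?_⟩
  · rw [hcomm a n, mul_assoc, mul_inv_cancel, mul_one]
    exact hn
  · have h1 : Nat.card (Subgroup.zpowers (g ^ p)) = p ^ s := by
      rw [Nat.card_zpowers, orderOf_pow' g hp.ne_zero, hord, pow_succ,
        Nat.gcd_eq_right (Dvd.intro_left _ rfl), Nat.mul_div_cancel _ hp.pos]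
    have h2 := Subgroup.card_mul_index (Subgroup.zpowers (g ^ p))
    rw [h1, hcard, pow_succ] at h2
    exact Nat.eq_of_mul_eq_mul_left (pow_pos hp.pos s) h2
  · intro τ hτ
    obtain ⟨i, rfl⟩ := Subgroup.mem_zpowers_iff.1 (hgen τ)
    rw [← zpow_natCast, ← zpow_mul] at hτ
    have h1 := (orderOf_dvd_iff_zpow_eq_one).2 hτ
    rw [hord, pow_succ] at h1
    push_cast at h1
    rw [mul_comm i] at h1
    have h2 : (p : ℤ) ∣ i :=
      (mul_dvd_mul_iff_left (pow_ne_zero s (by exact_mod_cast hp.ne_zero))).1 h1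
    obtain ⟨j, rfl⟩ := h2
    rw [Subgroup.mem_zpowers_iff]
    exact ⟨j, by rw [← zpow_natCast, ← zpow_mul]⟩

/-! ### The setting -/

section Main

variable (P : Nat.Primes) (m : ℕ) (K : Type) [Field K] [NumberField K]
  [IsCyclotomicExtension {(P : ℕ) ^ (m + 1)} ℚ K]
  (F M : Type) [Field F] [NumberField F] [Field M] [NumberField M] [IsGalois ℚ F] [IsGalois ℚ M]
  [Algebra F M] [Algebra (Qm (P : ℕ) m K) M] [IsGalois F M] [IsGalois (Qm (P : ℕ) m K) M]

/-- `M` is generated by the images of `F` and `Q_m`. -/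
def IsCompositum : Prop :=
  ∀ g : M ≃ₐ[ℚ] M, (∀ x : F, g (algebraMap F M x) = algebraMap F M x) →
    (∀ x : Qm (P : ℕ) m K, g (algebraMap (Qm (P : ℕ) m K) M x) =
      algebraMap (Qm (P : ℕ) m K) M x) → g = 1

/-- The restriction `Gal(M/F) → Gal(Q_m/ℚ)`. -/
def resQ : (M ≃ₐ[F] M) →* ((Qm (P : ℕ) m K) ≃ₐ[ℚ] (Qm (P : ℕ) m K)) :=
  (AlgEquiv.restrictNormalHom (F := ℚ) (K₁ := M) (Qm (P : ℕ) m K)).comp (resScal ℚ F M)

variable {P m K F M}

theorem resQ_injective (hgen : IsCompositum P m K F M) :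
    Function.Injective (resQ P m K F M) := by
  rw [injective_iff_map_eq_one]
  intro τ hτ
  apply resScal_injective ℚ F M
  rw [map_one]
  apply hgen
  · intro x
    rw [resScal_apply]
    exact τ.commutes x
  · intro x
    have h1 := AlgEquiv.restrictNormal_commutes (resScal ℚ F M τ) (Qm (P : ℕ) m K) x
    have h2 : (resScal ℚ F M τ).restrictNormal (Qm (P : ℕ) m K) = 1 := hτ
    rw [h2] at h1
    exact h1.symm

theorem isCyclic_gal (hp2 : (P : ℕ) ≠ 2) (hgen : IsCompositum P m K F M) :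
    IsCyclic (M ≃ₐ[F] M) := by
  haveI := isCyclic_gal_Qm (P : ℕ) m K hp2
  exact isCyclic_of_injective (resQ P m K F M) (resQ_injective hgen)

theorem exists_finrank_eq (hp2 : (P : ℕ) ≠ 2) (hgen : IsCompositum P m K F M) :
    ∃ s : ℕ, s ≤ m ∧ Module.finrank F M = (P : ℕ) ^ s := by
  have h1 := Subgroup.card_dvd_of_injective (resQ P m K F M) (resQ_injective hgen)
  rw [card_gal_Qm (P : ℕ) m K hp2, IsGalois.card_aut_eq_finrank] at h1
  exact (Nat.dvd_prime_pow P.2).1 h1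

/-! ### Norms are killed -/

include K in
/-- `N_{M/F} C_M ≤ ker (psiC_m ∘ N_{F/ℚ})`. -/
theorem psiC_normC_normC (hp2 : (P : ℕ) ≠ 2) (c : C M) :
    psiC P m hp2 (normC ℚ F (normC F M c)) = 1 := by
  rw [normC_normC ℚ F M, ← normC_normC ℚ (Qm (P : ℕ) m K) M]
  exact psiC_normC_Qm_eq_one P m K hp2 _

/-! ### The norm index -/

/-- `[C_F : N_{M/F} C_M] = [M : F]`, from the two inequalities. -/
theorem index_range_normC_eq (hp2 : (P : ℕ) ≠ 2) (hgen : IsCompositum P m K F M)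
    (hSI : C5.PrimeDegree.SecondInequality (P : ℕ)) :
    (normC F M).range.index = Module.finrank F M := by
  haveI : Fact (P : ℕ).Prime := ⟨P.2⟩
  obtain ⟨s, -, hs⟩ := exists_finrank_eq (F := F) (M := M) hp2 hgen
  obtain ⟨g, hg⟩ := (isCyclic_gal (F := F) (M := M) hp2 hgen).exists_generator
  haveI : IsUnramifiedAtInfinitePlaces F M := by
    apply IsUnramifiedAtInfinitePlaces_of_odd_finrank
    rw [hs]
    exact (P.2.odd_of_ne_two hp2).pow
  have hpg : IsPGroup (P : ℕ) (M ≃ₐ[F] M) := by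
    apply IsPGroup.of_card (n := s)
    rw [IsGalois.card_aut_eq_finrank, hs]
  have h2 := (C5.PrimeDegree.h1_h2_of_isPGroup (P : ℕ) hp2 hSI F M hpg).2
  rw [show C5.ClassDevissage.classRep F M = Rep.res (galHom F M) (repC M) from rfl,
    C4.FirstInequalityRep.card_H2_eq g hg] at h2
  exact (C4.FirstInequalityNorm.index_eq_and_idx_eq_one_of_le g hg
    (Nat.le_of_dvd Module.finrank_pos h2)).1

/-! ### The norm group theorem, abstract form -/

/-- **The norm group of `F·Q_m/F`**, with the arithmetic inputs (K) and (L) as hypotheses. -/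
theorem range_normC_eq_ker_of (hp2 : (P : ℕ) ≠ 2) (hgen : IsCompositum P m K F M)
    (hSI : C5.PrimeDegree.SecondInequality (P : ℕ))
    (hK : ∀ t : ℕ, (∀ x : J F, psi P m (normJ ℚ F x) ^ t = 1) →
      ∀ q : Nat.Primes, q ≠ P → ¬ (((q : ℕ) : ℤ) ∣ NumberField.discr M) →
      ∀ W : Ideal (𝓞 M), W.IsPrime → (((q : ℕ) : ℕ) : 𝓞 M) ∈ W →
      ∀ τ : M ≃ₐ[F] M, τ • W = W → τ ^ t = 1)
    (hL : ∀ G' : Subgroup (M ≃ₐ[F] M), G'.Normal → G'.index = (P : ℕ) →
      ∀ S : Finset Nat.Primes, ∃ q, q ∉ S ∧ ∃ (W : Ideal (𝓞 M)) (τ : M ≃ₐ[F] M),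
        W.IsPrime ∧ (((q : ℕ) : ℕ) : 𝓞 M) ∈ W ∧ τ • W = W ∧ τ ∉ G') :
    (normC F M).range = ((psiC P m hp2).comp (normC ℚ F)).ker := by
  classical
  set X : Subgroup (C F) := ((psiC P m hp2).comp (normC ℚ F)).ker with hX
  set Y : Subgroup (C F) := (normC F M).range with hY
  have hYX : Y ≤ X := by
    rintro _ ⟨c, rfl⟩
    rw [hX, MonoidHom.mem_ker, MonoidHom.comp_apply]
    exact psiC_normC_normC (K := K) (F := F) (M := M) hp2 c
  obtain ⟨s, -, hs⟩ := exists_finrank_eq (F := F) (M := M) hp2 hgen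
  have hYi : Y.index = (P : ℕ) ^ s := by
    rw [hY, index_range_normC_eq (F := F) (M := M) hp2 hgen hSI, hs]
  have hXdvd : X.index ∣ (P : ℕ) ^ s := hYi ▸ Subgroup.index_dvd_of_le hYX
  obtain ⟨s', hs's, hXi⟩ := (Nat.dvd_prime_pow P.2).1 hXdvd
  -- it suffices to show `s' = s`
  suffices hss : s' = s by
    apply le_antisymm hYX
    have h1 := Subgroup.relIndex_mul_index hYX
    rw [hYi, hXi, hss] at h1
    have h2 : Y.relIndex X = 1 := by
      have hpos : 0 < (P : ℕ) ^ s := pow_pos P.2.pos s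
      exact Nat.eq_of_mul_eq_mul_right hpos (by rw [h1, one_mul])
    exact Subgroup.relIndex_eq_one.1 h2
  by_contra hne
  have hlt : s' < s := lt_of_le_of_ne hs's hne
  obtain ⟨s₀, rfl⟩ : ∃ s₀, s = s₀ + 1 := ⟨s - 1, by omega⟩
  have hs'le : s' ≤ s₀ := by omega
  -- every value of `psiC ∘ N` is killed by `p ^ s₀`
  have hcardI : Nat.card ((psiC P m hp2).comp (normC ℚ F)).range = (P : ℕ) ^ s' := by
    rw [← Subgroup.index_ker, ← hX, hXi]
  have hkill : ∀ c : C F, psiC P m hp2 (normC ℚ F c) ^ ((P : ℕ) ^ s₀) = 1 := by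
    intro c
    have h1 : (⟨_, ⟨c, rfl⟩⟩ : ((psiC P m hp2).comp (normC ℚ F)).range) ^
        Nat.card ((psiC P m hp2).comp (normC ℚ F)).range = 1 := pow_card_eq_one'
    rw [hcardI] at h1
    have h2 : psiC P m hp2 (normC ℚ F c) ^ ((P : ℕ) ^ s') = 1 := congrArg Subtype.val h1
    obtain ⟨d, hd⟩ := pow_dvd_pow (P : ℕ) hs'le
    rw [hd, pow_mul, h2, one_pow]
  have ht : ∀ x : J F, psi P m (normJ ℚ F x) ^ ((P : ℕ) ^ s₀) = 1 := by
    intro x
    have := hkill (toC F x)
    rwa [normC_toC, psiC_toC] at this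
  -- the subgroup `G'`
  obtain ⟨g, hg⟩ := (isCyclic_gal (F := F) (M := M) hp2 hgen).exists_generator
  have hcardG : Nat.card (M ≃ₐ[F] M) = (P : ℕ) ^ (s₀ + 1) := by
    rw [IsGalois.card_aut_eq_finrank, hs]
  obtain ⟨G', hG'n, hG'i, hG'⟩ := exists_index_prime_subgroup P.2 g hg hcardG
  -- the finite set of bad primes
  have hfin : {q : Nat.Primes | (((q : ℕ) : ℤ)) ∣ NumberField.discr M}.Finite :=
    finite_setOf_int_dvd (NumberField.discr_ne_zero M)
  obtain ⟨q, hqS, W, τ, hW, hqW, hτW, hτG'⟩ := hL G' hG'n hG'i (insert P hfin.toFinset)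
  have hqP : q ≠ P := fun h => hqS (h ▸ Finset.mem_insert_self _ _)
  have hqd : ¬ (((q : ℕ) : ℤ) ∣ NumberField.discr M) := by
    intro h
    apply hqS
    apply Finset.mem_insert_of_mem
    rw [Set.Finite.mem_toFinset]
    exact h
  exact hτG' (hG' τ (hK _ ht q hqP hqd W hW hqW τ hτW))

end Main

/-! ### Consequences for Tate's argument -/

section Consequences

variable {P : Nat.Primes} {m : ℕ}

/-- Every value of `psiC_m` is killed by `p ^ m`. -/
theorem psiC_pow_eq_one (hp2 : (P : ℕ) ≠ 2) (a : C ℚ) :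
    psiC P m hp2 a ^ ((P : ℕ) ^ m) = 1 := by
  obtain ⟨x, rfl⟩ := toC_surjective ℚ a
  rw [psiC_toC]
  have h1 : (⟨_, ⟨x, rfl⟩⟩ : (psi P m).range) ^ Nat.card (psi P m).range = 1 := pow_card_eq_one'
  rw [card_range_psi P m hp2] at h1
  exact congrArg Subtype.val h1

variable {F M : Type} [Field F] [NumberField F] [Field M] [NumberField M] [IsGalois ℚ F]
  [Algebra F M] [IsGalois F M]

/-- **(hn1) input of Tate's argument**: if `N_{M/F} C_M = ker (psiC_m ∘ N_{F/ℚ})` and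
`p ^ m ∣ e * [F : ℚ]`, then the `e`-th power of the image in `C_F` of any idele class of `ℚ` is a
norm from `M`. -/
theorem map_pow_mem_range_normC (hp2 : (P : ℕ) ≠ 2)
    (hN : (normC F M).range = ((psiC P m hp2).comp (normC ℚ F)).ker) (a : C ℚ) (e : ℕ)
    (he : (P : ℕ) ^ m ∣ e * Module.finrank ℚ F) :
    C.map (inclHom ℚ F) a ^ e ∈ (normC F M).range := by
  rw [hN, MonoidHom.mem_ker, MonoidHom.comp_apply, map_pow, normC_map, ← pow_mul, map_pow]
  obtain ⟨d, hd⟩ := he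
  rw [mul_comm, hd, pow_mul, psiC_pow_eq_one hp2, one_pow]

end Consequences

end Fermat.Agent.CFT.C6.ArtinK
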