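/-
PROJECT C, slice C6d: THE NORM GROUP OF `F·Q_m` OVER `F`, final form.

`N_{M/F} C_M = ker (psiC_m ∘ N_{F/ℚ})` for `M = F·Q_m`, conditional only on the second inequality
in degree `p` (`hSI : C5.PrimeDegree.SecondInequality p`, the C5 core).  Assembles
`C6/ArtinK.range_normC_eq_ker_of` with helper14's `C6/KGlue` and helper22's `C6/FrobGen`.
Consequence `map_baseClass_mem_range_normC`: the (hn1) input of Tate's argument.
-/
import Fermat.Agent.CFT.C6.ArtinK
import Fermat.Agent.CFT.C6.KGlue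
import Fermat.Agent.CFT.C6.FrobGen

set_option autoImplicit false

noncomputable section

namespace Fermat.Agent.CFT.C6.ArtinKMain

open Fermat.Agent.CFT.Idele Fermat.Agent.CFT.C6.ArtinQ Fermat.Agent.CFT.C6.IdeleNorm
  Fermat.Agent.CFT.C6.ZpTower Fermat.Agent.CFT.C6.QmRecip Fermat.Agent.CFT.C6.ArtinK NumberField
open scoped Pointwise

variable {P : Nat.Primes} {m : ℕ} {K : Type} [Field K] [NumberField K]
  [IsCyclotomicExtension {(P : ℕ) ^ (m + 1)} ℚ K]
  {F M : Type} [Field F] [NumberField F] [Field M] [NumberField M] [IsGalois ℚ F] [IsGalois ℚ M]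
  [Algebra F M] [Algebra (Qm (P : ℕ) m K) M] [IsGalois F M] [IsGalois (Qm (P : ℕ) m K) M]

/-- **The norm group of `F·Q_m / F`** is the kernel of `psiC_m ∘ N_{F/ℚ}`. -/
theorem range_normC_eq_ker (hp2 : (P : ℕ) ≠ 2) (hgen : IsCompositum P m K F M)
    (hSI : C5.PrimeDegree.SecondInequality (P : ℕ)) :
    (normC F M).range = ((psiC P m hp2).comp (normC ℚ F)).ker := by
  refine range_normC_eq_ker_of hp2 hgen hSI ?_ ?_
  · intro t ht q hqP hq W hW hqW τ hτ
    haveI := hW
    exact KGlue.pow_eq_one_of_smul_eq P m K F M hgen t ht q hqP hq W hqW τ hτ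
  · intro G' hG' hidx S
    haveI := hG'
    exact FrobGen.exists_stabilizer_not_mem F M (P : ℕ) P.2 hp2 G' hidx S

/-- **(hn1) input of Tate's argument**: if `p ^ m ∣ e * [F : ℚ]` then the `e`-th power of the image
in `C_F` of any idele class of `ℚ` is a norm from `M = F·Q_m`. -/
theorem map_pow_mem_range_normC' (hp2 : (P : ℕ) ≠ 2) (hgen : IsCompositum P m K F M)
    (hSI : C5.PrimeDegree.SecondInequality (P : ℕ)) (a : C ℚ) (e : ℕ)
    (he : (P : ℕ) ^ m ∣ e * Module.finrank ℚ F) :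
    C.map (inclHom ℚ F) a ^ e ∈ (normC F M).range :=
  map_pow_mem_range_normC hp2 (range_normC_eq_ker hp2 hgen hSI) a e he

/-- The case `e = 1`: `p ^ m ∣ [F : ℚ]`. -/
theorem map_mem_range_normC (hp2 : (P : ℕ) ≠ 2) (hgen : IsCompositum P m K F M)
    (hSI : C5.PrimeDegree.SecondInequality (P : ℕ)) (a : C ℚ)
    (he : (P : ℕ) ^ m ∣ Module.finrank ℚ F) :
    C.map (inclHom ℚ F) a ∈ (normC F M).range := by
  have h := map_pow_mem_range_normC' (M := M) hp2 hgen hSI a 1 (by rwa [one_mul])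
  rwa [pow_one] at h

end Fermat.Agent.CFT.C6.ArtinKMain
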