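import Mathlib
import Fermat.Agent.CFT.C6.TateClassModule
import Fermat.Agent.CFT.Local.CyclicH2Compat

/-!
# PROJECT C, slice C6e: cyclic layers, norm form

The bridge between the arithmetic of a cyclic (cyclotomic) layer and Tate's argument
(`C6/TateArgument.lean`, `C6/TateClassModule.lean`).  `Γ` a finite group, `A : Rep k Γ`,
`N ⊴ Γ` with `Γ ⧸ N = ⟨σ⟩` cyclic of order `d` (think `Γ = Gal(M/K)`, `N = Gal(M/K_m)`,
`A = C_M ⊗ k`).

* `exists_pow_generator`, `exists_generator_subQuot` : for every subgroup `S ≤ Γ` the group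
  `S ⧸ S ∩ N` is cyclic, generated by the `τ` with `τ ↦ σ ^ f`, `f * |S ⧸ S ∩ N| = d`;
* `nrm_eq_norm` : helper27's `CyclicH2.nrm` is Mathlib's `Representation.norm` for a cyclic group;
* `smul_baseChange_eq_zero_iff` : **norm criterion**: for a `2`-cocycle `f` of `A^N` with invariant
  `a = trSum f` (`= a₀` for `f = stdCocycle a₀`), `r • baseChange A N S [f] = 0` iff `r • a` is a
  norm from `A^(S ∩ N)` for the group `S ⧸ S ∩ N`;
* `exists_fundamental_of_cyclicLayer`, `exists_isClassModule_of_cyclicLayer` : Tate's argument with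
  all hypotheses on the auxiliary layer expressed through norm groups:
  (n1) `c • a₀ ∈ N_{H ⧸ H ∩ N} A^(H ∩ N)`; (n2) `r • a₀ ∈ N_{S ⧸ S ∩ N} A^(S ∩ N) → D ∣ r * [Γ : S]`
  for all `S ≥ H`.
-/

set_option autoImplicit false

universe u

noncomputable section

open groupCohomology CategoryTheory Rep Finset

namespace Fermat.Agent.CFT.C6.CyclicLayer

open Fermat.Agent.CFT.InfRes2 Fermat.Agent.CFT.C6.TateArgument Fermat.Agent.CFT.Local.CyclicH2
  Fermat.Agent.CFT.C6.TateClassModule Fermat.Agent.CFT.A5.Tate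

section Group

variable {G : Type*} [Group G] {σ : G} {d : ℕ}

/-- In a finite cyclic group `⟨σ⟩` of order `d` every subgroup `I` is `⟨σ ^ f⟩` with
`f * |I| = d`. -/
theorem exists_pow_generator (hord : orderOf σ = d) (hd : 0 < d)
    (hgen : ∀ g : G, ∃ i : ℕ, σ ^ i = g) (I : Subgroup G) :
    ∃ e f : ℕ, d = f * e ∧ 0 < e ∧ σ ^ f ∈ I ∧ orderOf (σ ^ f) = e ∧
      ∀ g ∈ I, ∃ i : ℕ, (σ ^ f) ^ i = g := by
  classical
  have hcomm : ∀ g h : G, g * h = h * g := by
    intro g h
    obtain ⟨i, rfl⟩ := hgen g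
    obtain ⟨j, rfl⟩ := hgen h
    rw [← pow_add, ← pow_add, add_comm]
  have hnormal : I.Normal :=
    ⟨fun n hn g => by rw [hcomm g n, mul_assoc, mul_inv_cancel, mul_one]; exact hn⟩
  have hfinσ : IsOfFinOrder σ :=
    isOfFinOrder_iff_pow_eq_one.2 ⟨d, hd, by rw [← hord]; exact pow_orderOf_eq_one σ⟩
  have htop : Subgroup.zpowers σ = ⊤ := by
    rw [Subgroup.eq_top_iff']
    intro g
    obtain ⟨i, rfl⟩ := hgen g
    exact Subgroup.npow_mem_zpowers σ i
  have hcardG : Nat.card G = d := by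
    rw [← hord, ← Nat.card_zpowers, htop, Subgroup.card_top]
  have hfinG : Finite G := Nat.finite_of_card_ne_zero (by rw [hcardG]; exact hd.ne')
  set e := Nat.card I with he
  set f := I.index with hf
  have hfe : f * e = d := by rw [← hcardG, mul_comm]; exact Subgroup.card_mul_index I
  have he0 : 0 < e := Nat.card_pos
  have hf0 : f ≠ 0 := Subgroup.index_ne_zero_of_finite
  have hmem : σ ^ f ∈ I := I.pow_index_mem σ
  have hordf : orderOf (σ ^ f) = e := by
    rw [orderOf_pow' σ hf0, hord, ← hfe, Nat.gcd_eq_right (dvd_mul_right f e),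
      Nat.mul_div_cancel_left e (Nat.pos_of_ne_zero hf0)]
  have hle : Subgroup.zpowers (σ ^ f) ≤ I := by
    rw [Subgroup.zpowers_le]; exact hmem
  have heq : Subgroup.zpowers (σ ^ f) = I :=
    Subgroup.eq_of_le_of_card_ge hle (by rw [Nat.card_zpowers, hordf])
  refine ⟨e, f, hfe.symm, he0, hmem, hordf, fun g hg => ?_⟩
  rw [← heq] at hg
  have hfin' : IsOfFinOrder (σ ^ f) := hfinσ.pow
  obtain ⟨i, hi⟩ := (hfin'.mem_zpowers_iff_mem_range_orderOf).1 hg |> fun h => by
    simpa using h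
  exact ⟨i, hi.2⟩

/-- For a finite cyclic group `⟨τ⟩` of order `e`, the transgression norm `∑_{i<e} τ^i` is the
norm `∑_g g` of Mathlib. -/
theorem nrm_eq_norm {k G : Type u} [CommRing k] [Group G] [Fintype G] (B : Rep.{u} k G) {τ : G}
    {e : ℕ} (hord : orderOf τ = e) (hgen : ∀ g : G, ∃ i : ℕ, τ ^ i = g) (b : B) :
    nrm B τ e b = B.ρ.norm b := by
  unfold nrm
  rw [Representation.norm, LinearMap.sum_apply]
  refine Finset.sum_nbij (fun i => τ ^ i) (fun _ _ => Finset.mem_univ _) ?_ ?_ (fun _ _ => rfl)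
  · intro i hi j hj hij
    rw [Finset.coe_range, ← hord] at hi hj
    exact pow_injOn_Iio_orderOf hi hj hij
  · intro g _
    obtain ⟨j, rfl⟩ := hgen g
    have he : 0 < e := by
      rw [← hord]
      exact orderOf_pos_iff.2 (isOfFinOrder_of_finite τ)
    refine ⟨j % e, ?_, ?_⟩
    · rw [Finset.coe_range]; exact Nat.mod_lt _ he
    · change τ ^ (j % e) = τ ^ j
      rw [← hord, pow_mod_orderOf]

theorem trSum_smul {k G : Type u} [CommRing k] [Group G] (B : Rep.{u} k G) (τ : G) (e : ℕ)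
    (r : k) (f : G × G → B) : trSum B τ e (r • f) = r • trSum B τ e f := by
  unfold trSum
  rw [Finset.smul_sum]
  rfl

theorem nrm_smul {k G : Type u} [CommRing k] [Group G] (B : Rep.{u} k G) (τ : G) (e : ℕ)
    (r : k) (b : B) : nrm B τ e (r • b) = r • nrm B τ e b := by
  unfold nrm
  rw [Finset.smul_sum]
  exact Finset.sum_congr rfl fun i _ => map_smul _ _ _

end Group

section Layer

variable {k Γ : Type u} [CommRing k] [Group Γ] (A : Rep.{u} k Γ) (N : Subgroup Γ) [N.Normal]
  (S : Subgroup Γ)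

theorem subQuotToQuot_injective : Function.Injective (subQuotToQuot N S) := by
  rw [injective_iff_map_eq_one]
  intro x hx
  induction x using QuotientGroup.induction_on with | H s =>
  rw [subQuotToQuot_mk, QuotientGroup.eq_one_iff] at hx
  exact (QuotientGroup.eq_one_iff s).2 hx

variable {N} in
/-- If `Γ ⧸ N = ⟨σ⟩` is cyclic of order `d`, then for every subgroup `S` of `Γ` the group
`S ⧸ S ∩ N` is cyclic, generated by the element `τ` mapping to `σ ^ f`, `f * |S ⧸ S ∩ N| = d`. -/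
theorem exists_generator_subQuot {σ : Γ ⧸ N} {d : ℕ} (hord : orderOf σ = d) (hd : 0 < d)
    (hgen : ∀ g : Γ ⧸ N, ∃ i : ℕ, σ ^ i = g) :
    ∃ (τ : S ⧸ N.subgroupOf S) (e f : ℕ), d = f * e ∧ 0 < e ∧ subQuotToQuot N S τ = σ ^ f ∧
      orderOf τ = e ∧ ∀ s : S ⧸ N.subgroupOf S, ∃ i : ℕ, τ ^ i = s := by
  obtain ⟨e, f, hde, he, hmem, hordf, hall⟩ :=
    exists_pow_generator hord hd hgen (subQuotToQuot N S).range
  obtain ⟨τ, hτ⟩ := hmem
  refine ⟨τ, e, f, hde, he, hτ, ?_, fun s => ?_⟩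
  · rw [← hordf, ← hτ]
    exact (orderOf_injective _ (subQuotToQuot_injective N S) τ).symm
  · obtain ⟨i, hi⟩ := hall _ ⟨s, rfl⟩
    refine ⟨i, subQuotToQuot_injective N S ?_⟩
    rw [map_pow, hτ, hi]

/-- The inclusion `A^N → A^(S ∩ N)` as an additive map. -/
def inclInv : (A.quotientToInvariants N) →+
    ((Rep.res S.subtype A).quotientToInvariants (N.subgroupOf S)) :=
  (invToSubInv A N S).hom.toLinearMap.toAddMonoidHom

@[simp]
theorem inclInv_apply_coe (a : A.quotientToInvariants N) : ((inclInv A N S a).1 : A) = a.1 := rfl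

variable {A N S} in
theorem baseChange_H2π (f : cocycles₂ (A.quotientToInvariants N)) :
    baseChange A N S (H2π _ f) =
      H2π _ ((mapCocycles₂ (subQuotToQuot N S) (invToSubInv A N S)).hom f) :=
  H2π_comp_map_apply (subQuotToQuot N S) (invToSubInv A N S) f

variable {A N} in
/-- **Norm criterion for the base change of a class of a cyclic layer.**  `Γ ⧸ N = ⟨σ⟩` cyclic of
order `d`, `f` a `2`-cocycle of `A^N`, `a = trSum f = ∑_{i<d} f (σ^i, σ) ∈ (A^N)^σ` its invariant
(`a₀` itself for `f = stdCocycle a₀`, `1 < d`).  For every subgroup `S` of `Γ` and every `r : k`: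
`r •` (base change of `[f]` to `S ⧸ S ∩ N`) vanishes iff `r • a` is a norm from `A^(S ∩ N)`
for the (cyclic) group `S ⧸ S ∩ N`. -/
theorem smul_baseChange_eq_zero_iff [Fintype (S ⧸ N.subgroupOf S)] {σ : Γ ⧸ N} {d : ℕ}
    (hord : orderOf σ = d) (hd : 0 < d) (hgen : ∀ g : Γ ⧸ N, ∃ i : ℕ, σ ^ i = g)
    (f : cocycles₂ (A.quotientToInvariants N)) (r : k) :
    r • baseChange A N S (H2π _ f) = 0 ↔
      ∃ b : (Rep.res S.subtype A).quotientToInvariants (N.subgroupOf S),
        ((Rep.res S.subtype A).quotientToInvariants (N.subgroupOf S)).ρ.norm b =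
          r • inclInv A N S (trSum (A.quotientToInvariants N) σ d f) := by
  obtain ⟨τ, e, f₁, hde, he, hτ, hordτ, hgenτ⟩ := exists_generator_subQuot S hord hd hgen
  set B' := (Rep.res S.subtype A).quotientToInvariants (N.subgroupOf S) with hB'
  set f' := (mapCocycles₂ (subQuotToQuot N S) (invToSubInv A N S)).hom f with hf'
  have hτe : τ ^ e = 1 := by rw [← hordτ]; exact pow_orderOf_eq_one τ
  obtain ⟨b', hb'⟩ := trSum_restriction (A' := B') hord hd hgen hde hτe (subQuotToQuot N S) hτ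
    (inclInv A N S)
    (fun h a => (hom_comm_apply (invToSubInv A N S) h a))
    f (f' : _ × _ → B') (fun g h => rfl)
  rw [baseChange_H2π, ← map_smul, H2π_eq_zero_iff_trSum hordτ hgenτ]
  have h1 : trSum B' τ e ((r • f' : cocycles₂ B') : _ × _ → B') = r • trSum B' τ e f' :=
    trSum_smul B' τ e r _
  rw [h1, hb', smul_add, ← nrm_smul]
  constructor
  · rintro ⟨b, hb⟩
    refine ⟨b - r • b', ?_⟩
    rw [← nrm_eq_norm B' hordτ hgenτ, nrm_sub, ← hb]
    abel
  · rintro ⟨b, hb⟩
    refine ⟨b + r • b', ?_⟩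
    rw [nrm_add, nrm_eq_norm B' hordτ hgenτ b, hb]

end Layer

section Main

variable {k Γ : Type u} [CommRing k] [Group Γ] [Finite Γ] (A : Rep.{u} k Γ)
  (N : Subgroup Γ) [N.Normal] (H : Subgroup Γ) [H.Normal]

/-- **Fundamental class from a cyclic layer, norm form.**  `Γ ⧸ N = ⟨σ⟩` cyclic of order `d`,
`f₀` a `2`-cocycle of `A^N` with invariant `a₀ = trSum f₀ ∈ (A^N)^σ`; `D, c : k` with
`c * [Γ : H] = D ≠ 0`.  Assume
* (n1) `c • a₀` is a norm from `A^(H ∩ N)` for `H ⧸ H ∩ N`;
* (n2) for every `S ≥ H` and `r : k`: if `r • a₀` is a norm from `A^(S ∩ N)` for `S ⧸ S ∩ N` then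
  `D ∣ r * [Γ : S]`.
Then `c • inf [f₀] = inf u` for a class `u` of `Γ ⧸ H` all of whose restrictions to subgroups `S'`
have annihilator contained in `(|S'|)`. -/
theorem exists_fundamental_of_cyclicLayer [IsDomain k] (hH : H1Vanishes A H)
    (hNS : ∀ S : Subgroup Γ, H ≤ S → H1Vanishes (Rep.res S.subtype A) (N.subgroupOf S))
    {σ : Γ ⧸ N} {d : ℕ} (hord : orderOf σ = d) (hd : 0 < d)
    (hgen : ∀ g : Γ ⧸ N, ∃ i : ℕ, σ ^ i = g)
    (f₀ : cocycles₂ (A.quotientToInvariants N)) (D c : k)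
    (hc : c * (H.index : k) = D) (hD : D ≠ 0)
    (hn1 : ∀ [Fintype (H ⧸ N.subgroupOf H)],
      ∃ b : (Rep.res H.subtype A).quotientToInvariants (N.subgroupOf H),
        ((Rep.res H.subtype A).quotientToInvariants (N.subgroupOf H)).ρ.norm b =
          c • inclInv A N H (trSum (A.quotientToInvariants N) σ d f₀))
    (hn2 : ∀ S : Subgroup Γ, H ≤ S → ∀ [Fintype (S ⧸ N.subgroupOf S)] (r : k),
      (∃ b : (Rep.res S.subtype A).quotientToInvariants (N.subgroupOf S),
        ((Rep.res S.subtype A).quotientToInvariants (N.subgroupOf S)).ρ.norm b =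
          r • inclInv A N S (trSum (A.quotientToInvariants N) σ d f₀)) →
      D ∣ r * (S.index : k)) :
    ∃ u : groupCohomology (A.quotientToInvariants H) 2,
      inf₂ A H u = c • inf₂ A N (H2π _ f₀) ∧
      ∀ (S' : Subgroup (Γ ⧸ H)) (r : k), r • res₂ (A.quotientToInvariants H) S' u = 0 →
        ((Nat.card S' : ℕ) : k) ∣ r := by
  classical
  refine exists_fundamental_of_layer_dvd H hH hNS (H2π _ f₀) D c hc hD ?_ ?_
  · letI : Fintype (H ⧸ N.subgroupOf H) := Fintype.ofFinite _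
    exact (smul_baseChange_eq_zero_iff H hord hd hgen f₀ c).2 hn1
  · intro S hS r hr
    let _ : Fintype (S ⧸ N.subgroupOf S) := Fintype.ofFinite _
    exact hn2 S hS r ((smul_baseChange_eq_zero_iff S hord hd hgen f₀ r).1 hr)

/-- **Class module from a cyclic layer, norm form** (the interface between the arithmetic of the
cyclic cyclotomic layers, slice C6d, and Tate's theorem). -/
theorem exists_isClassModule_of_cyclicLayer [IsDomain k] [Fintype (Γ ⧸ H)]
    (hH : H1Vanishes A H)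
    (hNS : ∀ S : Subgroup Γ, H ≤ S → H1Vanishes (Rep.res S.subtype A) (N.subgroupOf S))
    {σ : Γ ⧸ N} {d : ℕ} (hord : orderOf σ = d) (hd : 0 < d)
    (hgen : ∀ g : Γ ⧸ N, ∃ i : ℕ, σ ^ i = g)
    (f₀ : cocycles₂ (A.quotientToInvariants N)) (D c : k)
    (hc : c * (H.index : k) = D) (hD : D ≠ 0)
    (hn1 : ∀ [Fintype (H ⧸ N.subgroupOf H)],
      ∃ b : (Rep.res H.subtype A).quotientToInvariants (N.subgroupOf H),
        ((Rep.res H.subtype A).quotientToInvariants (N.subgroupOf H)).ρ.norm b =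
          c • inclInv A N H (trSum (A.quotientToInvariants N) σ d f₀))
    (hn2 : ∀ S : Subgroup Γ, H ≤ S → ∀ [Fintype (S ⧸ N.subgroupOf S)] (r : k),
      (∃ b : (Rep.res S.subtype A).quotientToInvariants (N.subgroupOf S),
        ((Rep.res S.subtype A).quotientToInvariants (N.subgroupOf S)).ρ.norm b =
          r • inclInv A N S (trSum (A.quotientToInvariants N) σ d f₀)) →
      D ∣ r * (S.index : k))
    (h1 : ∀ S' : Subgroup (Γ ⧸ H),
      Limits.IsZero (groupCohomology (Rep.res S'.subtype (A.quotientToInvariants H)) 1))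
    (hk : CyclicCriterion k)
    (hcard : ∀ S' : Subgroup (Γ ⧸ H),
      Nat.card (groupCohomology (Rep.res S'.subtype (A.quotientToInvariants H)) 2) ∣
        Nat.card S') :
    ∃ φ : cocycles₂ (A.quotientToInvariants H),
      inf₂ A H (H2π _ φ) = c • inf₂ A N (H2π _ f₀) ∧
        IsClassModule (A.quotientToInvariants H) φ := by
  obtain ⟨u, hu, hu'⟩ := exists_fundamental_of_cyclicLayer A N H hH hNS hord hd hgen f₀ D c hc hD
    hn1 hn2
  induction u using H2_induction_on with | @h φ =>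
  exact ⟨φ, hu, isClassModule_of_ord' _ φ h1 hk hcard hu'⟩

end Main

end Fermat.Agent.CFT.C6.CyclicLayer
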