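import Mathlib
import Fermat.Agent.CFT.A1.CoresAlt
import Fermat.Agent.CFT.C6.CyclicLayer

/-!
# PROJECT C, slice C6e: Tate's argument with corestriction

With `cores ∘ res = [Γ : S]` (helper10's `A1/CoresAlt`), the hypotheses of
`TateArgument.exists_fundamental_of_dvd` on the restrictions `res_S ξ` for all `S ≥ H` follow from
the single hypothesis at `S = Γ`: `r • ξ = 0 → D ∣ r`.  So only the cyclic layer `Γ ⧸ N` itself and
its base change to `H` enter (helper7's key reduction: no norm groups of non-Galois intermediate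
fields).

* `dvd_mul_index_of_smul_res₂_eq_zero` : `r • res_S ξ = 0 → D ∣ r * [Γ : S]` from the case `S = Γ`;
* `exists_fundamental_of_dvd_top`, `exists_isClassModule_of_dvd_top`;
* `exists_fundamental_of_cyclicLayer_top`, `exists_isClassModule_of_cyclicLayer_top` : norm form:
  (n1) `c • a₀ ∈ N_{H ⧸ H ∩ N} A^(H ∩ N)`, (n2) `r • a₀ ∈ N_{Γ ⧸ N} A^N → D ∣ r`.
-/

set_option autoImplicit false

universe u

noncomputable section

open groupCohomology CategoryTheory Rep

namespace Fermat.Agent.CFT.C6.TateCores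

open Fermat.Agent.CFT.InfRes2 Fermat.Agent.CFT.C6.TateArgument Fermat.Agent.CFT.Local.CyclicH2
  Fermat.Agent.CFT.C6.TateClassModule Fermat.Agent.CFT.A5.Tate Fermat.Agent.CFT.C6.CyclicLayer
  Fermat.Agent.CFT.A1.CoresAlt

variable {k Γ : Type u} [CommRing k] [Group Γ] {A : Rep.{u} k Γ}

/-- `cores ∘ res = index`: a relation `r • res_S ξ = 0` gives `(r * [Γ : S]) • ξ = 0`. -/
theorem mul_index_smul_eq_zero (S : Subgroup Γ) [S.FiniteIndex] (ξ : groupCohomology A 2) (r : k)
    (hr : r • res₂ A S ξ = 0) : (r * (S.index : k)) • ξ = 0 := by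
  have h := cores_res_apply S A 2 ξ
  rw [mul_smul, ← h]
  change r • (cores S A 2) (res₂ A S ξ) = 0
  rw [← map_smul, hr, map_zero]

theorem dvd_mul_index_of_smul_res₂_eq_zero (S : Subgroup Γ) [S.FiniteIndex]
    (ξ : groupCohomology A 2) (D : k) (htop : ∀ r : k, r • ξ = 0 → D ∣ r) (r : k)
    (hr : r • res₂ A S ξ = 0) : D ∣ r * (S.index : k) :=
  htop _ (mul_index_smul_eq_zero S ξ r hr)

variable [Finite Γ]

/-- **Descent of a fundamental class**, corestriction version: only the order of `ξ` itself and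
the vanishing of `c • res_H ξ` are needed. -/
theorem exists_fundamental_of_dvd_top [IsDomain k] {H : Subgroup Γ} [H.Normal]
    (hH : H1Vanishes A H) (ξ : groupCohomology A 2) (D c : k) (hc : c * (H.index : k) = D)
    (hD : D ≠ 0) (hξ : c • res₂ A H ξ = 0) (htop : ∀ r : k, r • ξ = 0 → D ∣ r) :
    ∃ u : groupCohomology (A.quotientToInvariants H) 2,
      inf₂ A H u = c • ξ ∧
      ∀ (S' : Subgroup (Γ ⧸ H)) (r : k), r • res₂ (A.quotientToInvariants H) S' u = 0 →
        ((Nat.card S' : ℕ) : k) ∣ r :=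
  exists_fundamental_of_dvd hH ξ D c hc hD hξ
    (fun S _ r hr => dvd_mul_index_of_smul_res₂_eq_zero S ξ D htop r hr)

/-- Class module version of `exists_fundamental_of_dvd_top`. -/
theorem exists_isClassModule_of_dvd_top [IsDomain k] {H : Subgroup Γ} [H.Normal]
    [Fintype (Γ ⧸ H)] (hH : H1Vanishes A H) (ξ : groupCohomology A 2) (D c : k)
    (hc : c * (H.index : k) = D) (hD : D ≠ 0) (hξ : c • res₂ A H ξ = 0)
    (htop : ∀ r : k, r • ξ = 0 → D ∣ r)
    (h1 : ∀ S' : Subgroup (Γ ⧸ H),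
      Limits.IsZero (groupCohomology (Rep.res S'.subtype (A.quotientToInvariants H)) 1))
    (hk : CyclicCriterion k)
    (hcard : ∀ S' : Subgroup (Γ ⧸ H),
      Nat.card (groupCohomology (Rep.res S'.subtype (A.quotientToInvariants H)) 2) ∣
        Nat.card S') :
    ∃ φ : cocycles₂ (A.quotientToInvariants H),
      inf₂ A H (H2π _ φ) = c • ξ ∧ IsClassModule (A.quotientToInvariants H) φ := by
  obtain ⟨u, hu, hu'⟩ := exists_fundamental_of_dvd_top hH ξ D c hc hD hξ htop
  induction u using H2_induction_on with | @h φ =>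
  exact ⟨φ, hu, isClassModule_of_ord' _ φ h1 hk hcard hu'⟩

section Cyclic

variable (A) (N : Subgroup Γ) [N.Normal] (H : Subgroup Γ) [H.Normal]

omit [Finite Γ] in
/-- The order of the inflation of a class of a cyclic layer, norm form: if
`r • inf [f₀] = 0` then `r • trSum f₀` is a norm of `A^N`. -/
theorem exists_norm_eq_of_smul_inf₂_eq_zero [Fintype (Γ ⧸ N)] (hN : H1Vanishes A N)
    {σ : Γ ⧸ N} {d : ℕ} (hord : orderOf σ = d) (hgen : ∀ g : Γ ⧸ N, ∃ i : ℕ, σ ^ i = g)
    (f₀ : cocycles₂ (A.quotientToInvariants N)) (r : k)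
    (hr : r • inf₂ A N (H2π _ f₀) = 0) :
    ∃ b : A.quotientToInvariants N, (A.quotientToInvariants N).ρ.norm b =
      r • trSum (A.quotientToInvariants N) σ d f₀ := by
  rw [← map_smul, ← map_smul] at hr
  have h0 : H2π (A.quotientToInvariants N) (r • f₀) = 0 :=
    inf₂_injective hN (by rw [hr, map_zero])
  obtain ⟨b, hb⟩ := (H2π_eq_zero_iff_trSum hord hgen (r • f₀)).1 h0
  refine ⟨b, ?_⟩
  rw [← nrm_eq_norm _ hord hgen, ← hb]
  exact trSum_smul _ σ d r _

/-- **Fundamental class from a cyclic layer, norm form with corestriction.**  `Γ ⧸ N = ⟨σ⟩` cyclic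
of order `d`, `f₀` a `2`-cocycle of `A^N` with invariant `a₀ = trSum f₀`; `c * [Γ : H] = D ≠ 0`.
Assume (n1) `c • a₀` is a norm from `A^(H ∩ N)` for `H ⧸ H ∩ N`; (n2) if `r • a₀` is a norm from
`A^N` for `Γ ⧸ N` then `D ∣ r`.  Then `c • inf [f₀] = inf u` with `u` a class of `Γ ⧸ H` all of
whose restrictions have annihilator in `(|S'|)`. -/
theorem exists_fundamental_of_cyclicLayer_top [IsDomain k] [Fintype (Γ ⧸ N)]
    (hH : H1Vanishes A H) (hN : H1Vanishes A N)
    (hNH : H1Vanishes (Rep.res H.subtype A) (N.subgroupOf H))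
    {σ : Γ ⧸ N} {d : ℕ} (hord : orderOf σ = d) (hd : 0 < d)
    (hgen : ∀ g : Γ ⧸ N, ∃ i : ℕ, σ ^ i = g)
    (f₀ : cocycles₂ (A.quotientToInvariants N)) (D c : k)
    (hc : c * (H.index : k) = D) (hD : D ≠ 0)
    (hn1 : ∀ [Fintype (H ⧸ N.subgroupOf H)],
      ∃ b : (Rep.res H.subtype A).quotientToInvariants (N.subgroupOf H),
        ((Rep.res H.subtype A).quotientToInvariants (N.subgroupOf H)).ρ.norm b =
          c • inclInv A N H (trSum (A.quotientToInvariants N) σ d f₀))
    (hn2 : ∀ r : k, (∃ b : A.quotientToInvariants N, (A.quotientToInvariants N).ρ.norm b =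
      r • trSum (A.quotientToInvariants N) σ d f₀) → D ∣ r) :
    ∃ u : groupCohomology (A.quotientToInvariants H) 2,
      inf₂ A H u = c • inf₂ A N (H2π _ f₀) ∧
      ∀ (S' : Subgroup (Γ ⧸ H)) (r : k), r • res₂ (A.quotientToInvariants H) S' u = 0 →
        ((Nat.card S' : ℕ) : k) ∣ r := by
  classical
  refine exists_fundamental_of_dvd_top hH _ D c hc hD ?_ ?_
  · let _ : Fintype (H ⧸ N.subgroupOf H) := Fintype.ofFinite _
    exact (smul_res₂_inf₂_eq_zero_iff hNH _ _).2
      ((smul_baseChange_eq_zero_iff H hord hd hgen f₀ c).2 hn1)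
  · intro r hr
    exact hn2 r (exists_norm_eq_of_smul_inf₂_eq_zero A N hN hord hgen f₀ r hr)

/-- **Class module from a cyclic layer, norm form with corestriction** (only the layer `Γ ⧸ N`
and its base change to `H` enter). -/
theorem exists_isClassModule_of_cyclicLayer_top [IsDomain k] [Fintype (Γ ⧸ N)]
    [Fintype (Γ ⧸ H)] (hH : H1Vanishes A H) (hN : H1Vanishes A N)
    (hNH : H1Vanishes (Rep.res H.subtype A) (N.subgroupOf H))
    {σ : Γ ⧸ N} {d : ℕ} (hord : orderOf σ = d) (hd : 0 < d)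
    (hgen : ∀ g : Γ ⧸ N, ∃ i : ℕ, σ ^ i = g)
    (f₀ : cocycles₂ (A.quotientToInvariants N)) (D c : k)
    (hc : c * (H.index : k) = D) (hD : D ≠ 0)
    (hn1 : ∀ [Fintype (H ⧸ N.subgroupOf H)],
      ∃ b : (Rep.res H.subtype A).quotientToInvariants (N.subgroupOf H),
        ((Rep.res H.subtype A).quotientToInvariants (N.subgroupOf H)).ρ.norm b =
          c • inclInv A N H (trSum (A.quotientToInvariants N) σ d f₀))
    (hn2 : ∀ r : k, (∃ b : A.quotientToInvariants N, (A.quotientToInvariants N).ρ.norm b =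
      r • trSum (A.quotientToInvariants N) σ d f₀) → D ∣ r)
    (h1 : ∀ S' : Subgroup (Γ ⧸ H),
      Limits.IsZero (groupCohomology (Rep.res S'.subtype (A.quotientToInvariants H)) 1))
    (hk : CyclicCriterion k)
    (hcard : ∀ S' : Subgroup (Γ ⧸ H),
      Nat.card (groupCohomology (Rep.res S'.subtype (A.quotientToInvariants H)) 2) ∣
        Nat.card S') :
    ∃ φ : cocycles₂ (A.quotientToInvariants H),
      inf₂ A H (H2π _ φ) = c • inf₂ A N (H2π _ f₀) ∧
        IsClassModule (A.quotientToInvariants H) φ := by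
  obtain ⟨u, hu, hu'⟩ := exists_fundamental_of_cyclicLayer_top A N H hH hN hNH hord hd hgen f₀ D c
    hc hD hn1 hn2
  induction u using H2_induction_on with | @h φ =>
  exact ⟨φ, hu, isClassModule_of_ord' _ φ h1 hk hcard hu'⟩

end Cyclic

end Fermat.Agent.CFT.C6.TateCores
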