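import Mathlib
import Fermat.Agent.CFT.C6.TateCores
import Fermat.Agent.CFT.A7.BaseChangeCard
import Fermat.Agent.CFT.A7.BaseChangeTate

/-
# C6e — the localised Tate argument (abstract form of the package (P))

`exists_isClassModule_of_isLocRep` : from `R`-level (think `R = ℤ`) data on `X : Rep R Γ`
and a localisation `f : X → Y` (`IsLocRep M X Y f`, `Y : Rep k Γ`, `k = M⁻¹ R`, think `ℤ_(p)`):

* `H¹(S, X)` is `M`-torsion for every subgroup `S ≤ Γ`;
* `|H²(S', X^H)[p^∞]|` divides `|S'|` for every subgroup `S' ≤ Γ ⧸ H`;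
* a class `x₀ ∈ H²(Γ ⧸ N, X^N)` (auxiliary layer) with `p ^ m ∣ ord x₀` and `M`-torsion
  restriction to `H`;
* `c * [Γ : H] = p ^ m` in `k`;

we obtain a 2-cocycle `φ` of `Γ ⧸ H` on `Y^H` with `inf [φ] = c • inf (loc x₀)` and
`IsClassModule (Y^H) φ` (over `k`).

Also: `h1Vanishes_subgroupOf`, `h1Vanishes_quotient`, `isZero_H1_quotient`.

Outputs split in the shape of `A7/ClassFormationExists` ((H-a), (H-b)):
`isZero_H1_of_isLocRep`, `card_H2_dvd_of_isLocRep`, `exists_fundamental_of_isLocRep`.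

Norm form (cyclic auxiliary layer `Γ ⧸ N = ⟨σ⟩`, `a₀ = trSum f₀`), `R`-level:
`smul_res₂_inf₂_eq_zero_of_norm`, `dvd_of_smul_H2π_eq_zero_of_norm`,
`exists_isClassModule_of_isLocRep_cyclicLayer`; predicate `IsNorm B a`.

`R = ℤ`, `M = primeTo p`, `k` any localisation of `ℤ` at `primeTo p`, `ℕ`-torsion forms:
`cyclicCriterion_of_primeTo`, `natCast_prime_ne_zero`, `isZero_H1_of_isLocRep_int`,
`card_H2_dvd_of_isLocRep_int`, `exists_fundamental_of_isLocRep_int`,
`exists_isClassModule_of_isLocRep_int`, `exists_isClassModule_of_isLocRep_cyclicLayer_int`.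
-/

set_option autoImplicit false

universe u

noncomputable section

open groupCohomology CategoryTheory Rep

namespace Fermat.Agent.CFT.C6.LocalisedTate

open Fermat.Agent.CFT.InfRes2 Fermat.Agent.CFT.C6.TateArgument
  Fermat.Agent.CFT.C6.TateClassModule Fermat.Agent.CFT.A5.Tate Fermat.Agent.CFT.C6.TateCores
  Fermat.Agent.CFT.A7.BaseChange

section Pure

variable {k Γ : Type u} [CommRing k] [Group Γ] (A : Rep.{u} k Γ)

/-- `H¹(T ∩ H, A) = 0` in the form needed for the pair `(H, T.subgroupOf H)`. -/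
theorem h1Vanishes_subgroupOf (T H : Subgroup Γ) (h : H1Vanishes A (T ⊓ H)) :
    H1Vanishes (Rep.res H.subtype A) (T.subgroupOf H) := by
  intro f hf
  let g : (T ⊓ H : Subgroup Γ) → A := fun x => f ⟨⟨x.1, x.2.2⟩, x.2.1⟩
  obtain ⟨a, ha⟩ := h g (fun m m' => hf ⟨⟨m.1, m.2.2⟩, m.2.1⟩ ⟨⟨m'.1, m'.2.2⟩, m'.2.1⟩)
  exact ⟨a, fun m => ha ⟨m.1.1, ⟨m.2, m.1.2⟩⟩⟩

variable (H : Subgroup Γ) [H.Normal]

/-- If `H¹(S, A) = 0` for all subgroups `S` of `Γ`, then `H¹(S', A^H) = 0` for all subgroups `S'`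
of `Γ ⧸ H` (inflation is injective on `H¹`). -/
theorem h1Vanishes_quotient (hall : ∀ S : Subgroup Γ, H1Vanishes A S) (S' : Subgroup (Γ ⧸ H)) :
    H1Vanishes (A.quotientToInvariants H) S' := by
  intro f hf
  let S : Subgroup Γ := S'.comap (QuotientGroup.mk' H)
  let g : S → A := fun s => (f ⟨(s.1 : Γ ⧸ H), s.2⟩).1
  have hg : ∀ m m' : S, g (m * m') = A.ρ (m : Γ) (g m') + g m := fun m m' =>
    congrArg Subtype.val (hf ⟨(m.1 : Γ ⧸ H), m.2⟩ ⟨(m'.1 : Γ ⧸ H), m'.2⟩)
  obtain ⟨a, ha⟩ := hall S g hg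
  have hf1 : f 1 = 0 := by
    have := hf 1 1
    rw [mul_one, OneMemClass.coe_one, map_one, Module.End.one_apply] at this
    exact left_eq_add.mp this
  have haH : ∀ h : H, A.ρ (h : Γ) a = a := by
    intro h
    have hmem : (h : Γ) ∈ S := by
      change ((h : Γ) : Γ ⧸ H) ∈ S'
      rw [(QuotientGroup.eq_one_iff (h : Γ)).2 h.2]
      exact S'.one_mem
    have h1 := ha ⟨h, hmem⟩
    have h2 : g ⟨h, hmem⟩ = 0 := by
      change (f ⟨((h : Γ) : Γ ⧸ H), _⟩).1 = 0
      have : (⟨((h : Γ) : Γ ⧸ H), hmem⟩ : S') = 1 :=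
        Subtype.ext ((QuotientGroup.eq_one_iff (h : Γ)).2 h.2)
      rw [this, hf1]
      rfl
    rw [h2] at h1
    exact (sub_eq_zero.mp h1.symm)
  refine ⟨⟨a, haH⟩, fun m => ?_⟩
  obtain ⟨q, hq⟩ := m
  induction q using QuotientGroup.induction_on with | H s =>
  exact Subtype.ext (ha ⟨s, hq⟩)

theorem isZero_H1_quotient (hall : ∀ S : Subgroup Γ, H1Vanishes A S) (S' : Subgroup (Γ ⧸ H)) :
    Limits.IsZero (groupCohomology (Rep.res S'.subtype (A.quotientToInvariants H)) 1) := by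
  have := subsingleton_H1_of_h1Vanishes (h1Vanishes_quotient A H hall S')
  exact ModuleCat.isZero_of_subsingleton _

end Pure

section Main

variable {R k : Type u} [CommRing R] [CommRing k] [Algebra R k] {M : Submonoid R}
  [IsLocalization M k]
variable {Γ : Type u} [Group Γ] [Finite Γ]
variable {X : Rep.{u} R Γ} {Y : Rep.{u} k Γ} {f : X.V →+ Y.V}

omit [IsLocalization M k] in
/-- If `H¹(S, X)` is `M`-torsion then `H¹(S, Y) = 0` for the localisation `Y` of `X`. -/
theorem h1Vanishes_of_isLocRep' (hf : IsLocRep M X Y f)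
    (hM : ∀ s ∈ M, IsUnit (algebraMap R k s)) (S : Subgroup Γ)
    (h1X : ∀ c : groupCohomology (Rep.res S.subtype X) 1, ∃ s ∈ M, s • c = 0) :
    H1Vanishes Y S :=
  h1Vanishes_of_isZero (((hf.res S.subtype).isZero_iff hM 1).2 h1X)

theorem units_of_isLocalization : ∀ s ∈ M, IsUnit (algebraMap R k s) := fun s hs =>
  IsLocalization.map_units k (⟨s, hs⟩ : M)

variable (N H : Subgroup Γ) [N.Normal] [H.Normal]

/-- **(H-a), part 1.** `H¹(S', Y^H) = 0` for every subgroup `S'` of `Γ ⧸ H`. -/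
theorem isZero_H1_of_isLocRep (hf : IsLocRep M X Y f)
    (h1X : ∀ (S : Subgroup Γ) (c : groupCohomology (Rep.res S.subtype X) 1), ∃ s ∈ M, s • c = 0)
    (S' : Subgroup (Γ ⧸ H)) :
    Limits.IsZero (groupCohomology (Rep.res S'.subtype (Y.quotientToInvariants H)) 1) :=
  isZero_H1_quotient Y H
    (fun S => h1Vanishes_of_isLocRep' hf units_of_isLocalization S (h1X S)) S'

/-- **(H-a), part 2.** `|H²(S', Y^H)|` divides `|S'|` for every subgroup `S'` of `Γ ⧸ H`, from the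
`p`-primary bound at the `R`-level. -/
theorem card_H2_dvd_of_isLocRep (hf : IsLocRep M X Y f) (p : ℕ)
    (hcop : ∀ s ∈ M, ∀ j : ℕ, IsCoprime ((p : R) ^ j) s)
    (hG : ∀ (G' : Type u) [Group G'] [Finite G'],
      ∃ a n' : ℕ, Nat.card G' = p ^ a * n' ∧ (n' : R) ∈ M)
    (S' : Subgroup (Γ ⧸ H))
    (h2X : Nat.card (pPrimary p
        (groupCohomology (Rep.res S'.subtype (X.quotientToInvariants H)) 2)) ∣ Nat.card S') :
    Nat.card (groupCohomology (Rep.res S'.subtype (Y.quotientToInvariants H)) 2) ∣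
      Nat.card S' :=
  ((hf.quotientToInvariants H).res S'.subtype).card_dvd_of_card_pPrimary_dvd p
    units_of_isLocalization hcop (hG S') 1 h2X

omit [H.Normal] in
/-- The inflated localised class dies on `H`. -/
theorem res₂_inf₂_locH_eq_zero (hf : IsLocRep M X Y f)
    (x₀ : groupCohomology (X.quotientToInvariants N) 2)
    (hres : ∃ s ∈ M, s • res₂ X H (inf₂ X N x₀) = 0) :
    res₂ Y H (inf₂ Y N ((hf.quotientToInvariants N).locH 2 x₀)) = 0 := by
  rw [← hf.locH_inf₂ N x₀, ← hf.locH_res₂ H]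
  obtain ⟨s, hs, hs0⟩ := hres
  exact ((hf.res H.subtype).locH_eq_zero_iff units_of_isLocalization 2 _).2 ⟨s, hs, hs0⟩

/-- The order of the localised class: if `r • loc x₀ = 0` in `H²(Γ ⧸ N, Y^N)` then `D ∣ r`,
provided `r₀ • x₀ = 0 → D₀ ∣ r₀` at the `R`-level, `D` the image of `D₀`. -/
theorem dvd_of_smul_locH_eq_zero (hf : IsLocRep M X Y f)
    (x₀ : groupCohomology (X.quotientToInvariants N) 2) (D₀ : R)
    (hordX : ∀ r₀ : R, r₀ • x₀ = 0 → D₀ ∣ r₀) (r : k)
    (h0 : r • (hf.quotientToInvariants N).locH 2 x₀ = 0) : algebraMap R k D₀ ∣ r := by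
  have hM : ∀ s ∈ M, IsUnit (algebraMap R k s) := units_of_isLocalization
  obtain ⟨⟨r₀, s⟩, hrs⟩ := IsLocalization.surj M r
  have h2 : (hf.quotientToInvariants N).locH 2 (r₀ • x₀) = 0 := by
    rw [(hf.quotientToInvariants N).locH_smul, ← hrs, mul_comm, mul_smul, h0, smul_zero]
  obtain ⟨t, ht, ht0⟩ := ((hf.quotientToInvariants N).locH_eq_zero_iff hM 2 _).1 h2
  rw [smul_smul] at ht0
  have h3 := map_dvd (algebraMap R k) (hordX _ ht0)
  rw [map_mul, ← hrs] at h3
  exact ((hM s.1 s.2).dvd_mul_right).1 (((hM t ht).dvd_mul_left).1 h3)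

variable [IsDomain k]

/-- **(H-b): the fundamental class after localisation.**  Same `R`-level inputs as
`exists_isClassModule_of_isLocRep` except the second inequality. -/
theorem exists_fundamental_of_isLocRep (hf : IsLocRep M X Y f) (p m : ℕ)
    (h1X : ∀ (S : Subgroup Γ) (c : groupCohomology (Rep.res S.subtype X) 1), ∃ s ∈ M, s • c = 0)
    (x₀ : groupCohomology (X.quotientToInvariants N) 2)
    (hres : ∃ s ∈ M, s • res₂ X H (inf₂ X N x₀) = 0)
    (hordX : ∀ r₀ : R, r₀ • x₀ = 0 → ((p : R) ^ m) ∣ r₀)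
    (c : k) (hc : c * (H.index : k) = (p : k) ^ m) (hp0 : (p : k) ≠ 0) :
    ∃ u : groupCohomology (Y.quotientToInvariants H) 2,
      inf₂ Y H u = c • inf₂ Y N ((hf.quotientToInvariants N).locH 2 x₀) ∧
      ∀ (S' : Subgroup (Γ ⧸ H)) (r : k), r • res₂ (Y.quotientToInvariants H) S' u = 0 →
        ((Nat.card S' : ℕ) : k) ∣ r := by
  have hall : ∀ S : Subgroup Γ, H1Vanishes Y S := fun S =>
    h1Vanishes_of_isLocRep' hf units_of_isLocalization S (h1X S)
  refine exists_fundamental_of_dvd_top (hall H) _ _ c hc (pow_ne_zero m hp0) ?_ ?_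
  · rw [res₂_inf₂_locH_eq_zero N H hf x₀ hres, smul_zero]
  · intro r hr
    rw [← map_smul] at hr
    have h0 : r • (hf.quotientToInvariants N).locH 2 x₀ = 0 :=
      inf₂_injective (hall N) (by rw [hr, map_zero])
    have := dvd_of_smul_locH_eq_zero N hf x₀ _ hordX r h0
    rwa [map_pow, map_natCast] at this

/-- **The `p`-localised class module from `ℤ`-level data** (abstract form of the package (P)).
`X : Rep R Γ` (think `R = ℤ`, `X = C_M`, `Γ = Gal(M/ℚ)`), `Y : Rep k Γ` its localisation at `M`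
(think `k = ℤ_(p)`).  Inputs, all at the `R`-level:
* `h1X` : `H¹(S, X)` is `M`-torsion for every subgroup `S` (`p`-primary Hilbert 90);
* `h2X` : the `p`-primary part of `H²(S', X^H)` has order dividing `|S'|` for every subgroup `S'` of
  `Γ ⧸ H` (`p`-primary second inequality, by dévissage);
* a class `x₀ ∈ H²(Γ ⧸ N, X^N)` of an auxiliary layer whose order is a multiple of `p ^ m`
  (`hordX`) and whose inflation dies on `H` up to `M` (`hres`);
* `c * [Γ : H] = p ^ m` in `k`.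
Output: a class module structure on `Y^H` over `k`, with fundamental class `c • inf x₀`. -/
theorem exists_isClassModule_of_isLocRep [Fintype (Γ ⧸ H)] (hf : IsLocRep M X Y f) (p m : ℕ)
    (hcop : ∀ s ∈ M, ∀ j : ℕ, IsCoprime ((p : R) ^ j) s)
    (hG : ∀ (G' : Type u) [Group G'] [Finite G'],
      ∃ a n' : ℕ, Nat.card G' = p ^ a * n' ∧ (n' : R) ∈ M)
    (h1X : ∀ (S : Subgroup Γ) (c : groupCohomology (Rep.res S.subtype X) 1), ∃ s ∈ M, s • c = 0)
    (h2X : ∀ S' : Subgroup (Γ ⧸ H),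
      Nat.card (pPrimary p
        (groupCohomology (Rep.res S'.subtype (X.quotientToInvariants H)) 2)) ∣ Nat.card S')
    (x₀ : groupCohomology (X.quotientToInvariants N) 2)
    (hres : ∃ s ∈ M, s • res₂ X H (inf₂ X N x₀) = 0)
    (hordX : ∀ r₀ : R, r₀ • x₀ = 0 → ((p : R) ^ m) ∣ r₀)
    (c : k) (hc : c * (H.index : k) = (p : k) ^ m) (hp0 : (p : k) ≠ 0)
    (hk : CyclicCriterion k) :
    ∃ φ : cocycles₂ (Y.quotientToInvariants H),
      inf₂ Y H (H2π _ φ) = c • inf₂ Y N ((hf.quotientToInvariants N).locH 2 x₀) ∧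
      IsClassModule (Y.quotientToInvariants H) φ := by
  obtain ⟨u, hu, hu'⟩ := exists_fundamental_of_isLocRep N H hf p m h1X x₀ hres hordX c hc hp0
  induction u using H2_induction_on with | @h φ =>
  exact ⟨φ, hu, isClassModule_of_ord' _ φ (isZero_H1_of_isLocRep H hf h1X) hk
    (fun S' => card_H2_dvd_of_isLocRep H hf p hcop hG S' (h2X S')) hu'⟩

end Main

/-! ### Norm form at the `R`-level (cyclic auxiliary layer) -/

section NormForm

open Fermat.Agent.CFT.Local.CyclicH2 Fermat.Agent.CFT.C6.CyclicLayer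

/-- `a` is a norm of the representation `B` of the finite group `G` (stated for a generic
coefficient ring, so that it can be used for `ℤ` without instance diamonds). -/
def IsNorm {R G : Type u} [CommRing R] [Group G] [Fintype G] (B : Rep.{u} R G) (a : B) : Prop :=
  ∃ b : B, B.ρ.norm b = a

theorem isNorm_iff {R G : Type u} [CommRing R] [Group G] [Fintype G] (B : Rep.{u} R G) (a : B) :
    IsNorm B a ↔ ∃ b : B, B.ρ.norm b = a := Iff.rfl

/-- `(n : R) • a = n • a` in a representation (generic ring, instance determined by `B`). -/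
theorem natCast_smul_rep {R G : Type u} [CommRing R] [Monoid G] (B : Rep.{u} R G) (n : ℕ)
    (a : B) : (n : R) • a = n • a := Nat.cast_smul_eq_nsmul R n a

theorem neg_neg_natCast_smul_rep {R G : Type u} [CommRing R] [Monoid G] (B : Rep.{u} R G) (n : ℕ)
    (a : B) : -(-(n : R) • a) = n • a := by
  rw [neg_smul, neg_neg, Nat.cast_smul_eq_nsmul R]

theorem IsNorm.neg {R G : Type u} [CommRing R] [Group G] [Fintype G] {B : Rep.{u} R G} {a : B}
    (h : IsNorm B a) : IsNorm B (-a) := by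
  obtain ⟨b, hb⟩ := h
  exact ⟨-b, by rw [map_neg, hb]⟩

variable {R : Type u} [CommRing R] {Γ : Type u} [Group Γ] (X : Rep.{u} R Γ)
variable (N H : Subgroup Γ) [N.Normal] [H.Normal]

omit [H.Normal] in
/-- `R`-level: if `s • a₀` is a norm from `X^(H ∩ N)` for `H ⧸ H ∩ N` (`a₀ = trSum f₀` the invariant
of the class `[f₀]` of the cyclic layer `Γ ⧸ N`), then `s` kills `res_H (inf [f₀])`.  No `H¹`
vanishing is needed in this direction. -/
theorem smul_res₂_inf₂_eq_zero_of_norm [Fintype (H ⧸ N.subgroupOf H)] {σ : Γ ⧸ N} {d : ℕ}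
    (hord : orderOf σ = d) (hd : 0 < d) (hgen : ∀ g : Γ ⧸ N, ∃ i : ℕ, σ ^ i = g)
    (f₀ : cocycles₂ (X.quotientToInvariants N)) (s : R)
    (hn1 : ∃ b : (Rep.res H.subtype X).quotientToInvariants (N.subgroupOf H),
        ((Rep.res H.subtype X).quotientToInvariants (N.subgroupOf H)).ρ.norm b =
          s • inclInv X N H (trSum (X.quotientToInvariants N) σ d f₀)) :
    s • res₂ X H (inf₂ X N (H2π _ f₀)) = 0 := by
  rw [← inf₂_baseChange, ← map_smul,
    (smul_baseChange_eq_zero_iff H hord hd hgen f₀ s).2 hn1, map_zero]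

/-- `R`-level: the order of the class `[f₀]` of a cyclic layer, norm form. -/
theorem dvd_of_smul_H2π_eq_zero_of_norm [Fintype (Γ ⧸ N)] {σ : Γ ⧸ N} {d : ℕ}
    (hord : orderOf σ = d) (hgen : ∀ g : Γ ⧸ N, ∃ i : ℕ, σ ^ i = g)
    (f₀ : cocycles₂ (X.quotientToInvariants N)) (D₀ : R)
    (hn2 : ∀ r₀ : R, (∃ b : X.quotientToInvariants N, (X.quotientToInvariants N).ρ.norm b =
      r₀ • trSum (X.quotientToInvariants N) σ d f₀) → D₀ ∣ r₀)
    (r₀ : R) (h0 : r₀ • H2π (X.quotientToInvariants N) f₀ = 0) : D₀ ∣ r₀ := by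
  rw [← map_smul] at h0
  obtain ⟨b, hb⟩ := (H2π_eq_zero_iff_trSum hord hgen (r₀ • f₀)).1 h0
  refine hn2 r₀ ⟨b, ?_⟩
  rw [← nrm_eq_norm _ hord hgen, ← hb]
  exact trSum_smul _ σ d r₀ _

end NormForm

section MainNorm

open Fermat.Agent.CFT.Local.CyclicH2 Fermat.Agent.CFT.C6.CyclicLayer

variable {R k : Type u} [CommRing R] [CommRing k] [IsDomain k] [Algebra R k] {M : Submonoid R}
  [IsLocalization M k]
variable {Γ : Type u} [Group Γ] [Finite Γ]
variable {X : Rep.{u} R Γ} {Y : Rep.{u} k Γ} {f : X.V →+ Y.V}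
variable (N H : Subgroup Γ) [N.Normal] [H.Normal]

/-- **(P), norm form.**  As `exists_isClassModule_of_isLocRep`, with the auxiliary layer `Γ ⧸ N = ⟨σ⟩`
cyclic of order `d` and the two hypotheses on the class `[f₀]` expressed through norm groups at the
`R`-level (`a₀ = trSum f₀`):
* `hn1X` : `s • a₀` is a norm from `X^(H ∩ N)` for the group `H ⧸ H ∩ N`, for some `s ∈ M`;
* `hn2X` : if `r₀ • a₀` is a norm from `X^N` for `Γ ⧸ N`, then `p ^ m ∣ r₀`. -/
theorem exists_isClassModule_of_isLocRep_cyclicLayer [Fintype (Γ ⧸ H)] [Fintype (Γ ⧸ N)]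
    (hf : IsLocRep M X Y f) (p m : ℕ)
    (hcop : ∀ s ∈ M, ∀ j : ℕ, IsCoprime ((p : R) ^ j) s)
    (hG : ∀ (G' : Type u) [Group G'] [Finite G'],
      ∃ a n' : ℕ, Nat.card G' = p ^ a * n' ∧ (n' : R) ∈ M)
    (h1X : ∀ (S : Subgroup Γ) (c : groupCohomology (Rep.res S.subtype X) 1), ∃ s ∈ M, s • c = 0)
    (h2X : ∀ S' : Subgroup (Γ ⧸ H),
      Nat.card (pPrimary p
        (groupCohomology (Rep.res S'.subtype (X.quotientToInvariants H)) 2)) ∣ Nat.card S')
    {σ : Γ ⧸ N} {d : ℕ} (hord : orderOf σ = d) (hd : 0 < d)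
    (hgen : ∀ g : Γ ⧸ N, ∃ i : ℕ, σ ^ i = g)
    (f₀ : cocycles₂ (X.quotientToInvariants N))
    (hn1X : ∀ [Fintype (H ⧸ N.subgroupOf H)], ∃ s ∈ M,
      ∃ b : (Rep.res H.subtype X).quotientToInvariants (N.subgroupOf H),
        ((Rep.res H.subtype X).quotientToInvariants (N.subgroupOf H)).ρ.norm b =
          s • inclInv X N H (trSum (X.quotientToInvariants N) σ d f₀))
    (hn2X : ∀ r₀ : R, (∃ b : X.quotientToInvariants N, (X.quotientToInvariants N).ρ.norm b =
      r₀ • trSum (X.quotientToInvariants N) σ d f₀) → ((p : R) ^ m) ∣ r₀)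
    (c : k) (hc : c * (H.index : k) = (p : k) ^ m) (hp0 : (p : k) ≠ 0)
    (hk : CyclicCriterion k) :
    ∃ φ : cocycles₂ (Y.quotientToInvariants H),
      inf₂ Y H (H2π _ φ) =
        c • inf₂ Y N ((hf.quotientToInvariants N).locH 2 (H2π _ f₀)) ∧
      IsClassModule (Y.quotientToInvariants H) φ := by
  classical
  let _ : Fintype (H ⧸ N.subgroupOf H) := Fintype.ofFinite _
  obtain ⟨s, hs, hb⟩ := hn1X
  exact exists_isClassModule_of_isLocRep N H hf p m hcop hG h1X h2X (H2π _ f₀)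
    ⟨s, hs, smul_res₂_inf₂_eq_zero_of_norm X N H hord hd hgen f₀ s hb⟩
    (dvd_of_smul_H2π_eq_zero_of_norm X N hord hgen f₀ _ hn2X) c hc hp0 hk

end MainNorm

/-! ### `R = ℤ`, `M = primeTo p` -/

section IntForm

open Fermat.Agent.CFT.Local.CyclicH2 Fermat.Agent.CFT.C6.CyclicLayer

theorem primeTo_le_nonZeroDivisors (p : ℕ) [Fact p.Prime] : primeTo p ≤ nonZeroDivisors ℤ :=
  fun _ hs => mem_nonZeroDivisors_of_ne_zero (fun h => hs (h ▸ dvd_zero _))

theorem algebraMap_int_injective (p : ℕ) [Fact p.Prime] (k : Type) [CommRing k]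
    [IsLocalization (primeTo p) k] : Function.Injective (algebraMap ℤ k) :=
  IsLocalization.injective k (primeTo_le_nonZeroDivisors p)

theorem natCast_prime_ne_zero (p : ℕ) [hp : Fact p.Prime] (k : Type) [CommRing k]
    [IsLocalization (primeTo p) k] : (p : k) ≠ 0 := by
  intro h
  have h0 : algebraMap ℤ k (p : ℤ) = algebraMap ℤ k 0 := by
    rw [map_natCast, map_zero, h]
  exact hp.out.ne_zero (Int.natCast_eq_zero.1 (algebraMap_int_injective p k h0))

theorem isUnit_natCast_of_prime_ne (p : ℕ) [hp : Fact p.Prime] (k : Type) [CommRing k]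
    [IsLocalization (primeTo p) k] (l : ℕ) (hl : l.Prime) (hlp : l ≠ p) : IsUnit (l : k) := by
  have hmem : (l : ℤ) ∈ primeTo p := fun h =>
    hlp ((Nat.prime_dvd_prime_iff_eq hp.out hl).1 (Int.natCast_dvd_natCast.1 h)).symm
  have := IsLocalization.map_units k (⟨(l : ℤ), hmem⟩ : primeTo p)
  rwa [map_natCast] at this

theorem not_isUnit_natCast_prime (p : ℕ) [Fact p.Prime] (k : Type) [CommRing k]
    [IsLocalization (primeTo p) k] : ¬ IsUnit (p : k) := by
  intro hu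
  obtain ⟨y, hy⟩ := hu.exists_right_inv
  obtain ⟨⟨a, s⟩, has⟩ := IsLocalization.surj (primeTo p) y
  have h1 : algebraMap ℤ k ((p : ℤ) * a) = algebraMap ℤ k s := by
    rw [map_mul, map_natCast, ← has, ← mul_assoc, hy, one_mul]
  exact s.2 ⟨a, (algebraMap_int_injective p k h1).symm⟩

/-- A localisation of `ℤ` at the integers prime to `p` (e.g. `ℤ_(p)`) satisfies the cyclic
criterion. -/
theorem cyclicCriterion_of_primeTo (p : ℕ) [hp : Fact p.Prime] (k : Type) [CommRing k]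
    [IsLocalization (primeTo p) k] [IsDomain k] : CyclicCriterion k :=
  cyclicCriterion_of_local p hp.out (isUnit_natCast_of_prime_ne p k) (not_isUnit_natCast_prime p k)
    (natCast_prime_ne_zero p k)

/-- `ℕ`-torsion with multiplier in `M` is `M`-torsion (generic ring to avoid `ℤ`-module
diamonds). -/
theorem exists_mem_smul_eq_zero_of_nat {R : Type*} [CommRing R] {T : Type*} [AddCommGroup T]
    [Module R T] (M : Submonoid R) (P : ℕ → Prop) (hM : ∀ s : ℕ, P s → (s : R) ∈ M) (t : T)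
    (h : ∃ s : ℕ, P s ∧ s • t = 0) : ∃ s ∈ M, s • t = 0 := by
  obtain ⟨s, hs, hs0⟩ := h
  refine ⟨(s : R), hM s hs, ?_⟩
  rw [Nat.cast_smul_eq_nsmul R]
  exact hs0

theorem natCast_mem_primeTo (p : ℕ) [Fact p.Prime] (s : ℕ) (hs : ¬ p ∣ s) :
    (s : ℤ) ∈ primeTo p := fun h => hs (Int.natCast_dvd_natCast.1 h)

/-- order condition: from `ℕ`-form to `R`-form (generic statement, used for `R = ℤ`). -/
theorem dvd_of_smul_eq_zero_of_nat {R : Type*} [CommRing R] {T : Type*} [AddCommGroup T]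
    [Module R T] (hR : ∀ r : R, ∃ n : ℕ, r = n ∨ r = -n) (t : T) (D : ℕ)
    (h : ∀ r₀ : ℕ, r₀ • t = 0 → D ∣ r₀) (r : R) (hr : r • t = 0) : (D : R) ∣ r := by
  obtain ⟨n, rfl | rfl⟩ := hR r
  · rw [Nat.cast_smul_eq_nsmul R] at hr
    exact Nat.cast_dvd_cast (h n hr)
  · rw [neg_smul, neg_eq_zero, Nat.cast_smul_eq_nsmul R] at hr
    exact (dvd_neg).2 (Nat.cast_dvd_cast (h n hr))

theorem int_eq_natCast_or_neg (r : ℤ) : ∃ n : ℕ, r = n ∨ r = -n :=
  ⟨r.natAbs, Int.natAbs_eq r⟩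

variable (p : ℕ) [hp : Fact p.Prime] {k : Type} [CommRing k] [IsLocalization (primeTo p) k]
variable [IsDomain k] {Γ : Type} [Group Γ] [Finite Γ]
variable {X : Rep.{0} ℤ Γ} {Y : Rep.{0} k Γ} {f : X.V →+ Y.V}
variable (N H : Subgroup Γ) [N.Normal] [H.Normal]

omit [IsDomain k] in
/-- **(H-a), part 1, over `ℤ`.** -/
theorem isZero_H1_of_isLocRep_int (hf : IsLocRep (primeTo p) X Y f)
    (h1X : ∀ (S : Subgroup Γ) (c : groupCohomology (Rep.res S.subtype X) 1),
      ∃ s : ℕ, ¬ p ∣ s ∧ s • c = 0)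
    (S' : Subgroup (Γ ⧸ H)) :
    Limits.IsZero (groupCohomology (Rep.res S'.subtype (Y.quotientToInvariants H)) 1) :=
  isZero_H1_of_isLocRep H hf
    (fun S c => exists_mem_smul_eq_zero_of_nat (primeTo p) _ (natCast_mem_primeTo p) c (h1X S c)) S'

omit [IsDomain k] in
/-- **(H-a), part 2, over `ℤ`.** -/
theorem card_H2_dvd_of_isLocRep_int (hf : IsLocRep (primeTo p) X Y f) (S' : Subgroup (Γ ⧸ H))
    (h2X : Nat.card (pPrimary p
        (groupCohomology (Rep.res S'.subtype (X.quotientToInvariants H)) 2)) ∣ Nat.card S') :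
    Nat.card (groupCohomology (Rep.res S'.subtype (Y.quotientToInvariants H)) 2) ∣
      Nat.card S' :=
  card_H2_dvd_of_isLocRep H hf p (fun s hs j => isCoprime_pow_of_mem_primeTo hs j)
    (fun G' _ _ => exists_card_eq_pow_mul G') S' h2X

/-- **(H-b) over `ℤ`.** -/
theorem exists_fundamental_of_isLocRep_int (hf : IsLocRep (primeTo p) X Y f) (m : ℕ)
    (h1X : ∀ (S : Subgroup Γ) (c : groupCohomology (Rep.res S.subtype X) 1),
      ∃ s : ℕ, ¬ p ∣ s ∧ s • c = 0)
    (x₀ : groupCohomology (X.quotientToInvariants N) 2)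
    (hres : ∃ s : ℕ, ¬ p ∣ s ∧ s • res₂ X H (inf₂ X N x₀) = 0)
    (hordX : ∀ r₀ : ℕ, r₀ • x₀ = 0 → p ^ m ∣ r₀)
    (c : k) (hc : c * (H.index : k) = (p : k) ^ m) :
    ∃ u : groupCohomology (Y.quotientToInvariants H) 2,
      inf₂ Y H u = c • inf₂ Y N ((hf.quotientToInvariants N).locH 2 x₀) ∧
      ∀ (S' : Subgroup (Γ ⧸ H)) (r : k), r • res₂ (Y.quotientToInvariants H) S' u = 0 →
        ((Nat.card S' : ℕ) : k) ∣ r := by
  refine exists_fundamental_of_isLocRep N H hf p m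
    (fun S c => exists_mem_smul_eq_zero_of_nat (primeTo p) _ (natCast_mem_primeTo p) c (h1X S c))
    x₀ (exists_mem_smul_eq_zero_of_nat (primeTo p) _ (natCast_mem_primeTo p) _ hres) ?_ c hc
    (natCast_prime_ne_zero p k)
  intro r₀ hr₀
  have := dvd_of_smul_eq_zero_of_nat int_eq_natCast_or_neg x₀ (p ^ m) hordX r₀ hr₀
  rwa [Nat.cast_pow] at this

/-- **(P) over `ℤ`**: `exists_isClassModule_of_isLocRep` for `R = ℤ`, `M` the integers prime to `p`,
`k` any localisation of `ℤ` at `M` (a model of `ℤ_(p)`), all torsion hypotheses in `ℕ`-form. -/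
theorem exists_isClassModule_of_isLocRep_int [Fintype (Γ ⧸ H)]
    (hf : IsLocRep (primeTo p) X Y f) (m : ℕ)
    (h1X : ∀ (S : Subgroup Γ) (c : groupCohomology (Rep.res S.subtype X) 1),
      ∃ s : ℕ, ¬ p ∣ s ∧ s • c = 0)
    (h2X : ∀ S' : Subgroup (Γ ⧸ H),
      Nat.card (pPrimary p
        (groupCohomology (Rep.res S'.subtype (X.quotientToInvariants H)) 2)) ∣ Nat.card S')
    (x₀ : groupCohomology (X.quotientToInvariants N) 2)
    (hres : ∃ s : ℕ, ¬ p ∣ s ∧ s • res₂ X H (inf₂ X N x₀) = 0)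
    (hordX : ∀ r₀ : ℕ, r₀ • x₀ = 0 → p ^ m ∣ r₀)
    (c : k) (hc : c * (H.index : k) = (p : k) ^ m) :
    ∃ φ : cocycles₂ (Y.quotientToInvariants H),
      inf₂ Y H (H2π _ φ) = c • inf₂ Y N ((hf.quotientToInvariants N).locH 2 x₀) ∧
      IsClassModule (Y.quotientToInvariants H) φ := by
  refine exists_isClassModule_of_isLocRep N H hf p m
    (fun s hs j => isCoprime_pow_of_mem_primeTo hs j)
    (fun G' _ _ => exists_card_eq_pow_mul G')
    (fun S c => exists_mem_smul_eq_zero_of_nat (primeTo p) _ (natCast_mem_primeTo p) c (h1X S c))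
    h2X x₀
    (exists_mem_smul_eq_zero_of_nat (primeTo p) _ (natCast_mem_primeTo p) _ hres) ?_ c hc
    (natCast_prime_ne_zero p k) (cyclicCriterion_of_primeTo p k)
  intro r₀ hr₀
  have := dvd_of_smul_eq_zero_of_nat int_eq_natCast_or_neg x₀ (p ^ m) hordX r₀ hr₀
  rwa [Nat.cast_pow] at this

/-- **(P) over `ℤ`, norm form**: `exists_isClassModule_of_isLocRep_cyclicLayer` for `R = ℤ`,
`M` the integers prime to `p`, hypotheses in `ℕ`-form.  `Γ ⧸ N = ⟨σ⟩` cyclic of order `d`,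
`a₀ = trSum f₀ ∈ X^Γ`:
* `hn1X` : `s • a₀` is a norm from `X^(H ∩ N)` for `H ⧸ H ∩ N`, for some `s` prime to `p`;
* `hn2X` : if `r₀ • a₀` is a norm from `X^N` for `Γ ⧸ N` then `p ^ m ∣ r₀`. -/
theorem exists_isClassModule_of_isLocRep_cyclicLayer_int [Fintype (Γ ⧸ H)] [Fintype (Γ ⧸ N)]
    (hf : IsLocRep (primeTo p) X Y f) (m : ℕ)
    (h1X : ∀ (S : Subgroup Γ) (c : groupCohomology (Rep.res S.subtype X) 1),
      ∃ s : ℕ, ¬ p ∣ s ∧ s • c = 0)
    (h2X : ∀ S' : Subgroup (Γ ⧸ H),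
      Nat.card (pPrimary p
        (groupCohomology (Rep.res S'.subtype (X.quotientToInvariants H)) 2)) ∣ Nat.card S')
    {σ : Γ ⧸ N} {d : ℕ} (hord : orderOf σ = d) (hd : 0 < d)
    (hgen : ∀ g : Γ ⧸ N, ∃ i : ℕ, σ ^ i = g)
    (f₀ : cocycles₂ (X.quotientToInvariants N))
    (hn1X : ∀ [Fintype (H ⧸ N.subgroupOf H)], ∃ s : ℕ, ¬ p ∣ s ∧
      IsNorm ((Rep.res H.subtype X).quotientToInvariants (N.subgroupOf H))
        (s • inclInv X N H (trSum (X.quotientToInvariants N) σ d f₀)))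
    (hn2X : ∀ r₀ : ℕ, IsNorm (X.quotientToInvariants N)
      (r₀ • trSum (X.quotientToInvariants N) σ d f₀) → p ^ m ∣ r₀)
    (c : k) (hc : c * (H.index : k) = (p : k) ^ m) :
    ∃ φ : cocycles₂ (Y.quotientToInvariants H),
      inf₂ Y H (H2π _ φ) =
        c • inf₂ Y N ((hf.quotientToInvariants N).locH 2 (H2π _ f₀)) ∧
      IsClassModule (Y.quotientToInvariants H) φ := by
  refine exists_isClassModule_of_isLocRep_cyclicLayer N H hf p m
    (fun s hs j => isCoprime_pow_of_mem_primeTo hs j)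
    (fun G' _ _ => exists_card_eq_pow_mul G')
    (fun S c => exists_mem_smul_eq_zero_of_nat (primeTo p) _ (natCast_mem_primeTo p) c (h1X S c))
    h2X hord hd hgen f₀ ?_ ?_ c hc (natCast_prime_ne_zero p k) (cyclicCriterion_of_primeTo p k)
  · intro _
    obtain ⟨s, hs, b, hb⟩ := hn1X
    exact ⟨(s : ℤ), natCast_mem_primeTo p s hs, b, by rw [natCast_smul_rep]; exact hb⟩
  · intro r₀ hb
    change IsNorm (X.quotientToInvariants N) _ at hb
    obtain ⟨n, rfl | rfl⟩ := int_eq_natCast_or_neg r₀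
    · rw [natCast_smul_rep] at hb
      have := hn2X n hb
      exact_mod_cast Int.natCast_dvd_natCast.2 this
    · have hb' := hb.neg
      rw [neg_neg_natCast_smul_rep] at hb'
      have := hn2X n hb'
      exact (dvd_neg).2 (by exact_mod_cast Int.natCast_dvd_natCast.2 this)

end IntForm

end Fermat.Agent.CFT.C6.LocalisedTate
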