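import Mathlib
import Fermat.Agent.CFT.C6.IdeleNorm
import Fermat.Agent.CFT.C6.LocalisedTate
import Fermat.Agent.CFT.C5.ClassDevissage

/-!
# PROJECT C, slice C6-(P), part (NR): norms on the idele class module in a tower of number fields

For a tower of number fields `K ⊆ E ⊆ M` (types with algebra structures), `M/K` and `E/K` Galois,
`Γ = Gal(M/K)`, `X = classRep K M` (`C_M` as a `ℤ[Γ]`-module), `N = fixer K E M = Gal(M/E) ⊴ Γ`:

* `fixer`, `mem_fixer_iff`, `fixer_eq_range`, `quotEquiv : Γ ⧸ N ≃* Gal(E/K)`;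
* `toInv : C_E → (C_M)^N` (bijective: Galois descent), `ρ_toInv` (equivariance),
  `pairIso : PairIso (classRep K E) (X^N)`;
* `norm_toInv` : the norm of the `Γ ⧸ N`-module `X^N` is `C.map (K → E) ∘ normC K E`;
* `isNorm_nsmul_toInv_iff` : for `a' : C K`, `r • a'` is a norm of `X^N` iff
  `a' ^ r ∈ (normC K E).range`.
-/

set_option autoImplicit false

noncomputable section

namespace Fermat.Agent.CFT.C6.ClassNorm

open groupCohomology CategoryTheory Rep
open Fermat.Agent.CFT Fermat.Agent.CFT.Idele Fermat.Agent.CFT.BrauerUpper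
open Fermat.Agent.CFT.C6.IdeleNorm Fermat.Agent.CFT.C5.ClassDevissage
open Fermat.Agent.CFT.C6.LocalisedTate

section Tower

variable (K E M : Type) [Field K] [Field E] [Field M] [NumberField K] [NumberField E]
  [NumberField M] [Algebra K E] [Algebra E M] [Algebra K M] [IsScalarTower K E M]
  [IsGalois K M] [IsGalois K E]

/-- The subgroup `Gal(M/E)` of `Gal(M/K)`, as the kernel of the restriction to `E`. -/
def fixer : Subgroup (M ≃ₐ[K] M) :=
  (AlgEquiv.restrictNormalHom E : (M ≃ₐ[K] M) →* (E ≃ₐ[K] E)).ker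

instance fixer_normal : (fixer K E M).Normal := MonoidHom.normal_ker _

theorem mem_fixer_iff (g : M ≃ₐ[K] M) :
    g ∈ fixer K E M ↔ ∀ a : E, g (algebraMap E M a) = algebraMap E M a := by
  rw [fixer, MonoidHom.mem_ker]
  constructor
  · intro h a
    have h1 := AlgEquiv.restrictNormal_commutes g E a
    have h2 : g.restrictNormal E = 1 := h
    rw [h2] at h1
    exact h1.symm
  · intro h
    ext a
    apply (algebraMap E M).injective
    have h1 := AlgEquiv.restrictNormal_commutes g E a
    change algebraMap E M (g.restrictNormal E a) = _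
    rw [h1, h a]
    rfl

theorem fixer_eq_range : fixer K E M = (resScal K E M).range :=
  Subgroup.ext fun g => by
    rw [fixer, MonoidHom.mem_ker]
    exact restrictNormalHom_eq_one_iff K E M g

theorem resScal_mem_fixer (τ : M ≃ₐ[E] M) : resScal K E M τ ∈ fixer K E M := by
  rw [fixer_eq_range]
  exact ⟨τ, rfl⟩

/-- `Gal(M/K) ⧸ Gal(M/E) ≃ Gal(E/K)`. -/
def quotEquiv : (M ≃ₐ[K] M) ⧸ fixer K E M ≃* (E ≃ₐ[K] E) :=
  QuotientGroup.quotientKerEquivOfSurjective _ (AlgEquiv.restrictNormalHom_surjective M)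

theorem quotEquiv_mk (g : M ≃ₐ[K] M) :
    quotEquiv K E M (QuotientGroup.mk g) = AlgEquiv.restrictNormalHom E g := rfl

/-- The map `C_E → (C_M)^{Gal(M/E)}`. -/
def toInv : Additive (C E) →+ ((classRep K M).quotientToInvariants (fixer K E M)).V where
  toFun x := ⟨Additive.ofMul (C.map (inclHom E M) x.toMul), fun h => by
    change Additive.ofMul (galHom K M h.1 • C.map (inclHom E M) x.toMul) = _
    congr 1
    apply C.smul_map_of_fixes
    intro a
    exact (mem_fixer_iff K E M h.1).1 h.2 a⟩
  map_zero' := Subtype.ext (by simp only [toMul_zero, map_one]; rfl)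
  map_add' u v := Subtype.ext (by simp only [toMul_add, map_mul]; rfl)

theorem toInv_coe (x : Additive (C E)) :
    ((toInv K E M x).1 : Additive (C M)) = Additive.ofMul (C.map (inclHom E M) x.toMul) := rfl

theorem toInv_bijective : Function.Bijective (toInv K E M) := by
  haveI : IsGalois E M := IsGalois.tower_top_of_isGalois K E M
  constructor
  · intro u v huv
    have h1 : C.map (inclHom E M) u.toMul = C.map (inclHom E M) v.toMul :=
      congrArg (fun x => Additive.toMul x.1) huv
    exact congrArg Additive.ofMul (C.map_inclHom_injective E M h1)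
  · rintro ⟨a, ha⟩
    have hfix : ∀ σ : M ≃ₐ[E] M, galHom E M σ • (Additive.toMul a : C M) = Additive.toMul a := by
      intro σ
      exact congrArg Additive.toMul (ha ⟨resScal K E M σ, resScal_mem_fixer K E M σ⟩)
    obtain ⟨y, hy⟩ := C.mem_range_map_inclHom E M (Additive.toMul a) hfix
    exact ⟨Additive.ofMul y, Subtype.ext (congrArg Additive.ofMul hy)⟩

/-- Equivariance of `toInv`. -/
theorem ρ_toInv (g : M ≃ₐ[K] M) (c : Additive (C E)) :
    ((classRep K M).quotientToInvariants (fixer K E M)).ρ (QuotientGroup.mk g) (toInv K E M c) =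
      toInv K E M ((classRep K E).ρ (AlgEquiv.restrictNormalHom E g) c) := by
  apply Subtype.ext
  apply Additive.toMul.injective
  change galHom K M g • C.map (inclHom E M) (Additive.toMul c) =
    C.map (inclHom E M) (galHom K E (AlgEquiv.restrictNormalHom E g) • Additive.toMul c)
  symm
  apply C.map_smul
  intro a
  exact (AlgEquiv.restrictNormal_commutes g E a).symm

theorem ρ_toInv' (q : (M ≃ₐ[K] M) ⧸ fixer K E M) (c : Additive (C E)) :
    ((classRep K M).quotientToInvariants (fixer K E M)).ρ q (toInv K E M c) =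
      toInv K E M ((classRep K E).ρ (quotEquiv K E M q) c) := by
  induction q using QuotientGroup.induction_on with | H g =>
  exact ρ_toInv K E M g c

/-- `(Gal(E/K), C_E) ≅ (Gal(M/K) ⧸ Gal(M/E), (C_M)^{Gal(M/E)})`. -/
theorem pairIso :
    PairIso (classRep K E) ((classRep K M).quotientToInvariants (fixer K E M)) :=
  ⟨(quotEquiv K E M).symm, AddEquiv.ofBijective (toInv K E M) (toInv_bijective K E M),
    fun σ c => by
      obtain ⟨q, rfl⟩ := (quotEquiv K E M).surjective σ
      rw [MulEquiv.symm_apply_apply]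
      exact (ρ_toInv' K E M q c).symm⟩

/-- The norm of the `Gal(E/K)`-module `(C_M)^{Gal(M/E)} = C_E` is `C.map (K → E) ∘ normC K E`. -/
theorem norm_toInv [Fintype ((M ≃ₐ[K] M) ⧸ fixer K E M)] (c : Additive (C E)) :
    ((classRep K M).quotientToInvariants (fixer K E M)).ρ.norm (toInv K E M c) =
      toInv K E M (Additive.ofMul (C.map (inclHom K E) (normC K E c.toMul))) := by
  rw [Representation.norm, LinearMap.sum_apply,
    Finset.sum_congr rfl (fun q _ => ρ_toInv' K E M q c)]
  rw [← map_sum]
  congr 1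
  refine (Fintype.sum_equiv (quotEquiv K E M).toEquiv
    (fun q => (classRep K E).ρ (quotEquiv K E M q) c) (fun τ => (classRep K E).ρ τ c)
    (fun q => rfl)).trans ?_
  apply Additive.toMul.injective
  change Additive.toMul (∑ x : E ≃ₐ[K] E,
      (Additive.ofMul (galHom K E x • Additive.toMul c) : Additive (C E))) =
    C.map (inclHom K E) (normC K E (Additive.toMul c))
  rw [toMul_sum, map_normC]
  rfl

/-- The image of a class of `K` in `(C_M)^{Gal(M/E)}`. -/
def baseInv (a' : C K) : ((classRep K M).quotientToInvariants (fixer K E M)).V :=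
  toInv K E M (Additive.ofMul (C.map (inclHom K E) a'))

theorem baseInv_coe (a' : C K) :
    ((baseInv K E M a').1 : Additive (C M)) = Additive.ofMul (C.map (inclHom K M) a') := by
  rw [baseInv, toInv_coe, toMul_ofMul, ← C.map_comp, inclHom_comp]

theorem ρ_baseInv (q : (M ≃ₐ[K] M) ⧸ fixer K E M) (a' : C K) :
    ((classRep K M).quotientToInvariants (fixer K E M)).ρ q (baseInv K E M a') =
      baseInv K E M a' := by
  rw [baseInv, ρ_toInv']
  congr 1
  change Additive.ofMul (galHom K E (quotEquiv K E M q) • C.map (inclHom K E) a') = _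
  congr 1
  exact C.smul_map_of_fixes _ _ (galHom_inclHom K E _) a'

theorem nsmul_baseInv (r : ℕ) (a' : C K) :
    r • baseInv K E M a' = baseInv K E M (a' ^ r) := by
  rw [baseInv, baseInv, ← map_nsmul, map_pow, ofMul_pow]

/-- **Norm criterion at the field level**: `r • a'` is a norm of the `Gal(E/K)`-module
`(C_M)^{Gal(M/E)} = C_E` iff `a' ^ r` is a norm from `C_E`. -/
theorem isNorm_nsmul_baseInv_iff [Fintype ((M ≃ₐ[K] M) ⧸ fixer K E M)] (a' : C K) (r : ℕ) :
    IsNorm ((classRep K M).quotientToInvariants (fixer K E M)) (r • baseInv K E M a') ↔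
      a' ^ r ∈ (normC K E).range := by
  rw [nsmul_baseInv, isNorm_iff]
  constructor
  · rintro ⟨b, hb⟩
    obtain ⟨c, rfl⟩ := (toInv_bijective K E M).2 b
    rw [norm_toInv, baseInv] at hb
    have h1 := (toInv_bijective K E M).1 hb
    have h2 : C.map (inclHom K E) (normC K E c.toMul) = C.map (inclHom K E) (a' ^ r) :=
      congrArg Additive.toMul h1
    exact ⟨c.toMul, C.map_inclHom_injective K E h2⟩
  · rintro ⟨c, hc⟩
    refine ⟨toInv K E M (Additive.ofMul c), ?_⟩
    rw [norm_toInv, baseInv, toMul_ofMul, hc]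

end Tower

/-! ### Two towers `K ⊆ F ⊆ M`, `K ⊆ E ⊆ M` with `Gal(M/F) ∩ Gal(M/E) = 1` -/

section TwoTowers

open Fermat.Agent.CFT.C6.CyclicLayer

variable (K F E M : Type) [Field K] [Field F] [Field E] [Field M] [NumberField K] [NumberField F]
  [NumberField E] [NumberField M] [Algebra K F] [Algebra F M] [Algebra K E] [Algebra E M]
  [Algebra K M] [IsScalarTower K F M] [IsScalarTower K E M] [IsGalois K M] [IsGalois K F]
  [IsGalois K E]

/-- `Gal(M/F) → H ⧸ (H ∩ N)`, `H = Gal(M/F)`, `N = Gal(M/E)` as subgroups of `Gal(M/K)`. -/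
def toSubQuot (τ : M ≃ₐ[F] M) :
    ↥(fixer K F M) ⧸ (fixer K E M).subgroupOf (fixer K F M) :=
  QuotientGroup.mk ⟨resScal K F M τ, resScal_mem_fixer K F M τ⟩

theorem toSubQuot_bijective
    (hHN : ∀ g : M ≃ₐ[K] M, g ∈ fixer K F M → g ∈ fixer K E M → g = 1) :
    Function.Bijective (toSubQuot K F E M) := by
  constructor
  · intro τ τ' h
    have h1 := QuotientGroup.eq.1 h
    rw [Subgroup.mem_subgroupOf] at h1
    have h2 := hHN _ (SetLike.coe_mem _) h1
    have h3 : (resScal K F M τ)⁻¹ * resScal K F M τ' = 1 := h2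
    exact resScal_injective K F M (inv_mul_eq_one.1 h3)
  · intro q
    induction q using QuotientGroup.induction_on with | H g =>
    obtain ⟨g, hg⟩ := g
    have hg' := hg
    rw [fixer_eq_range] at hg'
    obtain ⟨τ, rfl⟩ := hg'
    exact ⟨τ, rfl⟩

/-- **Norm criterion for the base change to `F`**: if `Gal(M/F) ∩ Gal(M/E) = 1` and the image of
`a'` in `C_F`, raised to the power `s`, is a norm from `C_M`, then `s • a'` is a norm for
`H ⧸ H ∩ N` on `(C_M)^(H ∩ N)`. -/
theorem isNorm_nsmul_inclInv_baseInv [IsGalois F M]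
    (hHN : ∀ g : M ≃ₐ[K] M, g ∈ fixer K F M → g ∈ fixer K E M → g = 1)
    [Fintype (↥(fixer K F M) ⧸ (fixer K E M).subgroupOf (fixer K F M))] (a' : C K) (s : ℕ)
    (h : C.map (inclHom K F) a' ^ s ∈ (normC F M).range) :
    IsNorm ((Rep.res (fixer K F M).subtype (classRep K M)).quotientToInvariants
        ((fixer K E M).subgroupOf (fixer K F M)))
      (s • inclInv (classRep K M) (fixer K E M) (fixer K F M) (baseInv K E M a')) := by
  obtain ⟨b, hb⟩ := h
  have hT : ∀ t : ↥((fixer K E M).subgroupOf (fixer K F M)), (t.1 : ↥(fixer K F M)) = 1 := by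
    intro t
    apply Subtype.ext
    exact hHN _ (SetLike.coe_mem _) (Subgroup.mem_subgroupOf.1 t.2)
  let β : ((Rep.res (fixer K F M).subtype (classRep K M)).quotientToInvariants
      ((fixer K E M).subgroupOf (fixer K F M))).V :=
    ⟨Additive.ofMul b, fun t => by
      have h1 : ((Rep.res (fixer K F M).subtype (classRep K M)).ρ.comp
          ((fixer K E M).subgroupOf (fixer K F M)).subtype) t = 1 := by
        rw [MonoidHom.comp_apply]
        change (Rep.res (fixer K F M).subtype (classRep K M)).ρ (t.1) = 1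
        rw [hT t, map_one]
      rw [h1]
      rfl⟩
  refine ⟨β, ?_⟩
  apply Subtype.ext
  rw [Representation.norm, LinearMap.sum_apply, Submodule.coe_sum]
  rw [← (toSubQuot_bijective K F E M hHN).sum_comp]
  apply Additive.toMul.injective
  change Additive.toMul (∑ τ : M ≃ₐ[F] M,
      (Additive.ofMul (galHom F M τ • b) : Additive (C M))) =
    Additive.toMul (s • (baseInv K E M a').1 : Additive (C M))
  rw [toMul_sum, baseInv_coe]
  change ∏ τ : M ≃ₐ[F] M, galHom F M τ • b = (C.map (inclHom K M) a') ^ s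
  rw [← map_normC, hb, map_pow, ← C.map_comp, inclHom_comp]

end TwoTowers

end Fermat.Agent.CFT.C6.ClassNorm
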