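import Fermat.Agent.CFT.C6.ArtinK

/-!
# The compositum `M = F·Q_m` (Project C, Layer C, slice C6 (Tw))

* `exists_compositum_field` : two finite Galois extensions `F`, `E` of an arbitrary field `k` have a
  compositum: a finite Galois `M/k` with `k`-embeddings of `F`, `E` such that an automorphism of
  `M/k` fixing both images is trivial (`M = image F ⊔ image E` inside `AlgebraicClosure F`);
* `exists_compositum` : the same for Galois number fields, all instances relative to the canonical
  `ℚ`-algebra structures (`M : Type` abstract, so no instance diamonds for consumers);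
* `exists_compositum_Qm`, `exists_cyclotomic_compositum` : **(Tw)** the data of `C6/ArtinK`:
  `M = F·Q_m` with `ArtinK.IsCompositum P m K F M`;
* group side: `range_resScal_eq_ker`, `index_range_resScal`, `quotientRangeResScalEquiv`,
  `range_resScal_inf_eq_bot` (`Gal(M/F) ∩ Gal(M/Q_m) = 1`), `index_range_resScal_Qm = p^m`,
  `isCyclic_quotient_range_resScal_Qm`.
-/

set_option autoImplicit false
set_option linter.unusedSectionVars false

noncomputable section

namespace Fermat.Agent.CFT.C6.Compositum

open Fermat.Agent.CFT.Idele Fermat.Agent.CFT.C6.ZpTower Fermat.Agent.CFT.C6.ArtinK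
  Fermat.Agent.CFT.C6.IdeleNorm

/-! ### The compositum of two finite Galois extensions of a field `k` -/

section General

universe u v

variable (k : Type v) (F E : Type u) [Field k] [Field F] [Field E] [Algebra k F] [Algebra k E]

/-- the embedding of `F` into its algebraic closure, as a `k`-algebra map -/
def iotaF : F →ₐ[k] AlgebraicClosure F := IsScalarTower.toAlgHom k F (AlgebraicClosure F)

variable [Algebra.IsAlgebraic k E]

/-- an embedding of `E` into the algebraic closure of `F` -/
def iotaE : E →ₐ[k] AlgebraicClosure F := IsAlgClosed.lift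

/-- the compositum `F·E` inside the algebraic closure of `F` -/
def compI : IntermediateField k (AlgebraicClosure F) :=
  (iotaF k F).fieldRange ⊔ (iotaE k F E).fieldRange

/-- the compositum as a type -/
abbrev Comp : Type u := ↥(compI k F E)

theorem iotaF_mem (x : F) : iotaF k F x ∈ compI k F E :=
  (le_sup_left : (iotaF k F).fieldRange ≤ compI k F E) ⟨x, rfl⟩

theorem iotaE_mem (x : E) : iotaE k F E x ∈ compI k F E :=
  (le_sup_right : (iotaE k F E).fieldRange ≤ compI k F E) ⟨x, rfl⟩

/-- `F → F·E` -/
def embF : F →ₐ[k] Comp k F E := (iotaF k F).codRestrict (compI k F E).toSubalgebra (iotaF_mem k F E)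

/-- `E → F·E` -/
def embE : E →ₐ[k] Comp k F E :=
  (iotaE k F E).codRestrict (compI k F E).toSubalgebra (iotaE_mem k F E)

theorem coe_embF (x : F) : ((embF k F E x : Comp k F E) : AlgebraicClosure F) = iotaF k F x := rfl

theorem coe_embE (x : E) : ((embE k F E x : Comp k F E) : AlgebraicClosure F) = iotaE k F E x :=
  rfl

instance finiteDimensional_comp [FiniteDimensional k F] [FiniteDimensional k E] :
    FiniteDimensional k (Comp k F E) := by
  have : FiniteDimensional k (iotaF k F).fieldRange :=
    LinearEquiv.finiteDimensional (AlgEquiv.ofInjectiveField (iotaF k F)).toLinearEquiv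
  have : FiniteDimensional k (iotaE k F E).fieldRange :=
    LinearEquiv.finiteDimensional (AlgEquiv.ofInjectiveField (iotaE k F E)).toLinearEquiv
  exact IntermediateField.finiteDimensional_sup _ _

instance normal_fieldRange_iotaF [Normal k F] : Normal k (iotaF k F).fieldRange :=
  Normal.of_algEquiv (AlgEquiv.ofInjectiveField (iotaF k F))

instance normal_fieldRange_iotaE [Normal k E] : Normal k (iotaE k F E).fieldRange :=
  Normal.of_algEquiv (AlgEquiv.ofInjectiveField (iotaE k F E))

instance normal_comp [Normal k F] [Normal k E] : Normal k (Comp k F E) :=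
  IntermediateField.normal_sup k (AlgebraicClosure F) (iotaF k F).fieldRange
    (iotaE k F E).fieldRange

/-- the `F`-algebra structure of `F·E` -/
@[reducible] def algebraF : Algebra F (Comp k F E) := (embF k F E).toRingHom.toAlgebra

/-- the `E`-algebra structure of `F·E` -/
@[reducible] def algebraE : Algebra E (Comp k F E) := (embE k F E).toRingHom.toAlgebra

theorem isScalarTower_F :
    letI := algebraF k F E
    IsScalarTower k F (Comp k F E) := by
  let _ := algebraF k F E
  exact IsScalarTower.of_algebraMap_eq fun x => ((embF k F E).commutes x).symm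

theorem isScalarTower_E :
    letI := algebraE k F E
    IsScalarTower k E (Comp k F E) := by
  let _ := algebraE k F E
  exact IsScalarTower.of_algebraMap_eq fun x => ((embE k F E).commutes x).symm

/-- an automorphism of `F·E` fixing the images of `F` and `E` is trivial -/
theorem eq_one_of_fixes (g : Comp k F E ≃ₐ[k] Comp k F E)
    (hF : ∀ x : F, g (embF k F E x) = embF k F E x)
    (hE : ∀ x : E, g (embE k F E x) = embE k F E x) : g = 1 := by
  -- the fixed field of `g`, pushed to the ambient field
  let Fix : IntermediateField k (Comp k F E) := IntermediateField.fixedField (Subgroup.zpowers g)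
  have hfix : ∀ y : Comp k F E, g y = y → y ∈ Fix := by
    intro y hy
    have hinv : g⁻¹ y = y := by
      conv_lhs => rw [← hy]
      exact g.symm_apply_apply y
    have hpow : ∀ i : ℤ, (g ^ i) y = y := by
      intro i
      induction i using Int.induction_on with
      | zero => rfl
      | succ i ih => rw [zpow_add_one, AlgEquiv.mul_apply, hy, ih]
      | pred i ih => rw [zpow_sub_one, AlgEquiv.mul_apply, hinv, ih]
    rintro ⟨τ, hτ⟩
    obtain ⟨i, rfl⟩ := Subgroup.mem_zpowers_iff.mp hτ
    exact hpow i
  have hle : compI k F E ≤ Fix.map (compI k F E).val := by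
    refine sup_le ?_ ?_
    · rintro _ ⟨x, rfl⟩
      exact ⟨embF k F E x, hfix _ (hF x), rfl⟩
    · rintro _ ⟨x, rfl⟩
      exact ⟨embE k F E x, hfix _ (hE x), rfl⟩
  refine AlgEquiv.ext fun y => ?_
  obtain ⟨z, hz, hzy⟩ := hle y.2
  have hzy' : z = y := Subtype.ext hzy
  subst hzy'
  exact hz ⟨g, Subgroup.mem_zpowers g⟩

/-- **Existence of a compositum** of two finite Galois extensions `F`, `E` of `k`: a finite Galois
extension `M/k` with `k`-embeddings of `F` and `E` whose images generate `M` (an automorphism
fixing both images is trivial). -/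
theorem exists_compositum_field [FiniteDimensional k F] [FiniteDimensional k E] [IsGalois k F]
    [IsGalois k E] :
    ∃ (M : Type u) (_ : Field M) (_ : Algebra k M) (_ : Algebra F M) (_ : Algebra E M)
      (_ : IsScalarTower k F M) (_ : IsScalarTower k E M) (_ : FiniteDimensional k M)
      (_ : IsGalois k M), ∀ g : M ≃ₐ[k] M, (∀ x : F, g (algebraMap F M x) = algebraMap F M x) →
        (∀ x : E, g (algebraMap E M x) = algebraMap E M x) → g = 1 := by
  have h1 : Algebra.IsSeparable k (iotaF k F).fieldRange :=
    AlgEquiv.Algebra.isSeparable (AlgEquiv.ofInjectiveField (iotaF k F))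
  have h2 : Algebra.IsSeparable k (iotaE k F E).fieldRange :=
    AlgEquiv.Algebra.isSeparable (AlgEquiv.ofInjectiveField (iotaE k F E))
  have hsep : Algebra.IsSeparable k (Comp k F E) :=
    IntermediateField.isSeparable_sup k (AlgebraicClosure F) (iotaF k F).fieldRange
      (iotaE k F E).fieldRange
  have hgal : IsGalois k (Comp k F E) := ⟨⟩
  exact ⟨Comp k F E, inferInstance, inferInstance, algebraF k F E, algebraE k F E,
    isScalarTower_F k F E, isScalarTower_E k F E, inferInstance, hgal,
    fun g hF hE => eq_one_of_fixes k F E g hF hE⟩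

end General

/-! ### Number fields -/

section NumberFields

/-- **Compositum of two Galois number fields**, with all instances relative to the canonical
`ℚ`-algebra structures (so that every generic number field theorem applies to `M`). -/
theorem exists_compositum (F E : Type) [Field F] [Field E] [NumberField F] [NumberField E]
    [IsGalois ℚ F] [IsGalois ℚ E] :
    ∃ (M : Type) (_ : Field M) (_ : NumberField M) (_ : IsGalois ℚ M) (_ : Algebra F M)
      (_ : Algebra E M) (_ : IsGalois F M) (_ : IsGalois E M),
      ∀ g : M ≃ₐ[ℚ] M, (∀ x : F, g (algebraMap F M x) = algebraMap F M x) →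
        (∀ x : E, g (algebraMap E M x) = algebraMap E M x) → g = 1 := by
  obtain ⟨M, hfield, halg, hAF, hAE, hT1, hT2, hfd, hgal, hcomp⟩ :=
    exists_compositum_field ℚ F E
  have hchar : CharZero M := charZero_of_injective_algebraMap (algebraMap ℚ M).injective
  obtain rfl : halg = DivisionRing.toRatAlgebra := Subsingleton.elim _ _
  have hnf : NumberField M := ⟨⟩
  exact ⟨M, hfield, hnf, hgal, hAF, hAE, IsGalois.tower_top_of_isGalois ℚ F M,
    IsGalois.tower_top_of_isGalois ℚ E M, hcomp⟩

/-- **(Tw)** the compositum `M = F·Q_m` of a Galois number field `F` with the `m`-th layer of the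
cyclotomic `ℤ_p`-tower (inside any `p^(m+1)`-cyclotomic field `K`), in the exact setting of
`C6/ArtinK`. -/
theorem exists_compositum_Qm (P : Nat.Primes) (m : ℕ) (K : Type) [Field K] [NumberField K]
    [IsCyclotomicExtension {(P : ℕ) ^ (m + 1)} ℚ K] (F : Type) [Field F] [NumberField F]
    [IsGalois ℚ F] :
    ∃ (M : Type) (_ : Field M) (_ : NumberField M) (_ : IsGalois ℚ M) (_ : Algebra F M)
      (_ : Algebra (Qm (P : ℕ) m K) M) (_ : IsGalois F M) (_ : IsGalois (Qm (P : ℕ) m K) M),
      IsCompositum P m K F M :=
  exists_compositum F (Qm (P : ℕ) m K)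

set_option backward.isDefEq.respectTransparency false in
/-- the instance `IsCyclotomicExtension {n} ℚ (CyclotomicField n ℚ)` (not found by instance search
because of the `CommRing ℚ` diamond) -/
theorem isCyclotomicExtension_cyclotomicField_rat (n : ℕ) [NeZero n] :
    IsCyclotomicExtension {n} ℚ (CyclotomicField n ℚ) :=
  inferInstance

/-- **(Tw)**, fully bundled: for every prime `P`, level `m` and Galois number field `F` there are a
`P^(m+1)`-cyclotomic field `K` and a compositum `M = F·Q_m`. -/
theorem exists_cyclotomic_compositum (P : Nat.Primes) (m : ℕ) (F : Type) [Field F] [NumberField F]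
    [IsGalois ℚ F] :
    ∃ (K : Type) (_ : Field K) (_ : NumberField K)
      (_ : IsCyclotomicExtension {(P : ℕ) ^ (m + 1)} ℚ K)
      (M : Type) (_ : Field M) (_ : NumberField M) (_ : IsGalois ℚ M) (_ : Algebra F M)
      (_ : Algebra (Qm (P : ℕ) m K) M) (_ : IsGalois F M) (_ : IsGalois (Qm (P : ℕ) m K) M),
      IsCompositum P m K F M :=
  haveI := isCyclotomicExtension_cyclotomicField_rat ((P : ℕ) ^ (m + 1))
  ⟨CyclotomicField ((P : ℕ) ^ (m + 1)) ℚ, inferInstance, inferInstance, inferInstance,
    exists_compositum_Qm P m (CyclotomicField ((P : ℕ) ^ (m + 1)) ℚ) F⟩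

end NumberFields

/-! ### The group side: `Gal(M/L) ≤ Gal(M/K)` -/

section Tower

variable (K L M : Type*) [Field K] [Field L] [Field M] [Algebra ℚ K] [Algebra ℚ L] [Algebra ℚ M]
  [Algebra K L] [Algebra L M] [Algebra K M] [IsScalarTower ℚ K L] [IsScalarTower ℚ L M]
  [IsScalarTower ℚ K M] [IsScalarTower K L M] [Normal K L]

/-- `Gal(M/L)`, as a subgroup of `Gal(M/K)`, is the kernel of the restriction to `L` -/
theorem range_resScal_eq_ker :
    (resScal K L M).range = (AlgEquiv.restrictNormalHom (F := K) (K₁ := M) L).ker := by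
  ext g
  rw [MonoidHom.mem_ker, restrictNormalHom_eq_one_iff]

instance normal_range_resScal : (resScal K L M).range.Normal := by
  rw [range_resScal_eq_ker]
  infer_instance

/-- `[Gal(M/K) : Gal(M/L)] = [L : K]` -/
theorem index_range_resScal [FiniteDimensional K L] [IsGalois K L] [Normal K M] :
    (resScal K L M).range.index = Module.finrank K L := by
  rw [range_resScal_eq_ker, Subgroup.index_ker,
    MonoidHom.range_eq_top.mpr (AlgEquiv.restrictNormalHom_surjective (F := K) (K₁ := L) M),
    Nat.card_congr Subgroup.topEquiv.toEquiv, IsGalois.card_aut_eq_finrank]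

/-- the quotient `Gal(M/K) ⧸ Gal(M/L) ≃* Gal(L/K)` -/
def quotientRangeResScalEquiv [Normal K M] :
    (M ≃ₐ[K] M) ⧸ (resScal K L M).range ≃* (L ≃ₐ[K] L) :=
  (QuotientGroup.quotientMulEquivOfEq (range_resScal_eq_ker K L M)).trans
    (QuotientGroup.quotientKerEquivOfSurjective _
      (AlgEquiv.restrictNormalHom_surjective (F := K) (K₁ := L) M))

theorem quotientRangeResScalEquiv_mk [Normal K M] (g : M ≃ₐ[K] M) :
    quotientRangeResScalEquiv K L M (QuotientGroup.mk g) =
      AlgEquiv.restrictNormalHom (F := K) (K₁ := M) L g := rfl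

end Tower

section Group

variable (P : Nat.Primes) (m : ℕ) (K : Type) [Field K] [NumberField K]
  [IsCyclotomicExtension {(P : ℕ) ^ (m + 1)} ℚ K]
  (F M : Type) [Field F] [NumberField F] [Field M] [NumberField M] [IsGalois ℚ F] [IsGalois ℚ M]
  [Algebra F M] [Algebra (Qm (P : ℕ) m K) M] [IsGalois F M] [IsGalois (Qm (P : ℕ) m K) M]

variable {P m K F M}

/-- `Gal(M/F) ∩ Gal(M/Q_m) = 1` in `Gal(M/ℚ)` for the compositum `M = F·Q_m` -/
theorem range_resScal_inf_eq_bot (hgen : IsCompositum P m K F M) :
    (resScal ℚ F M).range ⊓ (resScal ℚ (Qm (P : ℕ) m K) M).range = ⊥ := by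
  rw [eq_bot_iff]
  rintro g ⟨⟨τ, rfl⟩, ⟨τ', hτ'⟩⟩
  rw [Subgroup.mem_bot]
  refine hgen _ (fun x => τ.commutes x) (fun x => ?_)
  rw [← hτ']
  exact τ'.commutes x

/-- `[Gal(M/ℚ) : Gal(M/F)] = [F : ℚ]` -/
theorem index_range_resScal_F :
    (resScal ℚ F M).range.index = Module.finrank ℚ F :=
  index_range_resScal ℚ F M

/-- `[Gal(M/ℚ) : Gal(M/Q_m)] = p^m` -/
theorem index_range_resScal_Qm (hp2 : (P : ℕ) ≠ 2) :
    (resScal ℚ (Qm (P : ℕ) m K) M).range.index = (P : ℕ) ^ m := by
  rw [index_range_resScal ℚ (Qm (P : ℕ) m K) M, finrank_Qm (P : ℕ) m K hp2]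

/-- `Gal(M/ℚ) ⧸ Gal(M/Q_m)` is cyclic -/
theorem isCyclic_quotient_range_resScal_Qm (hp2 : (P : ℕ) ≠ 2) :
    IsCyclic ((M ≃ₐ[ℚ] M) ⧸ (resScal ℚ (Qm (P : ℕ) m K) M).range) := by
  haveI := isCyclic_gal_Qm (P : ℕ) m K hp2
  exact isCyclic_of_injective
    (quotientRangeResScalEquiv ℚ (Qm (P : ℕ) m K) M).toMonoidHom
    (quotientRangeResScalEquiv ℚ (Qm (P : ℕ) m K) M).injective

end Group

end Fermat.Agent.CFT.C6.Compositum
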