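import Fermat.Agent.CFT.C6.Compositum
import Fermat.Agent.CFT.C6.ClassNorm

/-!
# The compositum `M = F·Q_m`: group data in the `fixer` language of `C6/ClassNorm`
(Project C, Layer C, slice C6 (Tw), companion of `C6/Compositum` for `C6/PPrimary`)

`Γ = Gal(M/ℚ)`, `H = fixer ℚ F M`, `N = fixer ℚ (Qm P m K) M`:

* `eq_one_of_mem_fixer` (`hHN` of `ClassNorm.isNorm_nsmul_inclInv_baseInv`), `fixer_inf_eq_bot`;
* `index_fixer_F : H.index = [F:ℚ]`, `index_fixer_Qm : N.index = p^m`;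
* `exists_generator_quot_fixer_Qm` : a generator `σ` of `Γ ⧸ N` of order `p^m`
  (`hord`, `hgen` of `LocalisedTate.exists_isClassModule_of_isLocRep_cyclicLayer_int`);
* `exists_mul_index_eq` : `c * (H.index : k) = p^m` for `m = v_p [F:ℚ]`, `k` a localisation of `ℤ`
  at the integers prime to `p` (`hc` there); `pow_factorization_dvd_finrank`.
-/

set_option autoImplicit false
set_option linter.unusedSectionVars false

noncomputable section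

namespace Fermat.Agent.CFT.C6.CompositumFixer

open Fermat.Agent.CFT.Idele Fermat.Agent.CFT.C6.ZpTower Fermat.Agent.CFT.C6.ArtinK
  Fermat.Agent.CFT.C6.IdeleNorm Fermat.Agent.CFT.C6.ClassNorm Fermat.Agent.CFT.C6.Compositum
  Fermat.Agent.CFT.A7.BaseChange

variable {P : Nat.Primes} {m : ℕ} {K : Type} [Field K] [NumberField K]
  [IsCyclotomicExtension {(P : ℕ) ^ (m + 1)} ℚ K]
  {F M : Type} [Field F] [NumberField F] [Field M] [NumberField M] [IsGalois ℚ F] [IsGalois ℚ M]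
  [Algebra F M] [Algebra (Qm (P : ℕ) m K) M] [IsGalois F M] [IsGalois (Qm (P : ℕ) m K) M]

/-- `Gal(M/F) ∩ Gal(M/Q_m) = 1` (the hypothesis `hHN` of `C6/ClassNorm`) -/
theorem eq_one_of_mem_fixer (hgen : IsCompositum P m K F M) (g : M ≃ₐ[ℚ] M)
    (h1 : g ∈ fixer ℚ F M) (h2 : g ∈ fixer ℚ (Qm (P : ℕ) m K) M) : g = 1 :=
  hgen g ((mem_fixer_iff ℚ F M g).mp h1) ((mem_fixer_iff ℚ (Qm (P : ℕ) m K) M g).mp h2)

theorem fixer_inf_eq_bot (hgen : IsCompositum P m K F M) :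
    fixer ℚ F M ⊓ fixer ℚ (Qm (P : ℕ) m K) M = ⊥ := by
  rw [eq_bot_iff]
  rintro g ⟨h1, h2⟩
  exact Subgroup.mem_bot.mpr (eq_one_of_mem_fixer hgen g h1 h2)

/-- `[Gal(M/ℚ) : Gal(M/F)] = [F : ℚ]` -/
theorem index_fixer_F : (fixer ℚ F M).index = Module.finrank ℚ F := by
  rw [fixer_eq_range]
  exact index_range_resScal ℚ F M

/-- `[Gal(M/ℚ) : Gal(M/Q_m)] = p^m` -/
theorem index_fixer_Qm (hp2 : (P : ℕ) ≠ 2) :
    (fixer ℚ (Qm (P : ℕ) m K) M).index = (P : ℕ) ^ m := by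
  rw [fixer_eq_range]
  exact index_range_resScal_Qm hp2

theorem card_quot_fixer_Qm (hp2 : (P : ℕ) ≠ 2) :
    Nat.card ((M ≃ₐ[ℚ] M) ⧸ fixer ℚ (Qm (P : ℕ) m K) M) = (P : ℕ) ^ m :=
  index_fixer_Qm hp2

/-- a generator of `Γ ⧸ N ≃ Gal(Q_m/ℚ)`, of order `p^m` -/
theorem exists_generator_quot_fixer_Qm (hp2 : (P : ℕ) ≠ 2) :
    ∃ σ : (M ≃ₐ[ℚ] M) ⧸ fixer ℚ (Qm (P : ℕ) m K) M, orderOf σ = (P : ℕ) ^ m ∧
      ∀ g : (M ≃ₐ[ℚ] M) ⧸ fixer ℚ (Qm (P : ℕ) m K) M, ∃ i : ℕ, σ ^ i = g := by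
  have hcyc : IsCyclic (Gal((Qm (P : ℕ) m K)/ℚ)) := isCyclic_gal_Qm (P : ℕ) m K hp2
  have hcyc' : IsCyclic ((M ≃ₐ[ℚ] M) ⧸ fixer ℚ (Qm (P : ℕ) m K) M) :=
    isCyclic_of_injective (quotEquiv ℚ (Qm (P : ℕ) m K) M).toMonoidHom
      (quotEquiv ℚ (Qm (P : ℕ) m K) M).injective
  obtain ⟨σ, hσ⟩ := hcyc'.exists_generator
  refine ⟨σ, ?_, fun g => ?_⟩
  · rw [orderOf_eq_card_of_forall_mem_zpowers hσ, card_quot_fixer_Qm hp2]
  · have hfin : Finite ((M ≃ₐ[ℚ] M) ⧸ fixer ℚ (Qm (P : ℕ) m K) M) := inferInstance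
    obtain ⟨i, hi⟩ := (mem_powers_iff_mem_zpowers (x := σ) (y := g)).mpr (hσ g)
    exact ⟨i, hi⟩

/-- the image under `quotEquiv` of the generator restricts to a generator of `Gal(Q_m/ℚ)` -/
theorem quotEquiv_generator (σ : (M ≃ₐ[ℚ] M) ⧸ fixer ℚ (Qm (P : ℕ) m K) M)
    (hgen : ∀ g : (M ≃ₐ[ℚ] M) ⧸ fixer ℚ (Qm (P : ℕ) m K) M, ∃ i : ℕ, σ ^ i = g)
    (τ : Gal((Qm (P : ℕ) m K)/ℚ)) :
    ∃ i : ℕ, (quotEquiv ℚ (Qm (P : ℕ) m K) M σ) ^ i = τ := by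
  obtain ⟨i, hi⟩ := hgen ((quotEquiv ℚ (Qm (P : ℕ) m K) M).symm τ)
  exact ⟨i, by rw [← map_pow, hi, MulEquiv.apply_symm_apply]⟩

/-! ### The `p`-part of `[F:ℚ]` -/

variable (F) in
theorem pow_factorization_dvd_finrank (p : ℕ) :
    p ^ (Module.finrank ℚ F).factorization p ∣ Module.finrank ℚ F :=
  Nat.ordProj_dvd _ _

/-- `c * [Γ : H] = p^m` in `k = ℤ_(p)`, `m = v_p [F:ℚ]` -/
theorem exists_mul_index_eq (p : ℕ) [hp : Fact p.Prime] (k : Type) [CommRing k]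
    [IsLocalization (primeTo p) k] :
    ∃ c : k, c * ((fixer ℚ F M).index : k) = (p : k) ^ (Module.finrank ℚ F).factorization p := by
  rw [index_fixer_F]
  have hpos : Module.finrank ℚ F ≠ 0 := Module.finrank_pos.ne'
  set n := Module.finrank ℚ F with hn
  have hdvd : p ^ n.factorization p ∣ n := Nat.ordProj_dvd n p
  obtain ⟨n', hn'⟩ := hdvd
  have hnot : ¬ p ∣ n' := by
    have := Nat.not_dvd_ordCompl hp.out hpos
    rwa [Nat.div_eq_of_eq_mul_right (pow_pos hp.out.pos _) hn'] at this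
  have hmem : (n' : ℤ) ∈ primeTo p := fun h => hnot (Int.natCast_dvd_natCast.mp h)
  have hunit : IsUnit ((n' : ℕ) : k) := by
    have := IsLocalization.map_units k (⟨(n' : ℤ), hmem⟩ : primeTo p)
    rwa [map_natCast] at this
  obtain ⟨u, hu⟩ := hunit
  refine ⟨(u⁻¹ : kˣ), ?_⟩
  conv_lhs => rw [hn']
  rw [Nat.cast_mul, Nat.cast_pow, ← hu, mul_comm ((p : k) ^ _), ← mul_assoc, Units.inv_mul,
    one_mul]

end Fermat.Agent.CFT.C6.CompositumFixer
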