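/-
PROJECT C, slice C6-F: Frobenius in a compositum.

`F/ℚ` is a finite Galois number field, `E₁`, `E₂` are number fields which are Galois over `ℚ` and
embedded in `F` (`[Algebra E₁ F] [Algebra E₂ F]`, e.g. intermediate fields) and which together
generate `F` (hypothesis `hgen`: an automorphism of `F` which is the identity on the images of
`E₁` and `E₂` is the identity; for intermediate fields this is `E₁ ⊔ E₂ = ⊤`).

Let `q` be a prime number, `W` a prime of `𝓞 F` over `q` which is unramified over `ℤ`, and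
`σ ∈ Gal(E₂/ℚ)` an element satisfying the Frobenius congruence `σ x ≡ x ^ q (mod q 𝓞 E₂)`.
If `σ ^ t = 1` for `t` the order of the decomposition group of `w := W ∩ 𝓞 E₁` in `Gal(E₁/ℚ)`,
then the decomposition group of `W` in `Gal(F/E₁)` is trivial
(`card_stabilizer_eq_one`, `eq_one_of_smul_eq`, and the versions `*_of_not_dvd_discr`,
`*_intermediateField`).

Proof.  Let `φ ∈ Gal(F/ℚ)` be a Frobenius element at `W`.  Its restriction to `E₂` is a
Frobenius element at `W ∩ 𝓞 E₂`, hence equals `σ` (the inertia group there is trivial); its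
restriction to `E₁` stabilises `w`, hence has order dividing `t`.  So `φ ^ t = 1`, which forces
`#(𝓞 F / W) ≤ q ^ t`, i.e. `f(W/q) ≤ t`.  Since `W` is unramified, `#Stab_{Gal(F/ℚ)}(W) = f(W/q)`,
and by multiplicativity of `e` and `f` in towers
`#Stab_{Gal(F/ℚ)}(W) = t * #Stab_{Gal(F/E₁)}(W)`.
-/
import Mathlib

set_option autoImplicit false

namespace Fermat.Agent.CFT.C6.FrobComp

open NumberField
open scoped Pointwise

/-! ### Generalities on Frobenius elements -/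

section General

variable {R S G : Type*} [CommRing R] [CommRing S] [Algebra R S] [Group G]
  [MulSemiringAction G S] [SMulCommClass G R S] {Q : Ideal S} {φ : G}

/-- Iterating a Frobenius element: `φ ^ j • x ≡ x ^ (N ^ j)` modulo `Q`. -/
theorem pow_smul_sub_pow_mem (hφ : IsArithFrobAt R φ Q) (j : ℕ) (x : S) :
    (φ ^ j) • x - x ^ (Nat.card (R ⧸ Q.under R) ^ j) ∈ Q := by
  induction j with
  | zero => simp
  | succ j ih =>
    set N := Nat.card (R ⧸ Q.under R) with hN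
    have h1 : φ • ((φ ^ j) • x) - ((φ ^ j) • x) ^ N ∈ Q := hφ ((φ ^ j) • x)
    have h2 : ((φ ^ j) • x) ^ N - (x ^ (N ^ j)) ^ N ∈ Q :=
      Q.mem_of_dvd (sub_dvd_pow_sub_pow _ _ N) ih
    have h3 : (φ ^ (j + 1)) • x - x ^ (N ^ (j + 1)) =
        (φ • ((φ ^ j) • x) - ((φ ^ j) • x) ^ N) + (((φ ^ j) • x) ^ N - (x ^ (N ^ j)) ^ N) := by
      rw [pow_succ' φ j, mul_smul, pow_succ N j, pow_mul]
      ring
    rw [h3]
    exact Q.add_mem h1 h2

/-- A finite domain all of whose elements satisfy `x ^ M = x` has at most `M` elements. -/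
theorem card_le_of_forall_pow_eq {k : Type*} [CommRing k] [IsDomain k] [Finite k] {M : ℕ}
    (hM : 2 ≤ M) (h : ∀ x : k, x ^ M = x) : Nat.card k ≤ M := by
  classical
  have := Fintype.ofFinite k
  have hdeg : (Polynomial.X ^ M - Polynomial.X : Polynomial k).natDegree = M := by
    rw [Polynomial.natDegree_sub_eq_left_of_natDegree_lt] <;> simp
    omega
  have hne : (Polynomial.X ^ M - Polynomial.X : Polynomial k) ≠ 0 := by
    intro h0
    rw [h0, Polynomial.natDegree_zero] at hdeg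
    omega
  have hsub : (Finset.univ : Finset k).val ⊆
      (Polynomial.X ^ M - Polynomial.X : Polynomial k).roots := by
    intro x _
    rw [Polynomial.mem_roots hne]
    simp [h x]
  have := Polynomial.card_le_degree_of_subset_roots hsub
  rw [hdeg] at this
  rw [Nat.card_eq_fintype_card]
  simpa using this

/-- If a Frobenius element at `Q` has order dividing `t`, the residue field at `Q` has at most
`N ^ t` elements, `N` the cardinality of the residue field below. -/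
theorem card_quotient_le_of_pow_eq_one [Q.IsPrime] [Finite (S ⧸ Q)] (hφ : IsArithFrobAt R φ Q)
    {t : ℕ} (ht0 : t ≠ 0) (ht : φ ^ t = 1) (hN : 2 ≤ Nat.card (R ⧸ Q.under R)) :
    Nat.card (S ⧸ Q) ≤ Nat.card (R ⧸ Q.under R) ^ t := by
  apply card_le_of_forall_pow_eq
  · calc 2 ≤ Nat.card (R ⧸ Q.under R) := hN
      _ = Nat.card (R ⧸ Q.under R) ^ 1 := (pow_one _).symm
      _ ≤ Nat.card (R ⧸ Q.under R) ^ t := Nat.pow_le_pow_right (by omega) (by omega)
  · intro x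
    obtain ⟨y, rfl⟩ := Ideal.Quotient.mk_surjective x
    have h := pow_smul_sub_pow_mem hφ t y
    rw [ht, one_smul] at h
    rw [← map_pow, eq_comm, Ideal.Quotient.eq]
    exact h

end General

theorem card_int_quotient (q : ℕ) : Nat.card (ℤ ⧸ Ideal.span {(q : ℤ)}) = q := by
  rw [Nat.card_congr (Int.quotientSpanNatEquivZMod q).toEquiv, Nat.card_zmod]

/-! ### A Galois number field `F` and a Galois subfield `E` -/

section Tower

variable (F E : Type*) [Field F] [NumberField F] [Field E] [NumberField E]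
  [Algebra E F] [IsGalois ℚ F] [IsGalois ℚ E]

omit [NumberField F] [IsGalois ℚ F] in
theorem liesOver_of_mem (q : ℕ) [hq : Fact q.Prime] (W : Ideal (𝓞 F)) [W.IsPrime]
    (hW : (q : 𝓞 F) ∈ W) : W.LiesOver (Ideal.span {(q : ℤ)}) :=
  (Ideal.liesOver_span_iff Ideal.IsPrime.ne_top' (Nat.prime_iff_prime_int.mp hq.out)).mpr
    (by simpa using hW)

omit [IsGalois ℚ F] in
theorem coe_smul_int (g : Gal(F/ℚ)) (x : 𝓞 F) : ((g • x : 𝓞 F) : F) = g (x : F) := rfl

omit [IsGalois ℚ F] in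
/-- The action on `𝓞 E` of the restriction of `φ ∈ Gal(F/ℚ)` is compatible with `𝓞 E → 𝓞 F`. -/
theorem algebraMap_restrict_smul (φ : Gal(F/ℚ)) (x : 𝓞 E) :
    algebraMap (𝓞 E) (𝓞 F) (AlgEquiv.restrictNormalHom E φ • x) =
      φ • algebraMap (𝓞 E) (𝓞 F) x := by
  apply RingOfIntegers.ext
  rw [coe_smul_int]
  change algebraMap E F ((AlgEquiv.restrictNormalHom E φ) (x : E)) = φ (algebraMap E F (x : E))
  exact AlgEquiv.restrictNormal_commutes φ E (x : E)

omit [IsGalois ℚ F] in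
/-- The restriction to `E` of a Frobenius element at `W` is a Frobenius element at `W ∩ 𝓞 E`. -/
theorem isArithFrobAt_restrict (W : Ideal (𝓞 F)) [W.IsPrime] (φ : Gal(F/ℚ))
    (hφ : IsArithFrobAt ℤ φ W) :
    IsArithFrobAt ℤ (AlgEquiv.restrictNormalHom E φ) (W.under (𝓞 E)) := by
  intro x
  have h := hφ (algebraMap (𝓞 E) (𝓞 F) x)
  rw [Ideal.under_under]
  rw [Ideal.under_def, Ideal.mem_comap, map_sub, map_pow]
  have h2 : algebraMap (𝓞 E) (𝓞 F)
      ((MulSemiringAction.toAlgHom ℤ (𝓞 E) (AlgEquiv.restrictNormalHom E φ)) x) =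
      (MulSemiringAction.toAlgHom ℤ (𝓞 F) φ) (algebraMap (𝓞 E) (𝓞 F) x) :=
    algebraMap_restrict_smul F E φ x
  rw [h2]
  exact h

/-- Multiplicativity of the orders of decomposition groups in the tower `ℚ ⊆ E ⊆ F`. -/
theorem card_stabilizer_tower (W : Ideal (𝓞 F)) [W.IsPrime] (p : Ideal ℤ) [p.IsPrime]
    [W.LiesOver p] :
    Nat.card (MulAction.stabilizer Gal(F/ℚ) W) =
      Nat.card (MulAction.stabilizer Gal(E/ℚ) (W.under (𝓞 E))) *
      Nat.card (MulAction.stabilizer Gal(F/E) W) := by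
  have : IsGalois E F := IsGalois.tower_top_of_isGalois ℚ E F
  rw [Ideal.card_stabilizer_eq (G := Gal(F/ℚ)) p W,
    Ideal.card_stabilizer_eq (G := Gal(E/ℚ)) p (W.under (𝓞 E)),
    Ideal.card_stabilizer_eq (G := Gal(F/E)) (W.under (𝓞 E)) W,
    ← Ideal.ramificationIdxIn_mul_ramificationIdxIn (p := p) (W.under (𝓞 E)) Gal(E/ℚ) (𝓞 F)
      Gal(F/ℚ) Gal(F/E),
    ← Ideal.inertiaDegIn_mul_inertiaDegIn p (W.under (𝓞 E)) Gal(E/ℚ) (𝓞 F)
      Gal(F/ℚ) Gal(F/E)]
  ring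

theorem ramificationIdxIn_eq_one (W : Ideal (𝓞 F)) [W.IsPrime] (p : Ideal ℤ) [p.IsPrime]
    [W.LiesOver p] [Algebra.IsUnramifiedAt ℤ W] : p.ramificationIdxIn (𝓞 F) = 1 := by
  rw [Ideal.ramificationIdxIn_eq_ramificationIdx p W Gal(F/ℚ), Ideal.ramificationIdx_eq_one_iff]
  infer_instance

theorem ramificationIdxIn_below_eq_one (W : Ideal (𝓞 F)) [W.IsPrime] (p : Ideal ℤ) [p.IsPrime]
    [W.LiesOver p] [Algebra.IsUnramifiedAt ℤ W] : p.ramificationIdxIn (𝓞 E) = 1 := by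
  have : IsGalois E F := IsGalois.tower_top_of_isGalois ℚ E F
  have h := Ideal.ramificationIdxIn_mul_ramificationIdxIn (p := p) (W.under (𝓞 E)) Gal(E/ℚ) (𝓞 F)
      Gal(F/ℚ) Gal(F/E)
  rw [ramificationIdxIn_eq_one F W p] at h
  exact Nat.eq_one_of_mul_eq_one_right h

/-- If `W` is unramified over `ℤ`, the inertia group of `W ∩ 𝓞 E` in `Gal(E/ℚ)` is trivial. -/
theorem inertia_below_eq_bot (W : Ideal (𝓞 F)) [W.IsPrime] (p : Ideal ℤ) [p.IsPrime]
    [W.LiesOver p] [Algebra.IsUnramifiedAt ℤ W] :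
    Ideal.inertia Gal(E/ℚ) (W.under (𝓞 E)) = ⊥ := by
  have h := Ideal.card_inertia_eq_ramificationIdxIn (G := Gal(E/ℚ)) p (W.under (𝓞 E))
  rw [ramificationIdxIn_below_eq_one F E W p] at h
  exact Subgroup.eq_bot_of_card_eq _ h

end Tower

/-! ### The main statement -/

section Main

variable (F E₁ E₂ : Type*) [Field F] [NumberField F] [Field E₁] [NumberField E₁]
  [Field E₂] [NumberField E₂] [Algebra E₁ F] [Algebra E₂ F]
  [IsGalois ℚ F] [IsGalois ℚ E₁] [IsGalois ℚ E₂]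

/-- **Frobenius in a compositum.**  `F = E₁E₂` Galois over `ℚ`, `W` a prime of `𝓞 F` over `q`,
unramified over `ℤ`; `σ ∈ Gal(E₂/ℚ)` satisfies the Frobenius congruence modulo `q` and
`σ ^ t = 1`, `t` the order of the decomposition group of `W ∩ 𝓞 E₁` in `Gal(E₁/ℚ)`.  Then the
decomposition group of `W` in `Gal(F/E₁)` is trivial. -/
theorem card_stabilizer_eq_one (q : ℕ) [hq : Fact q.Prime]
    (hgen : ∀ g : Gal(F/ℚ), (∀ x : E₁, g (algebraMap E₁ F x) = algebraMap E₁ F x) →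
      (∀ x : E₂, g (algebraMap E₂ F x) = algebraMap E₂ F x) → g = 1)
    (W : Ideal (𝓞 F)) [W.IsPrime] (hW : (q : 𝓞 F) ∈ W) [Algebra.IsUnramifiedAt ℤ W]
    (σ : Gal(E₂/ℚ)) (hσ : ∀ x : 𝓞 E₂, σ • x - x ^ q ∈ Ideal.span {(q : 𝓞 E₂)})
    (hσt : σ ^ Nat.card (MulAction.stabilizer Gal(E₁/ℚ) (W.under (𝓞 E₁))) = 1) :
    Nat.card (MulAction.stabilizer Gal(F/E₁) W) = 1 := by
  classical
  set p : Ideal ℤ := Ideal.span {(q : ℤ)} with hp
  have hqZ : Prime (q : ℤ) := Nat.prime_iff_prime_int.mp hq.out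
  have hpprime : p.IsPrime := (Ideal.span_singleton_prime hqZ.ne_zero).mpr hqZ
  have hWp : W.LiesOver p := liesOver_of_mem F q W hW
  have hunder : W.under ℤ = p := hWp.over.symm
  have hNq : Nat.card (ℤ ⧸ W.under ℤ) = q := by rw [hunder, card_int_quotient]
  set t := Nat.card (MulAction.stabilizer Gal(E₁/ℚ) (W.under (𝓞 E₁))) with ht
  have ht0 : t ≠ 0 := Nat.card_pos.ne'
  -- the residue field at `W` is finite
  have hW0 : W ≠ ⊥ := by
    intro h0
    rw [h0, Ideal.mem_bot] at hW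
    exact hq.out.ne_zero (by exact_mod_cast hW)
  have hfin : Finite (𝓞 F ⧸ W) := Ideal.finiteQuotientOfFreeOfNeBot W hW0
  -- a Frobenius element at `W`
  obtain ⟨φ, hφ⟩ := IsArithFrobAt.exists_of_isInvariant ℤ Gal(F/ℚ) W
  -- its restriction to `E₂` is `σ`
  have hφ₂ : AlgEquiv.restrictNormalHom E₂ φ = σ := by
    have h1 := isArithFrobAt_restrict F E₂ W φ hφ
    have h2 : IsArithFrobAt ℤ σ (W.under (𝓞 E₂)) := by
      intro x
      rw [Ideal.under_under, hNq]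
      have hle : Ideal.span {(q : 𝓞 E₂)} ≤ W.under (𝓞 E₂) := by
        rw [Ideal.span_singleton_le_iff_mem, Ideal.under_def, Ideal.mem_comap, map_natCast]
        exact hW
      exact hle (hσ x)
    have h3 := h1.mul_inv_mem_inertia h2
    rw [inertia_below_eq_bot F E₂ W p, Subgroup.mem_bot] at h3
    exact mul_inv_eq_one.mp h3
  -- its restriction to `E₁` has order dividing `t`
  have hφ₁ : (AlgEquiv.restrictNormalHom E₁ φ) ^ t = 1 := by
    have h1 := (isArithFrobAt_restrict F E₁ W φ hφ).mem_stabilizer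
    have h2 : (⟨_, h1⟩ : MulAction.stabilizer Gal(E₁/ℚ) (W.under (𝓞 E₁))) ^ t = 1 :=
      pow_card_eq_one'
    exact congrArg Subtype.val h2
  -- hence `φ ^ t = 1`
  have hφt : φ ^ t = 1 := by
    apply hgen
    · intro x
      have := AlgEquiv.restrictNormal_commutes (φ ^ t) E₁ x
      rw [← this]
      change algebraMap E₁ F ((AlgEquiv.restrictNormalHom E₁ (φ ^ t)) x) = _
      rw [map_pow, hφ₁, AlgEquiv.one_apply]
    · intro x
      have := AlgEquiv.restrictNormal_commutes (φ ^ t) E₂ x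
      rw [← this]
      change algebraMap E₂ F ((AlgEquiv.restrictNormalHom E₂ (φ ^ t)) x) = _
      rw [map_pow, hφ₂, hσt, AlgEquiv.one_apply]
  -- so the residue degree is at most `t`
  have hcard := card_quotient_le_of_pow_eq_one hφ ht0 hφt (by rw [hNq]; exact hq.out.two_le)
  rw [hNq] at hcard
  have hp0 : p ≠ ⊥ := by
    rw [hp, Ne, Ideal.span_singleton_eq_bot]
    exact hqZ.ne_zero
  have hpmax : p.IsMaximal := hpprime.isMaximal hp0
  have hWmax : W.IsMaximal := Ideal.IsPrime.isMaximal inferInstance hW0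
  have hf := Ideal.cardQuot_pow_inertiaDeg p W
  rw [Submodule.cardQuot_apply, Submodule.cardQuot_apply, card_int_quotient] at hf
  rw [← hf] at hcard
  have hft : W.inertiaDeg ℤ ≤ t := (Nat.pow_le_pow_iff_right hq.out.one_lt).mp hcard
  -- count
  have h1 := Ideal.card_stabilizer_eq (G := Gal(F/ℚ)) p W
  rw [ramificationIdxIn_eq_one F W p, one_mul, Ideal.inertiaDegIn_eq_inertiaDeg p W Gal(F/ℚ),
    card_stabilizer_tower F E₁ W p] at h1
  have hs : 0 < Nat.card (MulAction.stabilizer Gal(F/E₁) W) := Nat.card_pos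
  have h2 : t * Nat.card (MulAction.stabilizer Gal(F/E₁) W) ≤ t * 1 := by
    rw [mul_one]
    exact h1 ▸ hft
  have h3 := Nat.le_of_mul_le_mul_left h2 (Nat.pos_of_ne_zero ht0)
  omega

/-- Elementwise form of `card_stabilizer_eq_one`. -/
theorem eq_one_of_smul_eq (q : ℕ) [hq : Fact q.Prime]
    (hgen : ∀ g : Gal(F/ℚ), (∀ x : E₁, g (algebraMap E₁ F x) = algebraMap E₁ F x) →
      (∀ x : E₂, g (algebraMap E₂ F x) = algebraMap E₂ F x) → g = 1)
    (W : Ideal (𝓞 F)) [W.IsPrime] (hW : (q : 𝓞 F) ∈ W) [Algebra.IsUnramifiedAt ℤ W]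
    (σ : Gal(E₂/ℚ)) (hσ : ∀ x : 𝓞 E₂, σ • x - x ^ q ∈ Ideal.span {(q : 𝓞 E₂)})
    (hσt : σ ^ Nat.card (MulAction.stabilizer Gal(E₁/ℚ) (W.under (𝓞 E₁))) = 1)
    (τ : Gal(F/E₁)) (hτ : τ • W = W) : τ = 1 := by
  have h := card_stabilizer_eq_one F E₁ E₂ q hgen W hW σ hσ hσt
  have hsub : Subsingleton (MulAction.stabilizer Gal(F/E₁) W) :=
    (Nat.card_eq_one_iff_unique.mp h).1
  have h1 : (⟨τ, hτ⟩ : MulAction.stabilizer Gal(F/E₁) W) = 1 := Subsingleton.elim _ _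
  exact congrArg Subtype.val h1

/-- `eq_one_of_smul_eq` with the hypothesis `q ∤ discr F` instead of unramifiedness at `W`. -/
theorem eq_one_of_smul_eq_of_not_dvd_discr (q : ℕ) [hq : Fact q.Prime]
    (hgen : ∀ g : Gal(F/ℚ), (∀ x : E₁, g (algebraMap E₁ F x) = algebraMap E₁ F x) →
      (∀ x : E₂, g (algebraMap E₂ F x) = algebraMap E₂ F x) → g = 1)
    (hdisc : ¬ (q : ℤ) ∣ NumberField.discr F)
    (W : Ideal (𝓞 F)) [W.IsPrime] (hW : (q : 𝓞 F) ∈ W)
    (σ : Gal(E₂/ℚ)) (hσ : ∀ x : 𝓞 E₂, σ • x - x ^ q ∈ Ideal.span {(q : 𝓞 E₂)})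
    (hσt : σ ^ Nat.card (MulAction.stabilizer Gal(E₁/ℚ) (W.under (𝓞 E₁))) = 1)
    (τ : Gal(F/E₁)) (hτ : τ • W = W) : τ = 1 := by
  have hqZ : Prime (q : ℤ) := Nat.prime_iff_prime_int.mp hq.out
  have hur : Algebra.IsUnramifiedAt ℤ W :=
    (NumberField.not_dvd_discr_iff_forall_mem F (𝓞 F) hqZ).mp hdisc W inferInstance
      (by simpa using hW)
  exact eq_one_of_smul_eq F E₁ E₂ q hgen W hW σ hσ hσt τ hτ

omit [IsGalois ℚ E₂] in
/-- The model-free Frobenius congruence (shape of `CyclotomicFrob.frob_congr_subfield`) implies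
the ideal-theoretic one. -/
theorem sub_pow_mem_span_of_frob_congr (q : ℕ) (σ : Gal(E₂/ℚ))
    (hσ : ∀ x : E₂, IsIntegral ℤ x → ∃ y : E₂, IsIntegral ℤ y ∧ σ x - x ^ q = q * y)
    (x : 𝓞 E₂) : σ • x - x ^ q ∈ Ideal.span {(q : 𝓞 E₂)} := by
  obtain ⟨y, hy, hxy⟩ := hσ (x : E₂) x.2
  rw [Ideal.mem_span_singleton']
  refine ⟨⟨y, (mem_integralClosure_iff ℤ E₂).2 hy⟩, ?_⟩
  apply RingOfIntegers.ext
  change y * (q : E₂) = σ (x : E₂) - (x : E₂) ^ q
  rw [mul_comm]
  exact hxy.symm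

/-- `eq_one_of_smul_eq_of_not_dvd_discr` with the model-free Frobenius congruence. -/
theorem eq_one_of_smul_eq_of_frob_congr (q : ℕ) [hq : Fact q.Prime]
    (hgen : ∀ g : Gal(F/ℚ), (∀ x : E₁, g (algebraMap E₁ F x) = algebraMap E₁ F x) →
      (∀ x : E₂, g (algebraMap E₂ F x) = algebraMap E₂ F x) → g = 1)
    (hdisc : ¬ (q : ℤ) ∣ NumberField.discr F)
    (W : Ideal (𝓞 F)) [W.IsPrime] (hW : (q : 𝓞 F) ∈ W)
    (σ : Gal(E₂/ℚ))
    (hσ : ∀ x : E₂, IsIntegral ℤ x → ∃ y : E₂, IsIntegral ℤ y ∧ σ x - x ^ q = q * y)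
    (hσt : σ ^ Nat.card (MulAction.stabilizer Gal(E₁/ℚ) (W.under (𝓞 E₁))) = 1)
    (τ : Gal(F/E₁)) (hτ : τ • W = W) : τ = 1 :=
  eq_one_of_smul_eq_of_not_dvd_discr F E₁ E₂ q hgen hdisc W hW σ
    (sub_pow_mem_span_of_frob_congr E₂ q σ hσ) hσt τ hτ

/-- Version for an element of `Gal(F/ℚ)` fixing `E₁` pointwise. -/
theorem eq_one_of_smul_eq' (q : ℕ) [hq : Fact q.Prime]
    (hgen : ∀ g : Gal(F/ℚ), (∀ x : E₁, g (algebraMap E₁ F x) = algebraMap E₁ F x) →
      (∀ x : E₂, g (algebraMap E₂ F x) = algebraMap E₂ F x) → g = 1)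
    (W : Ideal (𝓞 F)) [W.IsPrime] (hW : (q : 𝓞 F) ∈ W) [Algebra.IsUnramifiedAt ℤ W]
    (σ : Gal(E₂/ℚ)) (hσ : ∀ x : 𝓞 E₂, σ • x - x ^ q ∈ Ideal.span {(q : 𝓞 E₂)})
    (hσt : σ ^ Nat.card (MulAction.stabilizer Gal(E₁/ℚ) (W.under (𝓞 E₁))) = 1)
    (τ : Gal(F/ℚ)) (hτ₁ : ∀ x : E₁, τ (algebraMap E₁ F x) = algebraMap E₁ F x)
    (hτ : τ • W = W) : τ = 1 := by
  let τ' : Gal(F/E₁) := { τ with commutes' := hτ₁ }
  have hττ' : τ' • W = τ • W := by
    ext x
    rw [Ideal.mem_pointwise_smul_iff_inv_smul_mem, Ideal.mem_pointwise_smul_iff_inv_smul_mem]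
    have : τ'⁻¹ • x = τ⁻¹ • x := RingOfIntegers.ext rfl
    rw [this]
  have hτ' : τ' • W = W := hττ'.trans hτ
  have h1 := eq_one_of_smul_eq F E₁ E₂ q hgen W hW σ hσ hσt τ' hτ'
  ext x
  have h2 : τ' x = x := by rw [h1]; rfl
  exact h2

end Main

/-! ### Intermediate fields -/

section IntermediateField

variable (F : Type*) [Field F] [NumberField F] [IsGalois ℚ F]

omit [IsGalois ℚ F] in
/-- Two intermediate fields with compositum `⊤` generate: an automorphism which is the identity on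
both is the identity. -/
theorem eq_one_of_sup_eq_top (E₁ E₂ : IntermediateField ℚ F) (h : E₁ ⊔ E₂ = ⊤) (g : Gal(F/ℚ))
    (h₁ : ∀ x : E₁, g (algebraMap E₁ F x) = algebraMap E₁ F x)
    (h₂ : ∀ x : E₂, g (algebraMap E₂ F x) = algebraMap E₂ F x) : g = 1 := by
  have hg : g ∈ (E₁ ⊔ E₂).fixingSubgroup := by
    rw [IntermediateField.fixingSubgroup_sup, Subgroup.mem_inf,
      IntermediateField.mem_fixingSubgroup_iff, IntermediateField.mem_fixingSubgroup_iff]
    exact ⟨fun x hx => h₁ ⟨x, hx⟩, fun x hx => h₂ ⟨x, hx⟩⟩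
  rwa [h, IntermediateField.fixingSubgroup_top, Subgroup.mem_bot] at hg

/-- **Frobenius in a compositum**, for intermediate fields `E₁ ⊔ E₂ = ⊤` of `F/ℚ`, with the
hypothesis `q ∤ discr F` and the model-free Frobenius congruence. -/
theorem eq_one_of_smul_eq_intermediateField (E₁ E₂ : IntermediateField ℚ F)
    [IsGalois ℚ E₁] [IsGalois ℚ E₂] (h : E₁ ⊔ E₂ = ⊤) (q : ℕ) [hq : Fact q.Prime]
    (hdisc : ¬ (q : ℤ) ∣ NumberField.discr F)
    (W : Ideal (𝓞 F)) [W.IsPrime] (hW : (q : 𝓞 F) ∈ W)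
    (σ : Gal(E₂/ℚ))
    (hσ : ∀ x : E₂, IsIntegral ℤ x → ∃ y : E₂, IsIntegral ℤ y ∧ σ x - x ^ q = q * y)
    (hσt : σ ^ Nat.card (MulAction.stabilizer Gal(E₁/ℚ) (W.under (𝓞 E₁))) = 1)
    (τ : Gal(F/E₁)) (hτ : τ • W = W) : τ = 1 :=
  eq_one_of_smul_eq_of_frob_congr F E₁ E₂ q (eq_one_of_sup_eq_top F E₁ E₂ h) hdisc W hW σ hσ hσt
    τ hτ

end IntermediateField

end Fermat.Agent.CFT.C6.FrobComp
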