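/-
PROJECT C, slice C6-F': `FrobComp` with an exponent.

Setting of `FrobComp`: `F = E₁E₂` Galois over `ℚ`, `W` a prime of `𝓞 F` over `q` unramified over
`ℤ`, `σ ∈ Gal(E₂/ℚ)` with the Frobenius congruence modulo `q`, `s` the order of the decomposition
group of `W ∩ 𝓞 E₁` in `Gal(E₁/ℚ)`.  If `σ ^ (t * s) = 1` then the order of the decomposition
group of `W` in `Gal(F/E₁)` divides `t`; in particular `τ ^ t = 1` for every `τ ∈ Gal(F/E₁)`
fixing `W`.  (`t = 1` is `FrobComp.card_stabilizer_eq_one`.)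
-/
import Fermat.Agent.CFT.C6.FrobComp

set_option autoImplicit false

namespace Fermat.Agent.CFT.C6.FrobComp

open NumberField
open scoped Pointwise

section MainPow

variable (F E₁ E₂ : Type*) [Field F] [NumberField F] [Field E₁] [NumberField E₁]
  [Field E₂] [NumberField E₂] [Algebra E₁ F] [Algebra E₂ F]
  [IsGalois ℚ F] [IsGalois ℚ E₁] [IsGalois ℚ E₂]

/-- **Frobenius in a compositum, with exponent.**  If `σ ^ (t * s) = 1`, `s` the order of the
decomposition group of `W ∩ 𝓞 E₁` in `Gal(E₁/ℚ)`, then the order of the decomposition group of `W`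
in `Gal(F/E₁)` divides `t`. -/
theorem card_stabilizer_dvd (q : ℕ) [hq : Fact q.Prime]
    (hgen : ∀ g : Gal(F/ℚ), (∀ x : E₁, g (algebraMap E₁ F x) = algebraMap E₁ F x) →
      (∀ x : E₂, g (algebraMap E₂ F x) = algebraMap E₂ F x) → g = 1)
    (W : Ideal (𝓞 F)) [W.IsPrime] (hW : (q : 𝓞 F) ∈ W) [Algebra.IsUnramifiedAt ℤ W]
    (σ : Gal(E₂/ℚ)) (hσ : ∀ x : 𝓞 E₂, σ • x - x ^ q ∈ Ideal.span {(q : 𝓞 E₂)})
    (t : ℕ)
    (hσt : σ ^ (t * Nat.card (MulAction.stabilizer Gal(E₁/ℚ) (W.under (𝓞 E₁)))) = 1) :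
    Nat.card (MulAction.stabilizer Gal(F/E₁) W) ∣ t := by
  classical
  set p : Ideal ℤ := Ideal.span {(q : ℤ)} with hp
  have hqZ : Prime (q : ℤ) := Nat.prime_iff_prime_int.mp hq.out
  have hpprime : p.IsPrime := (Ideal.span_singleton_prime hqZ.ne_zero).mpr hqZ
  have hWp : W.LiesOver p := liesOver_of_mem F q W hW
  have hunder : W.under ℤ = p := hWp.over.symm
  have hNq : Nat.card (ℤ ⧸ W.under ℤ) = q := by rw [hunder, card_int_quotient]
  set s := Nat.card (MulAction.stabilizer Gal(E₁/ℚ) (W.under (𝓞 E₁))) with hs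
  have hs0 : s ≠ 0 := Nat.card_pos.ne'
  -- the residue field at `W` is finite
  have hW0 : W ≠ ⊥ := by
    intro h0
    rw [h0, Ideal.mem_bot] at hW
    exact hq.out.ne_zero (by exact_mod_cast hW)
  have hfin : Finite (𝓞 F ⧸ W) := Ideal.finiteQuotientOfFreeOfNeBot W hW0
  -- a Frobenius element at `W`
  obtain ⟨φ, hφ⟩ := IsArithFrobAt.exists_of_isInvariant ℤ Gal(F/ℚ) W
  -- its restriction to `E₂` is `σ`
  have hφ₂ : AlgEquiv.restrictNormalHom E₂ φ = σ := by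
    have h1 := isArithFrobAt_restrict F E₂ W φ hφ
    have h2 : IsArithFrobAt ℤ σ (W.under (𝓞 E₂)) := by
      intro x
      rw [Ideal.under_under, hNq]
      have hle : Ideal.span {(q : 𝓞 E₂)} ≤ W.under (𝓞 E₂) := by
        rw [Ideal.span_singleton_le_iff_mem, Ideal.under_def, Ideal.mem_comap, map_natCast]
        exact hW
      exact hle (hσ x)
    have h3 := h1.mul_inv_mem_inertia h2
    rw [inertia_below_eq_bot F E₂ W p, Subgroup.mem_bot] at h3
    exact mul_inv_eq_one.mp h3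
  -- its restriction to `E₁` has order dividing `s`
  have hφ₁ : (AlgEquiv.restrictNormalHom E₁ φ) ^ s = 1 := by
    have h1 := (isArithFrobAt_restrict F E₁ W φ hφ).mem_stabilizer
    have h2 : (⟨_, h1⟩ : MulAction.stabilizer Gal(E₁/ℚ) (W.under (𝓞 E₁))) ^ s = 1 :=
      pow_card_eq_one'
    exact congrArg Subtype.val h2
  -- hence `φ ^ (t * s) = 1`
  have hφt : φ ^ (t * s) = 1 := by
    apply hgen
    · intro x
      have := AlgEquiv.restrictNormal_commutes (φ ^ (t * s)) E₁ x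
      rw [← this]
      change algebraMap E₁ F ((AlgEquiv.restrictNormalHom E₁ (φ ^ (t * s))) x) = _
      rw [map_pow, mul_comm, pow_mul, hφ₁, one_pow, AlgEquiv.one_apply]
    · intro x
      have := AlgEquiv.restrictNormal_commutes (φ ^ (t * s)) E₂ x
      rw [← this]
      change algebraMap E₂ F ((AlgEquiv.restrictNormalHom E₂ (φ ^ (t * s))) x) = _
      rw [map_pow, hφ₂, hσt, AlgEquiv.one_apply]
  -- the order `n` of `φ` is the residue degree `f`
  set n := orderOf φ with hn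
  have hn0 : n ≠ 0 := (orderOf_pos φ).ne'
  have hcard := card_quotient_le_of_pow_eq_one hφ hn0 (pow_orderOf_eq_one φ)
    (by rw [hNq]; exact hq.out.two_le)
  rw [hNq] at hcard
  have hp0 : p ≠ ⊥ := by
    rw [hp, Ne, Ideal.span_singleton_eq_bot]
    exact hqZ.ne_zero
  have hpmax : p.IsMaximal := hpprime.isMaximal hp0
  have hWmax : W.IsMaximal := Ideal.IsPrime.isMaximal inferInstance hW0
  have hf := Ideal.cardQuot_pow_inertiaDeg p W
  rw [Submodule.cardQuot_apply, Submodule.cardQuot_apply, card_int_quotient] at hf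
  rw [← hf] at hcard
  have hfn : W.inertiaDeg ℤ ≤ n := (Nat.pow_le_pow_iff_right hq.out.one_lt).mp hcard
  -- count
  have h1 := Ideal.card_stabilizer_eq (G := Gal(F/ℚ)) p W
  rw [ramificationIdxIn_eq_one F W p, one_mul, Ideal.inertiaDegIn_eq_inertiaDeg p W Gal(F/ℚ)]
    at h1
  have hnD : n ∣ Nat.card (MulAction.stabilizer Gal(F/ℚ) W) := by
    have hmem := hφ.mem_stabilizer
    have h2 : orderOf (⟨φ, hmem⟩ : MulAction.stabilizer Gal(F/ℚ) W) = n :=
      Subgroup.orderOf_mk φ hmem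
    rw [← h2]
    exact orderOf_dvd_natCard _
  rw [h1] at hnD
  have hf0 : 0 < W.inertiaDeg ℤ := by
    rw [← h1]
    exact Nat.card_pos
  have hnf : n = W.inertiaDeg ℤ := le_antisymm (Nat.le_of_dvd hf0 hnD) hfn
  have h3 : W.inertiaDeg ℤ = s * Nat.card (MulAction.stabilizer Gal(F/E₁) W) := by
    rw [← h1, card_stabilizer_tower F E₁ W p]
  have h4 : n ∣ t * s := orderOf_dvd_of_pow_eq_one hφt
  rw [hnf, h3, mul_comm t s] at h4
  exact Nat.dvd_of_mul_dvd_mul_left (Nat.pos_of_ne_zero hs0) h4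

/-- Elementwise form of `card_stabilizer_dvd`: `τ ^ t = 1` for every `τ ∈ Gal(F/E₁)` fixing
`W`. -/
theorem pow_eq_one_of_smul_eq (q : ℕ) [hq : Fact q.Prime]
    (hgen : ∀ g : Gal(F/ℚ), (∀ x : E₁, g (algebraMap E₁ F x) = algebraMap E₁ F x) →
      (∀ x : E₂, g (algebraMap E₂ F x) = algebraMap E₂ F x) → g = 1)
    (W : Ideal (𝓞 F)) [W.IsPrime] (hW : (q : 𝓞 F) ∈ W) [Algebra.IsUnramifiedAt ℤ W]
    (σ : Gal(E₂/ℚ)) (hσ : ∀ x : 𝓞 E₂, σ • x - x ^ q ∈ Ideal.span {(q : 𝓞 E₂)})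
    (t : ℕ)
    (hσt : σ ^ (t * Nat.card (MulAction.stabilizer Gal(E₁/ℚ) (W.under (𝓞 E₁)))) = 1)
    (τ : Gal(F/E₁)) (hτ : τ • W = W) : τ ^ t = 1 := by
  obtain ⟨c, hc⟩ := card_stabilizer_dvd F E₁ E₂ q hgen W hW σ hσ t hσt
  have h2 : (⟨τ, hτ⟩ : MulAction.stabilizer Gal(F/E₁) W) ^
      Nat.card (MulAction.stabilizer Gal(F/E₁) W) = 1 := pow_card_eq_one'
  have h3 : τ ^ Nat.card (MulAction.stabilizer Gal(F/E₁) W) = 1 := congrArg Subtype.val h2
  rw [hc, pow_mul, h3, one_pow]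

/-- `pow_eq_one_of_smul_eq` with `q ∤ discr F` and the model-free Frobenius congruence. -/
theorem pow_eq_one_of_smul_eq_of_frob_congr (q : ℕ) [hq : Fact q.Prime]
    (hgen : ∀ g : Gal(F/ℚ), (∀ x : E₁, g (algebraMap E₁ F x) = algebraMap E₁ F x) →
      (∀ x : E₂, g (algebraMap E₂ F x) = algebraMap E₂ F x) → g = 1)
    (hdisc : ¬ (q : ℤ) ∣ NumberField.discr F)
    (W : Ideal (𝓞 F)) [W.IsPrime] (hW : (q : 𝓞 F) ∈ W)
    (σ : Gal(E₂/ℚ))
    (hσ : ∀ x : E₂, IsIntegral ℤ x → ∃ y : E₂, IsIntegral ℤ y ∧ σ x - x ^ q = q * y)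
    (t : ℕ)
    (hσt : σ ^ (t * Nat.card (MulAction.stabilizer Gal(E₁/ℚ) (W.under (𝓞 E₁)))) = 1)
    (τ : Gal(F/E₁)) (hτ : τ • W = W) : τ ^ t = 1 := by
  have hqZ : Prime (q : ℤ) := Nat.prime_iff_prime_int.mp hq.out
  have hur : Algebra.IsUnramifiedAt ℤ W :=
    (NumberField.not_dvd_discr_iff_forall_mem F (𝓞 F) hqZ).mp hdisc W inferInstance
      (by simpa using hW)
  exact pow_eq_one_of_smul_eq F E₁ E₂ q hgen W hW σ
    (sub_pow_mem_span_of_frob_congr E₂ q σ hσ) t hσt τ hτ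

end MainPow

end Fermat.Agent.CFT.C6.FrobComp
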