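/-
PROJECT C, slice C6-F (part 2): `FrobComp` in the language of `Dict.PrimeOver` and
`C5.NonSplit.SplitsCompletely`.

`F = E₁E₂` Galois over `ℚ` with `E₁`, `E₂` Galois over `ℚ`, `q ∤ discr F`, `σ ∈ Gal(E₂/ℚ)` with the
Frobenius congruence modulo `q`.  If `σ ^ t = 1` for `t` the order of the decomposition group in
`Gal(E₁/ℚ)` of ONE prime `w₀` of `𝓞 E₁` over `q`, then `q` splits completely in `F/E₁`
(tensor-model form of `C5.NonSplit`).
-/
import Fermat.Agent.CFT.C6.FrobComp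
import Fermat.Agent.CFT.C6.SplitIdem
import Fermat.Agent.CFT.C6.ZpTower

set_option autoImplicit false

open scoped NumberField Pointwise

open Fermat.Agent.CFT.Dict

namespace Fermat.Agent.CFT.C6.FrobSplit

open Fermat.Agent.CFT.C6.FrobComp

section Stabilizer

variable {E : Type} [Field E] [NumberField E] {q : Nat.Primes}

/-- The stabiliser of a `PrimeOver` is the stabiliser of its ideal (Mathlib pointwise action). -/
theorem stabilizer_primeOver (w : PrimeOver (q : ℕ) (𝓞 E)) :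
    MulAction.stabilizer (E ≃ₐ[ℚ] E) w = MulAction.stabilizer (E ≃ₐ[ℚ] E) w.ideal := by
  ext σ
  rw [MulAction.mem_stabilizer_iff, MulAction.mem_stabilizer_iff]
  constructor
  · intro h
    rw [← PrimeOver.smul_ideal, h]
  · intro h
    exact PrimeOver.ext_ideal (by rw [PrimeOver.smul_ideal, h])

variable [IsGalois ℚ E]

/-- All decomposition groups over `q` in `Gal(E/ℚ)` have the same order. -/
theorem card_stabilizer_eq_of_mem (P P' : Ideal (𝓞 E)) [P.IsPrime] [P'.IsPrime]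
    (hP : ((q : ℕ) : 𝓞 E) ∈ P) (hP' : ((q : ℕ) : 𝓞 E) ∈ P') :
    Nat.card (MulAction.stabilizer Gal(E/ℚ) P) = Nat.card (MulAction.stabilizer Gal(E/ℚ) P') := by
  have : Fact (q : ℕ).Prime := ⟨q.2⟩
  have hqZ : Prime ((q : ℕ) : ℤ) := Nat.prime_iff_prime_int.mp q.2
  have hpprime : (Ideal.span {((q : ℕ) : ℤ)}).IsPrime :=
    (Ideal.span_singleton_prime hqZ.ne_zero).mpr hqZ
  have h1 : P.LiesOver (Ideal.span {((q : ℕ) : ℤ)}) := liesOver_of_mem E q P hP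
  have h2 : P'.LiesOver (Ideal.span {((q : ℕ) : ℤ)}) := liesOver_of_mem E q P' hP'
  rw [Ideal.card_stabilizer_eq (G := Gal(E/ℚ)) (Ideal.span {((q : ℕ) : ℤ)}) P,
    Ideal.card_stabilizer_eq (G := Gal(E/ℚ)) (Ideal.span {((q : ℕ) : ℤ)}) P']

end Stabilizer

section Main

variable (F E₁ E₂ : Type) [Field F] [NumberField F] [Field E₁] [NumberField E₁]
  [Field E₂] [NumberField E₂] [Algebra E₁ F] [Algebra E₂ F]
  [IsGalois ℚ F] [IsGalois ℚ E₁] [IsGalois ℚ E₂]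

/-- **Frobenius in a compositum ⇒ complete splitting** (tensor-model form). -/
theorem splitsCompletely_of_frob (q : Nat.Primes)
    (hgen : ∀ g : Gal(F/ℚ), (∀ x : E₁, g (algebraMap E₁ F x) = algebraMap E₁ F x) →
      (∀ x : E₂, g (algebraMap E₂ F x) = algebraMap E₂ F x) → g = 1)
    (hdisc : ¬ (((q : ℕ) : ℤ)) ∣ NumberField.discr F)
    (σ : Gal(E₂/ℚ))
    (hσ : ∀ x : E₂, IsIntegral ℤ x → ∃ y : E₂, IsIntegral ℤ y ∧ σ x - x ^ (q : ℕ) = (q : ℕ) * y)
    (w₀ : PrimeOver (q : ℕ) (𝓞 E₁))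
    (hσt : σ ^ Nat.card (MulAction.stabilizer (E₁ ≃ₐ[ℚ] E₁) w₀) = 1) :
    C5.NonSplit.SplitsCompletely E₁ F q := by
  have : Fact (q : ℕ).Prime := ⟨q.2⟩
  refine SplitIdem.splitsCompletely_of_forall_ideal fun P hP hq τ hτ => ?_
  have hw : ((q : ℕ) : 𝓞 E₁) ∈ P.under (𝓞 E₁) := by
    rw [Ideal.under_def, Ideal.mem_comap, map_natCast]
    exact hq
  have hcard : Nat.card (MulAction.stabilizer Gal(E₁/ℚ) (P.under (𝓞 E₁))) =
      Nat.card (MulAction.stabilizer (E₁ ≃ₐ[ℚ] E₁) w₀) := by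
    rw [stabilizer_primeOver w₀]
    exact card_stabilizer_eq_of_mem (P.under (𝓞 E₁)) w₀.ideal hw w₀.mem
  exact eq_one_of_smul_eq_of_frob_congr F E₁ E₂ (q : ℕ) hgen hdisc P hq σ hσ
    (by rw [hcard]; exact hσt) τ hτ

end Main

/-! ### The case `E₂ = Q_m`, a layer of the cyclotomic `ℤ_p`-tower -/

section Tower

open Fermat.Agent.CFT.C6.ZpTower

variable (p : ℕ) [hp : Fact p.Prime] (m : ℕ) (K : Type) [Field K] [NumberField K]
  [IsCyclotomicExtension {p ^ (m + 1)} ℚ K]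
  (F E₁ : Type) [Field F] [NumberField F] [Field E₁] [NumberField E₁]
  [Algebra E₁ F] [Algebra (Qm p m K) F] [IsGalois ℚ F] [IsGalois ℚ E₁]

/-- `F = E₁ Q_m`, `q ≠ p` with `q ∤ discr F`: if `[q]^((p-1)t) = 1` in `(ℤ/p^(m+1))ˣ`, `t` the order
of a decomposition group of `E₁/ℚ` over `q`, then `q` splits completely in `F/E₁`. -/
theorem splitsCompletely_of_unitOfCoprime_pow (q : Nat.Primes) (hqn : (q : ℕ).Coprime (p ^ (m + 1)))
    (hqp : (q : ℕ) ≠ p)
    (hgen : ∀ g : Gal(F/ℚ), (∀ x : E₁, g (algebraMap E₁ F x) = algebraMap E₁ F x) →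
      (∀ x : Qm p m K, g (algebraMap (Qm p m K) F x) = algebraMap (Qm p m K) F x) → g = 1)
    (hdisc : ¬ (((q : ℕ) : ℤ)) ∣ NumberField.discr F)
    (w₀ : PrimeOver (q : ℕ) (𝓞 E₁))
    (ht : ((ZMod.unitOfCoprime (q : ℕ) hqn) ^ (p - 1)) ^
      Nat.card (MulAction.stabilizer (E₁ ≃ₐ[ℚ] E₁) w₀) = 1) :
    C5.NonSplit.SplitsCompletely E₁ F q := by
  have : Fact (q : ℕ).Prime := ⟨q.2⟩
  refine splitsCompletely_of_frob F E₁ (Qm p m K) q hgen hdisc
    (artin p m K (ZMod.unitOfCoprime (q : ℕ) hqn)) ?_ w₀ ?_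
  · intro x hx
    obtain ⟨_, y, hy, h⟩ := artin_frob p m K (q : ℕ) hqp hx
    exact ⟨y, hy, h⟩
  · rw [artin_pow_eq_one_iff]
    exact ht

end Tower

end Fermat.Agent.CFT.C6.FrobSplit
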