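/-
PROJECT C, slice C6-(V): the norm to `ℚ` of a "prime idele".

`F/ℚ` a finite Galois number field, `q` a rational prime, `w` a prime of `𝓞 F` over `q`
(`Dict.PrimeOver`).

* `singleJ F q u : J F` : the idele with `q`-component `u` and all other components `1`;
* `primeElt w : Fˣ` : an element of valuation `1` at `w` and `0` at the other primes over `q`
  (helper5's D5), `primeIdele q w := singleJ F q (primeElt w)`;
* `(V3) comp_normJ_primeIdele_of_ne`, `valQ_normJ_primeIdele_of_ne` : the norm of `primeIdele q w`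
  has trivial components away from `q`;
* `(V2) valQ_normJ_primeIdele` : if `w` is unramified over `ℤ` (e.g. `q ∤ discr F`), the
  `q`-adic valuation of the norm is the order of the decomposition group of `w`;
* `(V4) psi_normJ_primeIdele` : for `P ≠ q`,
  `psi P i (N (primeIdele q w)) = (theta i [q]) ^ (-(card Stab(w)))`.
-/
import Fermat.Agent.CFT.Dict.Places
import Fermat.Agent.CFT.C6.IdeleNorm
import Fermat.Agent.CFT.C6.ArtinQ

set_option autoImplicit false

open scoped TensorProduct NumberField Pointwise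

noncomputable section

namespace Fermat.Agent.CFT.C6.NormVal

open Fermat.Agent.CFT.Idele Fermat.Agent.CFT.Dict Fermat.Agent.CFT.C6.IdeleNorm
  Fermat.Agent.CFT.C6.ArtinQ Fermat.Agent.CFT.C6.LocalAtP

/-! ### Ideles supported at one rational prime -/

section Single

variable (F : Type*) [Field F] [Algebra ℚ F]

/-- The idele of `F` with `q`-component `u` and all other components `1`. -/
def singleJ (q : Nat.Primes) : (Loc F q)ˣ →* J F :=
  (MonoidHom.mulSingle (fun q : Nat.Primes => (Loc F q)ˣ) q).codRestrict (J F) (by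
    intro t
    rw [mem_J]
    refine (Set.finite_singleton q).subset ?_
    intro l hl
    by_contra h
    apply hl
    have h1 : (MonoidHom.mulSingle (fun q : Nat.Primes => (Loc F q)ˣ) q) t l = 1 :=
      Pi.mulSingle_eq_of_ne h _
    change (MonoidHom.mulSingle (fun q : Nat.Primes => (Loc F q)ˣ) q) t l ∈ intUnits F l
    rw [h1]
    exact (intUnits F l).one_mem)

theorem singleJ_same (q : Nat.Primes) (u : (Loc F q)ˣ) : (singleJ F q u).1 q = u :=
  Pi.mulSingle_eq_same q _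

theorem singleJ_of_ne {q l : Nat.Primes} (h : l ≠ q) (u : (Loc F q)ˣ) :
    (singleJ F q u).1 l = 1 :=
  Pi.mulSingle_eq_of_ne h _

end Single

/-! ### The norm of an idele supported at one prime -/

section NormSingle

variable (F : Type*) [Field F] [NumberField F] [IsGalois ℚ F]

omit [IsGalois ℚ F] in
theorem galHom_rat (σ : F ≃ₐ[ℚ] F) : galHom ℚ F σ = σ := AlgEquiv.ext fun _ => rfl

/-- Away from `q`, the norm of an idele supported at `q` has trivial components. -/
theorem normJ_singleJ_of_ne {q l : Nat.Primes} (h : l ≠ q) (u : (Loc F q)ˣ) :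
    (normJ ℚ F (singleJ F q u)).1 l = 1 := by
  apply Units.ext
  apply Loc.map_injective l (inclHom ℚ F)
  rw [map_normJ_apply, singleJ_of_ne F h]
  simp

/-- At `q`, the norm of an idele supported at `q` is the product of the conjugates. -/
theorem map_normJ_singleJ_same (q : Nat.Primes) (u : (Loc F q)ˣ) :
    Loc.map q (inclHom ℚ F) (((normJ ℚ F (singleJ F q u)).1 q : (Loc ℚ q)ˣ) : Loc ℚ q) =
      ∏ σ : F ≃ₐ[ℚ] F, Loc.aut F q σ (u : Loc F q) := by
  rw [map_normJ_apply, singleJ_same]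
  refine Finset.prod_congr rfl fun σ _ => ?_
  rw [galHom_rat]

theorem comp_normJ_singleJ_of_ne {q l : Nat.Primes} (h : l ≠ q) (u : (Loc F q)ˣ) :
    comp l (normJ ℚ F (singleJ F q u)) = 1 := by
  rw [comp_apply, normJ_singleJ_of_ne F h, map_one]

theorem valQ_normJ_singleJ_of_ne {q l : Nat.Primes} (h : l ≠ q) (u : (Loc F q)ˣ) :
    valQ l (normJ ℚ F (singleJ F q u)) = 0 := by
  unfold valQ
  rw [comp_normJ_singleJ_of_ne F h, Units.val_one, Padic.valuation_one]

end NormSingle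

/-! ### Valuations of `q`-adic numbers at the primes over `q` -/

section Ord

variable {F : Type} [Field F] [NumberField F] {q : Nat.Primes}

/-- `q` as a unit of `F`. -/
def primeF (F : Type) [Field F] [NumberField F] (q : Nat.Primes) : Fˣ :=
  Units.mk0 ((q : ℕ) : F) (by exact_mod_cast q.2.ne_zero)

theorem unitsMap_inclQ_pUnit :
    Units.map (inclQ F q : ℚ_[(q : ℕ)] →* Loc F q) (pUnit (q : ℕ)) =
      Units.map (inclL F q : F →* Loc F q) (primeF F q) := by
  apply Units.ext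
  change inclQ F q ((q : ℕ) : ℚ_[(q : ℕ)]) = inclL F q ((q : ℕ) : F)
  rw [map_natCast, map_natCast]

theorem unitsMap_inclQ_unitIncl_mem (u : ℤ_[(q : ℕ)]ˣ) :
    Units.map (inclQ F q : ℚ_[(q : ℕ)] →* Loc F q) (unitIncl u) ∈ intUnits F q := by
  refine ⟨?_, ?_⟩
  · exact inclZ_mem_intRing F q (u : ℤ_[(q : ℕ)])
  · rw [← map_inv, ← map_inv]
    exact inclZ_mem_intRing F q ((u⁻¹ : ℤ_[(q : ℕ)]ˣ) : ℤ_[(q : ℕ)])

/-- The valuation at `w` of a `q`-adic number: `ord_w(c) = ord_w(q) ^ v_q(c)`. -/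
theorem ordAt_inclQ (w : PrimeOver (q : ℕ) (𝓞 F)) (c : ℚ_[(q : ℕ)]ˣ) :
    w.ordAt (Units.map (inclQ F q : ℚ_[(q : ℕ)] →* Loc F q) c) =
      w.ordAt (Units.map (inclL F q : F →* Loc F q) (primeF F q)) ^
        ((c : ℚ_[(q : ℕ)]).valuation) := by
  conv_lhs => rw [eq_pUnit_zpow_mul c]
  rw [map_mul, map_mul, map_zpow, map_zpow, unitsMap_inclQ_pUnit,
    (mem_intUnits_iff_forall_ordAt _).mp (unitsMap_inclQ_unitIncl_mem (unitPart c)) w, mul_one]

open IsDedekindDomain in
/-- At a prime `w` over `q` which is unramified over `ℤ`, `q` is a uniformiser. -/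
theorem valuation_natCast_of_isUnramifiedAt (w : PrimeOver (q : ℕ) (𝓞 F))
    [hur : Algebra.IsUnramifiedAt ℤ w.ideal] :
    w.toHeightOneSpectrum.valuation F (((q : ℕ) : F)) = WithZero.exp (-1 : ℤ) := by
  have hq0 : (((q : ℕ) : 𝓞 F)) ≠ 0 := by exact_mod_cast q.2.ne_zero
  have hqprime : Prime ((q : ℕ) : ℤ) := Nat.prime_iff_prime_int.mp q.2
  have hP : w.ideal.IsPrime := w.isMaximal.isPrime
  have hlies : w.ideal.LiesOver (Ideal.span {((q : ℕ) : ℤ)}) :=
    (Ideal.liesOver_span_iff hP.ne_top hqprime).mpr (by simpa using w.mem)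
  have hmap : (Ideal.span {((q : ℕ) : ℤ)}).map (algebraMap ℤ (𝓞 F)) =
      Ideal.span {(((q : ℕ) : 𝓞 F))} := by
    rw [Ideal.map_span, Set.image_singleton, map_natCast]
  have hmap0 : (Ideal.span {((q : ℕ) : ℤ)}).map (algebraMap ℤ (𝓞 F)) ≠ ⊥ := by
    rw [hmap, Ne, Ideal.span_singleton_eq_bot]
    exact hq0
  have h1 : w.ideal.ramificationIdx ℤ = 1 := Ideal.ramificationIdx_eq_one_iff.mpr hur
  rw [Ideal.IsDedekindDomain.ramificationIdx_eq_multiplicity (Ideal.span {((q : ℕ) : ℤ)})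
    w.ideal hmap0, hmap] at h1
  have h3 : algebraMap (𝓞 F) F (((q : ℕ) : 𝓞 F)) = (((q : ℕ) : F)) := map_natCast _ _
  rw [← h3, HeightOneSpectrum.valuation_of_algebraMap,
    HeightOneSpectrum.intValuation_eq_exp_neg_multiplicity _ hq0, WithZero.exp_inj, neg_inj]
  rw [PrimeOver.toHeightOneSpectrum_asIdeal]
  exact_mod_cast h1

theorem ordAt_primeF_of_isUnramifiedAt (w : PrimeOver (q : ℕ) (𝓞 F))
    [hur : Algebra.IsUnramifiedAt ℤ w.ideal] :
    w.ordAt (Units.map (inclL F q : F →* Loc F q) (primeF F q)) =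
      Multiplicative.ofAdd (-1 : ℤ) := by
  apply WithZero.coe_injective
  rw [w.coe_ordAt_inclL]
  exact valuation_natCast_of_isUnramifiedAt w

/-- If `q ∤ discr F`, every prime over `q` is unramified over `ℤ`. -/
theorem isUnramifiedAt_of_not_dvd_discr (hdisc : ¬ (((q : ℕ) : ℤ)) ∣ NumberField.discr F)
    (w : PrimeOver (q : ℕ) (𝓞 F)) : Algebra.IsUnramifiedAt ℤ w.ideal :=
  (NumberField.not_dvd_discr_iff_forall_mem F (𝓞 F) (Nat.prime_iff_prime_int.mp q.2)).mp hdisc
    w.ideal w.isMaximal.isPrime (by simpa using w.mem)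

end Ord

/-! ### The prime idele and the valuation of its norm -/

section PrimeIdele

variable {F : Type} [Field F] [NumberField F] {q : Nat.Primes}

/-- An element of `Fˣ` of valuation `1` at `w` and `0` at the other primes over `q`. -/
def primeElt (w : PrimeOver (q : ℕ) (𝓞 F)) : Fˣ := Classical.choose w.exists_unit_ordAt

theorem ordAt_primeElt (w w' : PrimeOver (q : ℕ) (𝓞 F)) :
    w'.ordAt (Units.map (inclL F q : F →* Loc F q) (primeElt w)) =
      if w' = w then Multiplicative.ofAdd (-1 : ℤ) else 1 :=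
  Classical.choose_spec w.exists_unit_ordAt w'

/-- The idele of `F` which is a uniformiser at `w`, a unit at the other primes over `q`, and `1`
at all rational primes `≠ q`. -/
def primeIdele (q : Nat.Primes) (w : PrimeOver (q : ℕ) (𝓞 F)) : J F :=
  singleJ F q (Units.map (inclL F q : F →* Loc F q) (primeElt w))

theorem primeIdele_same (w : PrimeOver (q : ℕ) (𝓞 F)) :
    (primeIdele q w).1 q = Units.map (inclL F q : F →* Loc F q) (primeElt w) :=
  singleJ_same F q _

theorem primeIdele_of_ne (w : PrimeOver (q : ℕ) (𝓞 F)) {l : Nat.Primes} (h : l ≠ q) :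
    (primeIdele q w).1 l = 1 :=
  singleJ_of_ne F h _

theorem ordAt_primeIdele (w w' : PrimeOver (q : ℕ) (𝓞 F)) :
    w'.ordAt ((primeIdele q w).1 q) = if w' = w then Multiplicative.ofAdd (-1 : ℤ) else 1 := by
  rw [primeIdele_same, ordAt_primeElt]

/-- Orbit counting: the valuation at `w` of the product of the conjugates of an element which is a
uniformiser at `w` and a unit at the other primes over `q`. -/
theorem ordAt_prod_autUnits (w : PrimeOver (q : ℕ) (𝓞 F)) (u : (Loc F q)ˣ)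
    (hu : ∀ w' : PrimeOver (q : ℕ) (𝓞 F),
      w'.ordAt u = if w' = w then Multiplicative.ofAdd (-1 : ℤ) else 1) :
    w.ordAt (∏ σ : F ≃ₐ[ℚ] F, autUnits σ q u) =
      Multiplicative.ofAdd (-(Nat.card (MulAction.stabilizer (F ≃ₐ[ℚ] F) w) : ℤ)) := by
  classical
  rw [map_prod]
  have h1 : ∀ σ : F ≃ₐ[ℚ] F, w.ordAt (autUnits σ q u) =
      if σ ∈ MulAction.stabilizer (F ≃ₐ[ℚ] F) w then Multiplicative.ofAdd (-1 : ℤ) else 1 := by
    intro σ
    have h2 := PrimeOver.ordAt_smul_autUnits σ (σ⁻¹ • w) u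
    rw [smul_inv_smul] at h2
    rw [h2, hu]
    have h3 : σ⁻¹ • w = w ↔ σ ∈ MulAction.stabilizer (F ≃ₐ[ℚ] F) w := by
      rw [MulAction.mem_stabilizer_iff, inv_smul_eq_iff, eq_comm]
    simp only [h3]
  simp_rw [h1]
  rw [Finset.prod_ite, Finset.prod_const_one, mul_one, Finset.prod_const, ← ofAdd_nsmul]
  congr 1
  rw [nsmul_eq_mul, mul_neg, mul_one, neg_inj, Nat.card_eq_fintype_card, Fintype.card_subtype]

variable [IsGalois ℚ F]

/-- **(V2)**, general form: `ord_w(q) ^ v_q(N x_w) = ofAdd (-(card Stab(w)))`, i.e.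
`e(w/q) * v_q(N x_w) = #Stab(w)`. -/
theorem ordAt_primeF_zpow_valQ (w : PrimeOver (q : ℕ) (𝓞 F)) :
    w.ordAt (Units.map (inclL F q : F →* Loc F q) (primeF F q)) ^
        valQ q (normJ ℚ F (primeIdele q w)) =
      Multiplicative.ofAdd (-(Nat.card (MulAction.stabilizer (F ≃ₐ[ℚ] F) w) : ℤ)) := by
  set N := normJ ℚ F (primeIdele q w) with hN
  set c : ℚ_[(q : ℕ)]ˣ := comp q N with hc
  have h1 : ((N.1 q : (Loc ℚ q)ˣ) : Loc ℚ q) = inclQ ℚ q (c : ℚ_[(q : ℕ)]) := by
    rw [← locQ_symm_apply, hc, comp_apply, locQu_val, AlgEquiv.symm_apply_apply]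
  have h2 : Units.map (inclQ F q : ℚ_[(q : ℕ)] →* Loc F q) c =
      ∏ σ : F ≃ₐ[ℚ] F, autUnits σ q ((primeIdele q w).1 q) := by
    apply Units.ext
    rw [Units.coe_prod]
    have h3 := map_normJ_singleJ_same F q (Units.map (inclL F q : F →* Loc F q) (primeElt w))
    change Loc.map q (inclHom ℚ F) ((N.1 q : (Loc ℚ q)ˣ) : Loc ℚ q) = _ at h3
    rw [h1, Loc.map_inclQ] at h3
    rw [primeIdele_same]
    simp only [autUnits_apply]
    exact h3
  have h4 := ordAt_inclQ w c
  rw [h2, ordAt_prod_autUnits w _ (ordAt_primeIdele w)] at h4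
  exact h4.symm

/-- **(V2)**: if `w` is unramified over `ℤ`, the norm of `primeIdele q w` has `q`-adic valuation
the order of the decomposition group of `w`. -/
theorem valQ_normJ_primeIdele (w : PrimeOver (q : ℕ) (𝓞 F))
    [hur : Algebra.IsUnramifiedAt ℤ w.ideal] :
    valQ q (normJ ℚ F (primeIdele q w)) =
      (Nat.card (MulAction.stabilizer (F ≃ₐ[ℚ] F) w) : ℤ) := by
  have h := ordAt_primeF_zpow_valQ w
  rw [ordAt_primeF_of_isUnramifiedAt w, ← ofAdd_zsmul] at h
  have h2 := Multiplicative.ofAdd.injective h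
  rw [smul_eq_mul, mul_neg, mul_one, neg_inj] at h2
  exact h2

theorem valQ_normJ_primeIdele_of_not_dvd_discr
    (hdisc : ¬ (((q : ℕ) : ℤ)) ∣ NumberField.discr F) (w : PrimeOver (q : ℕ) (𝓞 F)) :
    valQ q (normJ ℚ F (primeIdele q w)) =
      (Nat.card (MulAction.stabilizer (F ≃ₐ[ℚ] F) w) : ℤ) :=
  haveI := isUnramifiedAt_of_not_dvd_discr hdisc w
  valQ_normJ_primeIdele w

/-- **(V3)** -/
theorem comp_normJ_primeIdele_of_ne (w : PrimeOver (q : ℕ) (𝓞 F)) {l : Nat.Primes} (h : l ≠ q) :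
    comp l (normJ ℚ F (primeIdele q w)) = 1 :=
  comp_normJ_singleJ_of_ne F h _

theorem normJ_primeIdele_of_ne (w : PrimeOver (q : ℕ) (𝓞 F)) {l : Nat.Primes} (h : l ≠ q) :
    (normJ ℚ F (primeIdele q w)).1 l = 1 :=
  normJ_singleJ_of_ne F h _

theorem valQ_normJ_primeIdele_of_ne (w : PrimeOver (q : ℕ) (𝓞 F)) {l : Nat.Primes} (h : l ≠ q) :
    valQ l (normJ ℚ F (primeIdele q w)) = 0 :=
  valQ_normJ_singleJ_of_ne F h _

end PrimeIdele

/-! ### The reciprocity map on the norm of a prime idele -/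

section Psi

variable {F : Type} [Field F] [NumberField F] [IsGalois ℚ F] {q : Nat.Primes}

theorem content_normJ_primeIdele (w : PrimeOver (q : ℕ) (𝓞 F)) :
    content (normJ ℚ F (primeIdele q w)) = primeQ q ^ valQ q (normJ ℚ F (primeIdele q w)) := by
  rw [content_apply]
  refine finprod_eq_single _ q fun l hl => ?_
  rw [valQ_normJ_primeIdele_of_ne w hl, zpow_zero]

/-- **(V4)**, general form. -/
theorem psi_normJ_primeIdele' (P : Nat.Primes) (i : ℕ) (hPq : P ≠ q)
    (w : PrimeOver (q : ℕ) (𝓞 F)) :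
    psi P i (normJ ℚ F (primeIdele q w)) =
      (theta (p := (P : ℕ)) i (ratToPadic P (primeQ q))) ^
        (-(valQ q (normJ ℚ F (primeIdele q w)))) := by
  rw [psi_apply, comp_normJ_primeIdele_of_ne w hPq, content_normJ_primeIdele, map_zpow, one_div,
    map_inv, map_zpow, zpow_neg]

/-- **(V4)**: for `P ≠ q` and `w` unramified over `ℤ`. -/
theorem psi_normJ_primeIdele (P : Nat.Primes) (i : ℕ) (hPq : P ≠ q)
    (w : PrimeOver (q : ℕ) (𝓞 F)) [hur : Algebra.IsUnramifiedAt ℤ w.ideal] :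
    psi P i (normJ ℚ F (primeIdele q w)) =
      (theta (p := (P : ℕ)) i (ratToPadic P (primeQ q))) ^
        (-(Nat.card (MulAction.stabilizer (F ≃ₐ[ℚ] F) w) : ℤ)) := by
  rw [psi_normJ_primeIdele' P i hPq w, valQ_normJ_primeIdele w]

theorem psi_normJ_primeIdele_of_not_dvd_discr (P : Nat.Primes) (i : ℕ) (hPq : P ≠ q)
    (hdisc : ¬ (((q : ℕ) : ℤ)) ∣ NumberField.discr F) (w : PrimeOver (q : ℕ) (𝓞 F)) :
    psi P i (normJ ℚ F (primeIdele q w)) =
      (theta (p := (P : ℕ)) i (ratToPadic P (primeQ q))) ^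
        (-(Nat.card (MulAction.stabilizer (F ≃ₐ[ℚ] F) w) : ℤ)) :=
  haveI := isUnramifiedAt_of_not_dvd_discr hdisc w
  psi_normJ_primeIdele P i hPq w

end Psi

/-! ### `theta` of a rational prime `q ≠ P` -/

section Theta

/-- For `q ≠ P`, `theta i [q] = [q] ^ (P - 1)` in `(ℤ/P^(i+1))ˣ`. -/
theorem theta_ratToPadic_primeQ (P q : Nat.Primes) (i : ℕ)
    (hqn : (q : ℕ).Coprime ((P : ℕ) ^ (i + 1))) :
    theta (p := (P : ℕ)) i (ratToPadic P (primeQ q)) =
      (ZMod.unitOfCoprime (q : ℕ) hqn) ^ ((P : ℕ) - 1) := by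
  have hPq : ¬ (((P : ℕ) : ℤ)) ∣ ((q : ℕ) : ℤ) := by
    intro h
    have h1 : (P : ℕ) ∣ (q : ℕ) := by exact_mod_cast h
    have h2 : (P : ℕ) ∣ (P : ℕ) ^ (i + 1) := dvd_pow_self _ (Nat.succ_ne_zero i)
    have h3 : (P : ℕ) ∣ Nat.gcd (q : ℕ) ((P : ℕ) ^ (i + 1)) := Nat.dvd_gcd h1 h2
    rw [Nat.Coprime.gcd_eq_one hqn, Nat.dvd_one] at h3
    exact P.2.one_lt.ne' h3
  obtain ⟨u, hu⟩ := isUnit_intCast_padicInt (q := P) hPq
  have h1 : ratToPadic P (primeQ q) = unitIncl u := by
    apply Units.ext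
    rw [ratToPadic_val, primeQ_val, coe_unitIncl, hu]
    simp
  rw [h1, theta_unitIncl]
  congr 1
  apply Units.ext
  change PadicInt.toZModPow ((i + 1)) (u : ℤ_[(P : ℕ)]) = ((q : ℕ) : ZMod ((P : ℕ) ^ (i + 1)))
  rw [hu, map_intCast]
  simp

end Theta

end Fermat.Agent.CFT.C6.NormVal
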