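/-
PROJECT C, slice C6-(K) glue: from the reciprocity map on norms to decomposition groups.

Setting: `P` a prime, `p := P`, `K` a `p^(m+1)`-th cyclotomic field, `Q_m ⊆ K` the `m`-th layer of
the cyclotomic `ℤ_p`-tower, `F`, `M` number fields Galois over `ℚ` with `M = F Q_m`
(`[Algebra F M] [Algebra (Qm p m K) M]` + `hgen`).

`pow_eq_one_of_smul_eq`: if `psi_m ∘ N_{F/ℚ}` is killed by `t` on `J F`, then for every prime `q ≠ P`
with `q ∤ discr M`, every prime `W` of `𝓞 M` over `q` and every `τ ∈ Gal(M/F)` fixing `W`: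
`τ ^ t = 1`.

Proof: evaluate the hypothesis at the prime idele of `w = W ∩ 𝓞 F` (`NormVal`), so that
`[q]^((p-1) t s) = 1` in `(ℤ/p^(m+1))ˣ`, `s = #Stab(w)`; hence `artin [q] ^ (t s) = 1` on `Q_m`
(`ZpTower`), and `FrobCompPow` applies to the Frobenius `artin [q]` of `Q_m`.
-/
import Fermat.Agent.CFT.C6.NormVal
import Fermat.Agent.CFT.C6.FrobCompPow
import Fermat.Agent.CFT.C6.FrobSplit

set_option autoImplicit false

open scoped NumberField Pointwise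

namespace Fermat.Agent.CFT.C6.KGlue

open Fermat.Agent.CFT.Idele Fermat.Agent.CFT.Dict Fermat.Agent.CFT.C6.IdeleNorm
  Fermat.Agent.CFT.C6.ArtinQ Fermat.Agent.CFT.C6.LocalAtP Fermat.Agent.CFT.C6.ZpTower
  Fermat.Agent.CFT.C6.NormVal

variable (P : Nat.Primes) (m : ℕ) (K : Type) [Field K] [NumberField K]
  [IsCyclotomicExtension {(P : ℕ) ^ (m + 1)} ℚ K]
  (F M : Type) [Field F] [NumberField F] [Field M] [NumberField M]
  [Algebra F M] [Algebra (Qm (P : ℕ) m K) M] [IsGalois ℚ F] [IsGalois ℚ M]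

/-- **(K) glue.**  If `psi_m ∘ N_{F/ℚ}` is killed by `t`, then every element of a decomposition
group of `M/F` over a prime `q ≠ P`, `q ∤ discr M`, is killed by `t`. -/
theorem pow_eq_one_of_smul_eq
    (hgen : ∀ g : Gal(M/ℚ), (∀ x : F, g (algebraMap F M x) = algebraMap F M x) →
      (∀ x : Qm (P : ℕ) m K, g (algebraMap (Qm (P : ℕ) m K) M x) =
        algebraMap (Qm (P : ℕ) m K) M x) → g = 1)
    (t : ℕ) (ht : ∀ x : J F, (psi P m (normJ ℚ F x)) ^ t = 1)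
    (q : Nat.Primes) (hqP : q ≠ P) (hq : ¬ (((q : ℕ) : ℤ)) ∣ NumberField.discr M)
    (W : Ideal (𝓞 M)) [W.IsPrime] (hW : ((q : ℕ) : 𝓞 M) ∈ W)
    (τ : M ≃ₐ[F] M) (hτ : τ • W = W) : τ ^ t = 1 := by
  have : Fact (q : ℕ).Prime := ⟨q.2⟩
  -- the prime `w` of `F` below `W`
  have hW0 : W ≠ ⊥ := by
    intro h0
    rw [h0, Ideal.mem_bot] at hW
    exact q.2.ne_zero (by exact_mod_cast hW)
  have hWmax : W.IsMaximal := Ideal.IsPrime.isMaximal inferInstance hW0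
  let Wp : PrimeOver (q : ℕ) (𝓞 M) := ⟨W, hWmax, hW⟩
  let w : PrimeOver (q : ℕ) (𝓞 F) := Wp.under
  have hwideal : w.ideal = W.under (𝓞 F) := rfl
  -- `q ∤ discr F`
  have hqF : ¬ (((q : ℕ) : ℤ)) ∣ NumberField.discr F :=
    fun h => hq (h.trans (NumberField.discr_dvd_discr F M))
  -- coprimality
  have hqp : (q : ℕ) ≠ (P : ℕ) := fun h => hqP (Subtype.ext h)
  have hqn : (q : ℕ).Coprime ((P : ℕ) ^ (m + 1)) :=
    Nat.Coprime.pow_right _ ((Nat.coprime_primes q.2 P.2).2 hqp)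
  -- evaluate at the prime idele
  set s := Nat.card (MulAction.stabilizer (F ≃ₐ[ℚ] F) w) with hs
  have h1 := ht (primeIdele q w)
  rw [psi_normJ_primeIdele_of_not_dvd_discr P m hqP.symm hqF w,
    theta_ratToPadic_primeQ P q m hqn] at h1
  have h2 : ((ZMod.unitOfCoprime (q : ℕ) hqn) ^ ((P : ℕ) - 1)) ^ (t * s) = 1 := by
    rw [zpow_neg, inv_pow, inv_eq_one, zpow_natCast, ← pow_mul] at h1
    rw [mul_comm t s]
    exact h1
  have : Fact (P : ℕ).Prime := ⟨P.2⟩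
  have h3 : (artin (P : ℕ) m K (ZMod.unitOfCoprime (q : ℕ) hqn)) ^ (t * s) = 1 :=
    (artin_pow_eq_one_iff (P : ℕ) m K _ _).mpr h2
  -- apply `FrobCompPow`
  refine FrobComp.pow_eq_one_of_smul_eq_of_frob_congr M F (Qm (P : ℕ) m K) (q : ℕ) hgen hq W hW
    (artin (P : ℕ) m K (ZMod.unitOfCoprime (q : ℕ) hqn)) ?_ t ?_ τ hτ
  · intro x hx
    obtain ⟨_, y, hy, h⟩ := artin_frob (P : ℕ) m K (q : ℕ) hqp hx
    exact ⟨y, hy, h⟩
  · rw [← hwideal, ← FrobSplit.stabilizer_primeOver w]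
    exact h3

end Fermat.Agent.CFT.C6.KGlue
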