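/-
PROJECT C, slice C6-(P) support: THE ARITHMETIC DATA OF THE AUXILIARY CYCLIC LAYER, in the exact
shapes consumed by `C6/LocalisedTate.exists_isClassModule_of_isLocRep_cyclicLayer_int` through
helper9's `C6/ClassNorm` (`fixer`, `quotEquiv`, `baseInv`).

Setting (= `C6/ArtinK`): `p` odd, `F/ℚ` finite Galois, `M = F·Q_m`, `Γ = Gal(M/ℚ)`,
`H = fixer ℚ F M = Gal(M/F)`, `N = fixer ℚ Q_m M = Gal(M/Q_m)`, `X = classRep ℚ M`,
`a₀ = baseInv ℚ Q_m M (baseClass P)`.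

* `index_fixer`, `index_fixer_Qm` : `[Γ : H] = [F : ℚ]`, `[Γ : N] = p ^ m`;
* `exists_mul_index_eq` : `c * [Γ : H] = p ^ m` in `k = ℤ_(p)` for `m = v_p([F : ℚ])`;
* `exists_generator_gal_Qm`, `exists_generator_quot` : generator data of `Γ ⧸ N`;
* `eq_one_of_mem_fixer` : `H ⊓ N = 1` (the hypothesis `hHN` of `ClassNorm`);
* `dvd_of_isNorm_nsmul_baseInv` : **(hn2X)**;
* `isNorm_inclInv_baseInv` : **(hn1X)** with `s = 1` (needs `hSI`).
-/
import Fermat.Agent.CFT.C6.ArtinKMain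
import Fermat.Agent.CFT.C6.ClassNorm

set_option autoImplicit false

noncomputable section

namespace Fermat.Agent.CFT.C6.LayerData

open Fermat.Agent.CFT.Idele Fermat.Agent.CFT.C6.ArtinQ Fermat.Agent.CFT.C6.IdeleNorm
  Fermat.Agent.CFT.C6.ZpTower Fermat.Agent.CFT.C6.QmRecip Fermat.Agent.CFT.C6.ArtinK
  Fermat.Agent.CFT.C6.ClassNorm Fermat.Agent.CFT.C6.LocalisedTate
  Fermat.Agent.CFT.C5.ClassDevissage Fermat.Agent.CFT.A7.BaseChange NumberField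

/-! ### Indices -/

section Index

variable (E M : Type) [Field E] [Field M] [NumberField E] [NumberField M] [Algebra E M]
  [IsGalois ℚ M] [IsGalois ℚ E]

/-- `[Gal(M/ℚ) : Gal(M/E)] = [E : ℚ]`. -/
theorem index_fixer : (fixer ℚ E M).index = Module.finrank ℚ E := by
  rw [Subgroup.index, Nat.card_congr (quotEquiv ℚ E M).toEquiv, IsGalois.card_aut_eq_finrank]

end Index

section Localisation

variable (p : ℕ) [hp : Fact p.Prime] (k : Type) [CommRing k] [IsLocalization (primeTo p) k]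

theorem isUnit_natCast_of_not_dvd (n : ℕ) (hn : ¬ p ∣ n) : IsUnit (n : k) := by
  have := IsLocalization.map_units k (⟨(n : ℤ), natCast_mem_primeTo p n hn⟩ : primeTo p)
  rwa [map_natCast] at this

/-- For `m = v_p(n)` there is `c ∈ k = ℤ_(p)` with `c * n = p ^ m`. -/
theorem exists_mul_natCast_eq (n : ℕ) (hn : n ≠ 0) :
    ∃ c : k, c * (n : k) = (p : k) ^ (n.factorization p) := by
  have h1 : p ^ (n.factorization p) * (n / p ^ (n.factorization p)) = n :=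
    Nat.ordProj_mul_ordCompl_eq_self n p
  have h2 : ¬ p ∣ n / p ^ (n.factorization p) := Nat.not_dvd_ordCompl hp.out hn
  obtain ⟨u, hu⟩ := isUnit_natCast_of_not_dvd p k _ h2
  refine ⟨((u⁻¹ : kˣ) : k), ?_⟩
  conv_lhs => rw [← h1]
  push_cast
  rw [← hu]
  calc ((u⁻¹ : kˣ) : k) * ((p : k) ^ (n.factorization p) * (u : k))
      = (p : k) ^ (n.factorization p) * (((u⁻¹ : kˣ) : k) * (u : k)) := by ring
    _ = (p : k) ^ (n.factorization p) := by rw [Units.inv_mul, mul_one]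

end Localisation

/-! ### The layer -/

variable {P : Nat.Primes} {m : ℕ} {K : Type} [Field K] [NumberField K]
  [IsCyclotomicExtension {(P : ℕ) ^ (m + 1)} ℚ K]
  {F M : Type} [Field F] [NumberField F] [Field M] [NumberField M] [IsGalois ℚ F] [IsGalois ℚ M]
  [Algebra F M] [Algebra (Qm (P : ℕ) m K) M] [IsGalois F M] [IsGalois (Qm (P : ℕ) m K) M]

omit [IsGalois ℚ F] [IsGalois F M] [Algebra F M] [Field F] [NumberField F]
  [IsGalois (Qm (P : ℕ) m K) M] in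
/-- `[Γ : N] = p ^ m`. -/
theorem index_fixer_Qm (hp2 : (P : ℕ) ≠ 2) :
    (fixer ℚ (Qm (P : ℕ) m K) M).index = (P : ℕ) ^ m := by
  rw [index_fixer, finrank_Qm (P : ℕ) m K hp2]

omit [IsGalois F M] [IsGalois (Qm (P : ℕ) m K) M] [IsGalois ℚ M] [Algebra (Qm (P : ℕ) m K) M]
  [IsCyclotomicExtension {(P : ℕ) ^ (m + 1)} ℚ K] [NumberField K] [Field K] in
/-- The constant `c` of Tate's argument: `c * [Γ : H] = p ^ v_p([F : ℚ])` in `k = ℤ_(p)`. -/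
theorem exists_mul_index_eq [IsGalois ℚ M] (k : Type) [CommRing k]
    [IsLocalization (primeTo (P : ℕ)) k] :
    haveI : Fact (P : ℕ).Prime := ⟨P.2⟩
    ∃ c : k, c * ((fixer ℚ F M).index : k) =
      ((P : ℕ) : k) ^ ((Module.finrank ℚ F).factorization (P : ℕ)) := by
  haveI : Fact (P : ℕ).Prime := ⟨P.2⟩
  rw [index_fixer]
  exact exists_mul_natCast_eq (P : ℕ) k _ Module.finrank_pos.ne'

omit [IsGalois ℚ F] [IsGalois F M] [Algebra F M] [Field F] [NumberField F]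
  [IsGalois (Qm (P : ℕ) m K) M] [Algebra (Qm (P : ℕ) m K) M] [IsGalois ℚ M] [NumberField M]
  [Field M] in
/-- A generator of `Gal(Q_m/ℚ)`. -/
theorem exists_generator_gal_Qm (hp2 : (P : ℕ) ≠ 2) :
    ∃ σ₀ : (Qm (P : ℕ) m K) ≃ₐ[ℚ] (Qm (P : ℕ) m K), orderOf σ₀ = (P : ℕ) ^ m ∧
      ∀ g : (Qm (P : ℕ) m K) ≃ₐ[ℚ] (Qm (P : ℕ) m K), ∃ i : ℕ, σ₀ ^ i = g := by
  obtain ⟨g, hg⟩ := (isCyclic_gal_Qm (P : ℕ) m K hp2).exists_generator
  refine ⟨g, ?_, fun τ => ?_⟩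
  · rw [orderOf_eq_card_of_forall_mem_zpowers hg, card_gal_Qm (P : ℕ) m K hp2]
  · have h := (mem_powers_iff_mem_zpowers (x := g) (y := τ)).2 (hg τ)
    exact (Submonoid.mem_powers_iff _ _).1 h

omit [IsGalois ℚ F] [IsGalois F M] [Algebra F M] [Field F] [NumberField F]
  [IsGalois (Qm (P : ℕ) m K) M] in
/-- Generator data of `Γ ⧸ N ≅ Gal(Q_m/ℚ)`. -/
theorem exists_generator_quot (hp2 : (P : ℕ) ≠ 2) :
    ∃ σ : (M ≃ₐ[ℚ] M) ⧸ fixer ℚ (Qm (P : ℕ) m K) M, orderOf σ = (P : ℕ) ^ m ∧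
      ∀ g : (M ≃ₐ[ℚ] M) ⧸ fixer ℚ (Qm (P : ℕ) m K) M, ∃ i : ℕ, σ ^ i = g := by
  obtain ⟨σ₀, h1, h2⟩ := exists_generator_gal_Qm (P := P) (m := m) (K := K) hp2
  refine ⟨(quotEquiv ℚ (Qm (P : ℕ) m K) M).symm σ₀, ?_, fun g => ?_⟩
  · rw [MulEquiv.orderOf_eq, h1]
  · obtain ⟨i, hi⟩ := h2 (quotEquiv ℚ (Qm (P : ℕ) m K) M g)
    refine ⟨i, ?_⟩
    rw [← map_pow, hi, MulEquiv.symm_apply_apply]

omit [IsGalois F M] [IsGalois (Qm (P : ℕ) m K) M] in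
/-- `H ⊓ N = 1`. -/
theorem eq_one_of_mem_fixer (hgen : IsCompositum P m K F M) (g : M ≃ₐ[ℚ] M)
    (h1 : g ∈ fixer ℚ F M) (h2 : g ∈ fixer ℚ (Qm (P : ℕ) m K) M) : g = 1 :=
  hgen g ((mem_fixer_iff ℚ F M g).1 h1) ((mem_fixer_iff ℚ (Qm (P : ℕ) m K) M g).1 h2)

omit [IsGalois ℚ F] [IsGalois F M] [Algebra F M] [Field F] [NumberField F]
  [IsGalois (Qm (P : ℕ) m K) M] in
/-- **(hn2X)**: if `r • a₀` is a norm of `(C_M)^N` for `Γ ⧸ N` then `p ^ m ∣ r`. -/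
theorem dvd_of_isNorm_nsmul_baseInv (hp2 : (P : ℕ) ≠ 2)
    [Fintype ((M ≃ₐ[ℚ] M) ⧸ fixer ℚ (Qm (P : ℕ) m K) M)] (r : ℕ)
    (h : IsNorm ((classRep ℚ M).quotientToInvariants (fixer ℚ (Qm (P : ℕ) m K) M))
      (r • baseInv ℚ (Qm (P : ℕ) m K) M (baseClass P))) : (P : ℕ) ^ m ∣ r := by
  rw [isNorm_nsmul_baseInv_iff] at h
  have h1 := pow_dvd_of_pow_mem_range_normC P hp2 m K (r : ℤ) (by rwa [zpow_natCast])
  exact_mod_cast h1

/-- **(hn1X)**, `s = 1`: if `p ^ m ∣ [F : ℚ]` then `a₀` is a norm of `(C_M)^(H ∩ N)` for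
`H ⧸ H ∩ N` (given the second inequality in degree `p`). -/
theorem isNorm_inclInv_baseInv (hp2 : (P : ℕ) ≠ 2) (hgen : IsCompositum P m K F M)
    (hSI : C5.PrimeDegree.SecondInequality (P : ℕ))
    (hm : (P : ℕ) ^ m ∣ Module.finrank ℚ F)
    [Fintype (↥(fixer ℚ F M) ⧸ (fixer ℚ (Qm (P : ℕ) m K) M).subgroupOf (fixer ℚ F M))] :
    IsNorm ((Rep.res (fixer ℚ F M).subtype (classRep ℚ M)).quotientToInvariants
        ((fixer ℚ (Qm (P : ℕ) m K) M).subgroupOf (fixer ℚ F M)))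
      (1 • CyclicLayer.inclInv (classRep ℚ M) (fixer ℚ (Qm (P : ℕ) m K) M) (fixer ℚ F M)
        (baseInv ℚ (Qm (P : ℕ) m K) M (baseClass P))) := by
  apply isNorm_nsmul_inclInv_baseInv ℚ F (Qm (P : ℕ) m K) M
    (fun g h1 h2 => eq_one_of_mem_fixer hgen g h1 h2)
  rw [pow_one]
  exact ArtinKMain.map_mem_range_normC hp2 hgen hSI (baseClass P) hm

end Fermat.Agent.CFT.C6.LayerData
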