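/-
PROJECT C, slice (G-c) (helper13): THE ARITHMETIC INPUT of the local-global compatibility
`H²_LC(G, J_q) ↪ H²_LC(G, C)` (hypothesis (i) `LocalGlobal.supp` of `D/Pairing`, via `D/Supp` and
`D/CyclicClass`).  Tensor model of the ideles (`Fermat.Agent.CFT.Idele`), `p = P` odd.

* `card_stabilizer_eq_orderOf` : for a Galois number field `F`, a prime `W | q` with `q ∤ discr F`
  and `σ ∈ Gal(F/ℚ)` satisfying the Frobenius congruence mod `q`: `|D_W| = orderOf σ`;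
* `primeUnit v = 1 + (q - 1) e_v` (`e_v` = helper12's `SplitIdem.primeIdem`), and
  `prod_aut_primeUnit : ∏_{σ ∈ Gal(L/ℚ)} σ (primeUnit v) = q ^ |D_v|`;
* `psi_single_of_ne`, `theta_primeQ` : `psi_m` of an idele supported at `q ≠ p`;
* **`exists_layer`** : for EVERY prime `q` there are `m ≥ 1`, `t₀ ∈ ℚ_q^×` and a unit `x` of
  `Q_m ⊗ ℚ_q` (`Q_m` = helper7's `ZpTower.Qm`) with `∏_σ σ x = t₀ ^ p` and
  `orderOf (psi_m (single q t₀)) = p`   (`q = p`: `m = 1`, `t₀` a unit, `x = t₀`;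
  `q ≠ p`: `m` with `q^(p-1) ≢ 1 mod p^(m+1)`, `t₀ = q^(p^b)`, `x = primeUnit v`);
* `psi_pow_ne_one`, `psi_eq_one_of_unit`, `map_single_component` : what the consumer needs to turn
  this into `hr`/`hne` of `D.CyclicClass.exists_class` after `⊗ ℤ_(p)` (with helper7's
  `QmNorm.psiC_normC_Qm`: norms from `C(Q_m)` are killed by `psiC`).
-/
import Fermat.Agent.CFT.C6.FrobComp
import Fermat.Agent.CFT.C6.SplitIdem
import Fermat.Agent.CFT.C6.QmNorm

set_option autoImplicit false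

open scoped NumberField Pointwise TensorProduct
open NumberField Fermat.Agent.CFT.Idele Fermat.Agent.CFT.Dict Fermat.Agent.CFT.C6.SplitIdem
  Fermat.Agent.CFT.C6.ArtinQ Fermat.Agent.CFT.C6.LocalAtP Fermat.Agent.CFT.C6.ZpTower
  Fermat.Agent.CFT.C6.FrobComp

noncomputable section

namespace Fermat.Agent.CFT.C6.LocalGlobalArith

section Stab

variable (F : Type*) [Field F] [NumberField F] [IsGalois ℚ F]

/-- For an unramified prime `W` over `q` and an element `σ` of the Galois group satisfying the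
Frobenius congruence modulo `q`, the decomposition group of `W` has order `orderOf σ`. -/
theorem card_stabilizer_eq_orderOf (q : ℕ) [hq : Fact q.Prime]
    (hdisc : ¬ (q : ℤ) ∣ NumberField.discr F)
    (W : Ideal (𝓞 F)) [W.IsPrime] (hW : (q : 𝓞 F) ∈ W) (σ : Gal(F/ℚ))
    (hσ : ∀ x : F, IsIntegral ℤ x → ∃ y : F, IsIntegral ℤ y ∧ σ x - x ^ q = q * y) :
    Nat.card (MulAction.stabilizer Gal(F/ℚ) W) = orderOf σ := by
  classical
  have hqZ : Prime (q : ℤ) := Nat.prime_iff_prime_int.mp hq.out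
  have hur : Algebra.IsUnramifiedAt ℤ W :=
    (NumberField.not_dvd_discr_iff_forall_mem F (𝓞 F) hqZ).mp hdisc W inferInstance
      (by simpa using hW)
  set p : Ideal ℤ := Ideal.span {(q : ℤ)} with hp
  have hpprime : p.IsPrime := (Ideal.span_singleton_prime hqZ.ne_zero).mpr hqZ
  have hWp : W.LiesOver p := liesOver_of_mem F q W hW
  have hunder : W.under ℤ = p := hWp.over.symm
  have hNq : Nat.card (ℤ ⧸ W.under ℤ) = q := by rw [hunder, card_int_quotient]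
  have hW0 : W ≠ ⊥ := by
    intro h0
    rw [h0, Ideal.mem_bot] at hW
    exact hq.out.ne_zero (by exact_mod_cast hW)
  have hfin : Finite (𝓞 F ⧸ W) := Ideal.finiteQuotientOfFreeOfNeBot W hW0
  -- `σ` is a Frobenius element at `W`
  have hfrob : IsArithFrobAt ℤ σ W := by
    intro x
    rw [hNq]
    have hle : Ideal.span {(q : 𝓞 F)} ≤ W := by
      rw [Ideal.span_singleton_le_iff_mem]
      exact hW
    exact hle (sub_pow_mem_span_of_frob_congr F q σ hσ x)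
  set t := orderOf σ with ht
  have ht0 : t ≠ 0 := (orderOf_pos σ).ne'
  have hσt : σ ^ t = 1 := pow_orderOf_eq_one σ
  have hcard := card_quotient_le_of_pow_eq_one hfrob ht0 hσt (by rw [hNq]; exact hq.out.two_le)
  rw [hNq] at hcard
  have hp0 : p ≠ ⊥ := by
    rw [hp, Ne, Ideal.span_singleton_eq_bot]
    exact hqZ.ne_zero
  have hpmax : p.IsMaximal := hpprime.isMaximal hp0
  have hWmax : W.IsMaximal := Ideal.IsPrime.isMaximal inferInstance hW0
  have hf := Ideal.cardQuot_pow_inertiaDeg p W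
  rw [Submodule.cardQuot_apply, Submodule.cardQuot_apply, card_int_quotient] at hf
  rw [← hf] at hcard
  have hft : W.inertiaDeg ℤ ≤ t := (Nat.pow_le_pow_iff_right hq.out.one_lt).mp hcard
  have h1 := Ideal.card_stabilizer_eq (G := Gal(F/ℚ)) p W
  rw [ramificationIdxIn_eq_one F W p, one_mul, Ideal.inertiaDegIn_eq_inertiaDeg p W Gal(F/ℚ)] at h1
  -- `σ` lies in the stabiliser, so its order divides the order of the stabiliser
  have hmem : σ ∈ MulAction.stabilizer Gal(F/ℚ) W := hfrob.mem_stabilizer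
  have hdvd : t ∣ Nat.card (MulAction.stabilizer Gal(F/ℚ) W) := by
    have h2 : orderOf (⟨σ, hmem⟩ : MulAction.stabilizer Gal(F/ℚ) W) = t := by
      rw [ht, ← Subgroup.orderOf_coe]
    rw [← h2]
    exact orderOf_dvd_natCard _
  have hpos : 0 < Nat.card (MulAction.stabilizer Gal(F/ℚ) W) := Nat.card_pos
  have hle : Nat.card (MulAction.stabilizer Gal(F/ℚ) W) ≤ t := h1 ▸ hft
  exact le_antisymm hle (Nat.le_of_dvd hpos hdvd)

end Stab

section PrimeUnit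

variable {L : Type} [Field L] [NumberField L] {q : Nat.Primes}

/-- The unit `1 + (q - 1) e_v` of `L ⊗ ℚ_q`: its `v`-component is `q`, the others are `1`. -/
def primeUnit (v : PrimeOver (q : ℕ) (𝓞 L)) : (Loc L q)ˣ :=
  Classical.choose (exists_unit_primeIdem v)

theorem coe_primeUnit (v : PrimeOver (q : ℕ) (𝓞 L)) :
    ((primeUnit v : (Loc L q)ˣ) : Loc L q) = 1 + (((q : ℕ) : Loc L q) - 1) * primeIdem v :=
  Classical.choose_spec (exists_unit_primeIdem v)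

theorem aut_primeUnit (σ : L ≃ₐ[ℚ] L) (v : PrimeOver (q : ℕ) (𝓞 L)) :
    Loc.aut L q σ (primeUnit v : Loc L q) = (primeUnit (σ • v) : Loc L q) := by
  rw [coe_primeUnit, coe_primeUnit, map_add, map_one, map_mul, map_sub, map_one, map_natCast,
    aut_primeIdem]

theorem locToKv_primeUnit (w v : PrimeOver (q : ℕ) (𝓞 L)) :
    w.locToKv (primeUnit v : Loc L q) = if w = v then ((q : ℕ) : w.Kv) else 1 := by
  rw [coe_primeUnit, map_add, map_one, map_mul, map_sub, map_one, map_natCast, locToKv_primeIdem]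
  split_ifs <;> ring

variable [IsGalois ℚ L]

/-- Transitivity of the Galois group on the primes over `q`. -/
theorem exists_smul_eq (v w : PrimeOver (q : ℕ) (𝓞 L)) : ∃ σ : L ≃ₐ[ℚ] L, σ • v = w := by
  have hqZ : Prime ((q : ℕ) : ℤ) := Nat.prime_iff_prime_int.mp q.2
  have : Fact (q : ℕ).Prime := ⟨q.2⟩
  have hv : v.ideal.LiesOver (Ideal.span {((q : ℕ) : ℤ)}) :=
    Fermat.Agent.CFT.C6.FrobComp.liesOver_of_mem L (q : ℕ) v.ideal v.mem
  have hw : w.ideal.LiesOver (Ideal.span {((q : ℕ) : ℤ)}) :=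
    Fermat.Agent.CFT.C6.FrobComp.liesOver_of_mem L (q : ℕ) w.ideal w.mem
  obtain ⟨σ, hσ⟩ := Ideal.exists_smul_eq_of_isGaloisGroup (Ideal.span {((q : ℕ) : ℤ)})
    v.ideal w.ideal (L ≃ₐ[ℚ] L)
  exact ⟨σ, PrimeOver.ext_ideal hσ⟩

/-- The number of `σ` with `σ • v = w` is the order of the decomposition group of `v`. -/
theorem card_filter_smul_eq (v w : PrimeOver (q : ℕ) (𝓞 L)) :
    (Finset.univ.filter fun σ : L ≃ₐ[ℚ] L => w = σ • v).card =
      Nat.card (MulAction.stabilizer (L ≃ₐ[ℚ] L) v) := by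
  classical
  obtain ⟨τ, hτ⟩ := exists_smul_eq v w
  rw [Nat.card_eq_fintype_card, ← Fintype.card_subtype]
  refine Fintype.card_congr
    { toFun := fun σ => ⟨τ⁻¹ * σ.1, ?_⟩
      invFun := fun s => ⟨τ * s.1, ?_⟩
      left_inv := fun σ => by simp
      right_inv := fun s => by simp }
  · rw [MulAction.mem_stabilizer_iff, mul_smul, ← σ.2, ← hτ, inv_smul_smul]
  · rw [mul_smul, s.2, hτ]

/-- **The norm of `1 + (q - 1) e_v`** is `q ^ |D_v|`. -/
theorem prod_aut_primeUnit (v : PrimeOver (q : ℕ) (𝓞 L)) :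
    ∏ σ : L ≃ₐ[ℚ] L, Loc.aut L q σ (primeUnit v : Loc L q) =
      ((q : ℕ) : Loc L q) ^ Nat.card (MulAction.stabilizer (L ≃ₐ[ℚ] L) v) := by
  classical
  apply eq_of_forall_locToKv
  intro w
  rw [map_prod, map_pow, map_natCast]
  simp_rw [aut_primeUnit, locToKv_primeUnit]
  rw [Finset.prod_ite, Finset.prod_const_one, mul_one, Finset.prod_const, card_filter_smul_eq]

end PrimeUnit

section Psi

variable (P : Nat.Primes) (m : ℕ)

/-- The content of an idele supported at `q`. -/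
theorem content_single (q : Nat.Primes) (t : ℚ_[(q : ℕ)]ˣ) :
    content (single q t) = primeQ q ^ (t : ℚ_[(q : ℕ)]).valuation := by
  rw [content_apply, finprod_eq_single _ q]
  · rw [valQ_single_same]
  · intro l hl
    rw [valQ_single_of_ne hl, zpow_zero]

/-- `psi` of an idele supported at a prime `q ≠ p`. -/
theorem psi_single_of_ne {q : Nat.Primes} (hq : q ≠ P) (t : ℚ_[(q : ℕ)]ˣ) :
    psi P m (single q t) =
      (theta (p := (P : ℕ)) m (ratToPadic P (primeQ q)))⁻¹ ^ (t : ℚ_[(q : ℕ)]).valuation := by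
  rw [psi_apply, comp_single_of_ne (Ne.symm hq), content_single, map_zpow, one_div, map_inv,
    map_zpow, inv_zpow]

theorem valuation_pUnit_pow (q : ℕ) [hq : Fact q.Prime] (j : ℕ) :
    (((pUnit q ^ j : ℚ_[q]ˣ) : ℚ_[q])).valuation = j := by
  rw [Units.val_pow_eq_pow_val, coe_pUnit, Padic.valuation_pow, Padic.valuation_p, mul_one]

/-- the `p`-adic unit `q` reduces to `q mod p^(m+1)` -/
theorem theta_primeQ {q : Nat.Primes} (hq : q ≠ P) (hqn : (q : ℕ).Coprime ((P : ℕ) ^ (m + 1))) :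
    theta (p := (P : ℕ)) m (ratToPadic P (primeQ q)) =
      ZMod.unitOfCoprime (q : ℕ) hqn ^ ((P : ℕ) - 1) := by
  rw [theta_apply]
  congr 1
  apply Units.ext
  have hval : ((ratToPadic P (primeQ q) : ℚ_[(P : ℕ)]ˣ) : ℚ_[(P : ℕ)]).valuation = 0 := by
    rw [ratToPadic_val, primeQ_val]
    have : (((q : ℕ) : ℚ) : ℚ_[(P : ℕ)]) = ((q : ℕ) : ℚ_[(P : ℕ)]) := by norm_cast
    rw [this, Padic.valuation_natCast]
    have hne : (P : ℕ) ≠ (q : ℕ) := fun h => hq (Subtype.ext h.symm)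
    rw [padicValNat_primes (p := (P : ℕ)) (q := (q : ℕ)) hne]
    rfl
  have h1 : (((unitPart (ratToPadic P (primeQ q)) : ℤ_[(P : ℕ)]ˣ) : ℤ_[(P : ℕ)]) : ℚ_[(P : ℕ)]) =
      (((q : ℕ) : ℤ_[(P : ℕ)]) : ℚ_[(P : ℕ)]) := by
    rw [coe_unitPart, hval, neg_zero, zpow_zero, mul_one, ratToPadic_val, primeQ_val]
    norm_cast
  have h2 : ((unitPart (ratToPadic P (primeQ q)) : ℤ_[(P : ℕ)]ˣ) : ℤ_[(P : ℕ)]) =
      ((q : ℕ) : ℤ_[(P : ℕ)]) := Subtype.ext h1
  change (PadicInt.toZModPow (m + 1)) ((unitPart (ratToPadic P (primeQ q)) : ℤ_[(P : ℕ)]ˣ) :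
    ℤ_[(P : ℕ)]) = _
  rw [h2, map_natCast, ZMod.coe_unitOfCoprime]

end Psi

section Layer

variable (P : Nat.Primes)

/-- the stabiliser of a prime `v` over `q` (Dict action) and of its ideal (Mathlib pointwise
action) have the same order -/
theorem card_stabilizer_primeOver {L : Type} [Field L] [NumberField L] {q : Nat.Primes}
    (v : PrimeOver (q : ℕ) (𝓞 L)) :
    Nat.card (MulAction.stabilizer (L ≃ₐ[ℚ] L) v) =
      Nat.card (MulAction.stabilizer (L ≃ₐ[ℚ] L) v.ideal) := by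
  apply Nat.card_congr
  refine Equiv.subtypeEquivRight fun σ => ?_
  rw [MulAction.mem_stabilizer_iff, MulAction.mem_stabilizer_iff]
  constructor
  · intro h
    rw [← PrimeOver.smul_ideal, h]
  · intro h
    exact PrimeOver.ext_ideal h

/-- for `m` large, `q ^ (p - 1) ≠ 1` in `ZMod (p ^ (m + 1))` -/
theorem exists_unitOfCoprime_pow_ne_one (q : Nat.Primes) :
    ∃ m : ℕ, 0 < m ∧ ∀ hqn : (q : ℕ).Coprime ((P : ℕ) ^ (m + 1)),
      ZMod.unitOfCoprime (q : ℕ) hqn ^ ((P : ℕ) - 1) ≠ 1 := by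
  have hP2 : 2 ≤ (P : ℕ) := P.2.two_le
  have hq2 : 2 ≤ (q : ℕ) := q.2.two_le
  set A := (q : ℕ) ^ ((P : ℕ) - 1) with hA
  have hA1 : 1 < A := Nat.one_lt_pow (by omega) (by omega)
  refine ⟨A, by omega, fun hqn h => ?_⟩
  have hlt : A < (P : ℕ) ^ (A + 1) := by
    calc A < (P : ℕ) ^ A := Nat.lt_pow_self (by omega)
      _ ≤ (P : ℕ) ^ (A + 1) := Nat.pow_le_pow_right (by omega) (by omega)
  have h1 := congrArg (fun u : (ZMod ((P : ℕ) ^ (A + 1)))ˣ => (u : ZMod ((P : ℕ) ^ (A + 1)))) h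
  simp only [Units.val_pow_eq_pow_val, ZMod.coe_unitOfCoprime, Units.val_one] at h1
  have h2 : ((A : ℕ) : ZMod ((P : ℕ) ^ (A + 1))) = ((1 : ℕ) : ZMod ((P : ℕ) ^ (A + 1))) := by
    rw [hA]
    push_cast
    exact h1
  rw [ZMod.natCast_eq_natCast_iff', Nat.mod_eq_of_lt hlt, Nat.mod_eq_of_lt (by omega)] at h2
  omega

theorem exists_layer_of_ne (hp2 : (P : ℕ) ≠ 2) {q : Nat.Primes} (hq : q ≠ P) :
    ∃ m : ℕ, 0 < m ∧ ∀ (K : Type) [Field K] [NumberField K]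
      [IsCyclotomicExtension {(P : ℕ) ^ (m + 1)} ℚ K],
      ∃ (t₀ : ℚ_[(q : ℕ)]ˣ) (x : (Loc (Qm (P : ℕ) m K) q)ˣ),
        (∏ σ : Gal((Qm (P : ℕ) m K)/ℚ), Loc.aut (Qm (P : ℕ) m K) q σ (x : Loc (Qm (P : ℕ) m K) q)) =
          inclQ (Qm (P : ℕ) m K) q ((t₀ : ℚ_[(q : ℕ)]) ^ (P : ℕ)) ∧
        orderOf (psi P m (single q t₀)) = (P : ℕ) := by
  classical
  obtain ⟨m, hm, hne⟩ := exists_unitOfCoprime_pow_ne_one P q
  refine ⟨m, hm, ?_⟩
  intro K _ _ _
  have hqP : (q : ℕ) ≠ (P : ℕ) := fun h => hq (Subtype.ext h)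
  have hqn : (q : ℕ).Coprime ((P : ℕ) ^ (m + 1)) :=
    Nat.Coprime.pow_right _ ((Nat.coprime_primes q.2 P.2).2 hqP)
  set u := ZMod.unitOfCoprime (q : ℕ) hqn with hu
  set σ := artin (P : ℕ) m K u with hσ
  -- the order of `σ`
  have hord1 : orderOf σ = orderOf (u ^ ((P : ℕ) - 1)) := by
    rw [orderOf_eq_orderOf_iff]
    intro n
    exact artin_pow_eq_one_iff (P : ℕ) m K u n
  have hdvd : orderOf σ ∣ (P : ℕ) ^ m := by
    rw [← card_gal_Qm (P : ℕ) m K hp2]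
    exact orderOf_dvd_natCard σ
  have hne1 : orderOf σ ≠ 1 := by
    rw [hord1, Ne, orderOf_eq_one_iff]
    exact hne hqn
  obtain ⟨i, -, hi⟩ := (Nat.dvd_prime_pow P.2).1 hdvd
  obtain ⟨b, rfl⟩ : ∃ b, i = b + 1 := by
    cases i with
    | zero => exact absurd (by rw [hi, pow_zero]) hne1
    | succ b => exact ⟨b, rfl⟩
  -- the prime and the unit
  let v : PrimeOver (q : ℕ) (𝓞 (Qm (P : ℕ) m K)) := Classical.arbitrary _
  have : Fact (q : ℕ).Prime := ⟨q.2⟩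
  have hstab : Nat.card (MulAction.stabilizer (Qm (P : ℕ) m K ≃ₐ[ℚ] Qm (P : ℕ) m K) v) =
      (P : ℕ) ^ (b + 1) := by
    rw [card_stabilizer_primeOver, ← hi]
    refine card_stabilizer_eq_orderOf (Qm (P : ℕ) m K) (q : ℕ)
      (ZpTower.not_dvd_discr (P : ℕ) m K (q : ℕ) hqP) v.ideal v.mem σ ?_
    intro x hx
    obtain ⟨_, y, hy, hxy⟩ := artin_frob (P : ℕ) m K (q : ℕ) hqP hx
    exact ⟨y, hy, hxy⟩
  refine ⟨pUnit (q : ℕ) ^ ((P : ℕ) ^ b), primeUnit v, ?_, ?_⟩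
  · rw [prod_aut_primeUnit, hstab, Units.val_pow_eq_pow_val, coe_pUnit, ← pow_mul, ← pow_succ,
      map_pow, map_natCast]
  · rw [psi_single_of_ne P m hq, valuation_pUnit_pow, zpow_natCast, theta_primeQ P m hq hqn]
    have h1 : orderOf ((u ^ ((P : ℕ) - 1))⁻¹) = (P : ℕ) ^ (b + 1) := by
      rw [orderOf_inv, ← hord1, hi]
    rw [orderOf_pow' _ (pow_ne_zero b P.2.ne_zero), h1,
      Nat.gcd_eq_right (pow_dvd_pow (P : ℕ) (Nat.le_succ b)), pow_succ,
      Nat.mul_div_cancel_left _ (pow_pos P.2.pos b)]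

end Layer

section Self

variable (P : Nat.Primes)

theorem exists_theta_ne_one (hp2 : (P : ℕ) ≠ 2) :
    ∃ y : ℚ_[(P : ℕ)]ˣ, theta (p := (P : ℕ)) 1 y ≠ 1 := by
  by_contra h
  have h : ∀ y : ℚ_[(P : ℕ)]ˣ, theta (p := (P : ℕ)) 1 y = 1 := by
    intro y
    by_contra hy
    exact h ⟨y, hy⟩
  have hbot : (theta (p := (P : ℕ)) 1).range = ⊥ := by
    rw [eq_bot_iff]
    rintro _ ⟨y, rfl⟩
    rw [Subgroup.mem_bot]
    exact h y
  have hcard := card_range_theta (p := (P : ℕ)) hp2 1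
  rw [hbot, Subgroup.card_bot, pow_one] at hcard
  exact P.2.one_lt.ne hcard

theorem exists_layer_self (hp2 : (P : ℕ) ≠ 2) (K : Type) [Field K] [NumberField K]
    [IsCyclotomicExtension {(P : ℕ) ^ (1 + 1)} ℚ K] :
    ∃ (t₀ : ℚ_[(P : ℕ)]ˣ) (x : (Loc (Qm (P : ℕ) 1 K) P)ˣ),
      (∏ σ : Gal((Qm (P : ℕ) 1 K)/ℚ), Loc.aut (Qm (P : ℕ) 1 K) P σ (x : Loc (Qm (P : ℕ) 1 K) P)) =
        inclQ (Qm (P : ℕ) 1 K) P ((t₀ : ℚ_[(P : ℕ)]) ^ (P : ℕ)) ∧
      orderOf (psi P 1 (single P t₀)) = (P : ℕ) := by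
  classical
  obtain ⟨y, hy⟩ := exists_theta_ne_one P hp2
  set u := unitPart y with hu
  have hpsi : psi P 1 (single P (unitIncl u)) = theta (p := (P : ℕ)) 1 y := by
    rw [psi_single_unitIncl, theta_apply]
  refine ⟨unitIncl u,
    Units.map ((inclQ (Qm (P : ℕ) 1 K) P : ℚ_[(P : ℕ)] →+* Loc (Qm (P : ℕ) 1 K) P) :
      ℚ_[(P : ℕ)] →* Loc (Qm (P : ℕ) 1 K) P) (unitIncl u), ?_, ?_⟩
  · have h1 : ∀ σ : Gal((Qm (P : ℕ) 1 K)/ℚ),
        Loc.aut (Qm (P : ℕ) 1 K) P σ ((Units.map ((inclQ (Qm (P : ℕ) 1 K) P :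
          ℚ_[(P : ℕ)] →+* Loc (Qm (P : ℕ) 1 K) P) : ℚ_[(P : ℕ)] →* Loc (Qm (P : ℕ) 1 K) P)
          (unitIncl u) : (Loc (Qm (P : ℕ) 1 K) P)ˣ) : Loc (Qm (P : ℕ) 1 K) P) =
        inclQ (Qm (P : ℕ) 1 K) P ((unitIncl u : ℚ_[(P : ℕ)]ˣ) : ℚ_[(P : ℕ)]) := by
      intro σ
      exact Loc.aut_inclQ P σ _
    simp_rw [h1]
    rw [Finset.prod_const, Finset.card_univ, ← Nat.card_eq_fintype_card,
      card_gal_Qm (P : ℕ) 1 K hp2, pow_one, map_pow]
  · rw [hpsi]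
    have hmem : theta (p := (P : ℕ)) 1 y ∈ (theta (p := (P : ℕ)) 1).range := ⟨y, rfl⟩
    have h2 : orderOf (⟨_, hmem⟩ : (theta (p := (P : ℕ)) 1).range) ∣ (P : ℕ) := by
      have := orderOf_dvd_natCard (⟨_, hmem⟩ : (theta (p := (P : ℕ)) 1).range)
      rwa [card_range_theta (p := (P : ℕ)) hp2 1, pow_one] at this
    rw [Subgroup.orderOf_mk] at h2
    rcases (Nat.dvd_prime P.2).1 h2 with h3 | h3
    · exact absurd (orderOf_eq_one_iff.1 h3) hy
    · exact h3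

end Self

/-- **The arithmetic input of the local-global compatibility (G-c)**: for every prime `q` there is
a layer `Q_m` (`m ≥ 1`) of the cyclotomic `ℤ_p`-tower, an element `t₀ ∈ ℚ_q^×` and a unit `x` of
`Q_m ⊗ ℚ_q` with `N(x) = t₀ ^ p`, such that the idele `(t₀ at q)` of `ℚ` has `psi_m`-image of
order exactly `p`. -/
theorem exists_layer (P : Nat.Primes) (hp2 : (P : ℕ) ≠ 2) (q : Nat.Primes) :
    ∃ m : ℕ, 0 < m ∧ ∀ (K : Type) [Field K] [NumberField K]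
      [IsCyclotomicExtension {(P : ℕ) ^ (m + 1)} ℚ K],
      ∃ (t₀ : ℚ_[(q : ℕ)]ˣ) (x : (Loc (Qm (P : ℕ) m K) q)ˣ),
        (∏ σ : Gal((Qm (P : ℕ) m K)/ℚ), Loc.aut (Qm (P : ℕ) m K) q σ (x : Loc (Qm (P : ℕ) m K) q)) =
          inclQ (Qm (P : ℕ) m K) q ((t₀ : ℚ_[(q : ℕ)]) ^ (P : ℕ)) ∧
        orderOf (psi P m (single q t₀)) = (P : ℕ) := by
  by_cases hq : q = P
  · subst hq
    exact ⟨1, one_pos, fun K _ _ _ => exists_layer_self q hp2 K⟩
  · exact exists_layer_of_ne P hp2 hq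

section Consequences

variable (P : Nat.Primes) (m : ℕ)

/-- A class of exact order `p` under `psi` survives every exponent prime to `p`. -/
theorem psi_pow_ne_one {x : J ℚ} (hx : orderOf (psi P m x) = (P : ℕ)) (s : ℕ)
    (hs : ¬ (P : ℕ) ∣ s) : psi P m (x ^ s) ≠ 1 := by
  intro h
  rw [map_pow] at h
  exact hs (hx ▸ orderOf_dvd_of_pow_eq_one h)

/-- `psi` kills the ideles which are units everywhere and trivial at `p` (in particular the
`S`-unit ideles `∏_{l ∉ S} ℤ_l^×` when `p ∈ S`). -/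
theorem psi_eq_one_of_unit (u : J ℚ) (hu : ∀ l, valQ l u = 0) (hP : comp P u = 1) :
    psi P m u = 1 := by
  rw [psi_of_valQ P m u hu, hP, map_one]

/-- The image in `L ⊗ ℚ_q` of the `q`-component of `single q t`. -/
theorem map_single_component {L : Type*} [Field L] [Algebra ℚ L] (f : ℚ →ₐ[ℚ] L) (q : Nat.Primes)
    (t : ℚ_[(q : ℕ)]ˣ) :
    Loc.map q f (((single q t : J ℚ).1 q : (Loc ℚ q)ˣ) : Loc ℚ q) = inclQ L q (t : ℚ_[(q : ℕ)]) := by
  have h1 : (single q t).1 q = (locQu q).symm t := Pi.mulSingle_eq_same q _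
  rw [h1]
  have h2 : (((locQu q).symm t : (Loc ℚ q)ˣ) : Loc ℚ q) = (locQ q).symm (t : ℚ_[(q : ℕ)]) := rfl
  rw [h2, locQ_symm_apply, Loc.map_inclQ]

end Consequences


end Fermat.Agent.CFT.C6.LocalGlobalArith
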