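/-
PROJECT C, slice C6d (V): THE NORM OF A PRIME IDELE, via idempotents (no valuations).

`F/ℚ` a finite Galois extension of number fields, `q` a rational prime, `w` a prime of `F` over
`q`, `e_w ∈ F ⊗ ℚ_q` the primitive idempotent of `w` (helper12, `C6/SplitIdem`).  The idele
`primeIdele w` of `F` has `q`-component `1 + (q - 1) e_w` (`= q` at `w`, `= 1` at the other primes
over `q`) and all other components `1`.  Then

  `normJ ℚ F (primeIdele w) = single q (q ^ |Stab w|)`   (`Stab w ≤ Gal(F/ℚ)`),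

because `∏_σ (1 + (q - 1) e_{σ w}) = ∏_{w'} (1 + (q - 1) e_{w'}) ^ |Stab w| = q ^ |Stab w|`.
Hence `psi P m (normJ ℚ F (primeIdele w)) = theta m (q) ^ (-|Stab w|)` for `q ≠ P`.
-/
import Fermat.Agent.CFT.C6.ArtinQ
import Fermat.Agent.CFT.C6.IdeleNorm
import Fermat.Agent.CFT.C6.SplitIdem
import Fermat.Agent.CFT.C6.FrobComp

set_option autoImplicit false

noncomputable section

open scoped NumberField Pointwise

namespace Fermat.Agent.CFT.C6.NormIdem

open Fermat.Agent.CFT.Idele Fermat.Agent.CFT.Dict Fermat.Agent.CFT.C6.ArtinQ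
  Fermat.Agent.CFT.C6.IdeleNorm Fermat.Agent.CFT.C6.SplitIdem Fermat.Agent.CFT.C6.LocalAtP

/-! ### Ideles supported at one prime, general field -/

section Single

variable (L : Type*) [Field L] [Algebra ℚ L]

/-- The idele of `L` with `q`-component `t` and all other components `1`. -/
def singleJ (q : Nat.Primes) : (Loc L q)ˣ →* J L :=
  (MonoidHom.mulSingle (fun q : Nat.Primes => (Loc L q)ˣ) q).codRestrict (J L) (by
    intro t
    rw [mem_J]
    refine (Set.finite_singleton q).subset ?_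
    intro l hl
    by_contra h
    apply hl
    have h1 : (MonoidHom.mulSingle (fun q : Nat.Primes => (Loc L q)ˣ) q) t l = 1 :=
      Pi.mulSingle_eq_of_ne h _
    change (MonoidHom.mulSingle (fun q : Nat.Primes => (Loc L q)ˣ) q) t l ∈ intUnits L l
    rw [h1]
    exact (intUnits L l).one_mem)

theorem singleJ_same (q : Nat.Primes) (t : (Loc L q)ˣ) : (singleJ L q t).1 q = t :=
  Pi.mulSingle_eq_same q _

theorem singleJ_of_ne {q l : Nat.Primes} (h : l ≠ q) (t : (Loc L q)ˣ) :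
    (singleJ L q t).1 l = 1 :=
  Pi.mulSingle_eq_of_ne h _

end Single

/-! ### Counting -/

theorem card_filter_smul_eq {G X : Type*} [Group G] [Fintype G] [MulAction G X] [DecidableEq X]
    (w v : X) (σ₀ : G) (h : σ₀ • w = v) :
    (Finset.univ.filter (fun σ : G => σ • w = v)).card = Nat.card (MulAction.stabilizer G w) := by
  classical
  rw [Nat.card_eq_fintype_card, ← Fintype.card_subtype]
  apply Fintype.card_congr
  refine ⟨fun σ => ⟨σ₀⁻¹ * σ.1, ?_⟩, fun τ => ⟨σ₀ * τ.1, ?_⟩, ?_, ?_⟩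
  · rw [MulAction.mem_stabilizer_iff, mul_smul, σ.2, ← h, inv_smul_smul]
  · rw [mul_smul, MulAction.mem_stabilizer_iff.1 τ.2, h]
  · intro σ
    apply Subtype.ext
    simp
  · intro τ
    apply Subtype.ext
    simp

/-! ### The prime idele and its norm -/

variable {F : Type} [Field F] [NumberField F] {q : Nat.Primes}

/-- The unit `1 + (q - 1) e_w` of `F ⊗ ℚ_q`. -/
def primeUnit (w : PrimeOver (q : ℕ) (𝓞 F)) : (Loc F q)ˣ :=
  Classical.choose (exists_unit_primeIdem w)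

theorem coe_primeUnit (w : PrimeOver (q : ℕ) (𝓞 F)) :
    ((primeUnit w : (Loc F q)ˣ) : Loc F q) = 1 + (((q : ℕ) : Loc F q) - 1) * primeIdem w :=
  Classical.choose_spec (exists_unit_primeIdem w)

theorem locToKv_primeUnit (v w : PrimeOver (q : ℕ) (𝓞 F)) :
    v.locToKv ((primeUnit w : (Loc F q)ˣ) : Loc F q) = if v = w then ((q : ℕ) : v.Kv) else 1 := by
  rw [coe_primeUnit, map_add, map_one, map_mul, map_sub, map_one, map_natCast,
    locToKv_primeIdem]
  split_ifs <;> ring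

theorem aut_primeUnit (σ : F ≃ₐ[ℚ] F) (w : PrimeOver (q : ℕ) (𝓞 F)) :
    Loc.aut F q σ ((primeUnit w : (Loc F q)ˣ) : Loc F q) =
      ((primeUnit (σ • w) : (Loc F q)ˣ) : Loc F q) := by
  rw [coe_primeUnit, coe_primeUnit, map_add, map_one, map_mul, map_sub, map_one, map_natCast,
    aut_primeIdem]

/-- The prime idele of `w`. -/
def primeIdele (w : PrimeOver (q : ℕ) (𝓞 F)) : J F := singleJ F q (primeUnit w)

variable [IsGalois ℚ F]

/-- `Gal(F/ℚ)` is transitive on the primes over `q`. -/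
theorem exists_smul_eq (w v : PrimeOver (q : ℕ) (𝓞 F)) : ∃ σ : F ≃ₐ[ℚ] F, σ • w = v := by
  haveI : Fact (q : ℕ).Prime := ⟨q.2⟩
  haveI h1 : w.ideal.LiesOver (Ideal.span {((q : ℕ) : ℤ)}) :=
    FrobComp.liesOver_of_mem F (q : ℕ) w.ideal w.mem
  haveI h2 : v.ideal.LiesOver (Ideal.span {((q : ℕ) : ℤ)}) :=
    FrobComp.liesOver_of_mem F (q : ℕ) v.ideal v.mem
  obtain ⟨σ, hσ⟩ := Ideal.exists_smul_eq_of_isGaloisGroup
    (Ideal.span {((q : ℕ) : ℤ)}) w.ideal v.ideal (F ≃ₐ[ℚ] F)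
  exact ⟨σ, PrimeOver.ext_ideal (by rw [PrimeOver.smul_ideal, hσ])⟩

/-- `∏_σ σ(1 + (q - 1) e_w) = q ^ |Stab w|`. -/
theorem prod_aut_primeUnit (w : PrimeOver (q : ℕ) (𝓞 F)) :
    ∏ σ : F ≃ₐ[ℚ] F, Loc.aut F q σ ((primeUnit w : (Loc F q)ˣ) : Loc F q) =
      ((q : ℕ) : Loc F q) ^ Nat.card (MulAction.stabilizer (F ≃ₐ[ℚ] F) w) := by
  classical
  apply eq_of_forall_locToKv
  intro v
  rw [map_prod, map_pow, map_natCast]
  simp_rw [aut_primeUnit, locToKv_primeUnit]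
  obtain ⟨σ₀, hσ₀⟩ := exists_smul_eq w v
  rw [Finset.prod_ite, Finset.prod_const_one, mul_one, Finset.prod_const]
  congr 1
  rw [← card_filter_smul_eq w v σ₀ hσ₀]
  congr 1
  ext σ
  simp only [Finset.mem_filter, Finset.mem_univ, true_and]
  exact eq_comm

/-- The unit `q` of `ℚ_q`. -/
def qUnit (q : Nat.Primes) : ℚ_[(q : ℕ)]ˣ := ratToPadic q (primeQ q)

theorem coe_qUnit (q : Nat.Primes) : ((qUnit q : ℚ_[(q : ℕ)]ˣ) : ℚ_[(q : ℕ)]) = ((q : ℕ) : ℚ_[(q : ℕ)]) := by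
  rw [qUnit, ratToPadic_val, primeQ_val]
  push_cast
  rfl

/-- **The norm of a prime idele**: `N_{F/ℚ}(primeIdele w) = single q (q ^ |Stab w|)`. -/
theorem normJ_primeIdele (w : PrimeOver (q : ℕ) (𝓞 F)) :
    normJ ℚ F (primeIdele w) =
      single q (qUnit q ^ Nat.card (MulAction.stabilizer (F ≃ₐ[ℚ] F) w)) := by
  apply normJ_eq_of_forall
  intro l
  have hgal : ∀ σ : F ≃ₐ[ℚ] F, galHom ℚ F σ = σ := fun σ => AlgEquiv.ext fun _ => rfl
  simp_rw [hgal]
  by_cases hl : l = q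
  · subst hl
    have h1 : ((primeIdele w : J F) : ∀ q : Nat.Primes, (Loc F q)ˣ) l = primeUnit w :=
      singleJ_same F l _
    have h2 : ((single l (qUnit l ^ Nat.card (MulAction.stabilizer (F ≃ₐ[ℚ] F) w)) : J ℚ) :
        ∀ q : Nat.Primes, (Loc ℚ q)ˣ) l =
          (locQu l).symm (qUnit l ^ Nat.card (MulAction.stabilizer (F ≃ₐ[ℚ] F) w)) :=
      Pi.mulSingle_eq_same l _
    rw [h1, h2, prod_aut_primeUnit]
    have h3 : (((locQu l).symm (qUnit l ^ Nat.card (MulAction.stabilizer (F ≃ₐ[ℚ] F) w)) :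
        (Loc ℚ l)ˣ) : Loc ℚ l) =
          inclQ ℚ l (((l : ℕ) : ℚ_[(l : ℕ)]) ^ Nat.card (MulAction.stabilizer (F ≃ₐ[ℚ] F) w)) := by
      rw [← locQ_symm_apply, ← coe_qUnit, ← Units.val_pow_eq_pow_val]
      rfl
    rw [h3, Loc.map_inclQ, map_pow, map_natCast]
  · have h1 : ((primeIdele w : J F) : ∀ q : Nat.Primes, (Loc F q)ˣ) l = 1 :=
      singleJ_of_ne F hl _
    have h2 : ((single q (qUnit q ^ Nat.card (MulAction.stabilizer (F ≃ₐ[ℚ] F) w)) : J ℚ) :
        ∀ q : Nat.Primes, (Loc ℚ q)ˣ) l = 1 := Pi.mulSingle_eq_of_ne hl _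
    rw [h1, h2]
    simp only [Units.val_one, map_one, Finset.prod_const_one]

/-! ### The value of `psi` -/

omit [IsGalois ℚ F] [NumberField F] [Field F] in
theorem content_single (q : Nat.Primes) (t : ℚ_[(q : ℕ)]ˣ) :
    content (single q t) = primeQ q ^ (t : ℚ_[(q : ℕ)]).valuation := by
  rw [content_apply, finprod_eq_single _ q, valQ_single_same]
  intro l hl
  rw [valQ_single_of_ne hl, zpow_zero]

omit [IsGalois ℚ F] [NumberField F] [Field F] in
theorem valuation_qUnit_pow (q : Nat.Primes) (n : ℕ) :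
    ((qUnit q ^ n : ℚ_[(q : ℕ)]ˣ) : ℚ_[(q : ℕ)]).valuation = n := by
  haveI : Fact (q : ℕ).Prime := ⟨q.2⟩
  rw [Units.val_pow_eq_pow_val, Padic.valuation_pow, coe_qUnit, Padic.valuation_p, mul_one]

omit [IsGalois ℚ F] [NumberField F] [Field F] in
/-- `psi` of the idele `q ^ n` at `q ≠ p`. -/
theorem psi_single_qUnit_pow (P : Nat.Primes) (m : ℕ) {q : Nat.Primes} (hqP : q ≠ P) (n : ℕ) :
    psi P m (single q (qUnit q ^ n)) = (theta (p := (P : ℕ)) m (ratToPadic P (primeQ q)))⁻¹ ^ n := by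
  rw [psi_apply, comp_single_of_ne (fun h => hqP h.symm), content_single, valuation_qUnit_pow,
    zpow_natCast, one_div, map_inv, map_pow, map_pow, inv_pow]

/-- **`psi` of the norm of a prime idele** (`q ≠ p`):
`psi_m (N_{F/ℚ} (primeIdele w)) = theta_m(q) ^ (-|Stab w|)`. -/
theorem psi_normJ_primeIdele (P : Nat.Primes) (m : ℕ) (hqP : q ≠ P)
    (w : PrimeOver (q : ℕ) (𝓞 F)) :
    psi P m (normJ ℚ F (primeIdele w)) =
      (theta (p := (P : ℕ)) m (ratToPadic P (primeQ q)))⁻¹ ^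
        Nat.card (MulAction.stabilizer (F ≃ₐ[ℚ] F) w) := by
  rw [normJ_primeIdele, psi_single_qUnit_pow P m hqP]

/-! ### `theta` of a prime `q ≠ p` -/

section ThetaPrime

variable {P l : Nat.Primes}

theorem isUnit_natCast_padicInt (hlP : l ≠ P) : IsUnit ((((l : ℕ) : ℤ)) : ℤ_[(P : ℕ)]) := by
  apply isUnit_intCast_padicInt (q := P)
  intro h
  have h1 : (P : ℕ) ∣ (l : ℕ) := by exact_mod_cast h
  exact hlP (Subtype.ext ((Nat.prime_dvd_prime_iff_eq P.2 l.2).1 h1).symm)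

/-- The unit `l` of `ℤ_p` (`l ≠ p`). -/
def primeUnitInt (hlP : l ≠ P) : ℤ_[(P : ℕ)]ˣ := (isUnit_natCast_padicInt hlP).unit

theorem coe_primeUnitInt (hlP : l ≠ P) :
    ((primeUnitInt hlP : ℤ_[(P : ℕ)]ˣ) : ℤ_[(P : ℕ)]) = ((l : ℕ) : ℤ_[(P : ℕ)]) := by
  rw [primeUnitInt, IsUnit.unit_spec]
  push_cast
  rfl

theorem ratToPadic_primeQ (hlP : l ≠ P) :
    ratToPadic P (primeQ l) = unitIncl (primeUnitInt hlP) := by
  apply Units.ext
  rw [ratToPadic_val, primeQ_val, coe_unitIncl, coe_primeUnitInt]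
  push_cast
  rfl

/-- `theta_m(l) = [l] ^ (p - 1)` in `(ℤ/p^(m+1))ˣ`. -/
theorem theta_primeQ (hlP : l ≠ P) (m : ℕ) (hln : (l : ℕ).Coprime ((P : ℕ) ^ (m + 1))) :
    theta (p := (P : ℕ)) m (ratToPadic P (primeQ l)) =
      ZMod.unitOfCoprime (l : ℕ) hln ^ ((P : ℕ) - 1) := by
  rw [ratToPadic_primeQ hlP, theta_unitIncl]
  congr 1
  apply Units.ext
  rw [ZMod.coe_unitOfCoprime]
  change PadicInt.toZModPow (m + 1) ((primeUnitInt hlP : ℤ_[(P : ℕ)]ˣ) : ℤ_[(P : ℕ)]) = _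
  rw [coe_primeUnitInt, map_natCast]

end ThetaPrime

end Fermat.Agent.CFT.C6.NormIdem
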