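import Mathlib
import Fermat.Agent.CFT.C6.ClassNorm

/-!
# C6 (P), slice (NR), part (e) + the packaged field-level statement

On top of helper9's `C6/ClassNorm.lean` (tower `K ⊆ E ⊆ M`, `fixer K E M = Gal(M/E) ≤ Gal(M/K)`,
`quotEquiv`, `baseInv`, `isNorm_nsmul_baseInv_iff`, `isNorm_nsmul_inclInv_baseInv`):

* `exists_generator_quot` : a generator of `Gal(E/K)` gives a generator `σ` of
  `Gal(M/K) ⧸ fixer K E M` with `orderOf σ = [E:K]` and `∀ q, ∃ i, σ ^ i = q`;
* `trSum_stdCocycle_baseInv` : the invariant of the standard cocycle of `baseInv a` is `baseInv a`;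
* `exists_isClassModule_of_tower` : **(P) with field-level hypotheses only** (`hA1`, `hA2` in terms
  of `IdeleNorm.normC`), via `LocalisedTate.exists_isClassModule_of_isLocRep_cyclicLayer_int`;
* `exists_isClassModule_of_index_unit` : the case `p ∤ [Γ : H]` (no auxiliary layer).
-/

set_option autoImplicit false
set_option linter.unusedSectionVars false

noncomputable section

open groupCohomology CategoryTheory Rep

namespace Fermat.Agent.CFT.C6.NormRep

open Fermat.Agent.CFT Fermat.Agent.CFT.Idele Fermat.Agent.CFT.C6.IdeleNorm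
  Fermat.Agent.CFT.C5.ClassDevissage Fermat.Agent.CFT.C6.LocalisedTate
  Fermat.Agent.CFT.C6.CyclicLayer Fermat.Agent.CFT.Local.CyclicH2 Fermat.Agent.CFT.InfRes2
  Fermat.Agent.CFT.C6.ClassNorm Fermat.Agent.CFT.A7.BaseChange Fermat.Agent.CFT.A5.Tate

section Tower

variable (K E M : Type) [Field K] [Field E] [Field M] [NumberField K] [NumberField E]
  [NumberField M] [Algebra K E] [Algebra E M] [Algebra K M] [IsScalarTower K E M]
  [IsGalois K M] [IsGalois K E]

/-- A generator of `Gal(E/K)` gives a generator of `Gal(M/K) ⧸ Gal(M/E)` of order `[E:K]`. -/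
theorem exists_generator_quot (g : E ≃ₐ[K] E) (hg : ∀ τ : E ≃ₐ[K] E, τ ∈ Subgroup.zpowers g) :
    ∃ σ : (M ≃ₐ[K] M) ⧸ fixer K E M, quotEquiv K E M σ = g ∧
      orderOf σ = Module.finrank K E ∧ ∀ q : (M ≃ₐ[K] M) ⧸ fixer K E M, ∃ i : ℕ, σ ^ i = q := by
  refine ⟨(quotEquiv K E M).symm g, MulEquiv.apply_symm_apply _ _, ?_, fun q => ?_⟩
  · rw [MulEquiv.orderOf_eq, orderOf_eq_card_of_forall_mem_zpowers hg,
      IsGalois.card_aut_eq_finrank]
  · have h1 := hg (quotEquiv K E M q)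
    rw [← mem_powers_iff_mem_zpowers] at h1
    obtain ⟨i, hi⟩ := h1
    refine ⟨i, (quotEquiv K E M).injective ?_⟩
    rw [map_pow, MulEquiv.apply_symm_apply]
    exact hi

/-- The invariant (`trSum`) of the standard cocycle attached to `baseInv a` is `baseInv a`. -/
theorem trSum_stdCocycle_baseInv {σ : (M ≃ₐ[K] M) ⧸ fixer K E M} {d : ℕ} (hord : orderOf σ = d)
    (hd : 1 < d) (hgen : ∀ q : (M ≃ₐ[K] M) ⧸ fixer K E M, ∃ i : ℕ, σ ^ i = q) (a : C K) :
    trSum ((classRep K M).quotientToInvariants (fixer K E M)) σ d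
      (stdCocycle hord (lt_trans Nat.zero_lt_one hd) hgen (ρ_baseInv K E M σ a)) =
        baseInv K E M a :=
  trSum_stdCocycle hord (lt_trans Nat.zero_lt_one hd) hgen hd (ρ_baseInv K E M σ a)

end Tower

section Packaged

variable (p : ℕ) [hp : Fact p.Prime] {k : Type} [CommRing k] [IsDomain k]
  [IsLocalization (primeTo p) k]

/-- The case `p ∤ [Γ : H]` (`m = 0`): no auxiliary layer is needed. -/
theorem exists_isClassModule_of_index_unit {Γ : Type} [Group Γ] [Finite Γ]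
    {X : Rep.{0} ℤ Γ} {Y : Rep.{0} k Γ} {f : X.V →+ Y.V} (H : Subgroup Γ) [H.Normal]
    [Fintype (Γ ⧸ H)] (hf : IsLocRep (primeTo p) X Y f)
    (h1X : ∀ (S : Subgroup Γ) (c : groupCohomology (Rep.res S.subtype X) 1),
      ∃ s : ℕ, ¬ p ∣ s ∧ s • c = 0)
    (h2X : ∀ S' : Subgroup (Γ ⧸ H),
      Nat.card (pPrimary p
        (groupCohomology (Rep.res S'.subtype (X.quotientToInvariants H)) 2)) ∣ Nat.card S')
    (c : k) (hc : c * (H.index : k) = 1) :
    ∃ φ : cocycles₂ (Y.quotientToInvariants H), IsClassModule (Y.quotientToInvariants H) φ := by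
  obtain ⟨φ, -, hφ⟩ := exists_isClassModule_of_isLocRep_int p (⊤ : Subgroup Γ) H hf 0 h1X h2X 0
    ⟨1, fun h => hp.out.one_lt.ne' (Nat.dvd_one.1 h), by rw [map_zero, map_zero, smul_zero]⟩
    (fun r₀ _ => by rw [pow_zero]; exact one_dvd _) c (by rw [hc, pow_zero])
  exact ⟨φ, hφ⟩

variable (K F E M : Type) [Field K] [Field F] [Field E] [Field M] [NumberField K] [NumberField F]
  [NumberField E] [NumberField M] [Algebra K F] [Algebra F M] [Algebra K E] [Algebra E M]
  [Algebra K M] [IsScalarTower K F M] [IsScalarTower K E M] [IsGalois K M] [IsGalois K F]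
  [IsGalois K E] [IsGalois F M]

/-- **(P), field-level norm form.**  `K ⊆ E, F ⊆ M` number fields, all Galois over `K`,
`Gal(M/F) ∩ Gal(M/E) = 1` (i.e. `M = E F`), `E/K` cyclic (generator `g`) of degree `> 1`; `Y` a
localisation at the integers prime to `p` of `C_M` as a `Gal(M/K)`-module.  Assume the `p`-primary
inequalities (`h1X`, `h2X`), and for a class `a ∈ C_K`:
* `hA2` : `a ^ s ∈ N_{M/F} C_M` (in `C_F`) for some `s` prime to `p`;
* `hA1` : `a ^ r ∈ N_{E/K} C_E → p ^ m ∣ r`;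
* `c * [F : K] = p ^ m` in `k`.
Then `Y^{Gal(M/F)}` is a class module for `Gal(M/K) ⧸ Gal(M/F) = Gal(F/K)` over `k`. -/
theorem exists_isClassModule_of_tower [Fintype ((M ≃ₐ[K] M) ⧸ fixer K F M)]
    (hHN : ∀ g : M ≃ₐ[K] M, g ∈ fixer K F M → g ∈ fixer K E M → g = 1)
    {Y : Rep.{0} k (M ≃ₐ[K] M)} {f : (classRep K M).V →+ Y.V}
    (hf : IsLocRep (primeTo p) (classRep K M) Y f) (m : ℕ)
    (h1X : ∀ (S : Subgroup (M ≃ₐ[K] M))
      (c : groupCohomology (Rep.res S.subtype (classRep K M)) 1), ∃ s : ℕ, ¬ p ∣ s ∧ s • c = 0)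
    (h2X : ∀ S' : Subgroup ((M ≃ₐ[K] M) ⧸ fixer K F M),
      Nat.card (pPrimary p (groupCohomology (Rep.res S'.subtype
        ((classRep K M).quotientToInvariants (fixer K F M))) 2)) ∣ Nat.card S')
    (g : E ≃ₐ[K] E) (hg : ∀ τ : E ≃ₐ[K] E, τ ∈ Subgroup.zpowers g)
    (hd : 1 < Module.finrank K E) (a : C K)
    (hA2 : ∃ s : ℕ, ¬ p ∣ s ∧ (C.map (inclHom K F) a) ^ s ∈ (normC F M).range)
    (hA1 : ∀ r : ℕ, a ^ r ∈ (normC K E).range → p ^ m ∣ r)
    (c : k) (hc : c * ((fixer K F M).index : k) = (p : k) ^ m) :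
    ∃ φ : cocycles₂ (Y.quotientToInvariants (fixer K F M)),
      IsClassModule (Y.quotientToInvariants (fixer K F M)) φ := by
  classical
  let _ : Fintype ((M ≃ₐ[K] M) ⧸ fixer K E M) := Fintype.ofFinite _
  obtain ⟨σ, -, hord, hgen⟩ := exists_generator_quot K E M g hg
  have hd0 : 0 < Module.finrank K E := lt_trans Nat.zero_lt_one hd
  have htr := trSum_stdCocycle_baseInv K E M hord hd hgen a
  obtain ⟨φ, -, hφ⟩ := exists_isClassModule_of_isLocRep_cyclicLayer_int p (fixer K E M)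
    (fixer K F M) hf m h1X h2X hord hd0 hgen (stdCocycle hord hd0 hgen (ρ_baseInv K E M σ a))
    (by
      intro _
      obtain ⟨s, hs, hs'⟩ := hA2
      refine ⟨s, hs, ?_⟩
      rw [htr]
      exact isNorm_nsmul_inclInv_baseInv K F E M hHN a s hs')
    (by
      intro r₀ hr₀
      rw [htr, isNorm_nsmul_baseInv_iff] at hr₀
      exact hA1 r₀ hr₀) c hc
  exact ⟨φ, hφ⟩

end Packaged

end Fermat.Agent.CFT.C6.NormRep
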