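/-
PROJECT C, slice (G-c) (helper13): classes of `ℚ` which are NOT norms from a cyclic `p`-layer.

`L/ℚ` a cyclic number field of degree `p^m` (generator `g`) unramified outside `p` (`p` odd), `S` a
set of primes containing `p`, `x` an idele of `ℚ` whose image under the explicit reciprocity map
`psi_m` (`C6/ArtinQ`) has order exactly `p`.  Then for every integer `s` prime to `p` the class of
`x ^ s` in `C_S(L)` is not of the form `∏_σ σ • c` (`c ∈ C_S(L)`).

This is the arithmetic content of hypothesis `hne` of `D/CyclicClass.exists_class` for the layer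
`L = Q_m` of the cyclotomic `ℤ_p`-tower.
-/
import Fermat.Agent.CFT.C6.ArtinQNorm
import Fermat.Agent.CFT.C4.FirstInequalityNorm
import Fermat.Agent.CFT.Idele.SClass

set_option autoImplicit false

open scoped NumberField

noncomputable section

namespace Fermat.Agent.CFT.C6.NotNorm

open Module Fermat.Agent.CFT.Idele Fermat.Agent.CFT.C6.ArtinQ Fermat.Agent.CFT.C6.ArtinQNorm
  Fermat.Agent.CFT.C6.IdeleNorm Fermat.Agent.CFT.C6.LocalAtP

variable (P : Nat.Primes) (m : ℕ)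

/-- `psi` kills the unit ideles outside `S` when `p ∈ S`. -/
theorem psi_eq_one_of_mem_US {S : Set Nat.Primes} (hPS : P ∈ S) {u : J ℚ} (hu : u ∈ US ℚ S) :
    psi P m u = 1 := by
  have hval : ∀ l, valQ l u = 0 := by
    intro l
    rw [valQ_eq_zero_iff]
    by_cases hl : l ∈ S
    · rw [hu.1 l hl]
      exact (intUnits ℚ l).one_mem
    · exact hu.2 l hl
  have hP : comp P u = 1 := by
    rw [comp_apply, hu.1 P hPS, map_one]
  rw [psi_of_valQ P m u hval, hP, map_one]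

/-- A class of exact order `p` under `psi` survives every integer exponent prime to `p`. -/
theorem psi_zpow_ne_one {x : J ℚ} (hx : orderOf (psi P m x) = (P : ℕ)) (s : ℤ)
    (hs : ¬ ((P : ℕ) : ℤ) ∣ s) : psi P m (x ^ s) ≠ 1 := by
  intro h
  rw [map_zpow] at h
  exact hs (hx ▸ orderOf_dvd_iff_zpow_eq_one.2 h)

variable {L : Type} [Field L] [NumberField L] [IsGalois ℚ L]

/-- **Not a norm.**  In a cyclic extension `L/ℚ` of degree `p^m` unramified outside `p`, the class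
in `C_S(L)` (`p ∈ S`) of `x ^ s`, `p ∤ s`, `psi_m x` of order `p`, is not a norm. -/
theorem prod_smul_ne (hp2 : (P : ℕ) ≠ 2) (hL : finrank ℚ L = (P : ℕ) ^ m) (g : L ≃ₐ[ℚ] L)
    (hgen : ∀ τ : L ≃ₐ[ℚ] L, τ ∈ Subgroup.zpowers g)
    (hdisc : ∀ q : Nat.Primes, q ≠ P → ¬ (((q : ℕ) : ℤ) ∣ NumberField.discr L))
    {S : Set Nat.Primes} (hPS : P ∈ S) {x : J ℚ} (hx : orderOf (psi P m x) = (P : ℕ)) (s : ℤ)
    (hs : ¬ ((P : ℕ) : ℤ) ∣ s) (c : CS L S) :
    ∏ σ : L ≃ₐ[ℚ] L, galHom ℚ L σ • c ≠ CS.map (inclHom ℚ L) (toCS ℚ S x) ^ s := by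
  intro h
  have hS : S.Nonempty := ⟨P, hPS⟩
  have hodd : Odd (finrank ℚ L) := by
    rw [hL]
    exact (P.2.odd_of_ne_two hp2).pow
  have : IsUnramifiedAtInfinitePlaces ℚ L := IsUnramifiedAtInfinitePlaces_of_odd_finrank hodd
  have hFI : (P : ℕ) ^ m ≤ (normC ℚ L).range.index := by
    have := C4.FirstInequalityNorm.finrank_le_index_range_normC g hgen
    rwa [hL] at this
  have hFI' : (P : ℕ) ^ m ≤ ((diag ℚ).range ⊔ (normJ ℚ L).range).index := by
    rw [← comap_range_normC, Subgroup.index_comap_of_surjective _ (toC_surjective ℚ)]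
    exact hFI
  obtain ⟨y, rfl⟩ := toCS_surjective L S c
  have h1 : ∏ σ : L ≃ₐ[ℚ] L, galHom ℚ L σ • toCS L S y
      = CS.map (inclHom ℚ L) (toCS ℚ S (normJ ℚ L y)) := by
    rw [CS.map_toCS, map_normJ, map_prod]
    rfl
  rw [h1, ← map_zpow, ← map_zpow] at h
  have h2 := CS.map_inclHom_injective ℚ L hS h
  have h3 : toCS ℚ S (normJ ℚ L y / x ^ s) = 1 := by
    rw [map_div, h2, div_self']
  obtain ⟨a, u, hu, hau⟩ := toCS_eq_one_iff.mp h3
  have h4 : psi P m (normJ ℚ L y / x ^ s) = 1 := by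
    rw [hau, map_mul, psi_diag P m hp2, psi_eq_one_of_mem_US P m hPS hu, one_mul]
  rw [map_div, psi_normJ P m hp2 hL g hgen hdisc hFI' y, one_div, inv_eq_one] at h4
  exact psi_zpow_ne_one P m hx s hs h4

/-- `prod_smul_ne` with the action of `Gal(L/ℚ)` written directly. -/
theorem prod_smul_ne' (hp2 : (P : ℕ) ≠ 2) (hL : finrank ℚ L = (P : ℕ) ^ m) (g : L ≃ₐ[ℚ] L)
    (hgen : ∀ τ : L ≃ₐ[ℚ] L, τ ∈ Subgroup.zpowers g)
    (hdisc : ∀ q : Nat.Primes, q ≠ P → ¬ (((q : ℕ) : ℤ) ∣ NumberField.discr L))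
    {S : Set Nat.Primes} (hPS : P ∈ S) {x : J ℚ} (hx : orderOf (psi P m x) = (P : ℕ)) (s : ℤ)
    (hs : ¬ ((P : ℕ) : ℤ) ∣ s) (c : CS L S) :
    ∏ σ : L ≃ₐ[ℚ] L, σ • c ≠ CS.map (inclHom ℚ L) (toCS ℚ S x) ^ s :=
  prod_smul_ne P m hp2 hL g hgen hdisc hPS hx s hs c

end Fermat.Agent.CFT.C6.NotNorm
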