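import Mathlib
import Fermat.Agent.CFT.C6.ClassNorm
import Fermat.Agent.CFT.C5.PrimeDegree
import Fermat.Agent.CFT.A5.ClassModuleTransport
import Fermat.Agent.CFT.A5.PGroupFree
import Fermat.Agent.CFT.A7.BaseChangeUnique
import Fermat.Agent.CFT.A7.BaseChangeTensor

/-!
# PROJECT C, slice C6-(P): the `p`-primary class module of a layer of number fields

Final assembly of the package (P).  `K ⊆ F ⊆ M`, `K ⊆ E ⊆ M` towers of number fields, `M/K`, `F/K`,
`E/K` Galois, `E/K` cyclic, `Gal(M/F) ∩ Gal(M/E) = 1` (think `K = ℚ`, `E = Q_m` the `m`-th layer of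
the cyclotomic `ℤ_p`-tower, `M = F·Q_m`); `k` any model of `ℤ_(p)`
(`IsLocalization (primeTo p) k`).  From

* the second inequality in degree `p` (`hSI : SecondInequality p`),
* a class `a' ∈ C_K` with (n1) `a'^s ∈ N_{M/F} C_M` (image in `C_F`) for some `s` prime to `p`,
  (n2) `a'^r ∈ N_{E/K} C_E → p^m ∣ r`,
* `c * [F:K] = p^m` in `k`,

we get

* `h2X` : the `p`-primary second inequality on all layers;
* `exists_isClassModule_top` : a fundamental cocycle `φ` making `((C_M ⊗ k)^{Gal(M/F)}, φ)` a class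
  module for `Gal(M/K) ⧸ Gal(M/F)` over `k`, for any model `Y` of `C_M ⊗ k`;
* `exists_isClassModule_of_model` : for **every** model `A` of `C_F ⊗ k`
  (`IsLocRep (primeTo p) (classRep K F) A fA`) a fundamental cocycle `φ` with `IsClassModule A φ`.
-/

set_option autoImplicit false

noncomputable section

namespace Fermat.Agent.CFT.C6.PPrimary

open groupCohomology CategoryTheory Rep
open Fermat.Agent.CFT Fermat.Agent.CFT.Idele Fermat.Agent.CFT.BrauerUpper
open Fermat.Agent.CFT.InfRes2 Fermat.Agent.CFT.C6.TateArgument Fermat.Agent.CFT.A5.Tate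
open Fermat.Agent.CFT.A7.BaseChange Fermat.Agent.CFT.C5.ClassDevissage
open Fermat.Agent.CFT.C5.PrimeDegree Fermat.Agent.CFT.C6.IdeleNorm
open Fermat.Agent.CFT.C6.ClassNorm Fermat.Agent.CFT.C6.LocalisedTate
open Fermat.Agent.CFT.Local.CyclicH2 Fermat.Agent.CFT.C6.CyclicLayer

/-! ### The `ℤ`-level second inequality on all layers -/

section Inputs

variable (p : ℕ) [hp : Fact p.Prime] (hp2 : p ≠ 2) (hSI : SecondInequality p)
  (K M : Type) [Field K] [Field M] [NumberField K] [NumberField M] [Algebra K M] [IsGalois K M]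

include hp2 hSI in
/-- The `p`-primary second inequality on all layers: for `H` normal in `Gal(M/K)` and every
subgroup `S'` of the quotient, `|H²(S', (C_M)^H)(p)|` divides `|S'|`. -/
theorem h2X (H : Subgroup (M ≃ₐ[K] M)) [H.Normal] (S' : Subgroup ((M ≃ₐ[K] M) ⧸ H)) :
    Nat.card (pPrimary p
      (groupCohomology (Rep.res S'.subtype ((classRep K M).quotientToInvariants H)) 2)) ∣
        Nat.card S' := by
  have hlayer : IsClassLayer S' (Rep.res S'.subtype ((classRep K M).quotientToInvariants H)) :=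
    isClassLayer_res _ _ S' (isClassLayer_quot _ _ H (isClassLayer_self K M))
  have h := C5.DevissageP.card_pPrimary_H2_dvd (k := ℤ) p (fun G _ A => IsClassLayer G A)
    (fun G _ A S hA => isClassLayer_res G A S hA)
    (fun G _ A S _ hA => isClassLayer_quot G A S hA)
    (fun G _ A hA hG => isClassLayer_prime p (fun K M => hprime p hp2 hSI K M) G A hA hG)
    S' _ hlayer
  have heq : pPrimary p
      (groupCohomology (Rep.res S'.subtype ((classRep K M).quotientToInvariants H)) 2) =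
      C5.DevissageP.pPrimary p
        (groupCohomology (Rep.res S'.subtype ((classRep K M).quotientToInvariants H)) 2) :=
    AddSubgroup.ext fun _ => Iff.rfl
  rw [heq]
  exact h.trans (Nat.ordProj_dvd _ _)

end Inputs

/-! ### The cyclic layer `E/K` -/

section Cyclic

variable (K E M : Type) [Field K] [Field E] [Field M] [NumberField K] [NumberField E]
  [NumberField M] [Algebra K E] [Algebra E M] [Algebra K M] [IsScalarTower K E M]
  [IsGalois K M] [IsGalois K E]

theorem index_fixer : (fixer K E M).index = Module.finrank K E := by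
  rw [fixer, Subgroup.index_ker, MonoidHom.range_eq_top.2 (AlgEquiv.restrictNormalHom_surjective M),
    Subgroup.card_top, IsGalois.card_aut_eq_finrank]

variable {K E M}

/-- The generator of `Gal(M/K) ⧸ Gal(M/E)` corresponding to a generator of `Gal(E/K)`. -/
def genQuot (σ₀ : E ≃ₐ[K] E) : (M ≃ₐ[K] M) ⧸ fixer K E M := (quotEquiv K E M).symm σ₀

theorem orderOf_genQuot (σ₀ : E ≃ₐ[K] E) (hσ₀ : ∀ τ : E ≃ₐ[K] E, τ ∈ Subgroup.zpowers σ₀) :
    orderOf (genQuot (M := M) σ₀) = Module.finrank K E := by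
  rw [genQuot, MulEquiv.orderOf_eq, orderOf_eq_card_of_forall_mem_zpowers hσ₀,
    IsGalois.card_aut_eq_finrank]

theorem exists_pow_genQuot (σ₀ : E ≃ₐ[K] E) (hσ₀ : ∀ τ : E ≃ₐ[K] E, τ ∈ Subgroup.zpowers σ₀)
    (g : (M ≃ₐ[K] M) ⧸ fixer K E M) : ∃ i : ℕ, genQuot (M := M) σ₀ ^ i = g := by
  obtain ⟨i, hi⟩ := exists_pow_of_mem_zpowers (isOfFinOrder_of_finite σ₀) hσ₀
    (quotEquiv K E M g)
  refine ⟨i, ?_⟩
  rw [genQuot, ← map_pow, hi, MulEquiv.symm_apply_apply]

end Cyclic

/-! ### The class module on `(C_M ⊗ k)^{Gal(M/F)}` -/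

section Main

variable (p : ℕ) [hp : Fact p.Prime] (hp2 : p ≠ 2) (hSI : SecondInequality p)
variable (K F E M : Type) [Field K] [Field F] [Field E] [Field M] [NumberField K] [NumberField F]
  [NumberField E] [NumberField M] [Algebra K F] [Algebra F M] [Algebra K E] [Algebra E M]
  [Algebra K M] [IsScalarTower K F M] [IsScalarTower K E M] [IsGalois K M] [IsGalois K F]
  [IsGalois K E] [IsGalois F M]
variable {k : Type} [CommRing k] [IsDomain k] [IsLocalization (primeTo p) k]

include hp2 hSI in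
/-- **(P), on `(C_M ⊗ k)^{Gal(M/F)}`.**  `Y` any model of `C_M ⊗ k`. -/
theorem exists_isClassModule_top {Y : Rep.{0} k (M ≃ₐ[K] M)} {f : (classRep K M).V →+ Y.V}
    (hf : IsLocRep (primeTo p) (classRep K M) Y f)
    (hHN : ∀ g : M ≃ₐ[K] M, g ∈ fixer K F M → g ∈ fixer K E M → g = 1)
    (σ₀ : E ≃ₐ[K] E) (hσ₀ : ∀ τ : E ≃ₐ[K] E, τ ∈ Subgroup.zpowers σ₀)
    (hd : 1 < Module.finrank K E) (a' : C K) (m : ℕ)
    (hn1 : ∃ s : ℕ, ¬ p ∣ s ∧ C.map (inclHom K F) a' ^ s ∈ (normC F M).range)
    (hn2 : ∀ r : ℕ, a' ^ r ∈ (normC K E).range → p ^ m ∣ r)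
    (c : k) (hc : c * (Module.finrank K F : k) = (p : k) ^ m) :
    ∃ φ : cocycles₂ (Y.quotientToInvariants (fixer K F M)),
      IsClassModule (Y.quotientToInvariants (fixer K F M)) φ := by
  classical
  let _ : Fintype ((M ≃ₐ[K] M) ⧸ fixer K F M) := Fintype.ofFinite _
  let _ : Fintype ((M ≃ₐ[K] M) ⧸ fixer K E M) := Fintype.ofFinite _
  have hord := orderOf_genQuot (M := M) σ₀ hσ₀
  have hd0 : 0 < Module.finrank K E := lt_trans Nat.zero_lt_one hd
  have hgen := exists_pow_genQuot (M := M) σ₀ hσ₀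
  have ha : ((classRep K M).quotientToInvariants (fixer K E M)).ρ (genQuot (M := M) σ₀)
      (baseInv K E M a') = baseInv K E M a' := ρ_baseInv K E M _ a'
  have htr : trSum ((classRep K M).quotientToInvariants (fixer K E M)) (genQuot (M := M) σ₀)
      (Module.finrank K E) (stdCocycle hord hd0 hgen ha) = baseInv K E M a' :=
    trSum_stdCocycle hord hd0 hgen hd ha
  have hc' : c * ((fixer K F M).index : k) = (p : k) ^ m := by
    rw [index_fixer]; exact hc
  obtain ⟨φ, -, hφ⟩ := exists_isClassModule_of_isLocRep_cyclicLayer_int p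
    (fixer K E M) (fixer K F M) hf m
    (fun S x => exists_coprime_nsmul_H1 p hp2 hSI K M S x)
    (fun S' => h2X p hp2 hSI K M (fixer K F M) S')
    hord hd0 hgen (stdCocycle hord hd0 hgen ha)
    (by
      intro _
      obtain ⟨s, hs, hs'⟩ := hn1
      refine ⟨s, hs, ?_⟩
      rw [htr]
      exact isNorm_nsmul_inclInv_baseInv K F E M hHN a' s hs')
    (by
      intro r₀ hr₀
      rw [htr] at hr₀
      exact hn2 r₀ ((isNorm_nsmul_baseInv_iff K E M a' r₀).1 hr₀))
    c hc'
  exact ⟨φ, hφ⟩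

omit [IsDomain k] in
/-- Transport of a class module structure on `(C_M ⊗ k)^{Gal(M/F)}` to an arbitrary model `A` of
`C_F ⊗ k`. -/
theorem isClassModule_transport_model {Y : Rep.{0} k (M ≃ₐ[K] M)}
    {f : (classRep K M).V →+ Y.V} (hf : IsLocRep (primeTo p) (classRep K M) Y f)
    {A : Rep.{0} k (F ≃ₐ[K] F)} {fA : (classRep K F).V →+ A.V}
    (hA : IsLocRep (primeTo p) (classRep K F) A fA)
    (φ : cocycles₂ (Y.quotientToInvariants (fixer K F M)))
    (hφ : IsClassModule (Y.quotientToInvariants (fixer K F M)) φ) :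
    ∃ φ' : cocycles₂ A, IsClassModule A φ' := by
  have hM : ∀ s ∈ primeTo p, IsUnit (algebraMap ℤ k s) := fun s hs =>
    IsLocalization.map_units k (⟨s, hs⟩ : primeTo p)
  have hfH := hf.quotientToInvariants (fixer K F M)
  -- the additive isomorphism `(C_M)^H ≃ C_F`
  let e₀ : (classRep K F).V ≃+ ((classRep K M).quotientToInvariants (fixer K F M)).V :=
    AddEquiv.ofBijective (toInv K F M) (toInv_bijective K F M)
  have hlin : ∀ (r : ℤ) (x : ((classRep K M).quotientToInvariants (fixer K F M)).V),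
      e₀.symm (r • x) = r • e₀.symm x := fun r x =>
    A5.addHomsLinear_int _ _ e₀.symm.toAddMonoidHom r x
  have hequiv : ∀ (q : (M ≃ₐ[K] M) ⧸ fixer K F M)
      (x : ((classRep K M).quotientToInvariants (fixer K F M)).V),
      e₀.symm (((classRep K M).quotientToInvariants (fixer K F M)).ρ q x) =
        (classRep K F).ρ (quotEquiv K F M q) (e₀.symm x) := by
    intro q x
    obtain ⟨c, rfl⟩ := e₀.surjective x
    rw [e₀.symm_apply_apply, AddEquiv.symm_apply_eq]
    exact ρ_toInv' K F M q c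
  let e' : (Y.quotientToInvariants (fixer K F M)).V ≃ₗ[k] A.V :=
    hfH.liftEquiv hA hM e₀.symm hlin
  have he : ∀ q : (M ≃ₐ[K] M) ⧸ fixer K F M,
      e'.toLinearMap ∘ₗ (Y.quotientToInvariants (fixer K F M)).ρ q =
        A.ρ (quotEquiv K F M q) ∘ₗ e'.toLinearMap := by
    intro q
    ext y
    exact hfH.liftEquiv_ρ hA hM e₀.symm hlin (quotEquiv K F M).toMonoidHom hequiv q y
  exact ⟨_, A5.Transport.isClassModule_transport (quotEquiv K F M) e' he hφ⟩

include hp2 hSI in
/-- **(P), final form.**  For every model `A` of `C_F ⊗ k` (`k` a model of `ℤ_(p)`) there is a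
fundamental cocycle making `A` a class module for `Gal(F/K)` over `k`, given the auxiliary cyclic
layer `E/K` with `M = F·E` and a class `a' ∈ C_K` satisfying the two norm conditions. -/
theorem exists_isClassModule_of_model {A : Rep.{0} k (F ≃ₐ[K] F)}
    {fA : (classRep K F).V →+ A.V} (hA : IsLocRep (primeTo p) (classRep K F) A fA)
    (hHN : ∀ g : M ≃ₐ[K] M, g ∈ fixer K F M → g ∈ fixer K E M → g = 1)
    (σ₀ : E ≃ₐ[K] E) (hσ₀ : ∀ τ : E ≃ₐ[K] E, τ ∈ Subgroup.zpowers σ₀)
    (hd : 1 < Module.finrank K E) (a' : C K) (m : ℕ)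
    (hn1 : ∃ s : ℕ, ¬ p ∣ s ∧ C.map (inclHom K F) a' ^ s ∈ (normC F M).range)
    (hn2 : ∀ r : ℕ, a' ^ r ∈ (normC K E).range → p ^ m ∣ r)
    (c : k) (hc : c * (Module.finrank K F : k) = (p : k) ^ m) :
    ∃ φ : cocycles₂ A, IsClassModule A φ := by
  have hY := isLocRep_tensorRep (k := k) (primeTo p) (classRep K M)
  obtain ⟨φ, hφ⟩ := exists_isClassModule_top p hp2 hSI K F E M hY hHN σ₀ hσ₀ hd a' m hn1 hn2 c hc
  exact isClassModule_transport_model p K F M hY hA φ hφ

end Main

end Fermat.Agent.CFT.C6.PPrimary
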