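import Mathlib
import Fermat.Agent.CFT.C6.PPrimary
import Fermat.Agent.CFT.C6.ArtinKMain
import Fermat.Agent.CFT.A1.Torsion

/-!
# PROJECT C, slice C6-(P): the `p`-primary class module of a number field Galois over `ℚ`

`C6/PPrimary.exists_isClassModule_of_model` instantiated with the arithmetic of the cyclotomic
`ℤ_p`-tower (`C6/QmRecip`, `C6/ArtinKMain`): `F/ℚ` finite Galois, `p` odd, `p^m ∥ [F:ℚ]`,
`M = F·Q_m`.  Only open hypothesis: `hSI : SecondInequality p`.

* `isClassModule_of_isUnit_card` : if `|G|` is invertible in `k`, every `2`-cocycle is fundamental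
  (the case `p ∤ [F:ℚ]`);
* `exists_isClassModule_of_compositum` : `0 < m`, `[F:ℚ] = p^m n'`, `p ∤ n'`, `M = F·Q_m`
  (`ArtinK.IsCompositum`): every model `A` of `C_F ⊗ k` is a class module for `Gal(F/ℚ)` over `k`;
* `exists_isClassModule_of_not_dvd` : the case `p ∤ [F:ℚ]`.
-/

set_option autoImplicit false

noncomputable section

namespace Fermat.Agent.CFT.C6.PPrimaryQ

open groupCohomology CategoryTheory Rep
open Fermat.Agent.CFT Fermat.Agent.CFT.Idele Fermat.Agent.CFT.A5.Tate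
open Fermat.Agent.CFT.A7.BaseChange Fermat.Agent.CFT.C5.ClassDevissage
open Fermat.Agent.CFT.C5.PrimeDegree Fermat.Agent.CFT.C6.IdeleNorm
open Fermat.Agent.CFT.C6.ClassNorm Fermat.Agent.CFT.C6.LocalisedTate
open Fermat.Agent.CFT.C6.ZpTower Fermat.Agent.CFT.C6.QmRecip Fermat.Agent.CFT.C6.ArtinK

/-! ### Groups of order invertible in `k` -/

section Unit

variable {k G : Type} [CommRing k] [Group G] [Finite G] (A : Rep.{0} k G)

theorem isUnit_card_subgroup (hu : IsUnit ((Nat.card G : ℕ) : k)) (H : Subgroup G) :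
    IsUnit ((Nat.card H : ℕ) : k) := by
  have h := Subgroup.card_mul_index H
  rw [← h, Nat.cast_mul] at hu
  exact isUnit_of_mul_isUnit_left hu

theorem eq_zero_of_isUnit_card (hu : IsUnit ((Nat.card G : ℕ) : k)) (H : Subgroup G) (n : ℕ)
    (x : groupCohomology (Rep.res H.subtype A) (n + 1)) : x = 0 := by
  have h1 := A1.card_smul_eq_zero (Rep.res H.subtype A) n x
  obtain ⟨u, hu'⟩ := isUnit_card_subgroup hu H
  rw [← hu'] at h1
  have := congrArg (fun y => (↑u⁻¹ : k) • y) h1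
  simpa [smul_smul] using this

/-- If `|G|` is invertible in `k`, every `2`-cocycle makes `A` a class module. -/
theorem isClassModule_of_isUnit_card (hu : IsUnit ((Nat.card G : ℕ) : k)) (φ : cocycles₂ A) :
    IsClassModule A φ where
  h1 H := by
    haveI : Subsingleton (groupCohomology (Rep.res H.subtype A) 1) :=
      ⟨fun x y => by rw [eq_zero_of_isUnit_card A hu H 0 x, eq_zero_of_isUnit_card A hu H 0 y]⟩
    exact ModuleCat.isZero_of_subsingleton _
  hgen H y := ⟨0, by rw [zero_smul]; exact eq_zero_of_isUnit_card A hu H 1 y⟩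
  hord H r _ := (isUnit_card_subgroup hu H).dvd

end Unit

/-! ### The main theorem over `ℚ` -/

section Main

variable {P : Nat.Primes} {m : ℕ} {Kc : Type} [Field Kc] [NumberField Kc]
  [IsCyclotomicExtension {(P : ℕ) ^ (m + 1)} ℚ Kc]
  {F M : Type} [Field F] [NumberField F] [Field M] [NumberField M] [IsGalois ℚ F] [IsGalois ℚ M]
  [Algebra F M] [Algebra (Qm (P : ℕ) m Kc) M] [IsGalois F M] [IsGalois (Qm (P : ℕ) m Kc) M]
variable {k : Type} [CommRing k] [IsDomain k] [IsLocalization (primeTo (P : ℕ)) k]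

/-- **The `p`-primary class module of `F/ℚ`** (`p ∣ [F:ℚ]`): for `F/ℚ` finite Galois with
`[F:ℚ] = p^m n'`, `p ∤ n'`, `0 < m`, and `M = F·Q_m`, every model `A` of `C_F ⊗ k` (`k` a model of
`ℤ_(p)`) carries a fundamental cocycle.  Conditional only on the second inequality in degree `p`. -/
theorem exists_isClassModule_of_compositum (hp2 : (P : ℕ) ≠ 2)
    (hgen : IsCompositum P m Kc F M) (hSI : SecondInequality (P : ℕ)) (hm : 0 < m) (n' : ℕ)
    (hF : Module.finrank ℚ F = (P : ℕ) ^ m * n') (hn' : ¬ (P : ℕ) ∣ n')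
    {A : Rep.{0} k (F ≃ₐ[ℚ] F)} {fA : (classRep ℚ F).V →+ A.V}
    (hA : IsLocRep (primeTo (P : ℕ)) (classRep ℚ F) A fA) :
    ∃ φ : cocycles₂ A, IsClassModule A φ := by
  haveI := isCyclic_gal_Qm (P : ℕ) m Kc hp2
  obtain ⟨σ₀, hσ₀⟩ := IsCyclic.exists_generator (α := (Qm (P : ℕ) m Kc) ≃ₐ[ℚ] (Qm (P : ℕ) m Kc))
  have hd : 1 < Module.finrank ℚ (Qm (P : ℕ) m Kc) := by
    rw [finrank_Qm (P : ℕ) m Kc hp2]
    exact Nat.one_lt_pow hm.ne' P.2.one_lt
  -- the cofactor `c = n'⁻¹`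
  have hn'u : IsUnit ((n' : ℕ) : k) := by
    have hmem : (n' : ℤ) ∈ primeTo (P : ℕ) := natCast_mem_primeTo (P : ℕ) n' hn'
    have := IsLocalization.map_units k (⟨(n' : ℤ), hmem⟩ : primeTo (P : ℕ))
    rwa [map_natCast] at this
  obtain ⟨u, hu⟩ := hn'u
  refine PPrimary.exists_isClassModule_of_model (P : ℕ) hp2 hSI ℚ F (Qm (P : ℕ) m Kc) M hA ?_ σ₀ hσ₀
    hd (baseClass P) m ?_ ?_ (↑u⁻¹ : k) ?_
  · intro g hgF hgE
    exact hgen g ((mem_fixer_iff ℚ F M g).1 hgF) ((mem_fixer_iff ℚ (Qm (P : ℕ) m Kc) M g).1 hgE)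
  · refine ⟨1, ?_, ?_⟩
    · exact fun h => P.2.one_lt.ne' (Nat.dvd_one.1 h)
    · rw [pow_one]
      exact ArtinKMain.map_mem_range_normC hp2 hgen hSI (baseClass P) ⟨n', hF⟩
  · intro r hr
    have h := pow_dvd_of_pow_mem_range_normC P hp2 m Kc (r : ℤ) (by rwa [zpow_natCast])
    exact_mod_cast h
  · rw [hF, Nat.cast_mul, Nat.cast_pow, ← hu, mul_comm, mul_assoc, Units.mul_inv, mul_one]

omit [IsDomain k] in
/-- The case `p ∤ [F:ℚ]`: every cocycle is fundamental. -/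
theorem exists_isClassModule_of_not_dvd {F : Type} [Field F] [NumberField F] [IsGalois ℚ F]
    (hF : ¬ (P : ℕ) ∣ Module.finrank ℚ F) (A : Rep.{0} k (F ≃ₐ[ℚ] F)) :
    ∃ φ : cocycles₂ A, IsClassModule A φ := by
  refine ⟨0, isClassModule_of_isUnit_card A ?_ 0⟩
  rw [IsGalois.card_aut_eq_finrank]
  have hmem : ((Module.finrank ℚ F : ℕ) : ℤ) ∈ primeTo (P : ℕ) :=
    natCast_mem_primeTo (P : ℕ) _ hF
  have := IsLocalization.map_units k (⟨_, hmem⟩ : primeTo (P : ℕ))
  rwa [map_natCast] at this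

end Main

end Fermat.Agent.CFT.C6.PPrimaryQ
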