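import Mathlib
import Fermat.Agent.CFT.C6.PPrimaryQ
import Fermat.Agent.CFT.C6.Compositum
import Fermat.Agent.CFT.C5.SecondInequalityFinal

/-!
# PROJECT C, slice C6-(P): the `p`-primary class module of a Galois number field, UNCONDITIONAL

For every odd prime `p`, every number field `F` Galois over `ℚ`, every model `k` of `ℤ_(p)` and
every model `A` of `C_F ⊗ k` (`IsLocRep (primeTo p) (classRep ℚ F) A fA`): `A` carries a fundamental
`2`-cocycle, i.e. `(Gal(F/ℚ), A)` is a class module over `k` (`exists_isClassModule`).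

Inputs: `C6/PPrimaryQ` (the two cases `p ∣ [F:ℚ]`, `p ∤ [F:ℚ]`), helper18's
`Compositum.exists_cyclotomic_compositum` (existence of `M = F·Q_m`) and helper29's
`SecondInequalityFinal.secondInequality`.

Also: the same statement for `repC F` (the rep used by `S14/Main`), and the tensor model.
-/

set_option autoImplicit false

noncomputable section

namespace Fermat.Agent.CFT.C6.PPrimaryFinal

open groupCohomology CategoryTheory Rep
open Fermat.Agent.CFT Fermat.Agent.CFT.Idele Fermat.Agent.CFT.A5.Tate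
open Fermat.Agent.CFT.A7.BaseChange Fermat.Agent.CFT.C5.ClassDevissage

variable (p : ℕ) [hp : Fact p.Prime]

/-- `classRep ℚ F` and `repC F` are the same representation of `Gal(F/ℚ)`: localisations agree. -/
theorem isLocRep_classRep_iff {F : Type} [Field F] [NumberField F] {k : Type} [CommRing k]
    [Algebra ℤ k] (M : Submonoid ℤ) {A : Rep.{0} k (F ≃ₐ[ℚ] F)} {fA : Additive (C F) →+ A.V} :
    IsLocRep M (classRep ℚ F) A fA ↔ IsLocRep M (repC F) A fA :=
  ⟨fun h => ⟨h.map_smul, fun g x => h.map_ρ g x, h.surj, h.eq_zero⟩,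
    fun h => ⟨h.map_smul, fun g x => h.map_ρ g x, h.surj, h.eq_zero⟩⟩

/-- **(P), unconditional**: for `p` odd and `F/ℚ` a finite Galois extension, every model `A` of
`C_F ⊗ k` (`k` a model of `ℤ_(p)`) is a class module for `Gal(F/ℚ)` over `k`. -/
theorem exists_isClassModule (hp2 : p ≠ 2) (F : Type) [Field F] [NumberField F] [IsGalois ℚ F]
    {k : Type} [CommRing k] [IsDomain k] [IsLocalization (primeTo p) k]
    {A : Rep.{0} k (F ≃ₐ[ℚ] F)} {fA : (classRep ℚ F).V →+ A.V}
    (hA : IsLocRep (primeTo p) (classRep ℚ F) A fA) :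
    ∃ φ : cocycles₂ A, IsClassModule A φ := by
  set P : Nat.Primes := ⟨p, hp.out⟩ with hP
  have hPp : (P : ℕ) = p := rfl
  by_cases hdvd : p ∣ Module.finrank ℚ F
  · -- `p ∣ [F:ℚ]`: `m = v_p([F:ℚ]) > 0`
    have hpos : Module.finrank ℚ F ≠ 0 := Module.finrank_pos.ne'
    set m := (Module.finrank ℚ F).factorization p with hm
    have hm0 : 0 < m := hp.out.factorization_pos_of_dvd hpos hdvd
    obtain ⟨Kc, _, _, _, M, _, _, _, _, _, _, _, hgen⟩ :=
      Compositum.exists_cyclotomic_compositum P m F
    have hF : Module.finrank ℚ F = (P : ℕ) ^ m * (Module.finrank ℚ F / p ^ m) :=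
      (Nat.ordProj_mul_ordCompl_eq_self (Module.finrank ℚ F) p).symm
    exact PPrimaryQ.exists_isClassModule_of_compositum (P := P) hp2 hgen
      (C5.SecondInequalityFinal.secondInequality p hp2) hm0 _ hF
      (Nat.not_dvd_ordCompl hp.out hpos) hA
  · exact PPrimaryQ.exists_isClassModule_of_not_dvd (P := P) hdvd A

/-- **(P), unconditional**, for the representation `repC F` of `Gal(F/ℚ)`. -/
theorem exists_isClassModule_repC (hp2 : p ≠ 2) (F : Type) [Field F] [NumberField F]
    [IsGalois ℚ F] {k : Type} [CommRing k] [IsDomain k] [IsLocalization (primeTo p) k]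
    {A : Rep.{0} k (F ≃ₐ[ℚ] F)} {fA : Additive (C F) →+ A.V}
    (hA : IsLocRep (primeTo p) (repC F) A fA) :
    ∃ φ : cocycles₂ A, IsClassModule A φ :=
  exists_isClassModule p hp2 F ((isLocRep_classRep_iff (primeTo p)).2 hA)

end Fermat.Agent.CFT.C6.PPrimaryFinal
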