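/-
PROJECT C, slice (G-c) last mile, part (b1) (helper7): the ARITHMETIC input of
`D.CyclicClass.exists_class` in the language of the `S`-idele class groups `CS` (helper11), at the
level of number fields as Types.

For `p = P` odd, `P ∈ S`, every prime `q`: there is a layer `Q_m` (`m ≥ 1`) of the cyclotomic
`ℤ_p`-tower, a unit `t` of `ℚ ⊗ ℚ_q` and a unit `x` of `Q_m ⊗ ℚ_q` such that
* (HR)  `∏_{τ ∈ Gal(Q_m/ℚ)} τ • x = t ^ p` (inside `(Q_m ⊗ ℚ_q)ˣ`);
* (HNE) for every `s` prime to `p`, the image in `C_S(Q_m)` of the class of the idele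
  `(t at q)` of `ℚ`, raised to the power `s`, is NOT of the form `∏_τ τ • c`, `c ∈ C_S(Q_m)`.
After the layer dictionaries and `⊗ ℤ_(p)` these are `hr` and `hne` of `exists_class`.
-/
import Fermat.Agent.CFT.C6.LocalGlobalArith
import Fermat.Agent.CFT.C6.QmRecip
import Fermat.Agent.CFT.Idele.LevelD
import Fermat.Agent.CFT.Idele.SmoothS

set_option autoImplicit false
set_option linter.unusedSectionVars false

noncomputable section

namespace Fermat.Agent.CFT.C6.SuppArith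

open Fermat.Agent.CFT.Idele Fermat.Agent.CFT.C6.ArtinQ Fermat.Agent.CFT.C6.IdeleNorm
  Fermat.Agent.CFT.C6.ZpTower Fermat.Agent.CFT.C6.QmRecip Fermat.Agent.CFT.C6.LocalGlobalArith
  NumberField

/-- The idele of `ℚ` supported at `q`, in the two languages. -/
theorem single_eq_J_single (q : Nat.Primes) (t : ℚ_[(q : ℕ)]ˣ) :
    single q t = J.single q ((locQu q).symm t) := by
  apply J.ext'
  intro l
  rfl

section Norm

variable (L : Type) [Field L] [NumberField L] [IsGalois ℚ L]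

/-- `galHom ℚ L` is the identity. -/
theorem galHom_rat (τ : L ≃ₐ[ℚ] L) : galHom ℚ L τ = τ := by
  ext a
  rfl

/-- `∏_τ τ • y` is the image of the norm of `y`. -/
theorem prod_smul_eq_map_normJ (y : J L) :
    ∏ τ : L ≃ₐ[ℚ] L, τ • y = J.map (inclHom ℚ L) (normJ ℚ L y) := by
  rw [map_normJ]
  exact Finset.prod_congr rfl fun τ _ => by rw [galHom_rat]

variable {S : Set Nat.Primes}

/-- `∏_τ τ • c` is the image of the norm, on `S`-idele classes. -/
theorem prod_smul_toCS (y : J L) :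
    ∏ τ : L ≃ₐ[ℚ] L, τ • toCS L S y = CS.map (inclHom ℚ L) (toCS ℚ S (normJ ℚ L y)) := by
  rw [CS.map_toCS, ← prod_smul_eq_map_normJ, map_prod]
  rfl

/-- `C_S(ℚ) → C_S(L)` is injective (`S ≠ ∅`). -/
theorem CS_map_inclHom_injective (hS : S.Nonempty) :
    Function.Injective (CS.map (S := S) (inclHom ℚ L)) :=
  CS.map_injective_of_fixed hS (inclHom ℚ L) (Set.range (galHom ℚ L))
    (by rintro _ ⟨σ, rfl⟩ a; exact galHom_inclHom ℚ L σ a)
    (mem_range_inclHom_of_fixed ℚ L)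

end Norm

section Psi

variable (P : Nat.Primes) (m : ℕ)

/-- `psi` kills the unit ideles outside `S` (trivial at `S ∋ p`). -/
theorem psi_eq_one_of_mem_US {S : Set Nat.Primes} (hPS : P ∈ S) {u : J ℚ} (hu : u ∈ US ℚ S) :
    psi P m u = 1 := by
  apply psi_eq_one_of_unit P m u
  · intro l
    rw [valQ_eq_zero_iff]
    by_cases hl : l ∈ S
    · rw [hu.1 l hl]
      exact (intUnits ℚ l).one_mem
    · exact hu.2 l hl
  · rw [comp_apply, hu.1 P hPS, map_one]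

variable (K : Type) [Field K] [NumberField K] [IsCyclotomicExtension {(P : ℕ) ^ (m + 1)} ℚ K]

/-- **(HNE)**: an idele of `ℚ` whose `psi_m`-image has exact order `p` is, to any power prime to
`p`, not a norm from `C_S(Q_m)` - even after mapping to `C_S(Q_m)`. -/
theorem map_toCS_pow_ne_prod_smul (hp2 : (P : ℕ) ≠ 2) {S : Set Nat.Primes} (hPS : P ∈ S)
    {z : J ℚ} (hz : orderOf (psi P m z) = (P : ℕ)) (s : ℕ) (hs : ¬ (P : ℕ) ∣ s)
    (c : CS (Qm (P : ℕ) m K) S) :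
    CS.map (inclHom ℚ (Qm (P : ℕ) m K)) (toCS ℚ S z) ^ s ≠
      ∏ τ : (Qm (P : ℕ) m K) ≃ₐ[ℚ] (Qm (P : ℕ) m K), τ • c := by
  intro h
  obtain ⟨y, rfl⟩ := toCS_surjective (Qm (P : ℕ) m K) S c
  rw [prod_smul_toCS, ← map_pow, ← map_pow] at h
  have h1 := CS_map_inclHom_injective (Qm (P : ℕ) m K) (S := S) ⟨P, hPS⟩ h
  have h2 : toCS ℚ S (z ^ s / normJ ℚ (Qm (P : ℕ) m K) y) = 1 := by
    rw [map_div, h1, div_self']
  obtain ⟨a, u, hu, hau⟩ := toCS_eq_one_iff.mp h2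
  have h3 := congrArg (psi P m) hau
  rw [map_div, psi_normJ_Qm_eq_one P m K hp2, div_one, map_mul, psi_diag P m hp2, one_mul,
    psi_eq_one_of_mem_US P m hPS hu] at h3
  exact psi_pow_ne_one P m hz s hs h3

end Psi

section HR

variable {L : Type} [Field L] [NumberField L] [IsGalois ℚ L] {q : Nat.Primes}

/-- **(HR)** in unit form. -/
theorem prod_smul_eq_unitsMap_pow (t₀ : ℚ_[(q : ℕ)]ˣ) (x : (Loc L q)ˣ) (n : ℕ)
    (h : (∏ σ : Gal(L/ℚ), Loc.aut L q σ (x : Loc L q)) =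
      inclQ L q ((t₀ : ℚ_[(q : ℕ)]) ^ n)) :
    ∏ τ : L ≃ₐ[ℚ] L, τ • x = Loc.unitsMap q (inclHom ℚ L) ((locQu q).symm t₀) ^ n := by
  apply Units.ext
  rw [Units.coe_prod, Units.val_pow_eq_pow_val, Loc.unitsMap_val]
  have h2 : (((locQu q).symm t₀ : (Loc ℚ q)ˣ) : Loc ℚ q) = (locQ q).symm (t₀ : ℚ_[(q : ℕ)]) := rfl
  rw [h2, locQ_symm_apply, Loc.map_inclQ, ← map_pow, ← h]
  exact Finset.prod_congr rfl fun τ _ => locUnits_smul_val τ x

end HR

/-- **The arithmetic input of (G-c), in `CS` language.** -/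
theorem exists_layer_CS (P : Nat.Primes) (hp2 : (P : ℕ) ≠ 2) (S : Set Nat.Primes) (hPS : P ∈ S)
    (q : Nat.Primes) :
    ∃ m : ℕ, 0 < m ∧ ∀ (K : Type) [Field K] [NumberField K]
      [IsCyclotomicExtension {(P : ℕ) ^ (m + 1)} ℚ K],
      ∃ (t : (Loc ℚ q)ˣ) (x : (Loc (Qm (P : ℕ) m K) q)ˣ),
        (∏ τ : (Qm (P : ℕ) m K) ≃ₐ[ℚ] (Qm (P : ℕ) m K), τ • x =
          Loc.unitsMap q (inclHom ℚ (Qm (P : ℕ) m K)) t ^ (P : ℕ)) ∧
        ∀ s : ℕ, ¬ (P : ℕ) ∣ s → ∀ c : CS (Qm (P : ℕ) m K) S,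
          CS.map (inclHom ℚ (Qm (P : ℕ) m K)) (toCS ℚ S (J.single q t)) ^ s ≠
            ∏ τ : (Qm (P : ℕ) m K) ≃ₐ[ℚ] (Qm (P : ℕ) m K), τ • c := by
  obtain ⟨m, hm, H⟩ := exists_layer P hp2 q
  refine ⟨m, hm, fun K _ _ _ => ?_⟩
  obtain ⟨t₀, x, hx, hord⟩ := H K
  refine ⟨(locQu q).symm t₀, x, prod_smul_eq_unitsMap_pow t₀ x (P : ℕ) hx, fun s hs c => ?_⟩
  rw [← single_eq_J_single]
  exact map_toCS_pow_ne_prod_smul P m K hp2 hPS hord s hs c

end Fermat.Agent.CFT.C6.SuppArith
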